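import Fermat.Agent.S36.Abs.ExtDefs
import Fermat.Agent.S36.Alg.Fund

/-!
# S36 / abstract part : bridge between `ExtSys` and the primes of `integralClosure O' F`

* `IsUnif O ϖ` makes `O` a discrete valuation ring with irreducible element `ϖ`;
* under `ExtSys O' ϖ' O e f`, the centres `Fund.ctr (S.comap i)` are all the primes of
  `integralClosure O' F`, `e i` is the ramification index and `f i` the inertia degree.
-/

set_option autoImplicit false
set_option linter.deprecated false
set_option linter.unusedSectionVars false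

namespace Fermat.Agent.S36

open IsDedekindDomain Module

namespace IsUnif

variable {F : Type*} [Field F] {O : ValuationSubring F} {ϖ : F}

theorem mem (h : IsUnif O ϖ) : ϖ ∈ O := (O.valuation_le_one_iff _).mp h.lt_one.le

theorem val_pos (h : IsUnif O ϖ) : 0 < O.valuation ϖ :=
  zero_lt_iff.mpr ((Valuation.ne_zero_iff _).mpr h.ne_zero)

theorem exists_nat (h : IsUnif O ϖ) {x : F} (hx : x ∈ O) (hx0 : x ≠ 0) :
    ∃ n : ℕ, O.valuation x = O.valuation ϖ ^ n := by
  obtain ⟨n, hn⟩ := h.disc x hx0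
  have h1 : O.valuation ϖ ^ n ≤ 1 := hn ▸ (O.valuation_le_one_iff _).mpr hx
  rw [zpow_le_one_iff_right_of_lt_one₀ h.val_pos h.lt_one] at h1
  obtain ⟨k, rfl⟩ := Int.eq_ofNat_of_zero_le h1
  exact ⟨k, by rw [hn, zpow_natCast]⟩

theorem pow_inj (h : IsUnif O ϖ) {m n : ℕ} (hmn : O.valuation ϖ ^ m = O.valuation ϖ ^ n) :
    m = n := by
  have := (zpow_right_inj₀ h.val_pos h.lt_one.ne (m := (m : ℤ)) (n := (n : ℤ))).mp
    (by rw [zpow_natCast, zpow_natCast]; exact hmn)
  exact_mod_cast this

theorem isUnit_of_val_eq_one {x : O} (hx : O.valuation (x : F) = 1) : IsUnit x :=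
  (O.valuation_eq_one_iff x).mpr hx

theorem irreducible (h : IsUnif O ϖ) : Irreducible (⟨ϖ, h.mem⟩ : O) := by
  constructor
  · intro hu
    have := (O.valuation_eq_one_iff _).mp hu
    exact h.lt_one.ne this
  · intro a b hab
    have hab' : ϖ = (a : F) * (b : F) := congrArg Subtype.val hab
    have ha0 : (a : F) ≠ 0 := by
      intro h0; rw [h0, zero_mul] at hab'; exact h.ne_zero hab'
    have hb0 : (b : F) ≠ 0 := by
      intro h0; rw [h0, mul_zero] at hab'; exact h.ne_zero hab'
    obtain ⟨m, hm⟩ := h.exists_nat a.2 ha0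
    obtain ⟨n, hn⟩ := h.exists_nat b.2 hb0
    have h1 : O.valuation ϖ ^ 1 = O.valuation ϖ ^ (m + n) := by
      rw [pow_one, pow_add, ← hm, ← hn, ← map_mul, ← hab']
    have h2 := h.pow_inj h1
    rcases Nat.eq_zero_or_pos m with rfl | hm0
    · left; exact isUnit_of_val_eq_one (by rw [hm, pow_zero])
    · right
      have : n = 0 := by omega
      subst this
      exact isUnit_of_val_eq_one (by rw [hn, pow_zero])

theorem isDiscreteValuationRing (h : IsUnif O ϖ) : IsDiscreteValuationRing O := by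
  refine IsDiscreteValuationRing.ofHasUnitMulPowIrreducibleFactorization ⟨_, h.irreducible, ?_⟩
  intro x hx
  have hx0 : (x : F) ≠ 0 := fun h0 => hx (Subtype.ext h0)
  obtain ⟨n, hn⟩ := h.exists_nat x.2 hx0
  refine ⟨n, ?_⟩
  have hu : O.valuation ((x : F) * (ϖ ^ n)⁻¹) = 1 := by
    rw [map_mul, map_inv₀, map_pow, hn]
    exact mul_inv_cancel₀ (pow_ne_zero _ h.val_pos.ne')
  have hmem : (x : F) * (ϖ ^ n)⁻¹ ∈ O := (O.valuation_le_one_iff _).mp hu.le
  have hunit : IsUnit (⟨_, hmem⟩ : O) := isUnit_of_val_eq_one hu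
  obtain ⟨u, hu'⟩ := hunit
  refine ⟨u, ?_⟩
  rw [hu']
  ext
  simp only [MulMemClass.coe_mul, SubmonoidClass.coe_pow]
  field_simp [h.ne_zero]

end IsUnif

namespace Fund

variable {E F : Type*} [Field E] [Field F] [Algebra E F] [FiniteDimensional E F]
  [Algebra.IsSeparable E F] {V : ValuationSubring E} [IsDiscreteValuationRing V]

theorem valuation_ctr_algebraMap {O : ValuationSubring F} (hO : O.comap (algebraMap E F) = V)
    {π : V} (hπ : Irreducible π) :
    (ctr hO).valuation F (algebraMap E F π) =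
      WithZero.exp (-((vV V).asIdeal.ramificationIdx' (ctr hO).asIdeal : ℤ)) := by
  have h1 := HeightOneSpectrum.valuation_liesOver F (vV V) (ctr hO) (π : E)
  rw [valuation_vV hπ, ← WithZero.exp_nsmul] at h1
  rw [← h1]
  simp

/-- lower bound for the ramification index, inequality form. -/
theorem exists_le_ramificationIdx {O : ValuationSubring F} (hO : O.comap (algebraMap E F) = V)
    {π : V} (hπ : Irreducible π) {e : ℕ} {ϖ : F} (h0 : ϖ ≠ 0) (h1 : O.valuation ϖ < 1)
    (h2 : O.valuation (algebraMap E F π) ≤ O.valuation ϖ ^ e) :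
    ∃ k : ℕ, k ≠ 0 ∧ (ctr hO).valuation F ϖ = WithZero.exp (-(k : ℤ)) ∧
      e * k ≤ (vV V).asIdeal.ramificationIdx' (ctr hO).asIdeal := by
  set w := ctr hO with hw
  have hϖ0 : w.valuation F ϖ ≠ 0 := (Valuation.ne_zero_iff _).mpr h0
  obtain ⟨n, hn⟩ : ∃ n : ℤ, w.valuation F ϖ = WithZero.exp n :=
    ⟨WithZero.log _, (WithZero.exp_log hϖ0).symm⟩
  have h3 : w.valuation F ϖ < 1 := ((isEquiv_ctr hO).lt_one_iff_lt_one).mp h1
  rw [hn, ← WithZero.exp_zero, WithZero.exp_lt_exp] at h3
  obtain ⟨k, rfl⟩ : ∃ k : ℕ, n = -(k : ℤ) := ⟨n.natAbs, by omega⟩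
  refine ⟨k, by omega, hn, ?_⟩
  have h4 : w.valuation F (algebraMap E F π) ≤ w.valuation F (ϖ ^ e) := by
    rw [← map_pow] at h2
    exact (isEquiv_ctr hO _ _).mp h2
  rw [valuation_ctr_algebraMap hO hπ, map_pow, hn, ← WithZero.exp_nsmul, WithZero.exp_le_exp] at h4
  simp only [nsmul_eq_mul, mul_neg] at h4
  have : (e : ℤ) * k ≤ ((vV V).asIdeal.ramificationIdx' w.asIdeal : ℤ) := by linarith
  exact_mod_cast this

theorem le_ramificationIdx_of_le {O : ValuationSubring F} (hO : O.comap (algebraMap E F) = V)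
    {π : V} (hπ : Irreducible π) {e : ℕ} {ϖ : F} (h1 : O.valuation ϖ < 1)
    (h2 : O.valuation (algebraMap E F π) ≤ O.valuation ϖ ^ e) :
    e ≤ (vV V).asIdeal.ramificationIdx' (ctr hO).asIdeal := by
  rcases Nat.eq_zero_or_pos e with rfl | he
  · exact Nat.zero_le _
  have h0 : ϖ ≠ 0 := by
    rintro rfl
    rw [map_zero, zero_pow he.ne', le_zero_iff, map_eq_zero, map_eq_zero] at h2
    exact hπ.ne_zero (Subtype.ext h2)
  obtain ⟨k, hk, -, hle⟩ := exists_le_ramificationIdx hO hπ h0 h1 h2
  exact le_trans (Nat.le_mul_of_pos_right _ (Nat.pos_of_ne_zero hk)) hle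

theorem exists_pow_ramificationIdx {O : ValuationSubring F} (hO : O.comap (algebraMap E F) = V)
    {π : V} (hπ : Irreducible π) :
    ∃ ϖ : F, O.valuation ϖ ^ (vV V).asIdeal.ramificationIdx' (ctr hO).asIdeal
      = O.valuation (algebraMap E F π) := by
  obtain ⟨ϖ, hϖ⟩ := (ctr hO).valuation_exists_uniformizer F
  refine ⟨ϖ, ?_⟩
  rw [← map_pow, (isEquiv_ctr hO).val_eq, valuation_ctr_algebraMap hO hπ, map_pow, hϖ,
    ← WithZero.exp_nsmul]
  simp

/-- linear independence in the residue field of the centre. -/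
theorem linearIndependent_mk {O : ValuationSubring F} (hO : O.comap (algebraMap E F) = V)
    {f : ℕ} (u : Fin f → F)
    (hind : ∀ c : Fin f → E, (∀ j, c j ∈ V) →
      O.valuation (∑ j, algebraMap E F (c j) * u j) < 1 → ∀ j, V.valuation (c j) < 1)
    (s : Fin f → integralClosure V F) (hs : ∀ j, O.valuation ((s j : F) - u j) < 1) :
    LinearIndependent (V ⧸ (vV V).asIdeal)
      (fun j => (Ideal.Quotient.mk (ctr hO).asIdeal (s j))) := by
  rw [Fintype.linearIndependent_iff]
  intro g hg j
  choose c hc using fun j => Ideal.Quotient.mk_surjective (g j)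
  have h1 : ∑ j, algebraMap V (integralClosure V F) (c j) * s j ∈ (ctr hO).asIdeal := by
    rw [← Ideal.Quotient.eq_zero_iff_mem, map_sum, ← hg]
    refine Finset.sum_congr rfl fun j _ => ?_
    rw [map_mul, ← hc j, Algebra.smul_def]
    rfl
  have h2 : O.valuation (∑ j, algebraMap E F (c j : E) * (s j : F)) < 1 := by
    have := (mem_ctrIdeal hO _).mp h1
    have h7 : ((∑ j, algebraMap V (integralClosure V F) (c j) * s j : integralClosure V F) : F)
        = ∑ j, algebraMap E F (c j : E) * (s j : F) := by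
      rw [AddSubmonoidClass.coe_finset_sum]
      rfl
    rwa [h7] at this
  have h3 : O.valuation (∑ j, algebraMap E F (c j : E) * u j) < 1 := by
    have h4 : ∑ j, algebraMap E F (c j : E) * u j = ∑ j, algebraMap E F (c j : E) * (s j : F)
        - ∑ j, algebraMap E F (c j : E) * ((s j : F) - u j) := by
      rw [← Finset.sum_sub_distrib]
      refine Finset.sum_congr rfl fun j _ => by ring
    rw [h4]
    refine lt_of_le_of_lt (O.valuation.map_sub _ _) (max_lt h2 ?_)
    refine O.valuation.map_sum_lt one_ne_zero fun j _ => ?_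
    rw [map_mul]
    have h5 : O.valuation (algebraMap E F (c j : E)) ≤ 1 := by
      rw [ValuationSubring.valuation_le_one_iff]
      have : ((c j : V) : E) ∈ O.comap (algebraMap E F) := by rw [hO]; exact (c j).2
      exact this
    exact lt_of_le_of_lt (mul_le_of_le_one_left' h5) (hs j)
  have h6 := hind (fun j => (c j : E)) (fun j => (c j).2) h3 j
  rw [← hc j, Ideal.Quotient.eq_zero_iff_mem]
  exact (ValuationSubring.valuation_lt_one_iff V (c j)).mpr h6

end Fund

namespace ExtSys

open Fund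

variable {F' F : Type*} [Field F'] [Field F] [Algebra F' F] [FiniteDimensional F' F]
  [Algebra.IsSeparable F' F] {O' : ValuationSubring F'} {ϖ' : F'} {ι : Type*} [Fintype ι]
  {O : ι → ValuationSubring F} {e f : ι → ℕ} [IsDiscreteValuationRing O']

theorem e_le (S : ExtSys O' ϖ' O e f) (i : ι) :
    e i ≤ (vV O').asIdeal.ramificationIdx' (ctr (S.comap i)).asIdeal := by
  obtain ⟨ϖ, h1, h2⟩ := S.ram i
  exact le_ramificationIdx_of_le (S.comap i) S.unif.irreducible h1 h2

theorem f_le (S : ExtSys O' ϖ' O e f) (i : ι) :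
    f i ≤ (vV O').asIdeal.inertiaDeg' (ctr (S.comap i)).asIdeal := by
  obtain ⟨ω, h1, h2⟩ := S.res i
  exact le_inertiaDeg (S.comap i) ω h1 h2

/-- the centres of the `O i` are all the primes of the integral closure. -/
theorem exists_eq_ctr (S : ExtSys O' ϖ' O e f) (w : HeightOneSpectrum (integralClosure O' F)) :
    ∃ i, w = ctr (S.comap i) := by
  refine Fund.exists_eq_ctr S.inj S.comap
    (e := fun i => (vV O').asIdeal.ramificationIdx' (ctr (S.comap i)).asIdeal) (f := f)
    S.unif.irreducible (fun i => exists_pow_ramificationIdx (S.comap i) S.unif.irreducible)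
    S.res (le_trans S.sum (Finset.sum_le_sum fun i _ => Nat.mul_le_mul_right _ (S.e_le i))) w

theorem ctr_injective (S : ExtSys O' ϖ' O e f) :
    Function.Injective (fun i => (ctr (S.comap i)).asIdeal) := by
  intro i j hij
  exact S.inj (ctr_inj (S.comap i) (S.comap j) (HeightOneSpectrum.ext hij))

theorem primesOverFinset_eq [DecidableEq (Ideal (integralClosure O' F))]
    (S : ExtSys O' ϖ' O e f) :
    IsDedekindDomain.primesOverFinset (vV O').asIdeal (integralClosure O' F) =
      Finset.univ.image (fun i => (ctr (S.comap i)).asIdeal) := by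
  have hmax : (vV O').asIdeal.IsMaximal := (vV O').isMaximal
  have hp0 : (vV O').asIdeal ≠ ⊥ := (vV O').ne_bot
  have : FaithfulSMul O' (integralClosure O' F) := by
    rw [faithfulSMul_iff_algebraMap_injective]
    intro a b hab
    have h1 : algebraMap F' F (a : F') = algebraMap F' F (b : F') :=
      congrArg (fun x : integralClosure O' F => (x : F)) hab
    exact Subtype.ext ((algebraMap F' F).injective h1)
  ext P
  rw [IsDedekindDomain.mem_primesOverFinset_iff hp0, Finset.mem_image]
  constructor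
  · rintro ⟨hP, hl⟩
    obtain ⟨i, hi⟩ := S.exists_eq_ctr ⟨P, hP, Ideal.ne_bot_of_liesOver_of_ne_bot hp0 P⟩
    exact ⟨i, Finset.mem_univ _, by rw [← hi]⟩
  · rintro ⟨i, -, rfl⟩
    exact ⟨(ctr (S.comap i)).isPrime, liesOver_ctr (S.comap i)⟩

theorem sum_ram_inertia (S : ExtSys O' ϖ' O e f) :
    ∑ i, (vV O').asIdeal.ramificationIdx' (ctr (S.comap i)).asIdeal *
      (vV O').asIdeal.inertiaDeg' (ctr (S.comap i)).asIdeal = finrank F' F := by
  classical
  have hmax : (vV O').asIdeal.IsMaximal := (vV O').isMaximal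
  have hp0 : (vV O').asIdeal ≠ ⊥ := (vV O').ne_bot
  have htot := Ideal.sum_ramification_inertia (integralClosure O' F) F' F hp0
  rw [S.primesOverFinset_eq, Finset.sum_image (fun i _ j _ h => S.ctr_injective h)] at htot
  exact htot

theorem mul_eq (S : ExtSys O' ϖ' O e f) (i : ι) :
    e i * f i = (vV O').asIdeal.ramificationIdx' (ctr (S.comap i)).asIdeal *
      (vV O').asIdeal.inertiaDeg' (ctr (S.comap i)).asIdeal := by
  have hle : ∀ i ∈ Finset.univ, e i * f i ≤
      (vV O').asIdeal.ramificationIdx' (ctr (S.comap i)).asIdeal *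
      (vV O').asIdeal.inertiaDeg' (ctr (S.comap i)).asIdeal :=
    fun i _ => Nat.mul_le_mul (S.e_le i) (S.f_le i)
  have heq : ∑ i, e i * f i = ∑ i, (vV O').asIdeal.ramificationIdx' (ctr (S.comap i)).asIdeal *
      (vV O').asIdeal.inertiaDeg' (ctr (S.comap i)).asIdeal :=
    le_antisymm (Finset.sum_le_sum hle) (by rw [S.sum_ram_inertia]; exact S.sum)
  exact (Finset.sum_eq_sum_iff_of_le hle).mp heq i (Finset.mem_univ i)

theorem ram_pos (S : ExtSys O' ϖ' O e f) (i : ι) :
    0 < (vV O').asIdeal.ramificationIdx' (ctr (S.comap i)).asIdeal := by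
  have := liesOver_ctr (S.comap i)
  exact Nat.pos_of_ne_zero
    (Ideal.IsDedekindDomain.ramificationIdx'_ne_zero_of_liesOver _ (vV O').ne_bot)

theorem inertia_pos (S : ExtSys O' ϖ' O e f) (i : ι) :
    0 < (vV O').asIdeal.inertiaDeg' (ctr (S.comap i)).asIdeal := by
  have := liesOver_ctr (S.comap i)
  have hmax : (vV O').asIdeal.IsMaximal := (vV O').isMaximal
  exact Nat.pos_of_ne_zero (Ideal.inertiaDeg'_ne_zero _ _)

/-- **(EXACT)** `e i` is the ramification index. -/
theorem e_eq (S : ExtSys O' ϖ' O e f) (i : ι) :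
    e i = (vV O').asIdeal.ramificationIdx' (ctr (S.comap i)).asIdeal := by
  refine le_antisymm (S.e_le i) (not_lt.mp fun hlt => ?_)
  have h1 := S.mul_eq i
  have h2 : e i * f i ≤ e i * (vV O').asIdeal.inertiaDeg' (ctr (S.comap i)).asIdeal :=
    Nat.mul_le_mul_left _ (S.f_le i)
  have h3 := Nat.mul_lt_mul_of_pos_right hlt (S.inertia_pos i)
  omega

/-- **(EXACT)** `f i` is the inertia degree. -/
theorem f_eq (S : ExtSys O' ϖ' O e f) (i : ι) :
    f i = (vV O').asIdeal.inertiaDeg' (ctr (S.comap i)).asIdeal := by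
  have h1 := S.mul_eq i
  rw [← S.e_eq i] at h1
  have := S.ram_pos i
  rw [← S.e_eq i] at this
  exact Nat.eq_of_mul_eq_mul_left this h1

end ExtSys

end Fermat.Agent.S36
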