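import Fermat.Agent.S36.Abs.ExtDefs
import Fermat.Agent.S36.Abs.ExtBridge

/-!
# S36 / abstract part : `[EXT]` the fundamental (in)equality  (see `ExtDefs.lean` for the set-up and the suggested proof)
-/

set_option autoImplicit false
set_option linter.deprecated false

open Polynomial

namespace Fermat.Agent.S36

namespace ExtSys

open Fund IsDedekindDomain

variable {F' F : Type*} [Field F'] [Field F] [Algebra F' F] [FiniteDimensional F' F]
  [Algebra.IsSeparable F' F] {O' : ValuationSubring F'} {ϖ' : F'} {ι : Type*} [Fintype ι]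
  {O : ι → ValuationSubring F} {e f : ι → ℕ}

/-- `⋂ O i` is integral over `O'` (Mathlib form). -/
theorem isIntegral' (S : ExtSys O' ϖ' O e f) {y : F} (hy : ∀ i, y ∈ O i) : IsIntegral O' y := by
  have := S.unif.isDiscreteValuationRing
  have h : ∀ w : HeightOneSpectrum (integralClosure O' F), w.valuation F y ≤ 1 := by
    intro w
    obtain ⟨i, rfl⟩ := S.exists_eq_ctr w
    rw [← (isEquiv_ctr (S.comap i)).le_one_iff_le_one, ValuationSubring.valuation_le_one_iff]
    exact hy i
  obtain ⟨s, rfl⟩ := HeightOneSpectrum.mem_integers_of_valuation_le_one F y h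
  exact s.2

/-- **[FUND]** `⋂ O i` is integral over `O'`. -/
theorem isIntegral (S : ExtSys O' ϖ' O e f) {y : F} (hy : ∀ i, y ∈ O i) :
    ∃ p : F'[X], p.Monic ∧ (∀ n, p.coeff n ∈ O') ∧ aeval y p = 0 := by
  obtain ⟨p, hp, hpy⟩ := S.isIntegral' hy
  refine ⟨p.map O'.subtype, hp.map _, fun n => ?_, ?_⟩
  · rw [coeff_map]; exact (p.coeff n).2
  · rw [aeval_def, eval₂_map]
    exact hpy

/-- **[FUND]** there is no other extension. -/
theorem eq_of_comap (S : ExtSys O' ϖ' O e f) (V : ValuationSubring F)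
    (hV : V.comap (algebraMap F' F) = O') : ∃ i, V = O i := by
  have := S.unif.isDiscreteValuationRing
  obtain ⟨i, hi⟩ := S.exists_eq_ctr (ctr hV)
  exact ⟨i, ctr_inj hV (S.comap i) hi⟩

/-- **[FUND]** the ramification index is exactly `e i`. -/
theorem isUnif (S : ExtSys O' ϖ' O e f) (i : ι) {ϖ : F} (h1 : (O i).valuation ϖ < 1)
    (h2 : (O i).valuation (algebraMap F' F ϖ') ≤ (O i).valuation ϖ ^ e i) :
    IsUnif (O i) ϖ ∧ (O i).valuation (algebraMap F' F ϖ') = (O i).valuation ϖ ^ e i := by
  have := S.unif.isDiscreteValuationRing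
  have he : 0 < e i := by rw [S.e_eq i]; exact S.ram_pos i
  have h0 : ϖ ≠ 0 := by
    rintro rfl
    rw [map_zero, zero_pow he.ne', le_zero_iff, map_eq_zero, map_eq_zero] at h2
    exact S.unif.ne_zero h2
  obtain ⟨k, hk, hval, hle⟩ := exists_le_ramificationIdx (S.comap i) S.unif.irreducible h0 h1 h2
  rw [← S.e_eq i] at hle
  have hk1 : k = 1 := by
    have h3 : e i * k ≤ e i * 1 := by simpa using hle
    have := Nat.le_of_mul_le_mul_left h3 he
    omega
  subst hk1
  refine ⟨⟨h1, h0, fun x hx => ?_⟩, ?_⟩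
  · have hx0 : (ctr (S.comap i)).valuation F x ≠ 0 := (Valuation.ne_zero_iff _).mpr hx
    refine ⟨-WithZero.log ((ctr (S.comap i)).valuation F x), ?_⟩
    rw [← map_zpow₀, (isEquiv_ctr (S.comap i)).val_eq, map_zpow₀, hval, ← WithZero.exp_zsmul]
    simp [WithZero.exp_log hx0]
  · rw [← map_pow, (isEquiv_ctr (S.comap i)).val_eq, map_pow, hval,
      valuation_ctr_algebraMap (S.comap i) S.unif.irreducible, ← S.e_eq i, ← WithZero.exp_nsmul]
    simp

/-- **[FUND]** the residue degree is exactly `f i`. -/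
theorem res_exact (S : ExtSys O' ϖ' O e f) (i : ι) {ω : Fin (f i) → F} (h1 : ∀ k, ω k ∈ O i)
    (h2 : ∀ c : Fin (f i) → F', (∀ k, c k ∈ O') →
      (O i).valuation (∑ k, algebraMap F' F (c k) * ω k) < 1 → ∀ k, O'.valuation (c k) < 1)
    {y : F} (hy : y ∈ O i) :
    ∃ c : Fin (f i) → F', (∀ k, c k ∈ O') ∧
      (O i).valuation (y - ∑ k, algebraMap F' F (c k) * ω k) < 1 := by
  have := S.unif.isDiscreteValuationRing
  have hmax : (vV O').asIdeal.IsMaximal := (vV O').isMaximal
  let _ : Field (O' ⧸ (vV O').asIdeal) := Ideal.Quotient.field _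
  choose s hs using fun j => exists_integral_sub_lt (S.comap i) (h1 j)
  have hli := linearIndependent_mk (S.comap i) ω h2 s hs
  obtain ⟨sy, hsy⟩ := exists_integral_sub_lt (S.comap i) hy
  have hcard : Fintype.card (Fin (f i)) =
      Module.finrank (O' ⧸ (vV O').asIdeal) (integralClosure O' F ⧸ (ctr (S.comap i)).asIdeal) := by
    rw [Fintype.card_fin, S.f_eq i, Ideal.inertiaDeg'_algebraMap]
  have hspan := hli.span_eq_top_of_card_eq_finrank' hcard
  have hmem : Ideal.Quotient.mk (ctr (S.comap i)).asIdeal sy ∈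
      Submodule.span (O' ⧸ (vV O').asIdeal)
        (Set.range fun j => (Ideal.Quotient.mk (ctr (S.comap i)).asIdeal (s j))) := by
    rw [hspan]; trivial
  obtain ⟨g, hg⟩ := (Submodule.mem_span_range_iff_exists_fun _).mp hmem
  choose c hc using fun j => Ideal.Quotient.mk_surjective (g j)
  refine ⟨fun k => (c k : F'), fun k => (c k).2, ?_⟩
  have h3 : sy - ∑ j, algebraMap O' (integralClosure O' F) (c j) * s j ∈
      (ctr (S.comap i)).asIdeal := by
    rw [← Ideal.Quotient.eq_zero_iff_mem, map_sub, map_sum, ← hg, sub_eq_zero]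
    refine Finset.sum_congr rfl fun j _ => ?_
    rw [map_mul, ← hc j, Algebra.smul_def]
    rfl
  have h4 : (O i).valuation ((sy : F) - ∑ j, algebraMap F' F (c j : F') * (s j : F)) < 1 := by
    have := (mem_ctrIdeal (S.comap i) _).mp h3
    have h7 : ((sy - ∑ j, algebraMap O' (integralClosure O' F) (c j) * s j :
        integralClosure O' F) : F) = (sy : F) - ∑ j, algebraMap F' F (c j : F') * (s j : F) := by
      rw [AddSubgroupClass.coe_sub, AddSubmonoidClass.coe_finset_sum]
      rfl
    rwa [h7] at this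
  have h5 : y - ∑ k, algebraMap F' F (c k : F') * ω k =
      ((sy : F) - ∑ j, algebraMap F' F (c j : F') * (s j : F)) - ((sy : F) - y)
        + ∑ j, algebraMap F' F (c j : F') * ((s j : F) - ω j) := by
    have : ∑ j, algebraMap F' F (c j : F') * ((s j : F) - ω j) =
        ∑ j, algebraMap F' F (c j : F') * (s j : F) - ∑ j, algebraMap F' F (c j : F') * ω j := by
      rw [← Finset.sum_sub_distrib]
      refine Finset.sum_congr rfl fun j _ => by ring
    rw [this]; ring
  rw [h5]
  refine lt_of_le_of_lt ((O i).valuation.map_add _ _) (max_lt ?_ ?_)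
  · exact lt_of_le_of_lt ((O i).valuation.map_sub _ _) (max_lt h4 hsy)
  · refine (O i).valuation.map_sum_lt one_ne_zero fun j _ => ?_
    rw [map_mul]
    have h6 : (O i).valuation (algebraMap F' F (c j : F')) ≤ 1 := by
      rw [ValuationSubring.valuation_le_one_iff]
      have : ((c j : O') : F') ∈ (O i).comap (algebraMap F' F) := by rw [S.comap i]; exact (c j).2
      exact this
    exact lt_of_le_of_lt (mul_le_of_le_one_left' h6) (hs j)

end ExtSys

end Fermat.Agent.S36
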