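import Fermat.Agent.S36.Abs.NormGlue

/-!
# S36 / abstract part : `[STEP-G]` the gluing constants
-/

set_option autoImplicit false

open Polynomial

namespace Fermat.Agent.S36

namespace StepGAux

/-- elimination of the two relations at a triple point -/
theorem consts {R B : Type*} [CommRing R] [CommRing B] (c : R →+* B) (q : ℕ)
    (b0 b1 b2 : B) (hb0 : b0 = 1) (γ₁ γ₂ γ₁' γ₂' : R) (h1 : IsUnit γ₁) (h2 : IsUnit γ₂)
    (h2' : IsUnit γ₂') :
    ∃ c₁ c₂ : R, ∀ 𝔪 : Ideal B,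
      b0 * b1 ^ (q - 1) * c γ₁ - b2 ^ q * c γ₂ ∈ 𝔪 →
      b0 ^ q * c γ₁' - b1 ^ (q - 1) * b2 * c γ₂' ∈ 𝔪 →
      b1 ^ (q ^ 2 - 1) - c c₁ ∈ 𝔪 ∧ b2 ^ (q ^ 2 - 1) - c c₂ ∈ 𝔪 := by
  obtain ⟨i1, hi1⟩ := h1.exists_right_inv
  obtain ⟨i2, hi2⟩ := h2.exists_right_inv
  obtain ⟨i2', hi2'⟩ := h2'.exists_right_inv
  subst hb0
  refine ⟨(γ₁ * γ₁' * i2 * i2') ^ q * (γ₂ * i1) ^ (q + 1), (γ₁ * γ₁' * i2 * i2') ^ (q - 1), ?_⟩
  intro 𝔪 hα hβ
  have he : q ^ 2 - 1 = (q - 1) * (q + 1) := by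
    have := Nat.sq_sub_sq q 1
    rw [one_pow] at this
    rw [this, mul_comm]
  rw [← Ideal.Quotient.eq] at hα hβ ⊢
  rw [← Ideal.Quotient.eq]
  set φ := Ideal.Quotient.mk 𝔪 with hφ
  simp only [map_mul, map_pow, one_mul, one_pow] at hα hβ ⊢
  set x := φ b1
  set y := φ b2
  have e1 : φ (c γ₁) * φ (c i1) = 1 := by rw [← map_mul, ← map_mul, hi1, map_one, map_one]
  have e2 : φ (c γ₂) * φ (c i2) = 1 := by rw [← map_mul, ← map_mul, hi2, map_one, map_one]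
  have e2' : φ (c γ₂') * φ (c i2') = 1 := by rw [← map_mul, ← map_mul, hi2', map_one, map_one]
  have hy : y ^ (q + 1) = φ (c γ₁) * φ (c γ₁') * φ (c i2) * φ (c i2') := by
    have : y ^ (q + 1) * (φ (c γ₂) * φ (c γ₂')) = φ (c γ₁) * φ (c γ₁') := by
      rw [hβ, pow_succ]
      linear_combination (-y * φ (c γ₂')) * hα
    calc y ^ (q + 1) = y ^ (q + 1) * (φ (c γ₂) * φ (c γ₂')) * (φ (c i2) * φ (c i2')) := by
          linear_combination (-y ^ (q + 1) * φ (c γ₂') * φ (c i2')) * e2 - y ^ (q + 1) * e2'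
      _ = _ := by rw [this]; ring
  have hx : x ^ (q - 1) = y ^ q * (φ (c γ₂) * φ (c i1)) := by
    calc x ^ (q - 1) = x ^ (q - 1) * φ (c γ₁) * φ (c i1) := by
          linear_combination (-x ^ (q - 1)) * e1
      _ = _ := by rw [hα]; ring
  constructor
  · rw [he, pow_mul, hx, mul_pow, ← pow_mul, mul_comm q, pow_mul, hy]
  · rw [he, mul_comm, pow_mul, hy]

/-- lifting roots of unity -/
theorem exists_root {R : Type*} [CommRing R] [IsDomain R] {m : ℕ} (hm : m ≠ 0) (ζ : R)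
    (hζ : IsPrimitiveRoot ζ m) (𝔫 : Ideal R) [𝔫.IsPrime] (c : R) (hc : c ^ m - 1 ∈ 𝔫) :
    ∃ z : R, z ^ m = 1 ∧ c - z ∈ 𝔫 := by
  have h := X_pow_sub_one_eq_prod (Nat.pos_of_ne_zero hm) hζ
  have h2 := congrArg (eval c) h
  simp only [eval_sub, eval_pow, eval_X, eval_one, eval_prod, eval_C] at h2
  rw [h2] at hc
  obtain ⟨z, hz, hz2⟩ := (Ideal.IsPrime.prod_mem_iff).1 hc
  have : NeZero m := ⟨hm⟩
  exact ⟨z, (mem_nthRootsFinset (Nat.pos_of_ne_zero hm) _).1 hz, hz2⟩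

variable {R K F : Type*} [CommRing R] [IsDomain R] [IsDiscreteValuationRing R]
    [Field K] [Algebra R K] [IsFractionRing R K]
    [Field F] [CharZero F] [Algebra R F] [Algebra K F] [IsScalarTower R K F]

/-- constants as a ring hom into the chart -/
def cB (R : Type*) [CommRing R] {F : Type*} [Field F] [Algebra R F] (t : F) : R →+* intCl R t :=
  (algebraMap R F).codRestrict (intCl R t) (algebraMap_mem_intCl R t)

theorem coe_cB (R : Type*) [CommRing R] {F : Type*} [Field F] [Algebra R F] (t : F) (r : R) :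
    ((cB R t r : intCl R t) : F) = algebraMap R F r := rfl

/-- an element of `M` is congruent on each component to an element of the chart -/
theorem exists_approx (D : GeomDatum R K F) {m : ℕ} (hm : m ≠ 0) {g : F} (i : Fin 3)
    (hg : (D.O i).valuation (g - 1) < 1) {u : F} (hu : u ^ m * g ∈ intCl R D.t) :
    (D.O i).valuation u ≤ 1 ∧ ∃ b : intCl R D.t, (D.O i).valuation (u - (b : F)) < 1 := by
  have hBO : intCl R D.t ≤ (D.O i).toSubring := intCl_le (D.sys.gauss i)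
  have hvg : (D.O i).valuation g = 1 := comp_aux_val_f hg
  have hu1 : (D.O i).valuation u ≤ 1 := by
    have h1 : (D.O i).valuation (u ^ m * g) ≤ 1 :=
      (ValuationSubring.valuation_le_one_iff _ _).2 (hBO hu)
    rw [map_mul, hvg, mul_one, map_pow] at h1
    exact (pow_le_one_iff_of_nonneg zero_le hm).1 h1
  refine ⟨hu1, ?_⟩
  have := D.ded₁ i
  have hIC : IsIntegrallyClosed (intCl R D.t ⧸ D.sys.p i) := inferInstance
  refine hroot_of_isIntegrallyClosed (intCl R D.t) (D.O i) hBO hIC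
    (fun x hx => GaussSys.unitAt_centre D.irr D.sys i hBO hx) hm u
    ((ValuationSubring.valuation_le_one_iff _ _).1 hu1) ⟨⟨_, hu⟩, ?_⟩
  have e1 : u ^ m - u ^ m * g = - (u ^ m * (g - 1)) := by ring
  change (D.O i).valuation (u ^ m - u ^ m * g) < 1
  rw [e1, Valuation.map_neg, map_mul, map_pow]
  calc (D.O i).valuation u ^ m * (D.O i).valuation (g - 1)
      ≤ 1 * (D.O i).valuation (g - 1) := by gcongr; exact pow_le_one₀ zero_le hu1
    _ < 1 := by simpa using hg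

/-- comparison with the reference element `u₀ ^ e` at a point of the components `0` and `i` -/
theorem key (D : GeomDatum R K F) {m : ℕ} (hm0 : m ≠ 0) {g : F} (e : ℕ)
    (hg : ∀ i, (D.O i).valuation (g - 1) < 1)
    {u₀ : F} (hu₀ : u₀ ^ m * g ∈ intCl R D.t) (hu₀1 : (D.O 0).valuation (u₀ - 1) < 1)
    (𝔪 : Ideal (intCl R D.t)) (h𝔪 : 𝔪.IsMaximal) (h0 : D.sys.p 0 ≤ 𝔪)
    (i : Fin 3) (hi : D.sys.p i ≤ 𝔪) (b : intCl R D.t)
    (hb : (D.O i).valuation (u₀ - (b : F)) < 1)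
    (hbm : b ∉ 𝔪) (z : R) (hz : cB R D.t z - b ^ e ∈ 𝔪)
    {u : F} (hu : u ^ m * g ^ e ∈ intCl R D.t)
    (huz : (D.O i).valuation (u - algebraMap R F z) < 1) :
    ZeroAt (intCl R D.t) 𝔪 (u / u₀ ^ e - 1) := by
  have hpr : 𝔪.IsPrime := h𝔪.isPrime
  have hBO : ∀ i, intCl R D.t ≤ (D.O i).toSubring := fun i => intCl_le (D.sys.gauss i)
  have hvB : ∀ i (b : intCl R D.t), (D.O i).valuation (b : F) ≤ 1 := fun i b =>
    (ValuationSubring.valuation_le_one_iff _ _).2 (hBO i b.2)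
  have hvg : ∀ i, (D.O i).valuation g = 1 := fun i => comp_aux_val_f (hg i)
  have hroot : RootClosed (intCl R D.t) m := rootClosed_intCl R D.t hm0
  -- `u₀ ^ m * g` is a unit at `𝔪`
  have hv01 : (D.O 0).valuation u₀ = 1 := comp_aux_val_f hu₀1
  have hs0 : (⟨_, hu₀⟩ : intCl R D.t) - 1 ∈ D.sys.p 0 := by
    rw [GaussSys.mem_p]
    change (D.O 0).valuation (u₀ ^ m * g - 1) < 1
    have e1 : u₀ ^ m * g - 1 = (u₀ ^ m - 1 ^ m) * g + (g - 1) := by ring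
    rw [e1]
    refine Valuation.map_add_lt _ ?_ (hg 0)
    rw [map_mul, hvg 0, mul_one]
    exact comp_aux_pow hv01.le (by simp) hu₀1 m
  have hs0U : UnitAt (intCl R D.t) 𝔪 (u₀ ^ m * g) :=
    GlueAux.unitAt_of_one (GlueAux.zeroAt_of_mem (h0 hs0))
  have hu₀0 : u₀ ≠ 0 := by
    rintro rfl
    simp at hv01
  have hg0 : g ≠ 0 := by
    rintro rfl
    have := hvg 0
    simp at this
  -- `w = u / u₀ ^ e ∈ B_𝔪`
  have hw : MemAt (intCl R D.t) 𝔪 (u / u₀ ^ e) := by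
    apply MemAt.of_pow hm0 hroot
    have e1 : (u / u₀ ^ e) ^ m = (u ^ m * g ^ e) * ((u₀ ^ m * g) ^ e)⁻¹ := by
      rw [div_pow, mul_pow]
      field_simp
      ring
    rw [e1]
    exact (memAt_of_mem hu hpr.ne_top).mul (hs0U.pow e).inv.memAt
  -- valuations on the component `i`
  have hvb : (D.O i).valuation (b : F) = 1 := by
    refine le_antisymm (hvB i b) (not_lt.1 fun hlt => hbm (hi ((D.sys.mem_p i).2 hlt)))
  have hvu₀ : (D.O i).valuation u₀ = 1 := by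
    have e1 : u₀ = (b : F) + (u₀ - b) := by ring
    rw [e1, Valuation.map_add_eq_of_lt_left _ (by rw [hvb]; exact hb), hvb]
  have hvz : (D.O i).valuation (algebraMap R F z) ≤ 1 :=
    (ValuationSubring.valuation_le_one_iff _ _).2 ((D.sys.gauss i).const z)
  have hval : (D.O i).valuation (u / u₀ ^ e * (b : F) ^ e - algebraMap R F z) < 1 := by
    have e1 : u / u₀ ^ e * (b : F) ^ e - algebraMap R F z =
        ((u - algebraMap R F z) * (b : F) ^ e + algebraMap R F z * ((b : F) ^ e - u₀ ^ e)) /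
          u₀ ^ e := by
      field_simp
      ring
    rw [e1, map_div₀, map_pow, hvu₀, one_pow, div_one]
    refine Valuation.map_add_lt _ ?_ ?_
    · rw [map_mul, map_pow, hvb, one_pow, mul_one]; exact huz
    · rw [map_mul]
      have h2 : (D.O i).valuation ((b : F) ^ e - u₀ ^ e) < 1 := by
        rw [← Valuation.map_neg, neg_sub]
        exact comp_aux_pow hvu₀.le hvb.le hb e
      calc (D.O i).valuation (algebraMap R F z) * (D.O i).valuation ((b : F) ^ e - u₀ ^ e)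
          ≤ 1 * (D.O i).valuation ((b : F) ^ e - u₀ ^ e) := by gcongr
        _ < 1 := by simpa using h2
  have hbU : UnitAt (intCl R D.t) 𝔪 ((b : F) ^ e) := (GlueAux.unitAt_of_notMem hbm).pow e
  have hmem : MemAt (intCl R D.t) 𝔪 (u / u₀ ^ e * (b : F) ^ e - algebraMap R F z) := by
    rw [sub_eq_add_neg]
    exact (hw.mul hbU.memAt).add (memAt_of_mem (algebraMap_mem_intCl R D.t z) hpr.ne_top).neg
  have hZ1 : ZeroAt (intCl R D.t) 𝔪 (u / u₀ ^ e * (b : F) ^ e - algebraMap R F z) :=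
    zeroAt_of_valuation_lt (hBO i) hi hmem hval
  have hZ2 : ZeroAt (intCl R D.t) 𝔪 (algebraMap R F z - (b : F) ^ e) := by
    have := GlueAux.zeroAt_of_mem (𝔮 := 𝔪) hz
    simpa [coe_cB] using this
  have hZ3 := (hZ1.add hZ2).mul_memAt hbU.inv.memAt
  have hb0 : (b : F) ^ e ≠ 0 := hbU.ne_zero
  have e2 : (u / u₀ ^ e * (b : F) ^ e - algebraMap R F z + (algebraMap R F z - (b : F) ^ e)) *
      ((b : F) ^ e)⁻¹ = u / u₀ ^ e - 1 := by
    field_simp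
    ring
  rwa [e2] at hZ3

end StepGAux

variable {R K F : Type*} [CommRing R] [IsDomain R] [IsDiscreteValuationRing R]
    [Field K] [Algebra R K] [IsFractionRing R K]
    [Field F] [CharZero F] [Algebra R F] [Algebra K F] [IsScalarTower R K F]
    {D : GeomDatum R K F} {F' : Type*} [Field F'] [Algebra R F'] [Algebra K F']
    [IsScalarTower R K F']

open StepGAux in
/-- **[STEP-G]**  the gluing constants.
Proof.  `u i ∈ M` with `u i ≡ 1` on the component `i` (`GeomDatum.exists_comp`).  At a triple point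
`𝔪` put `X := u 0 / u 1`, `Y := u 0 / u 2` (units at `𝔪`, `X^m ≡ Y^m ≡ 1`).  Apply `norm_glue_α/β` to
`u := u 0` (`b 0 = 1`, `b 1 ≡ X`, `b 2 ≡ Y` at `𝔪` by (SAT)):  `X^(q-1) γ₁ ≡ Y^q γ₂`,
`γ₁' ≡ X^(q-1) Y γ₂'`.  So `Y^(q+1)` and `X^(q²-1)` are congruent modulo `𝔪` to constants independent of
`𝔪`, which are `m`-th roots of unity modulo `q` if there is a triple point; lift them to `μ_m(R)`
(`∏ (η - ζ^j) ≡ 0`): `z 0 = 1`, `z 1 ≡ X^(q²-1)`, `z 2 ≡ Y^(q²-1)`.  If `u^m g^e ∈ B₁`, `u ≡ z i` on the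
component `i`, then `u / (z i * (u i)^e) ≡ 1` at `𝔪` (its `m`-th power is a unit at `𝔪`,
`MemAt.of_pow`, (SAT)).  All intersection points are triple points (`GeomDatum.triple`). -/
theorem stepG (N : NormDatum D F') {m : ℕ} (hm : IsUnit ((m : ℕ) : R)) (ζ : R)
    (hζ : IsPrimitiveRoot ζ m)
    (hk : ∀ r : R, IsUnit r → ∃ s : R, r - s ^ m ∈ Ideal.span {((D.q : ℕ) : R)})
    {g : F} (hg : ∀ i, (D.O i).valuation (g - 1) < 1) (hhor : Hor K m g) (h : HasNorms N m g) :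
    ∃ z : Fin 3 → R, (∀ i, z i ^ m = 1) ∧ Glued D.sys m (g ^ (D.q ^ 2 - 1)) z := by
  classical
  have hm0 : m ≠ 0 := by
    rintro rfl
    simp at hm
  by_cases htp : ∃ 𝔪₀ : Ideal (intCl R D.t), 𝔪₀.IsMaximal ∧ ∀ i, D.sys.p i ≤ 𝔪₀
  swap
  · refine ⟨fun _ => 1, fun _ => one_pow _, ?_⟩
    intro i j hij 𝔪 h𝔪 hi hj
    exact absurd ⟨𝔪, h𝔪, D.triple 𝔪 h𝔪 i j hij hi hj⟩ htp
  obtain ⟨𝔪₀, h𝔪₀, htp₀⟩ := htp
  have hBO : ∀ i, intCl R D.t ≤ (D.O i).toSubring := fun i => intCl_le (D.sys.gauss i)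
  have hvB : ∀ i (b : intCl R D.t), (D.O i).valuation (b : F) ≤ 1 := fun i b =>
    (ValuationSubring.valuation_le_one_iff _ _).2 (hBO i b.2)
  have hvg : ∀ i, (D.O i).valuation g = 1 := fun i => comp_aux_val_f (hg i)
  obtain ⟨u₀, hu₀, hu₀1⟩ := D.exists_comp hm0 hg hhor 0
  have hu₀le : ∀ i, (D.O i).valuation u₀ ≤ 1 := fun i => (exists_approx D hm0 i (hg i) hu₀).1
  choose b' hb' using fun i => (exists_approx D hm0 i (hg i) hu₀).2
  obtain ⟨b, hb0, hb⟩ : ∃ b : Fin 3 → intCl R D.t, b 0 = 1 ∧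
      ∀ i, (D.O i).valuation (u₀ - (b i : F)) < 1 := by
    refine ⟨![1, b' 1, b' 2], rfl, ?_⟩
    intro i
    fin_cases i
    · simpa using hu₀1
    · simpa using hb' 1
    · simpa using hb' 2
  -- `b i ^ m ≡ 1` at the triple points
  have hbs : ∀ i, b i ^ m - ⟨_, hu₀⟩ ∈ D.sys.p i := by
    intro i
    rw [GaussSys.mem_p]
    change (D.O i).valuation ((b i : F) ^ m - u₀ ^ m * g) < 1
    have e1 : (b i : F) ^ m - u₀ ^ m * g = - ((u₀ ^ m - (b i : F) ^ m) + u₀ ^ m * (g - 1)) := by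
      ring
    rw [e1, Valuation.map_neg]
    refine Valuation.map_add_lt _ (comp_aux_pow (hu₀le i) (hvB i _) (hb i) m) ?_
    rw [map_mul, map_pow]
    calc (D.O i).valuation u₀ ^ m * (D.O i).valuation (g - 1)
        ≤ 1 * (D.O i).valuation (g - 1) := by gcongr; exact pow_le_one₀ zero_le (hu₀le i)
      _ < 1 := by simpa using hg i
  have hbm : ∀ 𝔪 : Ideal (intCl R D.t), (∀ i, D.sys.p i ≤ 𝔪) → ∀ i, b i ^ m - 1 ∈ 𝔪 := by
    intro 𝔪 htr i
    have h1 := htr i (hbs i)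
    have h2 := htr 0 (hbs 0)
    rw [hb0, one_pow] at h2
    have := 𝔪.sub_mem h1 h2
    rwa [sub_sub_sub_cancel_right] at this
  -- the constants
  obtain ⟨γ₁, γ₂, hγ₁, hγ₂, hα⟩ := norm_glue_α N hm ζ hζ hk hg h
  obtain ⟨γ₁', γ₂', -, hγ₂', hβ⟩ := norm_glue_β N hm ζ hζ hk hg h
  obtain ⟨c₁, c₂, hc⟩ := consts (cB R D.t) D.q (b 0) (b 1) (b 2) hb0 γ₁ γ₂ γ₁' γ₂' hγ₁ hγ₂ hγ₂'
  obtain ⟨c, hc'⟩ : ∃ c : Fin 3 → R, ∀ 𝔪 : Ideal (intCl R D.t), 𝔪.IsMaximal →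
      (∀ i, D.sys.p i ≤ 𝔪) → ∀ i, b i ^ (D.q ^ 2 - 1) - cB R D.t (c i) ∈ 𝔪 := by
    refine ⟨![1, c₁, c₂], ?_⟩
    intro 𝔪 h𝔪 htr i
    have := hc 𝔪 (hα u₀ b hu₀ hb 𝔪 h𝔪 htr) (hβ u₀ b hu₀ hb 𝔪 h𝔪 htr)
    fin_cases i
    · simp [hb0]
    · simpa using this.1
    · simpa using this.2
  -- constants in a maximal ideal of the chart
  have hmax : IsLocalRing.maximalIdeal R = Ideal.span {((D.q : ℕ) : R)} :=
    (IsDiscreteValuationRing.irreducible_iff_uniformizer _).1 D.irr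
  have hdown : ∀ r : R, cB R D.t r ∈ 𝔪₀ → r ∈ IsLocalRing.maximalIdeal R := by
    intro r hr
    by_contra hcon
    have hU : IsUnit r := IsLocalRing.notMem_maximalIdeal.1 hcon
    exact h𝔪₀.ne_top (Ideal.eq_top_of_isUnit_mem _ hr (hU.map (cB R D.t)))
  have hup : ∀ 𝔪 : Ideal (intCl R D.t), D.sys.p 0 ≤ 𝔪 → ∀ r ∈ IsLocalRing.maximalIdeal R,
      cB R D.t r ∈ 𝔪 := by
    intro 𝔪 h0 r hr
    rw [hmax, Ideal.mem_span_singleton'] at hr
    obtain ⟨a, rfl⟩ := hr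
    rw [map_mul]
    refine 𝔪.mul_mem_left _ (h0 ?_)
    rw [GaussSys.mem_p]
    exact (D.sys.gauss 0).lt_one
  have hcm : ∀ i, c i ^ m - 1 ∈ IsLocalRing.maximalIdeal R := by
    intro i
    apply hdown
    have h1 := hbm 𝔪₀ htp₀ i
    have h2 := hc' 𝔪₀ h𝔪₀ htp₀ i
    rw [← Ideal.Quotient.eq] at h1 h2
    rw [map_sub, map_pow, map_one, ← Ideal.Quotient.eq, map_pow, ← h2, map_pow, ← pow_mul,
      mul_comm, pow_mul, ← map_pow, h1, map_one, one_pow]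
  choose z hz1 hz2 using fun i => exists_root hm0 ζ hζ (IsLocalRing.maximalIdeal R) (c i) (hcm i)
  refine ⟨z, hz1, ?_⟩
  intro i j hij 𝔪 h𝔪 hi hj u u' hu hu' huz hu'z
  have htr := D.triple 𝔪 h𝔪 i j hij hi hj
  have hpr : 𝔪.IsPrime := h𝔪.isPrime
  have hbn : ∀ l, b l ∉ 𝔪 := by
    intro l hl
    have h1 := hbm 𝔪 htr l
    have h2 : b l ^ m ∈ 𝔪 := 𝔪.pow_mem_of_mem hl m (Nat.pos_of_ne_zero hm0)
    have h3 := 𝔪.sub_mem h2 h1
    rw [sub_sub_cancel] at h3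
    exact hpr.ne_top ((Ideal.eq_top_iff_one _).2 h3)
  have hzb : ∀ l, cB R D.t (z l) - b l ^ (D.q ^ 2 - 1) ∈ 𝔪 := by
    intro l
    have h1 := hc' 𝔪 h𝔪 htr l
    have h2 := hup 𝔪 (htr 0) _ (hz2 l)
    rw [map_sub] at h2
    have h3 := 𝔪.add_mem h1 h2
    have h4 := 𝔪.neg_mem h3
    have e1 : -(b l ^ (D.q ^ 2 - 1) - cB R D.t (c l) + (cB R D.t (c l) - cB R D.t (z l))) =
      cB R D.t (z l) - b l ^ (D.q ^ 2 - 1) := by ring
    rwa [e1] at h4
  have k1 := key D hm0 (D.q ^ 2 - 1) hg hu₀ hu₀1 𝔪 h𝔪 (htr 0) i hi (b i) (hb i) (hbn i) (z i)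
    (hzb i) hu huz
  have k2 := key D hm0 (D.q ^ 2 - 1) hg hu₀ hu₀1 𝔪 h𝔪 (htr 0) j hj (b j) (hb j) (hbn j) (z j)
    (hzb j) hu' hu'z
  have hu₀0 : u₀ ^ (D.q ^ 2 - 1) ≠ 0 := by
    apply pow_ne_zero
    rintro rfl
    have := comp_aux_val_f hu₀1
    simp at this
  have k3 := GlueAux.one_div' k2 k1
  rwa [div_div_div_cancel_right₀ hu₀0] at k3

end Fermat.Agent.S36
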