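import Fermat.Agent.S36.Abs.StepDefs

/-!
# S36 / abstract part : `[STEP-R]` normalisation of the reductions
-/

set_option autoImplicit false

open Polynomial

namespace Fermat.Agent.S36

namespace StepRAux

variable {L : Type*} [Field L]

/-- congruence modulo the maximal ideal of a valuation subring -/
def Cg (O : ValuationSubring L) (a b : L) : Prop := O.valuation (a - b) < 1

variable {O : ValuationSubring L} {a b c a' b' : L}

theorem Cg.refl (O : ValuationSubring L) (a : L) : Cg O a a := by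
  simp [Cg]

theorem Cg.symm (h : Cg O a b) : Cg O b a := by
  unfold Cg at *
  rwa [← Valuation.map_neg, neg_sub]

theorem Cg.trans (h1 : Cg O a b) (h2 : Cg O b c) : Cg O a c := by
  unfold Cg at *
  have : a - c = (a - b) + (b - c) := by ring
  rw [this]
  exact Valuation.map_add_lt _ h1 h2

theorem Cg.val_eq_one (h : Cg O a b) (ha : O.valuation a = 1) : O.valuation b = 1 := by
  unfold Cg at h
  have : b = a - (a - b) := by ring
  rw [this, Valuation.map_sub_eq_of_lt_left _ (by rw [ha]; exact h), ha]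

theorem Cg.mul (h1 : Cg O a a') (h2 : Cg O b b') (ha : O.valuation a ≤ 1)
    (hb' : O.valuation b' ≤ 1) : Cg O (a * b) (a' * b') := by
  unfold Cg at *
  have : a * b - a' * b' = a * (b - b') + (a - a') * b' := by ring
  rw [this]
  refine Valuation.map_add_lt _ ?_ ?_
  · rw [map_mul]
    exact mul_lt_one_of_nonneg_of_lt_one_right ha zero_le h2
  · rw [map_mul]
    exact mul_lt_one_of_nonneg_of_lt_one_left zero_le h1 hb'

theorem Cg.pow (h : Cg O a b) (ha : O.valuation a = 1) (n : ℕ) : Cg O (a ^ n) (b ^ n) := by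
  induction n with
  | zero => simpa using Cg.refl O 1
  | succ n ih =>
    rw [pow_succ, pow_succ]
    exact ih.mul h (by rw [map_pow, ha, one_pow]) (h.val_eq_one ha).le

theorem Cg.inv (h : Cg O a b) (ha : O.valuation a = 1) : Cg O a⁻¹ b⁻¹ := by
  have hb := h.val_eq_one ha
  have ha0 : a ≠ 0 := by
    rintro rfl
    simp at ha
  have hb0 : b ≠ 0 := by
    rintro rfl
    simp at hb
  unfold Cg at *
  have : a⁻¹ - b⁻¹ = -((a - b) * (a⁻¹ * b⁻¹)) := by
    field_simp
    ring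
  rw [this, Valuation.map_neg, map_mul, map_mul, map_inv₀, map_inv₀, ha, hb]
  simpa using h

theorem Cg.zpow (h : Cg O a b) (ha : O.valuation a = 1) (n : ℤ) : Cg O (a ^ n) (b ^ n) := by
  cases n with
  | ofNat n => simpa using h.pow ha n
  | negSucc n =>
    rw [zpow_negSucc, zpow_negSucc]
    exact (h.pow ha _).inv (by rw [map_pow, ha, one_pow])

theorem val_zpow_eq_one (ha : O.valuation a = 1) (n : ℤ) : O.valuation (a ^ n) = 1 := by
  rw [map_zpow₀, ha, one_zpow]

theorem ne_zero_of_val (ha : O.valuation a = 1) : a ≠ 0 := by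
  rintro rfl
  simp at ha

/-- extraction of an `m`-th root modulo the maximal ideal when `g ^ q` is an `m`-th power. -/
theorem exists_root {g y : L} {q m : ℕ} (hqm : Nat.Coprime q m) (hg : O.valuation g = 1)
    (h : Cg O (g ^ q) (y ^ m)) (hy : O.valuation y = 1) :
    ∃ ψ : L, O.valuation ψ = 1 ∧ Cg O g (ψ ^ m) := by
  obtain ⟨A, B, hAB⟩ := (Nat.isCoprime_iff_coprime.2 hqm)
  have hg0 := ne_zero_of_val hg
  have hy0 := ne_zero_of_val hy
  refine ⟨y ^ A * g ^ B, ?_, ?_⟩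
  · rw [map_mul, val_zpow_eq_one hy, val_zpow_eq_one hg, one_mul]
  · have e1 : g = (g ^ q) ^ A * (g ^ B) ^ m := by
      rw [← zpow_natCast, ← zpow_natCast, ← zpow_mul, ← zpow_mul, ← zpow_add₀ hg0]
      have : (q : ℤ) * A + B * (m : ℤ) = 1 := by linarith
      rw [this, zpow_one]
    have e2 : (y ^ A * g ^ B) ^ m = (y ^ m) ^ A * (g ^ B) ^ m := by
      rw [mul_pow]
      congr 1
      rw [← zpow_natCast, ← zpow_natCast, ← zpow_mul, ← zpow_mul, mul_comm]
    rw [e2]
    nth_rewrite 1 [e1]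
    refine (h.zpow (by rw [map_pow, hg, one_pow]) A).mul (Cg.refl O _) ?_ ?_
    · rw [val_zpow_eq_one (by rw [map_pow, hg, one_pow])]
    · rw [map_pow, val_zpow_eq_one hg, one_pow]

/-! ### transfer along a ring homomorphism -/

variable {L' : Type*} [Field L'] {O' : ValuationSubring L'} {φ : L' →+* L}

theorem le_one_iff_of_comap (h : O.comap φ = O') (y : L') :
    O'.valuation y ≤ 1 ↔ O.valuation (φ y) ≤ 1 := by
  rw [ValuationSubring.valuation_le_one_iff, ValuationSubring.valuation_le_one_iff, ← h,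
    ValuationSubring.mem_comap]

theorem lt_one_iff_of_comap (h : O.comap φ = O') (y : L') :
    O'.valuation y < 1 ↔ O.valuation (φ y) < 1 := by
  by_cases hy : y = 0
  · simp [hy]
  have hφ : φ y ≠ 0 := (map_ne_zero φ).2 hy
  have h1 := le_one_iff_of_comap h y⁻¹
  rw [map_inv₀, map_inv₀, map_inv₀] at h1
  have e1 : (O'.valuation y)⁻¹ ≤ 1 ↔ 1 ≤ O'.valuation y :=
    inv_le_one₀ (zero_lt_iff.2 ((Valuation.ne_zero_iff _).2 hy))
  have e2 : (O.valuation (φ y))⁻¹ ≤ 1 ↔ 1 ≤ O.valuation (φ y) :=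
    inv_le_one₀ (zero_lt_iff.2 ((Valuation.ne_zero_iff _).2 hφ))
  rw [e1, e2] at h1
  rw [← not_le, ← not_le, h1]

theorem eq_one_iff_of_comap (h : O.comap φ = O') (y : L') :
    O'.valuation y = 1 ↔ O.valuation (φ y) = 1 := by
  have h1 := le_one_iff_of_comap h y
  have h2 := lt_one_iff_of_comap h y
  constructor
  · intro hy
    exact le_antisymm (h1.1 hy.le) (not_lt.1 fun hc => (h2.2 hc).ne hy)
  · intro hy
    exact le_antisymm (h1.2 hy.le) (not_lt.1 fun hc => (h2.1 hc).ne hy)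

theorem cg_iff_of_comap (h : O.comap φ = O') (x y : L') :
    Cg O' x y ↔ Cg O (φ x) (φ y) := by
  unfold Cg
  rw [lt_one_iff_of_comap h, map_sub]

theorem finish {G φ' x : L} {m : ℕ} (hG : O.valuation G = 1) (hφ : O.valuation φ' = 1)
    (h1 : Cg O (G * φ' ^ m) 1) (hx : Cg O x φ') : O.valuation (G * x ^ m - 1) < 1 := by
  have hx1 : O.valuation x = 1 := hx.symm.val_eq_one hφ
  exact ((Cg.refl O G).mul (hx.pow hx1 m) hG.le (by rw [map_pow, hφ, one_pow])).trans h1

end StepRAux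

variable {R K F : Type*} [CommRing R] [IsDomain R] [IsDiscreteValuationRing R]
    [Field K] [Algebra R K] [IsFractionRing R K]
    [Field F] [CharZero F] [Algebra R F] [Algebra K F] [IsScalarTower R K F]
    {D : GeomDatum R K F} {F' : Type*} [Field F'] [Algebra R F'] [Algebra K F']
    [IsScalarTower R K F']

namespace StepRAux

theorem val_const_le (D : GeomDatum R K F) (i : Fin 3) (r : R) :
    (D.O i).valuation (algebraMap R F r) ≤ 1 :=
  (ValuationSubring.valuation_le_one_iff _ _).2 ((D.sys.gauss i).const r)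

theorem val_unit (D : GeomDatum R K F) (i : Fin 3) {r : R} (hr : IsUnit r) :
    (D.O i).valuation (algebraMap R F r) = 1 := by
  obtain ⟨u, rfl⟩ := hr
  have h1 := val_const_le D i (u : R)
  have h2 := val_const_le D i ((u⁻¹ : Rˣ) : R)
  have h3 : (D.O i).valuation (algebraMap R F (u : R)) *
      (D.O i).valuation (algebraMap R F ((u⁻¹ : Rˣ) : R)) = 1 := by
    rw [← map_mul, ← map_mul, Units.mul_inv, map_one, map_one]
  refine le_antisymm h1 ?_
  calc (1 : (D.O i).ValueGroup) = _ := h3.symm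
    _ ≤ (D.O i).valuation (algebraMap R F (u : R)) * 1 := by gcongr
    _ = _ := mul_one _

theorem cg_const (D : GeomDatum R K F) (i : Fin 3) {c s : R} {m : ℕ}
    (h : c - s ^ m ∈ Ideal.span {((D.q : ℕ) : R)}) :
    Cg (D.O i) (algebraMap R F c) (algebraMap R F s ^ m) := by
  obtain ⟨r, hr⟩ := Ideal.mem_span_singleton'.1 h
  unfold Cg
  rw [← map_pow, ← map_sub, ← hr, map_mul, map_mul]
  exact mul_lt_one_of_nonneg_of_lt_one_right (val_const_le D i r) zero_le
    (D.sys.gauss i).lt_one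

theorem val_root (D : GeomDatum R K F) (i : Fin 3) {c s : R} {m : ℕ} (hm : m ≠ 0) (hc : IsUnit c)
    (h : c - s ^ m ∈ Ideal.span {((D.q : ℕ) : R)}) :
    (D.O i).valuation (algebraMap R F s) = 1 := by
  have h1 := (cg_const D i h).val_eq_one (val_unit D i hc)
  rw [map_pow] at h1
  exact (pow_eq_one_iff.1 h1).resolve_right hm

/-- `c z ^ m ≡ (s z) ^ m` -/
theorem cg_const_mul (D : GeomDatum R K F) (i : Fin 3) {c s : R} {m : ℕ}
    (h : c - s ^ m ∈ Ideal.span {((D.q : ℕ) : R)}) {z : F} (hz : (D.O i).valuation z = 1) :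
    Cg (D.O i) (algebraMap R F c * z ^ m) ((algebraMap R F s * z) ^ m) := by
  rw [mul_pow]
  exact (cg_const D i h).mul (Cg.refl _ _) (val_const_le D i c) (by rw [map_pow, hz, one_pow])

theorem exists_frac (D : GeomDatum R K F) (i : Fin 3) {x : F} (hx : (D.O i).valuation x = 1) :
    ∃ s t : F, s ∈ intCl R D.t ∧ t ∈ intCl R D.t ∧ (D.O i).valuation s = 1 ∧
      (D.O i).valuation t = 1 ∧ x = s * t⁻¹ := by
  have hBO := intCl_le (D.sys.gauss i)
  obtain ⟨s, t, hs, ht, hxt⟩ := D.sys.unitAt_centre D.irr i hBO hx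
  rw [mem_centre] at hs ht
  have hs1 : (D.O i).valuation (s : F) ≤ 1 :=
    (ValuationSubring.valuation_le_one_iff _ _).2 (hBO s.2)
  have ht1 : (D.O i).valuation (t : F) ≤ 1 :=
    (ValuationSubring.valuation_le_one_iff _ _).2 (hBO t.2)
  have ht' : (D.O i).valuation (t : F) = 1 := le_antisymm ht1 (not_lt.1 ht)
  refine ⟨s, t, s.2, t.2, le_antisymm hs1 (not_lt.1 hs), ht', ?_⟩
  rw [← hxt, mul_assoc, mul_inv_cancel₀ (ne_zero_of_val ht'), mul_one]

/-- field level approximation, for `α` -/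
theorem approx_unit_α (N : NormDatum D F') (i : Fin 3) (hi : i ≠ 2) {x : F}
    (hx : (D.O i).valuation x = 1) :
    ∃ x' : F', (N.O' (idxα i)).valuation x' = 1 ∧ Cg (D.O i) x (N.α x') := by
  obtain ⟨s, t, hsB, htB, hs, ht, rfl⟩ := exists_frac D i hx
  obtain ⟨s', -, hs'⟩ := N.approxα i hi s hsB
  obtain ⟨t', -, ht'⟩ := N.approxα i hi t htB
  have hs'' : Cg (D.O i) s (N.α s') := hs'
  have ht'' : Cg (D.O i) t (N.α t') := ht'
  have key : Cg (D.O i) (s * t⁻¹) (N.α (s' * t'⁻¹)) := by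
    rw [map_mul, map_inv₀]
    refine hs''.mul (ht''.inv ht) hs.le ?_
    rw [map_inv₀, ht''.val_eq_one ht, inv_one]
  exact ⟨s' * t'⁻¹, (eq_one_iff_of_comap (N.comap_α i) _).2 (key.val_eq_one hx), key⟩

end StepRAux

open StepRAux in
/-- **[STEP-R]**  `g` a unit on the three components.  `redα₂`: `g^q ≡ α (c h^m)` on the component
`2`, `c ≡ s^m`, `q A + m B = 1`, so `g ≡ ψ₂^m` there; `redβ₁`: `g ≡ ψ₀^m` on the component `0`;
`redα₁` (with `c₀, c₁ ∈ O' 0` approximating `g` on the components `0`, `1`; `c₀ ≡ (ψ₀')^m`):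
`g^(q-1) ≡ ψ₁^m` on the component `1`.  Conclude with `approx3`. -/
theorem stepR (N : NormDatum D F') {m : ℕ} (hm : IsUnit ((m : ℕ) : R))
    (hk : ∀ r : R, IsUnit r → ∃ s : R, r - s ^ m ∈ Ideal.span {((D.q : ℕ) : R)})
    {g : F} (hg : ∀ i, (D.O i).valuation g = 1) (h : HasNorms N m g) :
    ∃ x : F, x ≠ 0 ∧ ∀ i, (D.O i).valuation (g ^ (D.q - 1) * x ^ m - 1) < 1 := by
  have hm0 : m ≠ 0 := by
    rintro rfl
    simp at hm
  have hqm : Nat.Coprime D.q m := by
    rw [Nat.Prime.coprime_iff_not_dvd D.hq]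
    rintro ⟨k, rfl⟩
    rw [Nat.cast_mul] at hm
    exact D.irr.not_isUnit (isUnit_of_mul_isUnit_left hm)
  obtain ⟨⟨c, y, hc, hy, hN⟩, ⟨c', y', hc', hy', hN'⟩⟩ := h.normalise hm0 hg
  obtain ⟨s, hs⟩ := hk c hc
  obtain ⟨s', hs'⟩ := hk c' hc'
  have eα : N.α (N.Nα g) = algebraMap R F c * (N.α y) ^ m := by
    rw [hN, map_mul, map_pow, IsScalarTower.algebraMap_apply R K F', AlgHom.commutes,
      ← IsScalarTower.algebraMap_apply]
  have eβ : N.β (N.Nβ g) = algebraMap R F c' * (N.β y') ^ m := by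
    rw [hN', map_mul, map_pow, IsScalarTower.algebraMap_apply R K F', AlgHom.commutes,
      ← IsScalarTower.algebraMap_apply]
  have hαy : ∀ i, (D.O i).valuation (N.α y) = 1 := fun i =>
    (eq_one_iff_of_comap (N.comap_α i) y).1 (hy _)
  have hβy : ∀ i, (D.O i).valuation (N.β y') = 1 := fun i =>
    (eq_one_iff_of_comap (N.comap_β i) y').1 (hy' _)
  have hsv : ∀ i, (D.O i).valuation (algebraMap R F s) = 1 := fun i => val_root D i hm0 hc hs
  have hsv' : ∀ i, (D.O i).valuation (algebraMap R F s') = 1 := fun i => val_root D i hm0 hc' hs'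
  have hgmem : ∀ i, g ∈ D.O i := fun i =>
    (ValuationSubring.valuation_le_one_iff _ _).1 (hg i).le
  have hgq : ∀ i, (D.O i).valuation (g ^ (D.q - 1)) = 1 := fun i => by
    rw [map_pow, hg i, one_pow]
  -- the component `2`
  have h2 : Cg (D.O 2) (g ^ D.q) ((algebraMap R F s * N.α y) ^ m) := by
    have h := N.redα₂ g (hgmem 2)
    rw [eα] at h
    exact (Cg.symm h).trans (cg_const_mul D 2 hs (hαy 2))
  obtain ⟨ψ2, hψ2, hgψ2⟩ := exists_root hqm (hg 2) h2 (by rw [map_mul, hsv 2, hαy 2, one_mul])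
  -- the component `0`
  have h0 : Cg (D.O 0) (g ^ D.q) ((algebraMap R F s' * N.β y') ^ m) := by
    have h := N.redβ₁ g (hgmem 0)
    rw [eβ] at h
    exact (Cg.symm h).trans (cg_const_mul D 0 hs' (hβy 0))
  obtain ⟨ψ0, hψ0, hgψ0⟩ := exists_root hqm (hg 0) h0 (by rw [map_mul, hsv' 0, hβy 0, one_mul])
  -- the component `1`
  obtain ⟨c0, hc0, hgc0⟩ := approx_unit_α N 0 (by decide) (hg 0)
  obtain ⟨c1, hc1, hgc1⟩ := approx_unit_α N 1 (by decide) (hg 1)
  obtain ⟨p0, hp0, hψp0⟩ := approx_unit_α N 0 (by decide) hψ0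
  have hred := N.redα₁ g c0 c1 ((ValuationSubring.valuation_le_one_iff _ _).1 hc0.le)
    ((ValuationSubring.valuation_le_one_iff _ _).1 hc1.le) hgc0 hgc1
  have hc0p0 : Cg (N.O' 0) c0 (p0 ^ m) := by
    refine (cg_iff_of_comap (N.comap_α 0) _ _).2 ?_
    have e : (N.α : F' →+* F) (p0 ^ m) = (N.α p0) ^ m := map_pow _ _ _
    rw [e]
    exact (hgc0.symm.trans hgψ0).trans (hψp0.pow hψ0 m)
  have hαp0 : (D.O 1).valuation (N.α p0) = 1 := (eq_one_iff_of_comap (N.comap_α 1) p0).1 hp0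
  have hαc0 : (D.O 1).valuation (N.α c0) = 1 := (eq_one_iff_of_comap (N.comap_α 1) c0).1 hc0
  have hαc1 : (D.O 1).valuation (N.α c1) = 1 := (eq_one_iff_of_comap (N.comap_α 1) c1).1 hc1
  have h1a : Cg (D.O 1) (N.α c0) ((N.α p0) ^ m) := by
    have := (cg_iff_of_comap (N.comap_α 1) _ _).1 hc0p0
    have e : (N.α : F' →+* F) (p0 ^ m) = (N.α p0) ^ m := map_pow _ _ _
    rw [e] at this
    exact this
  have h1b : Cg (D.O 1) (algebraMap R F c * (N.α y) ^ m) (N.α c0 * (N.α c1) ^ (D.q - 1)) := by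
    have := (cg_iff_of_comap (N.comap_α 1) _ _).1 hred
    have e : (N.α : F' →+* F) (c0 * c1 ^ (D.q - 1)) = N.α c0 * (N.α c1) ^ (D.q - 1) := by
      rw [map_mul, map_pow]; rfl
    have e' : (N.α : F' →+* F) (N.Nα g) = algebraMap R F c * (N.α y) ^ m := eα
    rw [e, e'] at this
    exact this
  -- `(s α y) ^ m ≡ (α p0) ^ m * g ^ (q - 1)` on the component `1`
  have h1c : Cg (D.O 1) ((N.α p0) ^ m * g ^ (D.q - 1)) ((algebraMap R F s * N.α y) ^ m) := by
    refine Cg.trans ?_ (cg_const_mul D 1 hs (hαy 1))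
    refine Cg.trans ?_ h1b.symm
    refine h1a.symm.mul (hgc1.pow (hg 1) _) (by rw [map_pow, hαp0, one_pow]) ?_
    rw [map_pow, hαc1, one_pow]
  -- the three local solutions
  have hsy : (D.O 1).valuation (algebraMap R F s * N.α y) = 1 := by
    rw [map_mul, hsv 1, hαy 1, one_mul]
  have key : ∀ i : Fin 3, ∃ φ : F, (D.O i).valuation φ = 1 ∧
      Cg (D.O i) (g ^ (D.q - 1) * φ ^ m) 1 := by
    have aux : ∀ (i : Fin 3) (ψ : F), (D.O i).valuation ψ = 1 → Cg (D.O i) g (ψ ^ m) →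
        ∃ φ : F, (D.O i).valuation φ = 1 ∧ Cg (D.O i) (g ^ (D.q - 1) * φ ^ m) 1 := by
      intro i ψ hψ hgψ
      have hψ0 := ne_zero_of_val hψ
      refine ⟨(ψ ^ (D.q - 1))⁻¹, by rw [map_inv₀, map_pow, hψ, one_pow, inv_one], ?_⟩
      have e : (1 : F) = (ψ ^ m) ^ (D.q - 1) * ((ψ ^ (D.q - 1))⁻¹) ^ m := by
        rw [inv_pow, ← pow_mul, ← pow_mul, mul_comm m, mul_inv_cancel₀ (pow_ne_zero _ hψ0)]
      have key : Cg (D.O i) (g ^ (D.q - 1) * ((ψ ^ (D.q - 1))⁻¹) ^ m)
          ((ψ ^ m) ^ (D.q - 1) * ((ψ ^ (D.q - 1))⁻¹) ^ m) := by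
        refine (hgψ.pow (hg i) _).mul (Cg.refl _ _) (hgq i).le ?_
        rw [map_pow, map_inv₀, map_pow, hψ, one_pow, inv_one, one_pow]
      rwa [← e] at key
    have k1 : ∃ φ : F, (D.O 1).valuation φ = 1 ∧ Cg (D.O 1) (g ^ (D.q - 1) * φ ^ m) 1 := by
      refine ⟨N.α p0 * (algebraMap R F s * N.α y)⁻¹, by
        rw [map_mul, map_inv₀, hsy, hαp0, inv_one, one_mul], ?_⟩
      have hsy0 := ne_zero_of_val hsy
      have e : (1 : F) = (algebraMap R F s * N.α y) ^ m * ((algebraMap R F s * N.α y)⁻¹) ^ m := by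
        rw [inv_pow, mul_inv_cancel₀ (pow_ne_zero _ hsy0)]
      have e2 : g ^ (D.q - 1) * (N.α p0 * (algebraMap R F s * N.α y)⁻¹) ^ m =
          ((N.α p0) ^ m * g ^ (D.q - 1)) * ((algebraMap R F s * N.α y)⁻¹) ^ m := by
        rw [mul_pow]; ring
      rw [e2]
      have key : Cg (D.O 1) (((N.α p0) ^ m * g ^ (D.q - 1)) * ((algebraMap R F s * N.α y)⁻¹) ^ m)
          ((algebraMap R F s * N.α y) ^ m * ((algebraMap R F s * N.α y)⁻¹) ^ m) := by
        refine h1c.mul (Cg.refl _ _) ?_ ?_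
        · rw [map_mul, map_pow, hαp0, one_pow, hgq 1, one_mul]
        · rw [map_pow, map_inv₀, hsy, inv_one, one_pow]
      rwa [← e] at key
    intro i
    fin_cases i
    exacts [aux 0 ψ0 hψ0 hgψ0, k1, aux 2 ψ2 hψ2 hgψ2]
  choose φ hφ hφ1 using key
  obtain ⟨x, hx⟩ := D.approx3 φ (fun i => (ValuationSubring.valuation_le_one_iff _ _).1 (hφ i).le)
  refine ⟨x, ?_, fun i => finish (hgq i) (hφ i) (hφ1 i) (hx i)⟩
  exact ne_zero_of_val (Cg.val_eq_one (Cg.symm (hx 0)) (hφ 0))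

end Fermat.Agent.S36
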