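import Fermat.Agent.S36.Abs.StepV
import Fermat.Agent.S36.Abs.StepR
import Fermat.Agent.S36.Abs.StepG

/-!
# S36 / abstract part : `[ABS36]` the final abstract theorem
-/

set_option autoImplicit false

open Polynomial

namespace Fermat.Agent.S36

variable {R K F : Type*} [CommRing R] [IsDomain R] [IsDiscreteValuationRing R]
    [Field K] [Algebra R K] [IsFractionRing R K]
    [Field F] [CharZero F] [Algebra R F] [Algebra K F] [IsScalarTower R K F]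
    {D : GeomDatum R K F} {F' : Type*} [Field F'] [Algebra R F'] [Algebra K F']
    [IsScalarTower R K F']

/-- **[ABS36]**  the abstract core of S36. -/
theorem abs36 (N : NormDatum D F') {m : ℕ} (hm : IsUnit ((m : ℕ) : R)) (ζ : R)
    (hζ : IsPrimitiveRoot ζ m)
    (hk : ∀ r : R, IsUnit r → ∃ s : R, r - s ^ m ∈ Ideal.span {((D.q : ℕ) : R)})
    {g : F} (hg : g ≠ 0) (hhor : Hor K m g) (h : HasNorms N m g) :
    ∃ (c : K) (x : F), c ≠ 0 ∧ x ≠ 0 ∧ g ^ ((D.q ^ 2 - 1) ^ 2) = algebraMap K F c * x ^ m := by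
  have hm0 : m ≠ 0 := by
    rintro rfl
    simp at hm
  -- step V
  obtain ⟨c₁, x₁, hc₁, hx₁, hv₁⟩ := stepV N hm0 hg h
  set g₁ : F := algebraMap K F c₁ * g ^ (D.q + 1) * x₁ ^ m with hg₁
  have hhor₁ : Hor K m g₁ := hhor.mul_pow c₁ hc₁ (D.q + 1) x₁ hx₁
  have hN₁ : HasNorms N m g₁ := h.mul_pow c₁ (D.q + 1) x₁
  -- step R
  obtain ⟨x₂, hx₂, hv₂⟩ := stepR N hm hk hv₁ hN₁
  set g₂ : F := g₁ ^ (D.q - 1) * x₂ ^ m with hg₂
  have e₂ : algebraMap K F 1 * g₁ ^ (D.q - 1) * x₂ ^ m = g₂ := by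
    rw [map_one, one_mul]
  have hhor₂ : Hor K m g₂ := e₂ ▸ hhor₁.mul_pow 1 one_ne_zero (D.q - 1) x₂ hx₂
  have hN₂ : HasNorms N m g₂ := e₂ ▸ hN₁.mul_pow 1 (D.q - 1) x₂
  -- step G
  obtain ⟨z, hz, hglue⟩ := stepG N hm ζ hζ hk hv₂ hhor₂ hN₂
  set g₃ : F := g₂ ^ (D.q ^ 2 - 1) with hg₃
  have e₃ : algebraMap K F 1 * g₂ ^ (D.q ^ 2 - 1) * (1 : F) ^ m = g₃ := by
    rw [map_one, one_mul, one_pow, mul_one]
  have hhor₃ : Hor K m g₃ := e₃ ▸ hhor₂.mul_pow 1 one_ne_zero (D.q ^ 2 - 1) 1 one_ne_zero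
  have hv₃ : ∀ i, (D.O i).valuation (g₃ - 1) < 1 := fun i =>
    TrivialAux.val_pow_sub_one (hv₂ i) _
  have hv₃' : ∀ i, (D.O i).valuation g₃ = 1 := fun i => comp_aux_val_f (hv₃ i)
  obtain ⟨c₃, x₃, hc₃, hx₃, hfin⟩ := trivial_of_glued D.irr D.sys D.glob D.ded₁ D.ded₂ hm ζ hζ hv₃
    (D.ld₁ hm0 hv₃' hhor₃) (D.ld₂ hm0 hv₃' hhor₃) z hz hglue (D.glued₂ m g₃ z)
  -- bookkeeping
  have hq1 : 1 ≤ D.q := D.hq.one_lt.le
  have hexp : (D.q + 1) * (D.q - 1) * (D.q ^ 2 - 1) = (D.q ^ 2 - 1) ^ 2 := by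
    have : (D.q + 1) * (D.q - 1) = D.q ^ 2 - 1 := by
      obtain ⟨k, hk⟩ : ∃ k, D.q = k + 1 := ⟨D.q - 1, by omega⟩
      rw [hk]
      have h1 : (k + 1) ^ 2 - 1 = k ^ 2 + 2 * k := by
        have : (k + 1) ^ 2 = k ^ 2 + 2 * k + 1 := by ring
        omega
      rw [h1, Nat.add_sub_cancel]
      ring
    rw [this, pow_two (D.q ^ 2 - 1)]
  set E : ℕ := (D.q - 1) * (D.q ^ 2 - 1) with hE
  have hexpand : g₃ = algebraMap K F (c₁ ^ E) * g ^ ((D.q ^ 2 - 1) ^ 2) *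
      (x₁ ^ E * x₂ ^ (D.q ^ 2 - 1)) ^ m := by
    rw [hg₃, hg₂, hg₁, ← hexp, map_pow, hE]
    ring
  have hcE : algebraMap K F (c₁ ^ E) ≠ 0 := by
    rw [Ne, map_eq_zero]
    exact pow_ne_zero _ hc₁
  have hy : x₁ ^ E * x₂ ^ (D.q ^ 2 - 1) ≠ 0 := mul_ne_zero (pow_ne_zero _ hx₁) (pow_ne_zero _ hx₂)
  refine ⟨algebraMap R K c₃ * (c₁ ^ E)⁻¹, x₃ * (x₁ ^ E * x₂ ^ (D.q ^ 2 - 1))⁻¹, ?_, ?_, ?_⟩
  · refine mul_ne_zero ?_ (inv_ne_zero (pow_ne_zero _ hc₁))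
    rw [Ne, map_eq_zero_iff _ (IsFractionRing.injective R K)]
    exact hc₃
  · exact mul_ne_zero hx₃ (inv_ne_zero hy)
  · rw [map_mul, map_inv₀, ← IsScalarTower.algebraMap_apply R K F, mul_pow, inv_pow]
    have hym : (x₁ ^ E * x₂ ^ (D.q ^ 2 - 1)) ^ m ≠ 0 := pow_ne_zero _ hy
    rw [hexpand] at hfin
    field_simp
    rw [← hfin]
    ring

end Fermat.Agent.S36
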