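import Fermat.Agent.S36.Abs.DedIC

/-!
# S36 / abstract part : `[APPROX-CHART]` (WP DL4)

`GaussSys.exists_approx_chart_aux` = the statement of `GaussSys.exists_approx_chart` of `Abs/DedLevel.lean`
(it uses `GaussSys.exists_approx_of_monic_aux` of `Abs/DedIC.lean` directly).
-/

set_option autoImplicit false

open Polynomial

namespace Fermat.Agent.S36

namespace DedAux

/-- a monic equation over `R[s]`, with coefficients written as polynomials in `s`. -/
theorem exists_monic_eq {R : Type*} [CommRing R] {F : Type*} [Field F] [Algebra R F] {s x : F}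
    (hx : x ∈ intCl R s) : ∃ (m : ℕ) (γ : ℕ → R[X]),
      x ^ m + ∑ l ∈ Finset.range m, aeval s (γ l) * x ^ l = 0 := by
  rw [mem_intCl] at hx
  obtain ⟨P, hP, h0⟩ := hx
  have hγ : ∀ l, ∃ g : R[X], aeval s g = ((P.coeff l : Algebra.adjoin R {s}) : F) := fun l =>
    Algebra.adjoin_mem_exists_aeval _ _ (P.coeff l).2
  choose γ hγ using hγ
  refine ⟨P.natDegree, γ, ?_⟩
  rw [eval₂_eq_sum_range, Finset.sum_range_succ, hP.coeff_natDegree, map_one, one_mul] at h0
  rw [add_comm, ← h0]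
  congr 1
  refine Finset.sum_congr rfl fun l _ => ?_
  rw [hγ]
  rfl

theorem aeval_pow_mem_intCl {R : Type*} [CommRing R] {F : Type*} [Field F] [Algebra R F] (s : F)
    (n : ℕ) (p : R[X]) : aeval (s ^ n) p ∈ intCl R s := by
  rw [← expand_aeval]
  exact GaussAux.aeval_mem_intCl s _

end DedAux

variable {R : Type*} [CommRing R] [IsDomain R] [IsDiscreteValuationRing R]
  {K : Type*} [Field K] [Algebra R K] [IsFractionRing R K]
  {F : Type*} [Field F] [CharZero F] [Algebra R F] [Algebra K F] [IsScalarTower R K F]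
  {F₁ : Type*} [Field F₁] [CharZero F₁] [Algebra R F₁] [Algebra K F₁] [IsScalarTower R K F₁]
  {π : R}

variable {ι : Type*} [Fintype ι] {O : ι → ValuationSubring F} {e f : ι → ℕ}
  {ι₁ : Type*} [Fintype ι₁] {O₁ : ι₁ → ValuationSubring F₁} {e₁ f₁ : ι₁ → ℕ}

open DedAux

theorem GaussSys.exists_approx_chart_aux {s : F} {s₁ : F₁} (hπ : Irreducible π)
    (S : GaussSys K π s O e f) (S₁ : GaussSys K π s₁ O₁ e₁ f₁) (i : ι) (i₁ : ι₁)
    (a : F₁ →ₐ[K] F) (hO : (O i).comap (a : F₁ →+* F) = O₁ i₁)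
    (happ : ∀ y ∈ O i, ∃ y' : F₁, (O i).valuation (y - a y') < 1)
    (n : ℕ) (hs : (O i).valuation (s - a (s₁ ^ n)) < 1)
    (hD : IsDedekindDomain (intCl R s₁ ⧸ S₁.p i₁)) :
    ∀ x ∈ intCl R s, ∃ x' ∈ intCl R s₁, (O i).valuation (x - a x') < 1 := by
  intro x hx
  have hR := (S.gauss i).const
  have hlt : ∀ z : F₁, (O₁ i₁).valuation z < 1 ↔ (O i).valuation (a z) < 1 := fun z => by
    rw [← hO]
    exact GaussAux.comap_lt_one
  have hxO : x ∈ O i := intCl_le (S.gauss i) hx
  have hx1 : (O i).valuation x ≤ 1 := ((O i).valuation_le_one_iff _).2 hxO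
  obtain ⟨x', hx'⟩ := happ x hxO
  have hax1 : (O i).valuation (a x') ≤ 1 := by
    have : a x' = x - (x - a x') := by ring
    rw [this]
    exact (Valuation.map_sub _ _ _).trans (max_le hx1 hx'.le)
  have hx'O : x' ∈ O₁ i₁ := by
    rw [← hO, ValuationSubring.mem_comap]
    exact ((O i).valuation_le_one_iff _).1 hax1
  have hs1 : (O i).valuation s ≤ 1 := (GaussAux.val_t hπ (S.gauss i)).le
  have has1 : (O i).valuation (a (s₁ ^ n)) ≤ 1 := by
    have : a (s₁ ^ n) = s - (s - a (s₁ ^ n)) := by ring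
    rw [this]
    exact (Valuation.map_sub _ _ _).trans (max_le hs1 hs.le)
  obtain ⟨m, γ, hγ⟩ := exists_monic_eq hx
  have hroot : (O₁ i₁).valuation
      (x' ^ m + ∑ l ∈ Finset.range m, aeval (s₁ ^ n) (γ l) * x' ^ l) < 1 := by
    rw [hlt]
    have e1 : a (x' ^ m + ∑ l ∈ Finset.range m, aeval (s₁ ^ n) (γ l) * x' ^ l)
        = -((x ^ m - a x' ^ m) + ∑ l ∈ Finset.range m,
            ((aeval s (γ l) - aeval (a (s₁ ^ n)) (γ l)) * x ^ l
              + aeval (a (s₁ ^ n)) (γ l) * (x ^ l - a x' ^ l))) := by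
      rw [map_add, map_pow, map_sum]
      simp only [map_mul, map_pow a x', map_aeval]
      have e2 : ∑ l ∈ Finset.range m,
            ((aeval s (γ l) - aeval (a (s₁ ^ n)) (γ l)) * x ^ l
              + aeval (a (s₁ ^ n)) (γ l) * (x ^ l - a x' ^ l))
          = ∑ l ∈ Finset.range m, aeval s (γ l) * x ^ l
            - ∑ l ∈ Finset.range m, aeval (a (s₁ ^ n)) (γ l) * a x' ^ l := by
        rw [← Finset.sum_sub_distrib]
        exact Finset.sum_congr rfl fun l _ => by ring
      rw [e2]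
      linear_combination hγ
    rw [e1, Valuation.map_neg]
    refine Valuation.map_add_lt _ (comp_aux_pow hx1 hax1 hx' m) (val_sum_lt _ _ fun l _ => ?_)
    refine Valuation.map_add_lt _ ?_ ?_
    · exact val_mul_lt_left (val_aeval_sub_lt hR hs1 has1 hs (γ l))
        (by rw [map_pow]; exact pow_le_one₀ zero_le hx1)
    · exact val_mul_lt_right (val_aeval_le hR has1 (γ l)) (comp_aux_pow hx1 hax1 hx' l)
  obtain ⟨b, hb, hvb⟩ := S₁.exists_approx_of_monic_aux hπ i₁ hD hx'O m
    (fun l => aeval (s₁ ^ n) (γ l)) (fun l => aeval_pow_mem_intCl s₁ n (γ l)) hroot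
  refine ⟨b, hb, ?_⟩
  rw [hlt, map_sub] at hvb
  have : x - a b = (x - a x') + (a x' - a b) := by ring
  rw [this]
  exact Valuation.map_add_lt _ hx' hvb

end Fermat.Agent.S36
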