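import Fermat.Agent.S36.Abs.KrullDefs

/-!
# S36 / abstract part : `[GAUSS-POLY]` change of the chart function (WP B8)

`P : R[X]` monic of degree `d ≥ 1`, `t = P(s)`.
* `GaussSys.comp_poly` : `GaussSys K π s O e f → GaussSys K π (aeval s P) O e (fun i => d * f i)`
  (`GaussSys.comp_poly'` : the same for `π` prime in an arbitrary commutative ring).
* `intCl_aeval_eq` : `intCl R (aeval s P) = intCl R s`.
* `IsGaussAt.comp_poly`, `IsGaussAt.self_mem`.

Proofs: mod `π` the polynomial ring `k[X]` is free over `k[P]` with basis `1, …, X^(d-1)` (degrees mod `d`);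
`[K(s) : K(t)] ≤ d`; `s` is integral over `R[t]`.
-/

set_option autoImplicit false

open Polynomial

namespace Fermat.Agent.S36

section poly

variable {R : Type*} [CommRing R]

theorem C_dvd_iff_map_mk_eq_zero (π : R) (p : R[X]) :
    C π ∣ p ↔ p.map (Ideal.Quotient.mk (Ideal.span {π})) = 0 := by
  rw [Polynomial.C_dvd_iff_dvd_coeff, Polynomial.ext_iff]
  refine forall_congr' fun i => ?_
  rw [coeff_map, coeff_zero, Ideal.Quotient.eq_zero_iff_mem, Ideal.mem_span_singleton]

/-- `1, X, …, X^(d-1)` are linearly independent over `k[P]`, `P` of degree `d ≥ 1`. -/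
theorem eq_zero_of_sum_comp_mul_X_pow {k : Type*} [CommRing k] [IsDomain k] {P : k[X]} {d : ℕ}
    (hd : P.natDegree = d) (hd1 : 1 ≤ d) (c : Fin d → k[X])
    (h : ∑ a, (c a).comp P * X ^ (a : ℕ) = 0) (a : Fin d) : c a = 0 := by
  classical
  have hcomp : ∀ q : k[X], q.comp P = 0 → q = 0 := by
    intro q hq
    rcases (comp_eq_zero_iff).1 hq with h0 | ⟨_, h1⟩
    · exact h0
    · rw [h1, natDegree_C] at hd
      omega
  have hdeg : ∀ a, c a ≠ 0 → ((c a).comp P * X ^ (a : ℕ)).natDegree = (c a).natDegree * d + a := by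
    intro a ha
    rw [natDegree_mul_X_pow _ (fun h0 => ha (hcomp _ h0)), natDegree_comp, hd]
  have hne : ∀ a, (c a).comp P * X ^ (a : ℕ) ≠ 0 → c a ≠ 0 := by
    intro a h0 h1
    apply h0
    rw [h1, zero_comp, zero_mul]
  have hs := degree_sum_eq_of_disjoint (fun a : Fin d => (c a).comp P * X ^ (a : ℕ)) Finset.univ (by
    rintro a ⟨-, ha⟩ b ⟨-, hb⟩ hab heq
    apply hab
    simp only [Function.comp] at heq
    rw [degree_eq_natDegree ha, degree_eq_natDegree hb, Nat.cast_inj, hdeg a (hne a ha),
      hdeg b (hne b hb)] at heq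
    have h1 := congrArg (· % d) heq
    simp only [Nat.mul_add_mod_self_right, Nat.mod_eq_of_lt a.2, Nat.mod_eq_of_lt b.2] at h1
    exact Fin.ext h1)
  rw [h, degree_zero] at hs
  have h1 : ((c a).comp P * X ^ (a : ℕ)).degree ≤ ⊥ := by
    rw [hs]
    exact Finset.le_sup (f := fun a : Fin d => ((c a).comp P * X ^ (a : ℕ)).degree)
      (Finset.mem_univ a)
  have h2 : (c a).comp P * X ^ (a : ℕ) = 0 := degree_eq_bot.1 (le_bot_iff.1 h1)
  rcases mul_eq_zero.1 h2 with h3 | h3
  · exact hcomp _ h3
  · exact absurd h3 (pow_ne_zero _ X_ne_zero)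

theorem C_dvd_of_sum_comp_mul_X_pow {π : R} (hπ : Prime π) {P : R[X]} (hP : P.Monic) {d : ℕ}
    (hd : P.natDegree = d) (hd1 : 1 ≤ d) (c : Fin d → R[X])
    (h : C π ∣ ∑ a, (c a).comp P * X ^ (a : ℕ)) (a : Fin d) : C π ∣ c a := by
  have : (Ideal.span {π}).IsPrime := (Ideal.span_singleton_prime hπ.ne_zero).2 hπ
  rw [C_dvd_iff_map_mk_eq_zero] at h ⊢
  rw [Polynomial.map_sum] at h
  simp only [Polynomial.map_mul, Polynomial.map_comp, Polynomial.map_pow, Polynomial.map_X] at h
  exact eq_zero_of_sum_comp_mul_X_pow (P := P.map (Ideal.Quotient.mk (Ideal.span {π})))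
    (by rw [hP.natDegree_map, hd]) hd1 (fun a => (c a).map _) h a

theorem not_C_dvd_comp {π : R} (hπ : Prime π) {P : R[X]} (hP : P.Monic)
    (hd1 : 1 ≤ P.natDegree) {p : R[X]} (hp : ¬ C π ∣ p) : ¬ C π ∣ p.comp P := by
  have : (Ideal.span {π}).IsPrime := (Ideal.span_singleton_prime hπ.ne_zero).2 hπ
  rw [C_dvd_iff_map_mk_eq_zero] at hp ⊢
  rw [Polynomial.map_comp]
  intro h
  rcases (comp_eq_zero_iff).1 h with h0 | ⟨_, h1⟩
  · exact hp h0
  · have h2 := congrArg natDegree h1
    rw [hP.natDegree_map, natDegree_C] at h2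
    omega

end poly

section integral

variable {R : Type*} [CommRing R] {F : Type*} [Field F] [Algebra R F]

theorem isIntegral_of_ringHom_gp {A B : Type*} [CommRing A] [CommRing B] [Algebra A F] [Algebra B F]
    (φ : A →+* B) (h : ∀ a, algebraMap B F (φ a) = algebraMap A F a) {x : F}
    (hx : IsIntegral A x) : IsIntegral B x := by
  obtain ⟨p, hp, hp0⟩ := hx
  refine ⟨p.map φ, hp.map φ, ?_⟩
  rw [eval₂_map]
  have : (algebraMap B F).comp φ = algebraMap A F := RingHom.ext h
  rw [this]
  exact hp0

theorem adjoin_aeval_le (s : F) (P : R[X]) :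
    Algebra.adjoin R {aeval s P} ≤ Algebra.adjoin R {s} := by
  refine Algebra.adjoin_le ?_
  rintro _ rfl
  exact Polynomial.aeval_mem_adjoin_singleton R s

theorem isIntegral_adjoin_aeval (s : F) {P : R[X]} (hP : P.Monic) (hd1 : 1 ≤ P.natDegree) :
    IsIntegral (Algebra.adjoin R {aeval s P}) s := by
  set A := Algebra.adjoin R {aeval s P} with hA
  let t : A := ⟨aeval s P, Algebra.self_mem_adjoin_singleton R _⟩
  refine ⟨P.map (algebraMap R A) - C t, ?_, ?_⟩
  · refine (hP.map _).sub_of_left ?_
    refine degree_C_le.trans_lt ?_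
    rw [degree_eq_natDegree (hP.map _).ne_zero, hP.natDegree_map]
    exact_mod_cast hd1
  · rw [eval₂_sub, eval₂_C, eval₂_map, ← IsScalarTower.algebraMap_eq]
    show eval₂ (algebraMap R F) s P - aeval s P = 0
    rw [aeval_def, sub_self]

theorem intCl_aeval_eq (s : F) {P : R[X]} (hP : P.Monic) (hd1 : 1 ≤ P.natDegree) :
    intCl R (aeval s P) = intCl R s := by
  ext x
  rw [mem_intCl, mem_intCl]
  constructor
  · intro hx
    exact isIntegral_of_ringHom_gp (Subalgebra.inclusion (adjoin_aeval_le s P)).toRingHom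
      (fun _ => rfl) hx
  · intro hx
    have hle : Algebra.adjoin R {s} ≤
        (integralClosure (Algebra.adjoin R {aeval s P}) F).restrictScalars R := by
      refine Algebra.adjoin_le ?_
      intro y hy
      rw [Set.mem_singleton_iff] at hy
      rw [hy]
      exact isIntegral_adjoin_aeval s hP hd1
    have h1 : IsIntegral (integralClosure (Algebra.adjoin R {aeval s P}) F) x :=
      isIntegral_of_ringHom_gp
        (B := integralClosure (Algebra.adjoin R {aeval s P}) F)
        ((Subalgebra.inclusion hle).toRingHom) (fun _ => rfl) hx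
    exact isIntegral_trans x h1

end integral

section degree

variable {R : Type*} [CommRing R] {K : Type*} [Field K] [Algebra R K]
  {F : Type*} [Field F] [Algebra R F] [Algebra K F] [IsScalarTower R K F]

theorem aeval_mem_adjoin_gp (s : F) (P : R[X]) :
    aeval s P ∈ IntermediateField.adjoin K {s} := by
  have h1 : aeval s P = aeval s (P.map (algebraMap R K)) := by
    rw [aeval_map_algebraMap]
  rw [h1]
  have h2 : Algebra.adjoin K {s} ≤ (IntermediateField.adjoin K {s}).toSubalgebra :=
    IntermediateField.algebra_adjoin_le_adjoin K {s}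
  exact h2 (Polynomial.aeval_mem_adjoin_singleton K s)

theorem adjoin_aeval_le_adjoin_gp (s : F) (P : R[X]) :
    IntermediateField.adjoin K {aeval s P} ≤ IntermediateField.adjoin K {s} := by
  rw [IntermediateField.adjoin_le_iff]
  rintro _ rfl
  exact aeval_mem_adjoin_gp s P

theorem finrank_adjoin_aeval_gp (s : F) {P : R[X]} (hP : P.Monic) {d : ℕ} (hd : P.natDegree = d)
    (hd1 : 1 ≤ d) [FiniteDimensional (IntermediateField.adjoin K {s}) F] :
    0 < Module.finrank (IntermediateField.adjoin K {aeval s P}) F ∧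
      Module.finrank (IntermediateField.adjoin K {aeval s P}) F ≤
        d * Module.finrank (IntermediateField.adjoin K {s}) F := by
  set A := IntermediateField.adjoin K {aeval s P} with hA
  set B := IntermediateField.adjoin K {s} with hB
  have h : A ≤ B := adjoin_aeval_le_adjoin_gp s P
  let t : A := ⟨aeval s P, IntermediateField.mem_adjoin_simple_self K _⟩
  let Q : A[X] := (P.map (algebraMap R K)).map (algebraMap K A) - C t
  have hQm : Q.Monic := by
    refine ((hP.map _).map _).sub_of_left ?_
    refine degree_C_le.trans_lt ?_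
    rw [degree_eq_natDegree ((hP.map _).map _).ne_zero, (hP.map _).natDegree_map,
      hP.natDegree_map, hd]
    exact_mod_cast hd1
  have hQd : Q.natDegree = d := by
    have h0 : (C t).degree < ((P.map (algebraMap R K)).map (algebraMap K A)).degree := by
      refine degree_C_le.trans_lt ?_
      rw [degree_eq_natDegree ((hP.map _).map _).ne_zero, (hP.map _).natDegree_map,
        hP.natDegree_map, hd]
      exact_mod_cast hd1
    rw [natDegree_sub_eq_left_of_natDegree_lt, (hP.map _).natDegree_map, hP.natDegree_map, hd]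
    rw [natDegree_C, (hP.map _).natDegree_map, hP.natDegree_map, hd]
    exact hd1
  have hQ0 : aeval s Q = 0 := by
    show aeval s ((P.map (algebraMap R K)).map (algebraMap K A) - C t) = 0
    rw [map_sub, aeval_C, aeval_map_algebraMap, aeval_map_algebraMap]
    exact sub_self _
  have hs : IsIntegral A s := ⟨Q, hQm, hQ0⟩
  have hext : IntermediateField.extendScalars h = IntermediateField.adjoin A {s} := by
    apply le_antisymm
    · have h6 : B ≤ (IntermediateField.adjoin A {s}).restrictScalars K := by
        rw [hB, IntermediateField.adjoin_le_iff]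
        intro y hy
        rw [Set.mem_singleton_iff] at hy
        rw [hy]
        exact IntermediateField.mem_adjoin_simple_self A s
      intro x hx
      exact h6 hx
    · rw [IntermediateField.adjoin_le_iff]
      intro y hy
      rw [Set.mem_singleton_iff] at hy
      rw [hy]
      exact IntermediateField.mem_adjoin_simple_self K s
  have h1 : Module.finrank A (IntermediateField.extendScalars h) = (minpoly A s).natDegree := by
    rw [hext, IntermediateField.adjoin.finrank hs]
  have h2 : (minpoly A s).natDegree ≤ d := by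
    rw [← hQd]
    exact natDegree_le_of_dvd (minpoly.dvd A s hQ0) hQm.ne_zero
  have h3 : 0 < (minpoly A s).natDegree := minpoly.natDegree_pos hs
  have h4 := IntermediateField.relfinrank_mul_finrank_top h
  rw [IntermediateField.relfinrank_eq_finrank_of_le h, h1] at h4
  have h5 : 0 < Module.finrank B F := Module.finrank_pos
  rw [← h4]
  exact ⟨Nat.mul_pos h3 h5, Nat.mul_le_mul_right _ h2⟩

end degree

section main

variable {R : Type*} [CommRing R] {K : Type*} [Field K] [Algebra R K]
  {F : Type*} [Field F] [Algebra R F] [Algebra K F] [IsScalarTower R K F]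
  {π : R} {s : F}

theorem IsGaussAt.comp_poly (hπ : Prime π) {O : ValuationSubring F} (h : IsGaussAt π s O)
    {P : R[X]} (hP : P.Monic) (hd1 : 1 ≤ P.natDegree) : IsGaussAt π (aeval s P) O where
  const := h.const
  lt_one := h.lt_one
  prim := fun p hp => by
    rw [← aeval_comp]
    exact h.prim _ (not_C_dvd_comp hπ hP hd1 hp)

theorem IsGaussAt.self_mem (hπ : Prime π) {O : ValuationSubring F} (h : IsGaussAt π s O) :
    s ∈ O := by
  have h1 := h.prim X (by
    intro h0
    have h2 := (Polynomial.C_dvd_iff_dvd_coeff _ _).1 h0 1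
    rw [coeff_X_one] at h2
    exact hπ.not_isUnit (isUnit_of_dvd_one h2))
  rw [aeval_X] at h1
  exact (O.valuation_le_one_iff s).1 h1.le

variable {ι : Type*} [Fintype ι] {O : ι → ValuationSubring F} {e f : ι → ℕ}

/-- **[GAUSS-POLY]** change of the chart function `s ↦ P(s)`, `P` monic of degree `d ≥ 1`
(general version: `π` prime in a commutative ring `R`). -/
theorem GaussSys.comp_poly' (hπ : Prime π) (S : GaussSys K π s O e f) {P : R[X]} (hP : P.Monic)
    {d : ℕ} (hd : P.natDegree = d) (hd1 : 1 ≤ d) :
    GaussSys K π (aeval s P) O e (fun i => d * f i) := by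
  have := S.fin
  obtain ⟨hpos, hle⟩ := finrank_adjoin_aeval_gp (K := K) s hP hd hd1
  refine ⟨S.inj, fun i => (S.gauss i).comp_poly hπ hP (hd ▸ hd1), S.ram, fun i => ?_,
    Module.finite_of_finrank_pos hpos, ?_⟩
  · obtain ⟨ω, hω, hω2⟩ := S.res i
    have hs : s ∈ O i := (S.gauss i).self_mem hπ
    refine ⟨fun j => s ^ ((finProdFinEquiv.symm j).1 : ℕ) * ω (finProdFinEquiv.symm j).2,
      fun j => mul_mem (pow_mem hs _) (hω _), ?_⟩
    intro c hc
    have h1 : ∑ j, aeval (aeval s P) (c j) *
        (s ^ ((finProdFinEquiv.symm j).1 : ℕ) * ω (finProdFinEquiv.symm j).2) =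
        ∑ k, aeval s (∑ a : Fin d, (c (finProdFinEquiv (a, k))).comp P * X ^ (a : ℕ)) * ω k := by
      rw [← Equiv.sum_comp finProdFinEquiv, Fintype.sum_prod_type_right]
      refine Finset.sum_congr rfl fun k _ => ?_
      rw [map_sum, Finset.sum_mul]
      refine Finset.sum_congr rfl fun a _ => ?_
      rw [Equiv.symm_apply_apply, map_mul, aeval_comp, map_pow, aeval_X, mul_assoc]
    rw [h1] at hc
    have h2 := hω2 _ hc
    intro j
    have h3 := C_dvd_of_sum_comp_mul_X_pow hπ hP hd hd1
      (fun a => c (finProdFinEquiv (a, (finProdFinEquiv.symm j).2))) (h2 _)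
      (finProdFinEquiv.symm j).1
    have h4 : finProdFinEquiv ((finProdFinEquiv.symm j).1, (finProdFinEquiv.symm j).2) = j :=
      finProdFinEquiv.apply_symm_apply j
    rw [h4] at h3
    exact h3
  · refine hle.trans ?_
    have h1 : ∑ i, e i * (d * f i) = d * ∑ i, e i * f i := by
      rw [Finset.mul_sum]
      exact Finset.sum_congr rfl fun i _ => by ring
    rw [h1]
    exact Nat.mul_le_mul_left _ S.sum

/-- **[GAUSS-POLY]** change of the chart function `s ↦ P(s)`, `P` monic of degree `d ≥ 1`. -/
theorem GaussSys.comp_poly [IsDomain R] [IsDiscreteValuationRing R] (hπ : Irreducible π)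
    (S : GaussSys K π s O e f) {P : R[X]} (hP : P.Monic) {d : ℕ} (hd : P.natDegree = d)
    (hd1 : 1 ≤ d) : GaussSys K π (aeval s P) O e (fun i => d * f i) :=
  S.comp_poly' hπ.prime hP hd hd1

end main

end Fermat.Agent.S36
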