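import Fermat.Agent.S36.Abs.SepCusp
import Fermat.Agent.S36.Abs.GaussPoly

/-!
# S36 / abstract part : `[GLOB]` (WP DL1)

`GaussSys.glob_aux` = the statement of `GaussSys.glob` of `Abs/DedLevel.lean`.
-/

set_option autoImplicit false

open Polynomial

namespace Fermat.Agent.S36

variable {R : Type*} [CommRing R] [IsDomain R] [IsDiscreteValuationRing R]
  {K : Type*} [Field K] [Algebra R K] [IsFractionRing R K]
  {F : Type*} [Field F] [CharZero F] [Algebra R F] [Algebra K F] [IsScalarTower R K F]
  {π : R}

variable {ι : Type*} [Fintype ι] {O : ι → ValuationSubring F} {e f : ι → ℕ}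

omit [IsDomain R] [IsDiscreteValuationRing R] [IsFractionRing R K] [CharZero F] in
/-- an element lying in every valuation ring containing `K` is integral over `K`. -/
theorem isIntegral_of_forall_valuationSubring_aux {x : F}
    (h : ∀ V : ValuationSubring F, (∀ c : K, algebraMap K F c ∈ V) → x ∈ V) : IsIntegral K x := by
  have h1 : x ∈ intCl K (0 : F) :=
    mem_intCl_of_forall_valuationSubring fun V hV _ => h V hV
  rw [mem_intCl] at h1
  have : Algebra.IsIntegral K (Algebra.adjoin K {(0 : F)}) :=
    Algebra.IsIntegral.adjoin (by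
      rintro _ rfl
      exact isIntegral_zero)
  exact isIntegral_trans x h1

theorem GaussSys.glob_aux [Nonempty ι] {t : F} (hπ : Irreducible π) (S : GaussSys K π t O e f)
    (hK : ∀ x : F, IsIntegral K x → x ∈ Set.range (algebraMap K F)) :
    ∀ x, x ∈ intCl R t → x ∈ intCl R t⁻¹ → x ∈ Set.range (algebraMap R F) := by
  intro x hx hx'
  obtain ⟨i⟩ := ‹Nonempty ι›
  have hint : IsIntegral K x := by
    apply isIntegral_of_forall_valuationSubring_aux
    intro V hV
    have hR : ∀ r : R, algebraMap R F r ∈ V := fun r => by
      rw [IsScalarTower.algebraMap_apply R K F]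
      exact hV _
    rcases V.mem_or_inv_mem t with ht | ht
    · exact intCl_le_of_mem hR ht hx
    · exact intCl_le_of_mem hR ht hx'
  obtain ⟨c, rfl⟩ := hK x hint
  rcases eq_or_ne c 0 with rfl | hc
  · exact ⟨0, by simp⟩
  rcases ValuationRing.isInteger_or_isInteger R c with ⟨r, hr⟩ | ⟨r, hr⟩
  · exact ⟨r, by rw [IsScalarTower.algebraMap_apply R K F, hr]⟩
  · by_cases hu : IsUnit r
    · obtain ⟨u, rfl⟩ := hu
      refine ⟨((u⁻¹ : Rˣ) : R), ?_⟩
      rw [IsScalarTower.algebraMap_apply R K F]
      congr 1
      have h1 : algebraMap R K ((u⁻¹ : Rˣ) : R) * algebraMap R K (u : R) = 1 := by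
        rw [← map_mul, Units.inv_mul, map_one]
      rw [hr] at h1
      field_simp at h1
      exact h1
    · exfalso
      have hdvd : π ∣ r := by
        have h1 : r ∈ IsLocalRing.maximalIdeal R := (IsLocalRing.mem_maximalIdeal r).2 hu
        rw [hπ.maximalIdeal_eq, Ideal.mem_span_singleton] at h1
        exact h1
      obtain ⟨r', rfl⟩ := hdvd
      have hxO : (O i).valuation (algebraMap K F c) ≤ 1 :=
        ((O i).valuation_le_one_iff _).2 (intCl_le (S.gauss i) hx)
      have h2 : (O i).valuation (algebraMap R F (π * r')) < 1 := by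
        rw [map_mul, map_mul]
        calc (O i).valuation (algebraMap R F π) * (O i).valuation (algebraMap R F r')
            ≤ (O i).valuation (algebraMap R F π) * 1 := by
              gcongr
              exact ((O i).valuation_le_one_iff _).2 ((S.gauss i).const r')
          _ < 1 := by simpa using (S.gauss i).lt_one
      rw [IsScalarTower.algebraMap_apply R K F, hr, map_inv₀, map_inv₀] at h2
      have hv0 : (O i).valuation (algebraMap K F c) ≠ 0 :=
        (Valuation.ne_zero_iff _).2 (by simpa using hc)
      have h3 : 1 < (O i).valuation (algebraMap K F c) := by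
        rwa [inv_lt_one₀ (zero_lt_iff.2 hv0)] at h2
      exact absurd hxO (not_le.2 h3)

end Fermat.Agent.S36
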