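import Fermat.Agent.S36.Abs.DedTools

/-!
# S36 / abstract part : `[RED-T2]`, `(L)`  (DL6)  for `Abs/DedLevel.lean`

`JTriple.red_t₂_aux`, `JTriple.inv_t₂_mem_aux` : same statements as in `Abs/DedLevel.lean`.
-/

set_option autoImplicit false

open Polynomial

namespace Fermat.Agent.S36

section Res

variable {F : Type*} [Field F]

/-- congruence modulo the maximal ideal, in the residue field. -/
theorem val_sub_lt_one_iff_residue (V : ValuationSubring F) (a b : V) :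
    V.valuation ((a : F) - (b : F)) < 1 ↔ IsLocalRing.residue V a = IsLocalRing.residue V b := by
  rw [← sub_eq_zero, ← map_sub, IsLocalRing.residue_eq_zero_iff, ValuationSubring.valuation_lt_one_iff]
  rfl

theorem charP_residue_of_val_lt_one (V : ValuationSubring F) {q : ℕ} (hq : q.Prime)
    (hV : V.valuation (q : F) < 1) : CharP (IsLocalRing.ResidueField V) q := by
  rw [CharP.charP_iff_prime_eq_zero hq]
  have h1 : IsLocalRing.residue V (q : V) = 0 := by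
    rw [IsLocalRing.residue_eq_zero_iff, ValuationSubring.valuation_lt_one_iff]
    simpa using hV
  simpa using h1

end Res

variable {R : Type*} [CommRing R] [IsDomain R] [IsDiscreteValuationRing R]
  {K : Type*} [Field K] [Algebra R K] [IsFractionRing R K]
  {F : Type*} [Field F] [CharZero F] [Algebra R F] [Algebra K F] [IsScalarTower R K F]
  {q : ℕ} {O : Fin 3 → ValuationSubring F} {e f : Fin 3 → ℕ} {j : Fin 3 → F}

/-- the reductions of `t₂ = j 2 ^ (q²) - j 2` : `t₂ ≡ t ^ (q²)`, `t₂ ≡ t`, `t ≡ t₂ ^ (q²)`. -/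
theorem JTriple.red_t₂_aux (J : JTriple R q O j) (hq : q.Prime)
    (S : GaussSys K ((q : ℕ) : R) (j 0 ^ (q ^ 2) - j 0) O e f)
    (h2b : (O 2).valuation (j 1 - j 2 ^ q) < 1) :
    (O 0).valuation ((j 2 ^ (q ^ 2) - j 2) - (j 0 ^ (q ^ 2) - j 0) ^ (q ^ 2)) < 1 ∧
    (O 1).valuation ((j 2 ^ (q ^ 2) - j 2) - (j 0 ^ (q ^ 2) - j 0)) < 1 ∧
    (O 2).valuation ((j 0 ^ (q ^ 2) - j 0) - (j 2 ^ (q ^ 2) - j 2) ^ (q ^ 2)) < 1 := by
  have hq2 : 2 ≤ q ^ 2 := by nlinarith [hq.two_le]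
  have hfact : Fact q.Prime := ⟨hq⟩
  have hB : ∀ i, intCl R (j 0) ≤ (O i).toSubring := fun i => by
    rw [← intCl_pow_sub_self_aux (R := R) (j 0) hq2]
    exact intCl_le (S.gauss i)
  have h0 : ∀ i, j 0 ∈ O i := fun i => hB i (self_mem_intCl R _)
  have h1 : ∀ i, j 1 ∈ O i := fun i => hB i J.int01
  have h2 : ∀ i, j 2 ∈ O i := fun i => hB i (intCl_le_intCl_of_mem_aux J.int01 J.int12)
  have hchar : ∀ i, CharP (IsLocalRing.ResidueField (O i)) q := fun i => by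
    refine charP_residue_of_val_lt_one (O i) hq ?_
    have := (S.gauss i).lt_one
    simpa using this
  refine ⟨?_, ?_, ?_⟩
  · have := hchar 0
    have e1 := (val_sub_lt_one_iff_residue (O 0) ⟨j 1, h1 0⟩ (⟨j 0, h0 0⟩ ^ q)).1 J.red0a
    have e2 := (val_sub_lt_one_iff_residue (O 0) ⟨j 2, h2 0⟩ (⟨j 1, h1 0⟩ ^ q)).1 J.red0b
    refine (val_sub_lt_one_iff_residue (O 0) (⟨j 2, h2 0⟩ ^ (q ^ 2) - ⟨j 2, h2 0⟩)
      ((⟨j 0, h0 0⟩ ^ (q ^ 2) - ⟨j 0, h0 0⟩) ^ (q ^ 2))).2 ?_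
    simp only [map_sub, map_pow] at e1 e2 ⊢
    rw [sub_pow_expChar_pow, e2, e1]
    ring
  · have e2 := (val_sub_lt_one_iff_residue (O 1) ⟨j 2, h2 1⟩ ⟨j 0, h0 1⟩).1 J.red1b
    refine (val_sub_lt_one_iff_residue (O 1) (⟨j 2, h2 1⟩ ^ (q ^ 2) - ⟨j 2, h2 1⟩)
      (⟨j 0, h0 1⟩ ^ (q ^ 2) - ⟨j 0, h0 1⟩)).2 ?_
    simp only [map_sub, map_pow] at e2 ⊢
    rw [e2]
  · have := hchar 2
    have e1 := (val_sub_lt_one_iff_residue (O 2) ⟨j 0, h0 2⟩ (⟨j 1, h1 2⟩ ^ q)).1 J.red2a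
    have e2 := (val_sub_lt_one_iff_residue (O 2) ⟨j 1, h1 2⟩ (⟨j 2, h2 2⟩ ^ q)).1 h2b
    refine (val_sub_lt_one_iff_residue (O 2) (⟨j 0, h0 2⟩ ^ (q ^ 2) - ⟨j 0, h0 2⟩)
      ((⟨j 2, h2 2⟩ ^ (q ^ 2) - ⟨j 2, h2 2⟩) ^ (q ^ 2))).2 ?_
    simp only [map_sub, map_pow] at e1 e2 ⊢
    rw [sub_pow_expChar_pow, e1, e2]
    ring

/-- **(L)**  every valuation ring `V ⊇ B₂` of residue characteristic `q` contains `1 / t₂`. -/
theorem JTriple.inv_t₂_mem_aux (J : JTriple R q O j) (hq : q.Prime)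
    (irr : Irreducible ((q : ℕ) : R))
    (S : GaussSys K ((q : ℕ) : R) (j 0 ^ (q ^ 2) - j 0) O e f)
    (h2b : (O 2).valuation (j 1 - j 2 ^ q) < 1)
    (V : ValuationSubring F) (hV : intCl R (j 0 ^ (q ^ 2) - j 0)⁻¹ ≤ V.toSubring)
    (hVq : V.valuation (q : F) < 1) : (j 2 ^ (q ^ 2) - j 2)⁻¹ ∈ V := by
  have hq2 : 2 ≤ q ^ 2 := by nlinarith [hq.two_le]
  have hR : ∀ r : R, algebraMap R F r ∈ V := fun r => hV (algebraMap_mem_intCl R _ r)
  have htinv : (j 0 ^ (q ^ 2) - j 0)⁻¹ ∈ V := hV (self_mem_intCl R _)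
  have hinv : ∀ {a : F}, 1 ≤ V.valuation a → a⁻¹ ∈ V := by
    intro a ha
    rw [← V.valuation_le_one_iff, map_inv₀]
    exact inv_le_one_of_one_le₀ ha
  by_cases h0 : j 0 ∈ V
  · -- (i)
    set t := j 0 ^ (q ^ 2) - j 0 with ht
    set t₂ := j 2 ^ (q ^ 2) - j 2 with ht₂
    have hB0 : intCl R (j 0) ≤ V.toSubring := intCl_le_of_mem hR h0
    have hB : intCl R t ≤ V.toSubring := by
      rw [ht, intCl_pow_sub_self_aux (R := R) (j 0) hq2]
      exact hB0
    have htB : t ∈ intCl R t := self_mem_intCl R t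
    have ht₂B : t₂ ∈ intCl R t := J.intCl_t₂_le_aux hq.two_le (self_mem_intCl R _)
    have ht0 : t ≠ 0 := by
      intro h
      have h1 := (S.gauss 0).prim X (by
        intro hdvd
        have h2 := (Polynomial.C_dvd_iff_dvd_coeff _ _).1 hdvd 1
        rw [coeff_X_one] at h2
        exact irr.not_isUnit (isUnit_of_dvd_one h2))
      rw [aeval_X, h, map_zero] at h1
      exact zero_ne_one h1
    have hvt : V.valuation t = 1 := by
      apply le_antisymm ((V.valuation_le_one_iff _).2 (hB htB))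
      have h1 := (V.valuation_le_one_iff _).2 htinv
      rw [map_inv₀] at h1
      exact (inv_le_one₀ (by rw [pos_iff_ne_zero]; exact (Valuation.ne_zero_iff _).2 ht0)).1 h1
    have hqm : piB R t ((q : ℕ) : R) ∈ centre (intCl R t) V hB := by
      rw [mem_centre]
      change V.valuation (algebraMap R F ((q : ℕ) : R)) < 1
      simpa using hVq
    obtain ⟨i, hi⟩ := S.cover irr (centre (intCl R t) V hB) inferInstance hqm
    obtain ⟨r0, r1, r2⟩ := J.red_t₂_aux hq S h2b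
    have key : ∀ {d : F} (hd : d ∈ intCl R t), (O i).valuation d < 1 → V.valuation d < 1 := by
      intro d hd hv
      exact (mem_centre hB (b := ⟨d, hd⟩)).1 (hi ((S.mem_p i).2 hv))
    have hvt₂ : V.valuation t₂ = 1 := by
      fin_cases i
      · have h1 := key (Subring.sub_mem _ ht₂B (Subring.pow_mem _ htB _)) r0
        have h2 : V.valuation (t ^ (q ^ 2)) = 1 := by rw [map_pow, hvt, one_pow]
        have h3 : t₂ = t ^ (q ^ 2) + (t₂ - t ^ (q ^ 2)) := by ring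
        rw [h3, Valuation.map_add_eq_of_lt_left _ (by rw [h2]; exact h1), h2]
      · have h1 := key (Subring.sub_mem _ ht₂B htB) r1
        have h3 : t₂ = t + (t₂ - t) := by ring
        rw [h3, Valuation.map_add_eq_of_lt_left _ (by rw [hvt]; exact h1), hvt]
      · have h1 := key (Subring.sub_mem _ htB (Subring.pow_mem _ ht₂B _)) r2
        have h3 : t₂ ^ (q ^ 2) = t - (t - t₂ ^ (q ^ 2)) := by ring
        have h4 : V.valuation (t₂ ^ (q ^ 2)) = 1 := by
          rw [h3, Valuation.map_sub_eq_of_lt_left _ (by rw [hvt]; exact h1), hvt]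
        rw [map_pow] at h4
        exact (pow_eq_one_iff_of_nonneg zero_le (by omega)).1 h4
    exact hinv hvt₂.ge
  · -- (ii)
    have h2 : j 2 ∉ V := fun h2 =>
      h0 (intCl_le_of_mem hR (intCl_le_of_mem hR h2 J.int21) J.int10)
    have h3 : 1 < V.valuation (j 2) := by
      rw [← not_le, V.valuation_le_one_iff]
      exact h2
    apply hinv
    rw [val_pow_sub_self h3 hq2]
    exact (one_lt_pow₀ h3 (by omega)).le

end Fermat.Agent.S36
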