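import Mathlib

/-!
# S36 / abstract part : `[NORMRED]`, Dedekind level core

`R` a local ring (in the applications a DVR) with maximal ideal `p`, `S` a Dedekind domain which is
a finite free `R`-algebra.  Then for `x : S`

  `N_{S/R}(x) mod p = ∏_P N_{(S/P)/(R/p)}(x mod P) ^ e(P)`   (`mk_norm_eq_prod`)

the product over the prime factors `P` of `pS` (with multiplicity).  The proof is by dévissage:
`N(x) mod p` is the determinant of the multiplication by `x` on `S/pS` (`norm_quotient_mk`),
determinants are multiplicative in exact sequences (`det_of_exact`) and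
`0 → S/P → S/JP → S/J → 0` is exact (`qn_mul`).
Corollaries: `(b1)` `mk_norm_eq_prod_pow`, `(b2)` `norm_sub_pow_mem`, `(a)` `span_norm_eq_pow`.
-/

set_option autoImplicit false
set_option linter.style.haveILetI false
set_option linter.unusedSectionVars false

namespace Fermat.Agent.S36.Abs

open IsLocalRing Ideal Module

section C1

variable {R S : Type*} [CommRing R] [CommRing S] [Algebra R S] [IsLocalRing R]
  [Module.Free R S] [Module.Finite R S]

attribute [local instance] Ideal.Quotient.field

/-- (C1) the norm commutes with reduction modulo the maximal ideal. -/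
theorem norm_quotient_mk (x : S) :
    Algebra.norm (R ⧸ maximalIdeal R)
      (Ideal.Quotient.mk ((maximalIdeal R).map (algebraMap R S)) x) =
      Ideal.Quotient.mk (maximalIdeal R) (Algebra.norm R x) := by
  classical
  let ι := Module.Free.ChooseBasisIndex R S
  let b : Module.Basis ι R S := Module.Free.chooseBasis R S
  rw [Algebra.norm_eq_matrix_det b, Algebra.norm_eq_matrix_det (basisQuotient b), RingHom.map_det]
  congr 1
  ext i j
  simp only [Algebra.leftMulMatrix_apply, Algebra.coe_lmul_eq_mul, LinearMap.toMatrix_apply,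
    basisQuotient_apply, LinearMap.mul_apply', RingHom.mapMatrix_apply, Matrix.map_apply, ← map_mul,
    basisQuotient_repr]

theorem finrank_quotient_map_maximalIdeal :
    Module.finrank (R ⧸ maximalIdeal R) (S ⧸ (maximalIdeal R).map (algebraMap R S)) =
      Module.finrank R S := by
  classical
  let ι := Module.Free.ChooseBasisIndex R S
  let b : Module.Basis ι R S := Module.Free.chooseBasis R S
  rw [Module.finrank_eq_card_basis b, Module.finrank_eq_card_basis (basisQuotient b)]

end C1

section LemmaB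

variable {k M' M M'' : Type*} [Field k] [AddCommGroup M'] [Module k M'] [AddCommGroup M]
  [Module k M] [AddCommGroup M''] [Module k M''] [FiniteDimensional k M]

/-- determinants are multiplicative in short exact sequences. -/
theorem det_of_exact (i : M' →ₗ[k] M) (π : M →ₗ[k] M'') (hi : Function.Injective i)
    (hπ : Function.Surjective π) (hex : LinearMap.range i = LinearMap.ker π)
    (φ' : M' →ₗ[k] M') (φ : M →ₗ[k] M) (φ'' : M'' →ₗ[k] M'')
    (h1 : ∀ x, i (φ' x) = φ (i x)) (h2 : ∀ x, π (φ x) = φ'' (π x)) :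
    LinearMap.det φ = LinearMap.det φ' * LinearMap.det φ'' := by
  set W := LinearMap.range i with hW
  have he : W ≤ W.comap φ := by
    rintro _ ⟨m, rfl⟩
    exact ⟨φ' m, h1 m⟩
  rw [LinearMap.det_eq_det_mul_det W φ he]
  congr 1
  · let e₁ : M' ≃ₗ[k] W := LinearEquiv.ofInjective i hi
    rw [← LinearMap.det_conj φ' e₁]
    congr 1
    ext w
    obtain ⟨m, rfl⟩ := e₁.surjective w
    simp only [LinearMap.coe_restrict_apply, LinearMap.coe_comp, LinearEquiv.coe_coe,
      Function.comp_apply, LinearEquiv.symm_apply_apply]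
    exact (h1 m).symm
  · let e₂ : (M ⧸ W) ≃ₗ[k] M'' :=
      (Submodule.quotEquivOfEq W (LinearMap.ker π) hex).trans (π.quotKerEquivOfSurjective hπ)
    have he₂ : ∀ m : M, e₂ (Submodule.Quotient.mk m) = π m := fun m => rfl
    rw [← LinearMap.det_conj (W.mapQ W φ he) e₂]
    congr 1
    ext m''
    obtain ⟨q, rfl⟩ := e₂.surjective m''
    obtain ⟨m, rfl⟩ := Submodule.Quotient.mk_surjective _ q
    simp only [LinearMap.coe_comp, LinearEquiv.coe_coe, Function.comp_apply,
      LinearEquiv.symm_apply_apply]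
    rw [Submodule.mapQ_apply, he₂, he₂, h2]

end LemmaB

section Chain

variable {R S : Type*} [CommRing R] [CommRing S] [Algebra R S] (p : Ideal R) [p.IsMaximal]

attribute [local instance] Ideal.Quotient.field

/-- the norm of `x mod I` over `R/p`, for an ideal `I ⊇ pS` (junk value `1` otherwise). -/
noncomputable def qn (I : Ideal S) (x : S) : R ⧸ p :=
  open Classical in
  if h : p ≤ I.comap (algebraMap R S) then
    letI := Ideal.Quotient.algebraQuotientOfLEComap h
    Algebra.norm (R ⧸ p) (Ideal.Quotient.mk I x)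
  else 1

theorem qn_eq {I : Ideal S} (h : p ≤ I.comap (algebraMap R S)) (x : S) :
    qn p I x = (letI := Ideal.Quotient.algebraQuotientOfLEComap h
      Algebra.norm (R ⧸ p) (Ideal.Quotient.mk I x)) := by
  rw [qn, dif_pos h]

theorem qn_top (x : S) : qn p (⊤ : Ideal S) x = 1 := by
  rw [qn_eq p (by simp)]
  letI : Algebra (R ⧸ p) (S ⧸ (⊤ : Ideal S)) :=
    Ideal.Quotient.algebraQuotientOfLEComap (p := p) (by simp)
  haveI : Subsingleton (S ⧸ (⊤ : Ideal S)) := Ideal.Quotient.subsingleton_iff.2 rfl
  rw [Algebra.norm_apply]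
  exact LinearMap.det_eq_one_of_subsingleton _

/-- an `S`-linear map between quotients of `S` is `R/p`-linear. -/
noncomputable def qlin {I I' : Ideal S} (h : p ≤ I.comap (algebraMap R S))
    (h' : p ≤ I'.comap (algebraMap R S)) (g : (S ⧸ I) →ₗ[S] (S ⧸ I')) :
    letI := Ideal.Quotient.algebraQuotientOfLEComap h
    letI := Ideal.Quotient.algebraQuotientOfLEComap h'
    (S ⧸ I) →ₗ[R ⧸ p] (S ⧸ I') :=
  letI := Ideal.Quotient.algebraQuotientOfLEComap h
  letI := Ideal.Quotient.algebraQuotientOfLEComap h'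
  { toFun := g
    map_add' := g.map_add
    map_smul' := by
      intro c y
      obtain ⟨r, rfl⟩ := Ideal.Quotient.mk_surjective c
      have e1 : ∀ z : S ⧸ I, (Ideal.Quotient.mk p r) • z = (algebraMap R S r) • z := by
        intro z
        obtain ⟨s, rfl⟩ := Ideal.Quotient.mk_surjective z
        rw [Algebra.smul_def]; rfl
      have e2 : ∀ z : S ⧸ I', (Ideal.Quotient.mk p r) • z = (algebraMap R S r) • z := by
        intro z
        obtain ⟨s, rfl⟩ := Ideal.Quotient.mk_surjective z
        rw [Algebra.smul_def]; rfl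
      rw [e1, RingHom.id_apply, e2, g.map_smul] }

theorem finite_quot [Module.Finite R S] {I : Ideal S} (h : p ≤ I.comap (algebraMap R S)) :
    letI := Ideal.Quotient.algebraQuotientOfLEComap h
    Module.Finite (R ⧸ p) (S ⧸ I) := by
  letI := Ideal.Quotient.algebraQuotientOfLEComap h
  haveI : IsScalarTower R (R ⧸ p) (S ⧸ I) := IsScalarTower.of_algebraMap_eq' rfl
  exact Module.Finite.of_restrictScalars_finite R (R ⧸ p) (S ⧸ I)

theorem qn_mul [Module.Finite R S] [IsDedekindDomain S] (J P : Ideal S) (hP : P.IsMaximal)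
    (hJ : J ≠ ⊥) (h : p ≤ (J * P).comap (algebraMap R S)) (x : S) :
    qn p (J * P) x = qn p P x * qn p J x := by
  have hJ' : p ≤ J.comap (algebraMap R S) := h.trans (Ideal.comap_mono Ideal.mul_le_left)
  have hP' : p ≤ P.comap (algebraMap R S) := h.trans (Ideal.comap_mono Ideal.mul_le_right)
  rw [qn_eq p h, qn_eq p hJ', qn_eq p hP']
  letI i1 := Ideal.Quotient.algebraQuotientOfLEComap h
  letI i2 := Ideal.Quotient.algebraQuotientOfLEComap hJ'
  letI i3 := Ideal.Quotient.algebraQuotientOfLEComap hP'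
  haveI := finite_quot p h
  -- choose `a ∈ J \ JP`
  have hlt : J * P < J := by
    refine lt_of_le_of_ne Ideal.mul_le_left fun he => ?_
    have : J * P = J * ⊤ := by rw [he, Ideal.mul_top]
    exact hP.ne_top (mul_left_cancel₀ hJ this)
  obtain ⟨a, haJ, haJP⟩ := SetLike.exists_of_lt hlt
  -- `(a) + JP = J`
  have hsup : Ideal.span {a} ⊔ J * P = J := by
    have hle : Ideal.span {a} ⊔ J * P ≤ J :=
      sup_le ((Ideal.span_singleton_le_iff_mem _).2 haJ) Ideal.mul_le_left
    obtain ⟨I', hI'⟩ := Ideal.dvd_iff_le.2 hle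
    have h1 : J * P ≤ J * I' := hI' ▸ le_sup_right
    have h2 : P ≤ I' := by
      have := Ideal.dvd_iff_le.2 h1
      exact Ideal.dvd_iff_le.1 ((mul_dvd_mul_iff_left hJ).1 this)
    by_cases h3 : I' = ⊤
    · rw [hI', h3, Ideal.mul_top]
    · exfalso
      apply haJP
      rw [hP.eq_of_le h3 h2, ← hI']
      exact le_sup_left (a := Ideal.span {a}) (Ideal.mem_span_singleton_self a)
  -- the maps
  have hmap : P ≤ Submodule.comap (LinearMap.mulLeft S a) (J * P) := by
    intro y hy
    exact Ideal.mul_mem_mul haJ hy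
  let gi : (S ⧸ P) →ₗ[S] (S ⧸ (J * P)) := Submodule.mapQ P (J * P) (LinearMap.mulLeft S a) hmap
  have hgi : ∀ y : S, gi (Ideal.Quotient.mk P y) = Ideal.Quotient.mk (J * P) (a * y) := fun _ => rfl
  let gπ : (S ⧸ (J * P)) →ₗ[S] (S ⧸ J) := Submodule.mapQ (J * P) J LinearMap.id Ideal.mul_le_left
  have hgπ : ∀ y : S, gπ (Ideal.Quotient.mk (J * P) y) = Ideal.Quotient.mk J y := fun _ => rfl
  rw [Algebra.norm_apply, Algebra.norm_apply, Algebra.norm_apply]
  refine det_of_exact (qlin p hP' h gi) (qlin p h hJ' gπ) ?_ ?_ ?_ _ _ _ ?_ ?_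
  · -- injectivity
    show Function.Injective gi
    rw [injective_iff_map_eq_zero]
    intro y hy
    obtain ⟨y, rfl⟩ := Ideal.Quotient.mk_surjective y
    rw [hgi, Ideal.Quotient.eq_zero_iff_mem] at hy
    rw [Ideal.Quotient.eq_zero_iff_mem]
    by_contra hyP
    obtain ⟨r, t, htP, hrt⟩ := hP.exists_inv hyP
    apply haJP
    have : a = r * (a * y) + a * t := by linear_combination (-a) * hrt
    rw [this]
    exact (J * P).add_mem ((J * P).mul_mem_left _ hy) (Ideal.mul_mem_mul haJ htP)
  · show Function.Surjective gπ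
    intro y
    obtain ⟨y, rfl⟩ := Ideal.Quotient.mk_surjective y
    exact ⟨Ideal.Quotient.mk _ y, rfl⟩
  · -- exactness
    ext z
    obtain ⟨y, rfl⟩ := Ideal.Quotient.mk_surjective z
    rw [LinearMap.mem_ker, LinearMap.mem_range]
    show (∃ w, gi w = Ideal.Quotient.mk (J * P) y) ↔ gπ (Ideal.Quotient.mk (J * P) y) = 0
    rw [hgπ, Ideal.Quotient.eq_zero_iff_mem]
    constructor
    · rintro ⟨w, hw⟩
      obtain ⟨w, rfl⟩ := Ideal.Quotient.mk_surjective w
      rw [hgi, Ideal.Quotient.eq] at hw
      have : y = a * w - (a * w - y) := by ring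
      rw [this]
      exact J.sub_mem (J.mul_mem_right _ haJ) (Ideal.mul_le_left hw)
    · intro hy
      rw [← hsup] at hy
      obtain ⟨u, hu, v, hv, rfl⟩ := Submodule.mem_sup.1 hy
      obtain ⟨w, rfl⟩ := Ideal.mem_span_singleton'.1 hu
      refine ⟨Ideal.Quotient.mk P w, ?_⟩
      rw [hgi, Ideal.Quotient.eq]
      have : a * w - (w * a + v) = -v := by ring
      rw [this]
      exact (J * P).neg_mem hv
  · intro y
    obtain ⟨y, rfl⟩ := Ideal.Quotient.mk_surjective y
    show gi (Ideal.Quotient.mk P x * Ideal.Quotient.mk P y) =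
      Ideal.Quotient.mk (J * P) x * gi (Ideal.Quotient.mk P y)
    rw [← map_mul, hgi, hgi, ← map_mul]
    congr 1; ring
  · intro y
    obtain ⟨y, rfl⟩ := Ideal.Quotient.mk_surjective y
    show gπ (Ideal.Quotient.mk (J * P) x * Ideal.Quotient.mk (J * P) y) =
      Ideal.Quotient.mk J x * gπ (Ideal.Quotient.mk (J * P) y)
    rw [← map_mul, hgπ, hgπ, ← map_mul]


theorem qn_multiset_prod [Module.Finite R S] [IsDedekindDomain S] (s : Multiset (Ideal S))
    (hs : ∀ P ∈ s, P.IsMaximal) (hs0 : ∀ P ∈ s, P ≠ ⊥)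
    (h : p ≤ s.prod.comap (algebraMap R S)) (x : S) :
    qn p s.prod x = (s.map (fun P => qn p P x)).prod := by
  induction s using Multiset.induction_on with
  | empty =>
    rw [Multiset.prod_zero, Multiset.map_zero, Multiset.prod_zero, Ideal.one_eq_top, qn_top]
  | cons P s ih =>
    have hs' : ∀ Q ∈ s, Q.IsMaximal := fun Q hQ => hs Q (Multiset.mem_cons_of_mem hQ)
    have hs0' : ∀ Q ∈ s, Q ≠ ⊥ := fun Q hQ => hs0 Q (Multiset.mem_cons_of_mem hQ)
    have hne : s.prod ≠ ⊥ := by
      have : s.prod ≠ 0 := Multiset.prod_ne_zero fun h0 => hs0' _ h0 rfl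
      exact this
    rw [Multiset.prod_cons, mul_comm] at h ⊢
    rw [qn_mul p s.prod P (hs P (Multiset.mem_cons_self P s)) hne h x, Multiset.map_cons,
      Multiset.prod_cons, ih hs' hs0' (h.trans (Ideal.comap_mono Ideal.mul_le_left))]

/-- the value of `qn` at a constant. -/
theorem qn_of_sub_mem [Module.Finite R S] {P : Ideal S} [P.LiesOver p] {x : S} {c : R}
    (hx : x - algebraMap R S c ∈ P) :
    qn p P x = Ideal.Quotient.mk p c ^ Module.finrank (R ⧸ p) (S ⧸ P) := by
  rw [qn_eq p (le_of_eq (P.over_def p))]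
  have : Ideal.Quotient.mk P x = algebraMap (R ⧸ p) (S ⧸ P) (Ideal.Quotient.mk p c) :=
    (Ideal.Quotient.eq.2 hx)
  show Algebra.norm (R ⧸ p) (Ideal.Quotient.mk P x) = _
  rw [this, Algebra.norm_algebraMap]

theorem qn_eq_norm {P : Ideal S} [P.LiesOver p] (x : S) :
    qn p P x = Algebra.norm (R ⧸ p) (Ideal.Quotient.mk P x) :=
  qn_eq p (le_of_eq (P.over_def p)) x

end Chain

section Main

variable {R S : Type*} [CommRing R] [CommRing S] [Algebra R S] [IsLocalRing R]
  [Module.Free R S] [Module.Finite R S]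

attribute [local instance] Ideal.Quotient.field

open UniqueFactorizationMonoid

/-- **[NORMRED]**, general form. -/
theorem mk_norm_eq_prod [IsDedekindDomain S] (hp : (maximalIdeal R).map (algebraMap R S) ≠ ⊥)
    (x : S) :
    Ideal.Quotient.mk (maximalIdeal R) (Algebra.norm R x) =
      ((normalizedFactors ((maximalIdeal R).map (algebraMap R S))).map
        (fun P => qn (maximalIdeal R) P x)).prod := by
  set s := normalizedFactors ((maximalIdeal R).map (algebraMap R S)) with hs
  have hprod : s.prod = (maximalIdeal R).map (algebraMap R S) :=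
    Ideal.prod_normalizedFactors_eq_self hp
  have hprime : ∀ P ∈ s, Prime P := fun P hP => prime_of_normalized_factor P hP
  have h0 : ∀ P ∈ s, P ≠ ⊥ := fun P hP => (hprime P hP).ne_zero
  have hmax : ∀ P ∈ s, P.IsMaximal := fun P hP =>
    (Ideal.isPrime_of_prime (hprime P hP)).isMaximal (h0 P hP)
  have hle : maximalIdeal R ≤ s.prod.comap (algebraMap R S) := by
    rw [hprod]; exact Ideal.le_comap_map
  rw [← qn_multiset_prod (maximalIdeal R) s hmax h0 hle x, ← norm_quotient_mk]
  have key : ∀ (I : Ideal S) (hI : I = (maximalIdeal R).map (algebraMap R S)),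
      Algebra.norm (R ⧸ maximalIdeal R)
        (Ideal.Quotient.mk ((maximalIdeal R).map (algebraMap R S)) x) =
        qn (maximalIdeal R) I x := by
    rintro _ rfl
    rw [qn_eq (maximalIdeal R) Ideal.le_comap_map]
  exact key _ hprod

theorem liesOver_of_mem_primesOverFinset [IsDedekindDomain S] {P : Ideal S}
    (hP : P ∈ IsDedekindDomain.primesOverFinset (maximalIdeal R) S) :
    P.IsMaximal ∧ P ≠ ⊥ ∧ P.LiesOver (maximalIdeal R) := by
  rw [Multiset.mem_toFinset] at hP
  have hprime : Prime P := prime_of_factor P hP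
  have hmax : P.IsMaximal := (Ideal.isPrime_of_prime hprime).isMaximal hprime.ne_zero
  refine ⟨hmax, hprime.ne_zero, ⟨?_⟩⟩
  have hle : (maximalIdeal R).map (algebraMap R S) ≤ P := Ideal.le_of_dvd (dvd_of_mem_factors hP)
  refine (maximalIdeal.isMaximal R).eq_of_le ?_ (Ideal.map_le_iff_le_comap.1 hle)
  exact (Ideal.comap_ne_top _ hmax.ne_top)

/-- **[NORMRED]**, general form, as a product over the primes above `p`. -/
theorem mk_norm_eq_finset_prod [IsDedekindDomain S]
    (hp : (maximalIdeal R).map (algebraMap R S) ≠ ⊥) (x : S) :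
    Ideal.Quotient.mk (maximalIdeal R) (Algebra.norm R x) =
      ∏ P ∈ IsDedekindDomain.primesOverFinset (maximalIdeal R) S,
        qn (maximalIdeal R) P x ^ ramificationIdx' (maximalIdeal R) P := by
  classical
  rw [mk_norm_eq_prod hp, Finset.prod_multiset_map_count, ← factors_eq_normalizedFactors]
  refine Finset.prod_congr rfl fun P hP => ?_
  obtain ⟨hmax, h0, -⟩ := liesOver_of_mem_primesOverFinset hP
  rw [IsDedekindDomain.ramificationIdx'_eq_factors_count hp hmax.isPrime h0]

/-- **[NORMRED]** `(b1)`: if `x ≡ c P mod P` with `c P : R` for all `P` above `p`. -/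
theorem mk_norm_eq_prod_pow [IsDedekindDomain S]
    (hp : (maximalIdeal R).map (algebraMap R S) ≠ ⊥) (x : S) (c : Ideal S → R)
    (hc : ∀ P ∈ IsDedekindDomain.primesOverFinset (maximalIdeal R) S,
      x - algebraMap R S (c P) ∈ P) :
    Ideal.Quotient.mk (maximalIdeal R) (Algebra.norm R x) =
      ∏ P ∈ IsDedekindDomain.primesOverFinset (maximalIdeal R) S,
        Ideal.Quotient.mk (maximalIdeal R) (c P) ^
          (ramificationIdx' (maximalIdeal R) P * inertiaDeg' (maximalIdeal R) P) := by
  rw [mk_norm_eq_finset_prod hp]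
  refine Finset.prod_congr rfl fun P hP => ?_
  obtain ⟨hmax, h0, hlo⟩ := liesOver_of_mem_primesOverFinset hP
  rw [qn_of_sub_mem (maximalIdeal R) (hc P hP), inertiaDeg'_algebraMap, ← pow_mul, mul_comm]

/-- **[NORMRED]** `(b2)`: `pS` prime, residue characteristic `q = [S : R]`, `x ^ q ≡ c mod pS` with
`c : R`.  Then `N(x) ≡ x ^ q mod pS`. -/
theorem norm_sub_pow_mem {q : ℕ} (hq : q.Prime) (hqR : (q : R) ∈ maximalIdeal R)
    (hrank : Module.finrank R S = q) (hprime : ((maximalIdeal R).map (algebraMap R S)).IsPrime)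
    (x : S) (c : R) (hx : x ^ q - algebraMap R S c ∈ (maximalIdeal R).map (algebraMap R S)) :
    algebraMap R S (Algebra.norm R x) - x ^ q ∈ (maximalIdeal R).map (algebraMap R S) := by
  set pS := (maximalIdeal R).map (algebraMap R S) with hpS
  set κ := R ⧸ maximalIdeal R
  set C := S ⧸ pS
  haveI : IsDomain C := (Ideal.Quotient.isDomain_iff_prime pS).2 hprime
  have hqC : ((q : ℕ) : C) = 0 := by
    have h1 : algebraMap R S (q : R) ∈ pS := Ideal.mem_map_of_mem _ hqR
    have h2 := Ideal.Quotient.eq_zero_iff_mem.2 h1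
    simpa using h2
  haveI : Fact q.Prime := ⟨hq⟩
  haveI : CharP C q := (CharP.charP_iff_prime_eq_zero hq).2 hqC
  have hxc : (Ideal.Quotient.mk pS x) ^ q = algebraMap κ C (Ideal.Quotient.mk _ c) := by
    rw [← map_pow]
    exact Ideal.Quotient.eq.2 hx
  have hN : Algebra.norm κ (Ideal.Quotient.mk pS x) ^ q = (Ideal.Quotient.mk _ c) ^ q := by
    rw [← map_pow, hxc, Algebra.norm_algebraMap, finrank_quotient_map_maximalIdeal, hrank]
  have hN' : (algebraMap κ C (Algebra.norm κ (Ideal.Quotient.mk pS x))) ^ q =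
      ((Ideal.Quotient.mk pS x) ^ q) ^ q := by
    rw [← map_pow, hN, map_pow, hxc]
  have h3 : algebraMap κ C (Algebra.norm κ (Ideal.Quotient.mk pS x)) =
      (Ideal.Quotient.mk pS x) ^ q := by
    have h4 : (algebraMap κ C (Algebra.norm κ (Ideal.Quotient.mk pS x)) -
        (Ideal.Quotient.mk pS x) ^ q) ^ q = 0 := by
      rw [sub_pow_char, hN', sub_self]
    exact sub_eq_zero.1 (pow_eq_zero_iff hq.ne_zero |>.1 h4)
  rw [norm_quotient_mk] at h3
  rw [← Ideal.Quotient.eq_zero_iff_mem, map_sub, map_pow, ← h3, sub_eq_zero]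
  rfl

end Main

section Val

variable {R S : Type*} [CommRing R] [CommRing S] [Algebra R S] [IsLocalRing R]
  [IsDedekindDomain R] [IsDedekindDomain S] [Module.Free R S] [Module.Finite R S]
  [PerfectField (FractionRing R)]

open UniqueFactorizationMonoid

theorem liesOver_maximalIdeal_of_isMaximal {P : Ideal S} (hP : P.IsMaximal) :
    P.LiesOver (maximalIdeal R) := by
  refine ⟨?_⟩
  have : (P.under R).IsMaximal := Ideal.isMaximal_comap_of_isIntegral_of_isMaximal P
  exact (IsLocalRing.eq_maximalIdeal this).symm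

theorem prod_map_eq_pow_sum {α M : Type*} [CommMonoid M] (s : Multiset α) (g : α → M) (f : α → ℕ)
    (p : M) (h : ∀ a ∈ s, g a = p ^ f a) : (s.map g).prod = p ^ (s.map f).sum := by
  induction s using Multiset.induction_on with
  | empty => simp
  | cons a s ih =>
    rw [Multiset.map_cons, Multiset.prod_cons, Multiset.map_cons, Multiset.sum_cons, pow_add,
      h a (Multiset.mem_cons_self a s), ih fun b hb => h b (Multiset.mem_cons_of_mem hb)]

/-- **[NORMVAL]** `(a)`: the ideal generated by the norm. -/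
theorem span_norm_eq_pow {x : S} (hx : x ≠ 0) :
    Ideal.span {Algebra.norm R x} = maximalIdeal R ^
      ((normalizedFactors (Ideal.span {x})).map (fun P => inertiaDeg' (maximalIdeal R) P)).sum := by
  have hx' : Ideal.span {x} ≠ ⊥ := by simpa using hx
  rw [← Algebra.intNorm_eq_norm, ← Ideal.relNorm_singleton,
    ← Ideal.prod_normalizedFactors_eq_self hx', map_multiset_prod,
    Ideal.prod_normalizedFactors_eq_self hx']
  refine prod_map_eq_pow_sum _ _ _ _ fun P hP => ?_
  have hprime : Prime P := prime_of_normalized_factor P hP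
  haveI hmax : P.IsMaximal := (Ideal.isPrime_of_prime hprime).isMaximal hprime.ne_zero
  haveI := liesOver_maximalIdeal_of_isMaximal (R := R) hmax
  rw [Ideal.relNorm_eq_pow_of_isMaximal P (maximalIdeal R), inertiaDeg'_eq_inertiaDeg]

/-- **[NORMVAL]** `(a)`, as a sum over the primes above `p`. -/
theorem span_norm_eq_pow_sum (hp : maximalIdeal R ≠ ⊥) {x : S} (hx : x ≠ 0) :
    Ideal.span {Algebra.norm R x} = maximalIdeal R ^
      (∑ P ∈ IsDedekindDomain.primesOverFinset (maximalIdeal R) S,
        (normalizedFactors (Ideal.span {x})).count P * inertiaDeg' (maximalIdeal R) P) := by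
  classical
  rw [span_norm_eq_pow hx, Finset.sum_multiset_map_count]
  congr 1
  simp only [smul_eq_mul]
  refine Finset.sum_subset ?_ ?_
  · intro P hP
    rw [Multiset.mem_toFinset] at hP
    have hprime : Prime P := prime_of_normalized_factor P hP
    have hmax : P.IsMaximal := (Ideal.isPrime_of_prime hprime).isMaximal hprime.ne_zero
    rw [IsDedekindDomain.mem_primesOverFinset_iff hp]
    exact ⟨hmax.isPrime, liesOver_maximalIdeal_of_isMaximal hmax⟩
  · intro P _ hP
    rw [Multiset.mem_toFinset] at hP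
    rw [Multiset.count_eq_zero_of_notMem hP, zero_mul]

end Val

end Fermat.Agent.S36.Abs
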