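import Mathlib

/-!
# S36 / abstract part : `[NORMVAL]`, Dedekind form, without perfectness

`R` a discrete valuation ring, `S` a Dedekind domain, finite and torsion free over `R`.
Mathlib's `Ideal.relNorm_eq_pow_of_isMaximal` needs a perfect fraction field; here
`relNorm R P = p ^ f(P)` is deduced from the fundamental identity:
`relNorm R P = p ^ s` with `s ≥ f(P)` (Smith basis of `P`: the product of the Smith coefficients
divides the norm of every element of `P`, and at least `f(P)` of them are non units), and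
`∑ e s = n = ∑ e f`.
-/

set_option autoImplicit false
set_option linter.deprecated false
set_option linter.unusedSectionVars false

open Module Ideal IsDedekindDomain IsLocalRing

namespace Fermat.Agent.S36.NormVal

section Smith

variable {R S ι : Type*} [CommRing R] [IsDomain R] [IsPrincipalIdealRing R] [CommRing S]
  [IsDomain S] [Algebra R S] [Fintype ι]

/-- the product of the Smith coefficients of `I` divides the norm of every element of `I`. -/
theorem prod_smithCoeffs_dvd_norm (b : Basis ι R S) (I : Ideal S) (hI : I ≠ ⊥) {x : S}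
    (hx : x ∈ I) : (∏ i, I.smithCoeffs b hI i) ∣ Algebra.norm R x := by
  classical
  set b' := I.ringBasis b hI with hb'
  set ab := I.selfBasis b hI with hab
  let ψ : S ≃ₗ[R] I := b'.equiv ab (Equiv.refl _)
  let incl : I →ₗ[R] S := (Submodule.subtype I).restrictScalars R
  let φ : S →ₗ[R] I := LinearMap.codRestrict (I.restrictScalars R) (Algebra.lmul R S x)
    (fun s => I.mul_mem_right s hx)
  have h1 : Algebra.lmul R S x = (incl ∘ₗ ψ.toLinearMap) ∘ₗ (ψ.symm.toLinearMap ∘ₗ φ) := by
    ext s
    simp only [LinearMap.comp_apply, LinearEquiv.coe_toLinearMap, LinearEquiv.apply_symm_apply]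
    rfl
  have h2 : incl ∘ₗ ψ.toLinearMap = Matrix.toLin b' b' (Matrix.diagonal (I.smithCoeffs b hI)) := by
    refine b'.ext fun i => ?_
    simp only [LinearMap.comp_apply, LinearEquiv.coe_toLinearMap, Matrix.toLin_apply, Basis.repr_self,
      Finsupp.single_eq_pi_single, Matrix.diagonal_mulVec_single, Pi.single_apply, ite_smul,
      zero_smul, Finset.sum_ite_eq', mul_one, if_pos (Finset.mem_univ _), ψ, Basis.equiv_apply]
    exact Ideal.selfBasis_def b I hI i
  rw [Algebra.norm_apply, h1, LinearMap.det_comp, h2, LinearMap.det_toLin, Matrix.det_diagonal]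
  exact Dvd.intro _ rfl

open IsLocalRing in
/-- at least `f(P)` Smith coefficients of `P` are non units. -/
theorem pow_finrank_dvd_prod_smithCoeffs [IsLocalRing R] {π : R}
    (hπ : maximalIdeal R = span {π}) (b : Basis ι R S) (P : Ideal S) (hP : P ≠ ⊥)
    [P.LiesOver (maximalIdeal R)] :
    π ^ finrank (R ⧸ maximalIdeal R) (S ⧸ P) ∣ ∏ i, P.smithCoeffs b hP i := by
  classical
  set b' := P.ringBasis b hP with hb'
  set a := P.smithCoeffs b hP with ha
  set J : Finset ι := Finset.univ.filter (fun i => ¬ IsUnit (a i)) with hJ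
  have hmem : ∀ i, i ∉ J → b' i ∈ P := by
    intro i hi
    have hu : IsUnit (a i) := by
      by_contra h
      exact hi (Finset.mem_filter.mpr ⟨Finset.mem_univ _, h⟩)
    obtain ⟨u, hu⟩ := hu
    have h1 : a i • b' i ∈ P := by
      rw [← Ideal.selfBasis_def b P hP i]
      exact (P.selfBasis b hP i).2
    have h2 : b' i = (↑u⁻¹ : R) • (a i • b' i) := by
      rw [smul_smul, ← hu, Units.inv_mul, one_smul]
    rw [h2, Algebra.smul_def]
    exact P.mul_mem_left _ h1
  have hsm : ∀ (r : R) (s : S), Ideal.Quotient.mk P (r • s) =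
      (Ideal.Quotient.mk (maximalIdeal R) r) • (Ideal.Quotient.mk P s) := by
    intro r s
    rw [Algebra.smul_def, Algebra.smul_def, map_mul]
    rfl
  have hspan : Submodule.span (R ⧸ maximalIdeal R)
      ((J.image (fun i => Ideal.Quotient.mk P (b' i)) : Finset (S ⧸ P)) : Set (S ⧸ P)) = ⊤ := by
    rw [eq_top_iff]
    rintro y -
    obtain ⟨s, rfl⟩ := Ideal.Quotient.mk_surjective y
    rw [← b'.sum_repr s, map_sum]
    refine Submodule.sum_mem _ fun i _ => ?_
    rw [hsm]
    by_cases hi : i ∈ J
    · refine Submodule.smul_mem _ _ (Submodule.subset_span ?_)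
      exact Finset.mem_coe.mpr (Finset.mem_image_of_mem _ hi)
    · rw [Ideal.Quotient.eq_zero_iff_mem.mpr (hmem i hi), smul_zero]
      exact Submodule.zero_mem _
  have hle : finrank (R ⧸ maximalIdeal R) (S ⧸ P) ≤ J.card := by
    rw [← finrank_top, ← hspan]
    exact (finrank_span_finset_le_card _).trans Finset.card_image_le
  have h1 : π ^ J.card ∣ ∏ i ∈ J, a i := by
    rw [← Finset.prod_const]
    refine Finset.prod_dvd_prod_of_dvd _ _ fun i hi => ?_
    have : a i ∈ maximalIdeal R := (mem_maximalIdeal _).mpr (Finset.mem_filter.mp hi).2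
    rw [hπ, Ideal.mem_span_singleton] at this
    exact this
  exact (pow_dvd_pow π hle).trans (h1.trans
    (Finset.prod_dvd_prod_of_subset _ _ _ (Finset.subset_univ J)))

end Smith

section Rel

variable {R S : Type*} [CommRing R] [IsDomain R] [IsDiscreteValuationRing R] [CommRing S]
  [IsDedekindDomain S] [Algebra R S] [Module.Finite R S] [Module.IsTorsionFree R S]

/-- the multiplicity of `v` in `(a)`. -/
noncomputable def cnt (v : HeightOneSpectrum S) (a : S) : ℕ :=
  (Associates.mk v.asIdeal).count (Associates.mk (span {a} : Ideal S)).factors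

theorem intValuation_eq_cnt (v : HeightOneSpectrum S) {a : S} (ha : a ≠ 0) :
    v.intValuation a = WithZero.exp (-(cnt v a : ℤ)) := v.intValuation_if_neg ha

omit [IsDomain R] [IsDiscreteValuationRing R] [Algebra R S] [Module.Finite R S] [Module.IsTorsionFree R S] in
theorem span_eq_prod {ι : Type*} [Fintype ι] (w : ι ≃ HeightOneSpectrum S) {a : S} (ha : a ≠ 0) :
    (span {a} : Ideal S) = ∏ i, (w i).asIdeal ^ cnt (w i) a := by
  have h0 : (span {a} : Ideal S) ≠ 0 := by
    rw [Ne, Ideal.zero_eq_bot, Ideal.span_singleton_eq_bot]; exact ha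
  conv_lhs => rw [← Ideal.finprod_heightOneSpectrum_factorization h0]
  rw [← finprod_comp_equiv w, finprod_eq_prod_of_fintype]
  rfl

theorem relNorm_le (P : Ideal S) (hP : P ≠ ⊥) [P.LiesOver (maximalIdeal R)] :
    relNorm R P ≤ maximalIdeal R ^ (maximalIdeal R).inertiaDeg' P := by
  obtain ⟨π, hπ⟩ := IsDiscreteValuationRing.exists_irreducible R
  have hp : maximalIdeal R = span {π} := hπ.maximalIdeal_eq
  rw [inertiaDeg'_algebraMap, relNorm_apply, Ideal.span_le]
  rintro _ ⟨x, hx, rfl⟩
  have key : ∀ n, maximalIdeal R ^ n = span {π ^ n} := fun n => by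
    rw [hp, Ideal.span_singleton_pow]
  rw [Algebra.intNorm_eq_norm, key, SetLike.mem_coe, Ideal.mem_span_singleton]
  let b := Module.Free.chooseBasis R S
  exact (pow_finrank_dvd_prod_smithCoeffs hp b P hP).trans (prod_smithCoeffs_dvd_norm b P hP hx)

theorem liesOver_max (v : HeightOneSpectrum S) : v.asIdeal.LiesOver (maximalIdeal R) := by
  constructor
  have := v.isMaximal
  have h1 : (v.asIdeal.comap (algebraMap R S)).IsMaximal :=
    Ideal.isMaximal_comap_of_isIntegral_of_isMaximal v.asIdeal
  exact (IsLocalRing.eq_maximalIdeal h1).symm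

theorem map_max_ne_bot : (maximalIdeal R).map (algebraMap R S) ≠ ⊥ := by
  rw [Ne, Ideal.map_eq_bot_iff_of_injective (FaithfulSMul.algebraMap_injective R S)]
  exact IsDiscreteValuationRing.not_a_field R

theorem max_pow_inj {m n : ℕ} (h : maximalIdeal R ^ m = maximalIdeal R ^ n) : m = n :=
  (Ideal.pow_right_strictAnti (maximalIdeal R) (IsDiscreteValuationRing.not_a_field R)
    (Ideal.IsPrime.ne_top inferInstance)).injective h

theorem max_pow_le {m n : ℕ} (h : maximalIdeal R ^ m ≤ maximalIdeal R ^ n) : n ≤ m :=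
  (Ideal.pow_right_strictAnti (maximalIdeal R) (IsDiscreteValuationRing.not_a_field R)
    (Ideal.IsPrime.ne_top inferInstance)).le_iff_ge.mp h

variable {ι : Type*} [Fintype ι] (w : ι ≃ HeightOneSpectrum S)

theorem span_norm_of_relNorm (s : ι → ℕ)
    (hs : ∀ i, relNorm R (w i).asIdeal = maximalIdeal R ^ s i) {a : S} (ha : a ≠ 0) :
    (span {Algebra.norm R a} : Ideal R) = maximalIdeal R ^ ∑ i, s i * cnt (w i) a := by
  rw [← Algebra.intNorm_eq_norm, ← relNorm_singleton, span_eq_prod w ha, map_prod,
    ← Finset.prod_pow_eq_pow_sum]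
  refine Finset.prod_congr rfl fun i _ => ?_
  rw [map_pow, hs, pow_mul]

theorem cnt_algebraMap_pos (v : HeightOneSpectrum S) {π : R} (hπ : Irreducible π) :
    0 < cnt v (algebraMap R S π) := by
  have h0 : algebraMap R S π ≠ 0 := by
    rw [Ne, FaithfulSMul.algebraMap_eq_zero_iff]; exact hπ.ne_zero
  have h1 : v.intValuation (algebraMap R S π) < 1 := by
    rw [v.intValuation_lt_one_iff_mem]
    have := liesOver_max (R := R) v
    have h2 : π ∈ v.asIdeal.comap (algebraMap R S) := by
      rw [← Ideal.under_def, ← Ideal.over_def v.asIdeal (maximalIdeal R)]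
      exact (mem_maximalIdeal _).mpr hπ.not_isUnit
    exact h2
  rw [intValuation_eq_cnt v h0, ← WithZero.exp_zero, WithZero.exp_lt_exp] at h1
  omega

/-- `relNorm P = p ^ f(P)`, without any perfectness assumption. -/
theorem relNorm_eq {π : R} (hπ : Irreducible π)
    (hsum : finrank R S ≤ ∑ i, (maximalIdeal R).inertiaDeg' (w i).asIdeal *
      cnt (w i) (algebraMap R S π)) (i : ι) :
    relNorm R (w i).asIdeal = maximalIdeal R ^ (maximalIdeal R).inertiaDeg' (w i).asIdeal := by
  have hl : ∀ i, (w i).asIdeal.LiesOver (maximalIdeal R) := fun i => liesOver_max _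
  choose s hs using fun i => exists_relNorm_eq_pow_of_isPrime (w i).asIdeal (maximalIdeal R)
  have hle : ∀ i, (maximalIdeal R).inertiaDeg' (w i).asIdeal ≤ s i := fun i =>
    max_pow_le (hs i ▸ relNorm_le (w i).asIdeal (w i).ne_bot)
  have h0 : algebraMap R S π ≠ 0 := by
    rw [Ne, FaithfulSMul.algebraMap_eq_zero_iff]; exact hπ.ne_zero
  have h1 := span_norm_of_relNorm w s hs h0
  rw [Algebra.norm_algebraMap, ← Ideal.span_singleton_pow, ← hπ.maximalIdeal_eq] at h1
  have h2 := max_pow_inj h1
  have h3 : ∀ i ∈ Finset.univ, (maximalIdeal R).inertiaDeg' (w i).asIdeal *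
      cnt (w i) (algebraMap R S π) ≤ s i * cnt (w i) (algebraMap R S π) :=
    fun i _ => Nat.mul_le_mul_right _ (hle i)
  have h4 := (Finset.sum_eq_sum_iff_of_le h3).mp
    (le_antisymm (Finset.sum_le_sum h3) (h2 ▸ hsum)) i (Finset.mem_univ i)
  rw [hs i, Nat.eq_of_mul_eq_mul_right (cnt_algebraMap_pos (w i) hπ) h4]

/-- **[NORMVAL]**, Dedekind form. -/
theorem span_norm_eq {π : R} (hπ : Irreducible π)
    (hsum : finrank R S ≤ ∑ i, (maximalIdeal R).inertiaDeg' (w i).asIdeal *
      cnt (w i) (algebraMap R S π)) {a : S} (ha : a ≠ 0) :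
    (span {Algebra.norm R a} : Ideal R) =
      maximalIdeal R ^ ∑ i, (maximalIdeal R).inertiaDeg' (w i).asIdeal * cnt (w i) a :=
  span_norm_of_relNorm w _ (relNorm_eq w hπ hsum) ha

end Rel

end Fermat.Agent.S36.NormVal
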