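import Fermat.Agent.S36.Abs.ExtBridge
import Fermat.Agent.S36.Abs.NormVal
import Fermat.Agent.S36.Abs.DedNorm

/-!
# S36 / abstract part : `[EXT]` valuations and residues of norms  (see `ExtDefs.lean` for the set-up and the suggested proof)

Wrappers on top of the bridge (`Alg/Fund.lean`, `Abs/ExtBridge.lean`), of `Abs/NormVal.lean`
(`relNorm P = p ^ f(P)` without perfectness) and of `Abs/DedNorm.lean` (residue of the norm).
Extra: `ExtSys.norm_red_aux` : `red' (N u) = ∏ c i ^ (e i * f i)` if `u ≡ c i` at `O i`, `c i ∈ O'`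
(any residue degrees).
-/

set_option autoImplicit false
set_option linter.deprecated false
set_option linter.unusedSectionVars false

open Polynomial IsDedekindDomain Module

namespace Fermat.Agent.S36

namespace Fund

variable {E F : Type*} [Field E] [Field F] [Algebra E F] [FiniteDimensional E F]
  [Algebra.IsSeparable E F] {V : ValuationSubring E} [IsDiscreteValuationRing V]

/-- a uniformizer of `O` has valuation `exp (-1)` at the centre. -/
theorem valuation_ctr_of_isUnif {O : ValuationSubring F} (hO : O.comap (algebraMap E F) = V)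
    {ϖ : F} (h : IsUnif O ϖ) : (ctr hO).valuation F ϖ = WithZero.exp (-1 : ℤ) := by
  obtain ⟨x, hx⟩ := (ctr hO).valuation_exists_uniformizer F
  have hx0 : x ≠ 0 := by
    rintro rfl
    rw [map_zero] at hx
    exact WithZero.exp_ne_zero hx.symm
  obtain ⟨n, hn⟩ := h.disc x hx0
  rw [← map_zpow₀, (isEquiv_ctr hO).val_eq, map_zpow₀, hx] at hn
  have hϖ0 : (ctr hO).valuation F ϖ ≠ 0 := (Valuation.ne_zero_iff _).mpr h.ne_zero
  obtain ⟨m, hm⟩ : ∃ m : ℤ, (ctr hO).valuation F ϖ = WithZero.exp m :=
    ⟨WithZero.log _, (WithZero.exp_log hϖ0).symm⟩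
  have h3 : (ctr hO).valuation F ϖ < 1 := ((isEquiv_ctr hO).lt_one_iff_lt_one).mp h.lt_one
  rw [hm, ← WithZero.exp_zero, WithZero.exp_lt_exp] at h3
  rw [hm, ← WithZero.exp_zsmul, WithZero.exp_inj, smul_eq_mul] at hn
  have h4 : IsUnit m := IsUnit.of_mul_eq_one (-n) (by linarith)
  rcases Int.isUnit_iff.mp h4 with h5 | h5
  · omega
  · rw [hm, h5]

theorem valuation_ctr_of_eq_zpow {O : ValuationSubring F} (hO : O.comap (algebraMap E F) = V)
    {ϖ : F} (h : IsUnif O ϖ) {u : F} {n : ℤ} (hu : O.valuation u = O.valuation ϖ ^ n) :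
    (ctr hO).valuation F u = WithZero.exp (-n) := by
  rw [← map_zpow₀, (isEquiv_ctr hO).val_eq, map_zpow₀, valuation_ctr_of_isUnif hO h,
    ← WithZero.exp_zsmul] at hu
  rw [hu]; simp

theorem valuation_ctr_coe {O : ValuationSubring F} (hO : O.comap (algebraMap E F) = V)
    {a : integralClosure V F} (ha : a ≠ 0) :
    (ctr hO).valuation F (a : F) = WithZero.exp (-(NormVal.cnt (ctr hO) a : ℤ)) := by
  rw [← NormVal.intValuation_eq_cnt _ ha, ← HeightOneSpectrum.valuation_of_algebraMap (K := F)]
  rfl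

instance instFree : Module.Free V (integralClosure V F) := IsIntegralClosure.module_free V E F _

theorem norm_coe (a : integralClosure V F) :
    Algebra.norm E (a : F) = ((Algebra.norm V a : V) : E) := by
  rw [← Algebra.intNorm_eq_norm (A := V)]
  exact (Algebra.algebraMap_intNorm (A := V) (K := E) (L := F) (B := integralClosure V F) a).symm

end Fund

namespace ExtSys

open Fund

variable {F' F : Type*} [Field F'] [Field F] [Algebra F' F] [FiniteDimensional F' F]
  [Algebra.IsSeparable F' F] {O' : ValuationSubring F'} {ϖ' : F'} {ι : Type*} [Fintype ι]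
  {O : ι → ValuationSubring F} {e f : ι → ℕ}

section DVR

variable [IsDiscreteValuationRing O']

/-- the primes of the integral closure are indexed by `ι`. -/
noncomputable def ctrEquiv (S : ExtSys O' ϖ' O e f) :
    ι ≃ HeightOneSpectrum (integralClosure O' F) :=
  Equiv.ofBijective (fun i => ctr (S.comap i))
    ⟨fun i j h => S.inj (ctr_inj (S.comap i) (S.comap j) h),
      fun w => (S.exists_eq_ctr w).imp fun _ h => h.symm⟩

theorem ctrEquiv_apply (S : ExtSys O' ϖ' O e f) (i : ι) : S.ctrEquiv i = ctr (S.comap i) := rfl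

theorem e_eq_cnt (S : ExtSys O' ϖ' O e f) (i : ι) :
    e i = NormVal.cnt (ctr (S.comap i))
      (algebraMap O' (integralClosure O' F) ⟨ϖ', S.unif.mem⟩) := by
  have h0 : algebraMap O' (integralClosure O' F) ⟨ϖ', S.unif.mem⟩ ≠ 0 := by
    intro h
    have h1 : algebraMap F' F ϖ' = 0 := congrArg (fun x : integralClosure O' F => (x : F)) h
    exact S.unif.ne_zero ((map_eq_zero _).mp h1)
  have h1 := valuation_ctr_coe (S.comap i) h0
  have h2 := valuation_ctr_algebraMap (S.comap i) S.unif.irreducible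
  have h3 : ((algebraMap O' (integralClosure O' F) ⟨ϖ', S.unif.mem⟩ : integralClosure O' F) : F)
      = algebraMap F' F ((⟨ϖ', S.unif.mem⟩ : O') : F') := rfl
  rw [h3, h2, WithZero.exp_inj, neg_inj, Nat.cast_inj] at h1
  rw [S.e_eq i, h1]

theorem norm_val_int (S : ExtSys O' ϖ' O e f) {a : integralClosure O' F} (ha : a ≠ 0) :
    O'.valuation (Algebra.norm F' (a : F)) =
      O'.valuation ϖ' ^ (∑ i, f i * NormVal.cnt (ctr (S.comap i)) a) := by
  have hsum : finrank O' (integralClosure O' F) ≤
      ∑ i, (IsLocalRing.maximalIdeal O').inertiaDeg' (S.ctrEquiv i).asIdeal *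
        NormVal.cnt (S.ctrEquiv i) (algebraMap O' (integralClosure O' F) ⟨ϖ', S.unif.mem⟩) := by
    rw [← IsFractionRing.finrank_eq O' F' (integralClosure O' F) F, ← S.sum_ram_inertia]
    refine le_of_eq (Finset.sum_congr rfl fun i _ => ?_)
    rw [ctrEquiv_apply, ← S.e_eq_cnt i, ← S.e_eq i, mul_comm]
    rfl
  have h1 := NormVal.span_norm_eq S.ctrEquiv S.unif.irreducible hsum ha
  have hexp : ∑ i, (IsLocalRing.maximalIdeal O').inertiaDeg' (S.ctrEquiv i).asIdeal *
      NormVal.cnt (S.ctrEquiv i) a = ∑ i, f i * NormVal.cnt (ctr (S.comap i)) a :=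
    Finset.sum_congr rfl fun i _ => by rw [ctrEquiv_apply, S.f_eq i]; rfl
  rw [hexp, S.unif.irreducible.maximalIdeal_eq, Ideal.span_singleton_pow,
    Ideal.span_singleton_eq_span_singleton] at h1
  obtain ⟨u, hu⟩ := h1
  rw [norm_coe]
  have h2 : O'.valuation (((Algebra.norm O' a * (u : O') : O')) : F') =
      O'.valuation ((Algebra.norm O' a : O') : F') := by
    rw [MulMemClass.coe_mul, map_mul, (O'.valuation_eq_one_iff _).mp u.isUnit, mul_one]
  rw [← h2, hu, SubmonoidClass.coe_pow, map_pow]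

theorem nonempty (S : ExtSys O' ϖ' O e f) : Nonempty ι := by
  by_contra h
  rw [not_nonempty_iff] at h
  have h1 := S.sum
  rw [Finset.univ_eq_empty, Finset.sum_empty] at h1
  have : 0 < finrank F' F := finrank_pos
  omega

theorem norm_val_aux (S : ExtSys O' ϖ' O e f) {u : F} (n : ι → ℤ)
    (hu : ∀ i, (ctr (S.comap i)).valuation F u = WithZero.exp (-(n i))) :
    O'.valuation (Algebra.norm F' u) = O'.valuation ϖ' ^ (∑ i, (f i : ℤ) * n i) := by
  obtain ⟨a, b, hb, rfl⟩ := IsFractionRing.div_surjective (A := integralClosure O' F) u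
  have hb0 : b ≠ 0 := nonZeroDivisors.ne_zero hb
  have hbF : (b : F) ≠ 0 := fun h => hb0 (Subtype.ext h)
  have ha0 : a ≠ 0 := by
    rintro rfl
    obtain ⟨i⟩ := S.nonempty
    have := hu i
    rw [map_zero, zero_div, map_zero] at this
    exact WithZero.exp_ne_zero this.symm
  have hn : ∀ i, n i = (NormVal.cnt (ctr (S.comap i)) a : ℤ) - NormVal.cnt (ctr (S.comap i)) b := by
    intro i
    have h1 := hu i
    have ha1 := valuation_ctr_coe (S.comap i) ha0
    have hb1 := valuation_ctr_coe (S.comap i) hb0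
    change (ctr (S.comap i)).valuation F ((a : F) / (b : F)) = _ at h1
    rw [map_div₀, ha1, hb1, ← WithZero.exp_sub, WithZero.exp_inj] at h1
    omega
  have hv0 : O'.valuation ϖ' ≠ 0 := S.unif.val_pos.ne'
  change O'.valuation (Algebra.norm F' ((a : F) / (b : F))) = _
  have hdiv : Algebra.norm F' ((a : F) / (b : F)) =
      Algebra.norm F' (a : F) / Algebra.norm F' (b : F) := by
    rw [eq_div_iff (Algebra.norm_ne_zero_iff.mpr hbF), ← map_mul, div_mul_cancel₀ _ hbF]
  rw [hdiv, map_div₀, S.norm_val_int ha0, S.norm_val_int hb0, ← zpow_natCast, ← zpow_natCast,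
    ← zpow_sub₀ hv0]
  congr 1
  push_cast
  rw [← Finset.sum_sub_distrib]
  refine Finset.sum_congr rfl fun i _ => ?_
  rw [hn i]; ring

theorem exists_coe_eq (S : ExtSys O' ϖ' O e f) {y : F} (hy : ∀ i, y ∈ O i) :
    ∃ s : integralClosure O' F, (s : F) = y := by
  have h : ∀ w : HeightOneSpectrum (integralClosure O' F), w.valuation F y ≤ 1 := by
    intro w
    obtain ⟨i, rfl⟩ := S.exists_eq_ctr w
    rw [← (isEquiv_ctr (S.comap i)).le_one_iff_le_one, ValuationSubring.valuation_le_one_iff]
    exact hy i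
  obtain ⟨s, rfl⟩ := HeightOneSpectrum.mem_integers_of_valuation_le_one F y h
  exact ⟨s, rfl⟩

theorem algebraMap_mem (S : ExtSys O' ϖ' O e f) (i : ι) {c : F'} (hc : c ∈ O') :
    algebraMap F' F c ∈ O i := by
  have : c ∈ (O i).comap (algebraMap F' F) := by rw [S.comap i]; exact hc
  exact this

/-- **[NORMRED]**, general constants: `red' (N u) = ∏ (red i u) ^ (e i * f i)` when the residues
of `u` lie in the residue field of `O'`. -/
theorem norm_red_aux (S : ExtSys O' ϖ' O e f) {u : F} (c : ι → F')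
    (hc : ∀ i, c i ∈ O') (hu : ∀ i, (O i).valuation (u - algebraMap F' F (c i)) < 1) :
    O'.valuation (Algebra.norm F' u - ∏ i, c i ^ (e i * f i)) < 1 := by
  classical
  have hmem : ∀ i, u ∈ O i := by
    intro i
    have h1 : u - algebraMap F' F (c i) ∈ O i := (O i).valuation_le_one_iff _ |>.mp (hu i).le
    have h2 := (O i).add_mem _ _ h1 (S.algebraMap_mem i (hc i))
    rwa [sub_add_cancel] at h2
  obtain ⟨s, rfl⟩ := S.exists_coe_eq hmem
  let cP : Ideal (integralClosure O' F) → O' := fun P =>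
    if h : ∃ i, (ctr (S.comap i)).asIdeal = P then ⟨c h.choose, hc _⟩ else 0
  have hcP : ∀ i, cP (ctr (S.comap i)).asIdeal = ⟨c i, hc i⟩ := by
    intro i
    have h : ∃ j, (ctr (S.comap j)).asIdeal = (ctr (S.comap i)).asIdeal := ⟨i, rfl⟩
    have hj : h.choose = i := S.ctr_injective h.choose_spec
    simp only [cP, dif_pos h]
    congr 1
    rw [hj]
  have hp : (IsLocalRing.maximalIdeal O').map (algebraMap O' (integralClosure O' F)) ≠ ⊥ :=
    NormVal.map_max_ne_bot
  have key := Abs.mk_norm_eq_prod_pow hp s cP (by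
    intro P hP
    have hP' : P ∈ IsDedekindDomain.primesOverFinset (vV O').asIdeal (integralClosure O' F) := hP
    rw [S.primesOverFinset_eq, Finset.mem_image] at hP'
    obtain ⟨i, -, rfl⟩ := hP'
    rw [hcP]
    exact (mem_ctrIdeal (S.comap i) _).mpr (hu i))
  have himg : IsDedekindDomain.primesOverFinset (IsLocalRing.maximalIdeal O')
      (integralClosure O' F) = Finset.univ.image (fun i => (ctr (S.comap i)).asIdeal) :=
    S.primesOverFinset_eq
  rw [himg, Finset.prod_image (fun i _ j _ h => S.ctr_injective h)] at key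
  have key2 : Ideal.Quotient.mk (IsLocalRing.maximalIdeal O') (Algebra.norm O' s) =
      Ideal.Quotient.mk (IsLocalRing.maximalIdeal O')
        (∏ i, (⟨c i, hc i⟩ : O') ^ (e i * f i)) := by
    rw [key, map_prod]
    refine Finset.prod_congr rfl fun i _ => ?_
    rw [hcP, map_pow, S.mul_eq i]
    rfl
  rw [Ideal.Quotient.eq, ValuationSubring.valuation_lt_one_iff] at key2
  rw [norm_coe]
  convert key2 using 2
  simp

end DVR

/-- **[NORMVAL]** `w' (N u) = ∑ f i * w i (u)`. -/
theorem norm_val (S : ExtSys O' ϖ' O e f) (ϖ : ι → F) (hϖ : ∀ i, IsUnif (O i) (ϖ i)) {u : F}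
    (n : ι → ℤ) (hu : ∀ i, (O i).valuation u = (O i).valuation (ϖ i) ^ n i) :
    O'.valuation (Algebra.norm F' u) = O'.valuation ϖ' ^ (∑ i, (f i : ℤ) * n i) := by
  have := S.unif.isDiscreteValuationRing
  exact S.norm_val_aux n fun i => valuation_ctr_of_eq_zpow (S.comap i) (hϖ i) (hu i)

/-- **[NORMRED-1]** all residue degrees equal to one: `red' (N u) = ∏ (red i u) ^ e i`. -/
theorem norm_red_one (S : ExtSys O' ϖ' O e f) (hf : ∀ i, f i = 1) {u : F} (c : ι → F')
    (hc : ∀ i, c i ∈ O') (hu : ∀ i, (O i).valuation (u - algebraMap F' F (c i)) < 1) :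
    O'.valuation (Algebra.norm F' u - ∏ i, c i ^ e i) < 1 := by
  have := S.unif.isDiscreteValuationRing
  have h := S.norm_red_aux c hc hu
  simpa only [hf, mul_one] using h

/-- **[NORMRED-2]** one extension, unramified, with purely inseparable residue extension of prime
degree `q = [F : F']`: `red' (N u) = (red u) ^ q`. -/
theorem norm_red_insep (S : ExtSys O' ϖ' O e f) (i : ι) (hι : ∀ j : ι, j = i) {q : ℕ}
    (hq : q.Prime) (hqF : Module.finrank F' F = q) (hchar : O'.valuation (q : F') < 1)
    (hinsep : ∀ x ∈ O i, ∃ c ∈ O', (O i).valuation (x ^ q - algebraMap F' F c) < 1) {u : F}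
    (hu : u ∈ O i) :
    (O i).valuation (algebraMap F' F (Algebra.norm F' u) - u ^ q) < 1 := by
  have := S.unif.isDiscreteValuationRing
  obtain ⟨c, hc, hcu⟩ := hinsep u hu
  have huniv : (Finset.univ : Finset ι) = {i} := by
    ext j; simp [hι j]
  have hef : e i * f i = q := by
    have h1 := S.sum_ram_inertia
    rw [huniv, Finset.sum_singleton, ← S.mul_eq i, hqF] at h1
    exact h1
  have h1 := S.norm_red_aux (u := u ^ q) (fun _ => c) (fun _ => hc) (fun j => by rw [hι j]; exact hcu)
  rw [huniv, Finset.prod_singleton, hef, map_pow] at h1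
  obtain ⟨s, rfl⟩ := S.exists_coe_eq (fun j => by rw [hι j]; exact hu)
  rw [norm_coe] at h1 ⊢
  generalize Algebra.norm O' s = N at h1 ⊢
  -- Frobenius is injective on the residue field
  have h2 : O'.valuation ((N : F') - c) < 1 := by
    have h3 : (N ^ q - (⟨c, hc⟩ : O') ^ q) ∈ IsLocalRing.maximalIdeal O' := by
      rw [ValuationSubring.valuation_lt_one_iff]
      exact h1
    have hqk : ((q : ℕ) : O' ⧸ IsLocalRing.maximalIdeal O') = 0 := by
      have h4 : ((q : ℕ) : O') ∈ IsLocalRing.maximalIdeal O' := by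
        rw [ValuationSubring.valuation_lt_one_iff]
        exact_mod_cast hchar
      have h5 := Ideal.Quotient.eq_zero_iff_mem.2 h4
      simpa using h5
    have : Fact q.Prime := ⟨hq⟩
    have : CharP (O' ⧸ IsLocalRing.maximalIdeal O') q := (CharP.charP_iff_prime_eq_zero hq).2 hqk
    have h6 : (Ideal.Quotient.mk (IsLocalRing.maximalIdeal O') (N - ⟨c, hc⟩)) ^ q = 0 := by
      rw [map_sub, sub_pow_char, ← map_pow, ← map_pow, ← map_sub, Ideal.Quotient.eq_zero_iff_mem]
      exact h3
    have h7 := (pow_eq_zero_iff hq.ne_zero).1 h6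
    rw [Ideal.Quotient.eq_zero_iff_mem, ValuationSubring.valuation_lt_one_iff] at h7
    exact h7
  have h8 : (O i).valuation (algebraMap F' F ((N : F') - c)) < 1 :=
    (valuation_algebraMap_lt_one_iff (S.comap i) _).mpr h2
  have h9 : algebraMap F' F (N : F') - (s : F) ^ q =
      algebraMap F' F ((N : F') - c) - ((s : F) ^ q - algebraMap F' F c) := by
    rw [map_sub]; ring
  rw [h9]
  exact lt_of_le_of_lt ((O i).valuation.map_sub _ _) (max_lt h8 hcu)

end ExtSys

end Fermat.Agent.S36
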