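import Fermat.Agent.S36.Abs.Trivial
import Fermat.Agent.S36.Abs.Ext

/-!
# S36 / abstract part : the three-component datum

This is the interface between the abstract part and the modular part of S36 (board, topic S36,
#848, #1119, #1227).  In the application (`A | q` a place of `ℚbar`, `I_A` its inertia group):

* `K = ℚbar ^ I_A`, `R = A ∩ K` (a DVR with uniformizer `q`, residue field `𝔽bar_q`);
* `F`  = function field of `X₀(q² M')` over `K`,  `F'` = function field of `X₀(q M')` over `K`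
  (`4 ∣ M'` if `q` is odd, `9 ∣ M'` if `q = 2`, `q ∤ M'`);  `j_i = j (q^i τ)`;
* `t = j₀ ^ (q²) - j₀`;  `B₁ = intCl R t` (no cusps),  `B₂ = intCl R t⁻¹` (no point with
  `jbar ∈ 𝔽_{q²}` in the special fibre);
* `O 0 = v_∞`, `O 1 =` the Gauss valuation at the cusp `1/q`, `O 2 = v_∞ ∘ w_{q²}`, with
  `(e, f) = (1, ψ), (q - 1, ψ), (1, q² ψ)` over `K(j₀)`;
* `ϖ 0 = a = q G(q² τ) / G(q τ)`, `ϖ 2 = b = G(τ) / G(q τ)`, `ϖ 1 = 1 - h(τ)/h(q² τ)` (`q` odd,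
  `h = η(4τ)^8/η(τ)^8`, `D h = h G²`), `ϖ 1 = q / (a b)` (`q = 2`);
* `α, β : F' → F` the two degeneracy maps `τ ↦ τ`, `τ ↦ q τ`, `Nα`, `Nβ` the norms.
-/

set_option autoImplicit false

open Polynomial

namespace Fermat.Agent.S36

/-- the multiplicities of the three components in the special fibre -/
def eVec (q : ℕ) : Fin 3 → ℕ := ![1, q - 1, 1]

/-- the component of `X₀(q M')` under the `i`-th component of `X₀(q² M')`, for `α` -/
def idxα : Fin 3 → Fin 2 := ![0, 0, 1]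

/-- the component of `X₀(q M')` under the `i`-th component of `X₀(q² M')`, for `β` -/
def idxβ : Fin 3 → Fin 2 := ![0, 1, 1]

/-- **The geometric datum** (one curve, three components). -/
structure GeomDatum (R K F : Type*) [CommRing R] [IsDomain R] [IsDiscreteValuationRing R]
    [Field K] [Algebra R K] [IsFractionRing R K]
    [Field F] [CharZero F] [Algebra R F] [Algebra K F] [IsScalarTower R K F] where
  q : ℕ
  hq : q.Prime
  irr : Irreducible ((q : ℕ) : R)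
  t : F
  O : Fin 3 → ValuationSubring F
  fdeg : Fin 3 → ℕ
  sys : GaussSys K ((q : ℕ) : R) t O (eVec q) fdeg
  /-- uniformizers -/
  ϖ : Fin 3 → F
  ϖ_mem : ∀ i, ϖ i ∈ intCl R t
  ϖ_lt : ∀ i, (O i).valuation (ϖ i) < 1
  ϖ_ram : ∀ i, (O i).valuation (q : F) ≤ (O i).valuation (ϖ i) ^ eVec q i
  ϖ_indep : ∀ i j, i ≠ j → (O j).valuation (ϖ i) = 1
  /-- `a`, `b` are units on the generic fibre of the chart `B₁` -/
  inv₀ : ∃ n : ℕ, (q : F) ^ n / ϖ 0 ∈ intCl R t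
  inv₂ : ∃ n : ℕ, (q : F) ^ n / ϖ 2 ∈ intCl R t
  /-- `ϖ 1 ^ (q - 1) * a * b / q` is invertible along the middle component -/
  c2 : ∃ y ∈ intCl R t, (O 1).valuation (ϖ 1 ^ (q - 1) * ϖ 0 * ϖ 2 / (q : F) * y - 1) < 1
  /-- `red₀ (q / (a b)) = red₀ b ^ (q - 1)` (`= Abar ^ (q - 1)`) -/
  t3 : (O 0).valuation ((q : F) / (ϖ 0 * ϖ 2) - ϖ 2 ^ (q - 1)) < 1
  /-- `red₂ (q / (a b)) = red₂ a ^ (q - 1)` -/
  t3' : (O 2).valuation ((q : F) / (ϖ 0 * ϖ 2) - ϖ 0 ^ (q - 1)) < 1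
  /-- global functions are constant -/
  glob : ∀ x, x ∈ intCl R t → x ∈ intCl R t⁻¹ → x ∈ Set.range (algebraMap R F)
  /-- the components are smooth -/
  ded₁ : ∀ i, IsDedekindDomain (intCl R t ⧸ sys.p i)
  ded₂ : ∀ i, IsDedekindDomain (intCl R t⁻¹ ⧸ (sys.inv irr).p i)
  /-- the components are disjoint in the second chart -/
  sep : ∀ i j, i ≠ j → ∃ x ∈ intCl R t⁻¹, (O i).valuation x < 1 ∧ (O j).valuation (x - 1) < 1
  /-- local generator of the middle component at its cusps -/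
  cusp : ∀ 𝔪 : Ideal (intCl R t⁻¹), 𝔪.IsMaximal → tinvB R t ∈ 𝔪 → (sys.inv irr).p 1 ≤ 𝔪 →
    ∃ ϖc : F, (O 1).valuation ϖc < 1 ∧ MemAt (intCl R t⁻¹) 𝔪 ϖc ∧
      UnitAt (intCl R t⁻¹) 𝔪 (ϖc ^ (q - 1) / (q : F))

/-- **The norm datum**: the two degeneracy maps to the curve with two components. -/
structure NormDatum {R K F : Type*} [CommRing R] [IsDomain R] [IsDiscreteValuationRing R]
    [Field K] [Algebra R K] [IsFractionRing R K]
    [Field F] [CharZero F] [Algebra R F] [Algebra K F] [IsScalarTower R K F]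
    (D : GeomDatum R K F) (F' : Type*) [Field F'] [Algebra R F'] [Algebra K F']
    [IsScalarTower R K F'] where
  O' : Fin 2 → ValuationSubring F'
  unif' : ∀ i, IsUnif (O' i) (D.q : F')
  const' : ∀ i (r : R), algebraMap R F' r ∈ O' i
  /-- (the first chart of) the lower curve -/
  B' : Subring F'
  B'_root : ∀ m : ℕ, m ≠ 0 → RootClosed B' m
  B'_const : ∀ r : R, algebraMap R F' r ∈ B'
  α : F' →ₐ[K] F
  β : F' →ₐ[K] F
  α_mem : ∀ x ∈ B', α x ∈ intCl R D.t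
  β_mem : ∀ x ∈ B', β x ∈ intCl R D.t
  comap_α : ∀ i, (D.O i).comap (α : F' →+* F) = O' (idxα i)
  comap_β : ∀ i, (D.O i).comap (β : F' →+* F) = O' (idxβ i)
  Nα : F →* F'
  Nβ : F →* F'
  Nα_const : ∀ c : K, Nα (algebraMap K F c) = algebraMap K F' c ^ D.q
  Nβ_const : ∀ c : K, Nβ (algebraMap K F c) = algebraMap K F' c ^ D.q
  Nα_mem : ∀ x ∈ intCl R D.t, Nα x ∈ B'
  Nβ_mem : ∀ x ∈ intCl R D.t, Nβ x ∈ B'
  /-- residue degree one for `α` on the components `0, 1`, for `β` on the components `1, 2` -/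
  approxα : ∀ i : Fin 3, i ≠ 2 → ∀ x ∈ intCl R D.t, ∃ x' ∈ B', (D.O i).valuation (x - α x') < 1
  approxβ : ∀ i : Fin 3, i ≠ 0 → ∀ x ∈ intCl R D.t, ∃ x' ∈ B', (D.O i).valuation (x - β x') < 1
  /-- `[NORMRED]` -/
  redα₁ : ∀ (u : F) (c₀ c₁ : F'), c₀ ∈ O' 0 → c₁ ∈ O' 0 → (D.O 0).valuation (u - α c₀) < 1 →
    (D.O 1).valuation (u - α c₁) < 1 → (O' 0).valuation (Nα u - c₀ * c₁ ^ (D.q - 1)) < 1
  redα₂ : ∀ u ∈ D.O 2, (D.O 2).valuation (α (Nα u) - u ^ D.q) < 1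
  redβ₁ : ∀ u ∈ D.O 0, (D.O 0).valuation (β (Nβ u) - u ^ D.q) < 1
  redβ₂ : ∀ (u : F) (c₁ c₂ : F'), c₁ ∈ O' 1 → c₂ ∈ O' 1 → (D.O 1).valuation (u - β c₁) < 1 →
    (D.O 2).valuation (u - β c₂) < 1 → (O' 1).valuation (Nβ u - c₁ ^ (D.q - 1) * c₂) < 1
  /-- `[NORMVAL]` -/
  valα : ∀ (u : F) (n : Fin 3 → ℤ), (∀ i, (D.O i).valuation u = (D.O i).valuation (D.ϖ i) ^ n i) →
    (O' 0).valuation (Nα u) = (O' 0).valuation (D.q : F') ^ (n 0 + n 1) ∧
    (O' 1).valuation (Nα u) = (O' 1).valuation (D.q : F') ^ ((D.q : ℤ) * n 2)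
  valβ : ∀ (u : F) (n : Fin 3 → ℤ), (∀ i, (D.O i).valuation u = (D.O i).valuation (D.ϖ i) ^ n i) →
    (O' 0).valuation (Nβ u) = (O' 0).valuation (D.q : F') ^ ((D.q : ℤ) * n 0) ∧
    (O' 1).valuation (Nβ u) = (O' 1).valuation (D.q : F') ^ (n 1 + n 2)

/-- "`m ∣ ord_P g` at every place `P` of `F / K`". -/
def Hor (K : Type*) [Field K] {F : Type*} [Field F] [Algebra K F] (m : ℕ) (g : F) : Prop :=
  ∀ W : ValuationSubring F, (∀ c : K, algebraMap K F c ∈ W) →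
    ∃ h : F, h ≠ 0 ∧ W.valuation (h ^ m * g) = 1

end Fermat.Agent.S36
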