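import Fermat.Agent.S36.Abs.ValCrit
import Fermat.Agent.S36.Abs.Datum

/-!
# S36 / abstract part : `[CUSP-ABS-2]`, the algebra behind `JTriple.cusp`

`CuspAux.main` : for `t = j 0 ^ (q²) - j 0`, at a maximal ideal `𝔪` of the second chart lying over
`t⁻¹ = 0` and on the middle component only, `ϖc = 1 - j 0 / j 2` is regular and `ϖc ^ (q - 1) / π` is a unit.
-/

set_option autoImplicit false

open Polynomial

namespace Fermat.Agent.S36

namespace CuspAux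

/-- polynomial expressions in an element of the chart stay in the chart -/
theorem aeval_mem_intCl {R : Type*} [CommRing R] {F : Type*} [Field F] [Algebra R F] {t u : F}
    (hu : u ∈ intCl R t) (P : R[X]) : aeval u P ∈ intCl R t := by
  rw [aeval_eq_sum_range]
  refine sum_mem fun i _ => ?_
  rw [Algebra.smul_def]
  exact mul_mem (algebraMap_mem_intCl R t _) (pow_mem hu _)

/-- `s (x) / x ^ d` as a polynomial in `x⁻¹`. -/
theorem aeval_div_pow {R : Type*} [CommRing R] {F : Type*} [Field F] [Algebra R F] {x : F}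
    (hx : x ≠ 0) (s : R[X]) {d : ℕ} (hd : s.natDegree ≤ d) :
    aeval x s / x ^ d = aeval x⁻¹ (reflect d s) := by
  let _ := invertibleOfNonzero hx
  have h := eval₂_reflect_mul_pow (algebraMap R F) x d s hd
  rw [invOf_eq_inv] at h
  rw [aeval_def, aeval_def, ← h]
  field_simp

/-- `1 / x` is integral over `R[1 / (x ^ n - x)]`. -/
theorem inv_mem_intCl {R : Type*} [CommRing R] {F : Type*} [Field F] [Algebra R F] {x : F}
    {n : ℕ} (hn : 2 ≤ n) (hx : x ≠ 0) (ht : x ^ n - x ≠ 0) :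
    x⁻¹ ∈ intCl R (x ^ n - x)⁻¹ := by
  rw [mem_intCl]
  let τ : Algebra.adjoin R {(x ^ n - x)⁻¹} :=
    ⟨(x ^ n - x)⁻¹, Algebra.subset_adjoin (Set.mem_singleton _)⟩
  refine ⟨X ^ n + C τ * X ^ (n - 1) - C τ, ?_, ?_⟩
  · have h1 : (X ^ n + C τ * X ^ (n - 1) - C τ : (Algebra.adjoin R {(x ^ n - x)⁻¹})[X]) =
        X ^ n + (C τ * X ^ (n - 1) - C τ) := by ring
    rw [h1]
    apply monic_X_pow_add
    refine lt_of_le_of_lt (degree_sub_le _ _) (max_lt ?_ ?_)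
    · refine lt_of_le_of_lt (degree_C_mul_X_pow_le _ _) ?_
      exact_mod_cast (by omega : n - 1 < n)
    · refine lt_of_le_of_lt degree_C_le ?_
      exact_mod_cast (by omega : 0 < n)
  · simp only [eval₂_sub, eval₂_add, eval₂_mul, eval₂_pow, eval₂_X, eval₂_C]
    show x⁻¹ ^ n + (x ^ n - x)⁻¹ * x⁻¹ ^ (n - 1) - (x ^ n - x)⁻¹ = 0
    obtain ⟨k, rfl⟩ : ∃ k, n = k + 1 := ⟨n - 1, by omega⟩
    simp only [Nat.add_sub_cancel]
    have ht' : x ^ (k + 1) - x ≠ 0 := ht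
    rw [inv_pow, inv_pow]
    field_simp
    ring

/-- `s (x) / x ^ d` is an element of the chart, congruent to `s_d` modulo `x⁻¹`. -/
theorem exists_div_pow {R : Type*} [CommRing R] {F : Type*} [Field F] [Algebra R F] {t x : F}
    (hx : x ≠ 0) (hxt : x⁻¹ ∈ intCl R t) (s : R[X]) {d : ℕ} (hd : s.natDegree ≤ d)
    (hu : IsUnit (s.coeff d)) (𝔪 : Ideal (intCl R t)) (h𝔪 : 𝔪.IsPrime)
    (hx𝔪 : (⟨x⁻¹, hxt⟩ : intCl R t) ∈ 𝔪) :
    ∃ b : intCl R t, b ∉ 𝔪 ∧ (b : F) = aeval x s / x ^ d := by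
  refine ⟨⟨_, aeval_mem_intCl hxt (reflect d s)⟩, ?_, (aeval_div_pow hx s hd).symm⟩
  intro hb
  -- the constant term
  have h0 : (reflect d s).coeff 0 = s.coeff d := by
    rw [coeff_reflect, revAt_le (Nat.zero_le d), Nat.sub_zero]
  have hdec : (⟨_, aeval_mem_intCl hxt (reflect d s)⟩ : intCl R t) =
      ⟨_, aeval_mem_intCl hxt (divX (reflect d s))⟩ * ⟨x⁻¹, hxt⟩ +
        ⟨_, algebraMap_mem_intCl R t (s.coeff d)⟩ := by
    apply Subtype.ext
    show aeval x⁻¹ (reflect d s) = aeval x⁻¹ (divX (reflect d s)) * x⁻¹ + algebraMap R F (s.coeff d)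
    conv_lhs => rw [← divX_mul_X_add (reflect d s)]
    rw [map_add, map_mul, aeval_X, aeval_C, h0]
  have hc : (⟨_, algebraMap_mem_intCl R t (s.coeff d)⟩ : intCl R t) ∈ 𝔪 := by
    have h2 := 𝔪.sub_mem hb (𝔪.mul_mem_left ⟨_, aeval_mem_intCl hxt (divX (reflect d s))⟩ hx𝔪)
    have h3 : (⟨_, algebraMap_mem_intCl R t (s.coeff d)⟩ : intCl R t) =
        ⟨_, aeval_mem_intCl hxt (reflect d s)⟩ -
          ⟨_, aeval_mem_intCl hxt (divX (reflect d s))⟩ * ⟨x⁻¹, hxt⟩ := by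
      rw [hdec]; ring
    rw [h3]
    exact h2
  obtain ⟨w, hw⟩ := hu
  apply h𝔪.ne_top
  rw [Ideal.eq_top_iff_one]
  have h1 : (1 : intCl R t) = ⟨_, algebraMap_mem_intCl R t (s.coeff d)⟩ *
      ⟨_, algebraMap_mem_intCl R t ((w⁻¹ : Rˣ) : R)⟩ := by
    apply Subtype.ext
    show (1 : F) = algebraMap R F (s.coeff d) * algebraMap R F ((w⁻¹ : Rˣ) : R)
    rw [← map_mul, ← hw, Units.mul_inv, map_one]
  rw [h1]
  exact 𝔪.mul_mem_right _ hc

end CuspAux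

variable {R : Type*} [CommRing R] [IsDomain R] [IsDiscreteValuationRing R]
  {K : Type*} [Field K] [Algebra R K] [IsFractionRing R K]
  {F : Type*} [Field F] [CharZero F] [Algebra R F] [Algebra K F] [IsScalarTower R K F]
  {π : R} {q : ℕ} {O : Fin 3 → ValuationSubring F} {e f : Fin 3 → ℕ} {j : Fin 3 → F}

theorem CuspAux.main (hq : 2 ≤ q) (hπ : Irreducible π) {t : F}
    (htdef : t = j 0 ^ (q ^ 2) - j 0) (S : GaussSys K π t O e f)
    (hz : (O 1).valuation ((1 - j 0 / j 2) ^ (q - 1) / algebraMap R F π) = 1)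
    (hres : ∃ (s c : R[X]) (d : ℕ), s.natDegree ≤ d ∧ c.natDegree ≤ d ∧ IsUnit (s.coeff d) ∧
      IsUnit (c.coeff d) ∧ (O 1).valuation (aeval (j 0) s *
        ((1 - j 0 / j 2) ^ (q - 1) / algebraMap R F π) - aeval (j 0) c) < 1)
    (𝔪 : Ideal (intCl R t⁻¹)) (h𝔪 : 𝔪.IsMaximal)
    (ht : tinvB R t ∈ 𝔪) (h1 : (S.inv hπ).p 1 ≤ 𝔪)
    (hmd : MemAt (intCl R t⁻¹) 𝔪 (j 0 / j 2))
    (hsep : ∀ l : Fin 3, l ≠ 1 →
      ∃ x ∈ intCl R t⁻¹, (O l).valuation x < 1 ∧ (O 1).valuation (x - 1) < 1) :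
    (O 1).valuation (1 - j 0 / j 2) < 1 ∧
    MemAt (intCl R t⁻¹) 𝔪 (1 - j 0 / j 2) ∧
    UnitAt (intCl R t⁻¹) 𝔪 ((1 - j 0 / j 2) ^ (q - 1) / algebraMap R F π) := by
  have hpr : 𝔪.IsPrime := h𝔪.isPrime
  set ϖc := 1 - j 0 / j 2 with hϖc
  set z := ϖc ^ (q - 1) / algebraMap R F π with hzdef
  have hq1 : q - 1 ≠ 0 := by omega
  have hq2 : 2 ≤ q ^ 2 := by nlinarith
  have hπlt : (O 1).valuation (algebraMap R F π) < 1 := (S.gauss 1).lt_one
  have hπ0 : algebraMap R F π ≠ 0 := chart_pi_ne_zero K hπ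
  have hvπ0 : (O 1).valuation (algebraMap R F π) ≠ 0 := (Valuation.ne_zero_iff _).2 hπ0
  -- valuation of `ϖc`
  have hpow : (O 1).valuation ϖc ^ (q - 1) = (O 1).valuation (algebraMap R F π) := by
    rw [hzdef, map_div₀, map_pow, div_eq_one_iff_eq hvπ0] at hz
    exact hz
  have hlt : (O 1).valuation ϖc < 1 := by
    by_contra hcon
    have := one_le_pow₀ (not_lt.1 hcon) (n := q - 1)
    rw [hpow] at this
    exact absurd hπlt (not_lt.2 this)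
  -- `v₁ t = 1`, `v₁ (j 0) = 1`
  have hvt : (O 1).valuation t = 1 := by
    have hX : ¬ (C π ∣ (X : R[X])) := by
      intro hdvd
      rw [C_dvd_iff_dvd_coeff] at hdvd
      have := hdvd 1
      rw [coeff_X_one] at this
      exact hπ.not_isUnit (isUnit_of_dvd_one this)
    have := (S.gauss 1).prim X hX
    rwa [aeval_X] at this
  have hvj : (O 1).valuation (j 0) = 1 := by
    rcases lt_trichotomy ((O 1).valuation (j 0)) 1 with h | h | h
    · exfalso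
      have h2 : (O 1).valuation t < 1 := by
        rw [htdef]
        refine lt_of_le_of_lt (Valuation.map_sub _ _ _) (max_lt ?_ h)
        rw [map_pow]
        exact pow_lt_one₀ zero_le h (by omega)
      rw [hvt] at h2
      exact lt_irrefl _ h2
    · exact h
    · exfalso
      have h3 : (O 1).valuation (j 0) < (O 1).valuation (j 0 ^ (q ^ 2)) := by
        rw [map_pow]
        calc (O 1).valuation (j 0) = (O 1).valuation (j 0) ^ 1 := (pow_one _).symm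
          _ < (O 1).valuation (j 0) ^ (q ^ 2) := pow_lt_pow_right₀ h (by omega)
      have h4 : (O 1).valuation t = (O 1).valuation (j 0 ^ (q ^ 2)) := by
        rw [htdef]
        exact Valuation.map_sub_eq_of_lt_left _ h3
      rw [hvt] at h4
      rw [← h4] at h3
      exact absurd h (not_lt.2 h3.le)
  have hj0 : j 0 ≠ 0 := by
    intro h0
    rw [h0, map_zero] at hvj
    exact zero_ne_one hvj
  have ht0 : t ≠ 0 := by
    intro h0
    rw [h0, map_zero] at hvt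
    exact zero_ne_one hvt
  -- `1 / j 0 ∈ 𝔪`
  have hu : (j 0)⁻¹ ∈ intCl R t⁻¹ := by
    have ht0' := ht0
    rw [htdef] at ht0' ⊢
    exact CuspAux.inv_mem_intCl hq2 hj0 ht0'
  have hu𝔪 : (⟨(j 0)⁻¹, hu⟩ : intCl R t⁻¹) ∈ 𝔪 := by
    apply hpr.mem_of_pow_mem (q ^ 2)
    have h5 : (⟨(j 0)⁻¹, hu⟩ : intCl R t⁻¹) ^ (q ^ 2) =
        tinvB R t * (1 - ⟨(j 0)⁻¹, hu⟩ ^ (q ^ 2 - 1)) := by
      apply Subtype.ext
      show (j 0)⁻¹ ^ (q ^ 2) = t⁻¹ * (1 - (j 0)⁻¹ ^ (q ^ 2 - 1))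
      obtain ⟨k, hk⟩ : ∃ k, q ^ 2 = k + 1 := ⟨q ^ 2 - 1, by omega⟩
      have ht0' : j 0 ^ (k + 1) - j 0 ≠ 0 := by rw [← hk, ← htdef]; exact ht0
      rw [htdef, hk, Nat.add_sub_cancel, inv_pow, inv_pow]
      field_simp
      ring
    rw [h5]
    exact 𝔪.mul_mem_right _ ht
  -- membership
  have hmem : MemAt (intCl R t⁻¹) 𝔪 ϖc := by
    have h6 := hmd.neg
    have h7 : MemAt (intCl R t⁻¹) 𝔪 (1 : F) := memAt_of_mem (one_mem _) hpr.ne_top
    have := h7.add h6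
    rwa [← sub_eq_add_neg] at this
  have honly : ∀ l, l ≠ 1 → ¬ (S.inv hπ).p l ≤ 𝔪 := by
    intro l hl hle
    obtain ⟨x, hx, hxl, hx1⟩ := hsep l hl
    have h8 : (⟨x, hx⟩ : intCl R t⁻¹) ∈ 𝔪 := hle (((S.inv hπ).mem_p l).2 hxl)
    have h9 : (⟨x, hx⟩ - 1 : intCl R t⁻¹) ∈ 𝔪 := h1 (((S.inv hπ).mem_p 1).2 hx1)
    apply hpr.ne_top
    rw [Ideal.eq_top_iff_one]
    have := 𝔪.sub_mem h8 h9
    simpa using this
  have hzmem : MemAt (intCl R t⁻¹) 𝔪 z :=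
    (S.inv hπ).memAt_div_pi hπ 𝔪 hpr 1 honly (hmem.pow (q - 1)) (by rw [map_pow, hpow])
  refine ⟨hlt, hmem, ?_⟩
  obtain ⟨s, c, d, hsd, hcd, hsu, hcu, hv⟩ := hres
  obtain ⟨S₁, hS₁, hS₁e⟩ := CuspAux.exists_div_pow hj0 hu s hsd hsu 𝔪 hpr hu𝔪
  obtain ⟨C₁, hC₁, hC₁e⟩ := CuspAux.exists_div_pow hj0 hu c hcd hcu 𝔪 hpr hu𝔪
  have hS₁u : UnitAt (intCl R t⁻¹) 𝔪 (S₁ : F) := unitAt_of_not_mem hS₁
  have hC₁u : UnitAt (intCl R t⁻¹) 𝔪 (C₁ : F) := unitAt_of_not_mem hC₁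
  have hdiff : ZeroAt (intCl R t⁻¹) 𝔪 ((S₁ : F) * z - (C₁ : F)) := by
    refine zeroAt_of_valuation_lt (intCl_le ((S.inv hπ).gauss 1)) h1 ?_ ?_
    · have := (hS₁u.memAt.mul hzmem).add hC₁u.memAt.neg
      rwa [← sub_eq_add_neg] at this
    · have h10 : (S₁ : F) * z - (C₁ : F) = (aeval (j 0) s * z - aeval (j 0) c) / j 0 ^ d := by
        rw [hS₁e, hC₁e]
        field_simp
      rw [h10, map_div₀, map_pow, hvj, one_pow, div_one]
      exact hv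
  have hSz : UnitAt (intCl R t⁻¹) 𝔪 ((S₁ : F) * z) := by
    have hC0 : (C₁ : F) ≠ 0 := hC₁u.ne_zero
    have e : (S₁ : F) * z = (C₁ : F) * (1 + ((S₁ : F) * z - (C₁ : F)) * (C₁ : F)⁻¹) := by
      field_simp
      ring
    rw [e]
    exact hC₁u.mul (hdiff.mul_memAt hC₁u.inv.memAt).unitAt_one_add
  have hfin := hSz.mul hS₁u.inv
  have hS0 : (S₁ : F) ≠ 0 := hS₁u.ne_zero
  have h11 : (S₁ : F) * z * (S₁ : F)⁻¹ = z := by field_simp
  rwa [h11] at hfin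

end Fermat.Agent.S36
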