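import Fermat.Agent.S36.Abs.ValCrit
import Fermat.Agent.S36.Abs.Datum
import Fermat.Agent.S36.Abs.CuspAux

/-!
# S36 / abstract part : `[SEP-ABS]`, `[CUSP-ABS]`  the fields `sep` and `cusp` of `GeomDatum`

Pure algebra from the three functions `j 0, j 1, j 2` (`j i = j (q^i τ)`), `t = j 0 ^ (q²) - j 0`.
See board #1119 (D1), (D3).
-/

set_option autoImplicit false

open Polynomial

namespace Fermat.Agent.S36

/-- what is needed about `j (τ), j (q τ), j (q² τ)`. -/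
structure JTriple (R : Type*) [CommRing R] {F : Type*} [Field F] [Algebra R F] (q : ℕ)
    (O : Fin 3 → ValuationSubring F) (j : Fin 3 → F) : Prop where
  /-- the modular equation: mutual integrality -/
  int01 : j 1 ∈ intCl R (j 0)
  int10 : j 0 ∈ intCl R (j 1)
  int12 : j 2 ∈ intCl R (j 1)
  int21 : j 1 ∈ intCl R (j 2)
  /-- the modular equation at the cusps: `|j (q τ)| ≤ |j (τ)|^q` etc. -/
  inf01 : j 1 / j 0 ^ q ∈ intCl R (j 0)⁻¹
  inf12 : j 2 / j 1 ^ q ∈ intCl R (j 1)⁻¹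
  inf21 : j 1 / j 2 ^ q ∈ intCl R (j 2)⁻¹
  /-- the reductions `(jb, jb^q, jb^(q²))`, `(jb, jb^q, jb)`, `(jb^(q²), jb^q, jb)` -/
  red0a : (O 0).valuation (j 1 - j 0 ^ q) < 1
  red0b : (O 0).valuation (j 2 - j 1 ^ q) < 1
  red1a : (O 1).valuation (j 1 - j 0 ^ q) < 1
  red1b : (O 1).valuation (j 2 - j 0) < 1
  red2a : (O 2).valuation (j 0 - j 1 ^ q) < 1

section Aux

variable {R : Type*} [CommRing R] {F : Type*} [Field F] [Algebra R F]

/-- a valuation ring containing `R` and `s` contains the chart of `s`. -/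
theorem intCl_le_of_mem {s : F} {V : ValuationSubring F} (hR : ∀ r : R, algebraMap R F r ∈ V)
    (hs : s ∈ V) : intCl R s ≤ V.toSubring := by
  intro x hx
  rw [mem_intCl] at hx
  obtain ⟨P, hP, h0⟩ := hx
  let VA : Subalgebra R F := { V.toSubring with algebraMap_mem' := hR }
  have hle : Algebra.adjoin R {s} ≤ VA := Algebra.adjoin_le (by
    rintro _ rfl
    exact hs)
  let j : Algebra.adjoin R {s} →+* V :=
    { toFun := fun a => ⟨a.1, hle a.2⟩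
      map_one' := rfl
      map_mul' := fun _ _ => rfl
      map_zero' := rfl
      map_add' := fun _ _ => rfl }
  have hint : IsIntegral V x := by
    refine ⟨P.map j, hP.map j, ?_⟩
    rw [eval₂_map]
    exact h0
  obtain ⟨y, rfl⟩ := IsIntegrallyClosed.isIntegral_iff.1 hint
  exact y.2

/-- the valuation of `a ^ n - a` for `v a > 1`. -/
theorem val_pow_sub_self {V : ValuationSubring F} {a : F} (ha : 1 < V.valuation a) {n : ℕ}
    (hn : 2 ≤ n) : V.valuation (a ^ n - a) = V.valuation a ^ n := by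
  rw [← map_pow]
  apply Valuation.map_sub_eq_of_lt_left
  rw [map_pow]
  calc V.valuation a = V.valuation a ^ 1 := (pow_one _).symm
    _ < V.valuation a ^ n := pow_lt_pow_right₀ ha (by omega)

theorem val_le_one_of_pow_sub_self {V : ValuationSubring F} {a : F} {n : ℕ} (hn : 2 ≤ n)
    (h : V.valuation (a ^ n - a) ≤ 1) : V.valuation a ≤ 1 := by
  by_contra hcon
  rw [not_le] at hcon
  rw [val_pow_sub_self hcon hn] at h
  exact absurd (one_lt_pow₀ hcon (by omega)) (not_lt.2 h)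

theorem val_pow_sub_pow_lt {V : ValuationSubring F} {a b : F} (ha : V.valuation a ≤ 1)
    (hb : V.valuation b ≤ 1) (h : V.valuation (a - b) < 1) (n : ℕ) :
    V.valuation (a ^ n - b ^ n) < 1 := by
  obtain ⟨c, hc⟩ : ∃ c : V, a ^ n - b ^ n = (a - b) * (c : F) := by
    have ha' : a ∈ V := (V.valuation_le_one_iff _).1 ha
    have hb' : b ∈ V := (V.valuation_le_one_iff _).1 hb
    obtain ⟨c, hc⟩ := sub_dvd_pow_sub_pow (⟨a, ha'⟩ : V) ⟨b, hb'⟩ n
    exact ⟨c, congrArg Subtype.val hc⟩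
  rw [hc, map_mul]
  calc V.valuation (a - b) * V.valuation (c : F) ≤ V.valuation (a - b) * 1 := by
        gcongr; exact V.valuation_le_one c
    _ < 1 := by rwa [mul_one]

variable {q : ℕ} {O : Fin 3 → ValuationSubring F} {j : Fin 3 → F}

/-- the estimates at a valuation ring where `t = j 0 ^ (q²) - j 0` has a pole. -/
theorem JTriple.val_of_pole (J : JTriple R q O j) (hq : 2 ≤ q) {V : ValuationSubring F}
    (hR : ∀ r : R, algebraMap R F r ∈ V) (ht : 1 < V.valuation (j 0 ^ (q ^ 2) - j 0)) :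
    1 < V.valuation (j 0) ∧ V.valuation (j 0 ^ (q ^ 2) - j 0) = V.valuation (j 0) ^ (q ^ 2) ∧
      V.valuation (j 1) ≤ V.valuation (j 0) ^ q ∧ V.valuation (j 2) ≤ V.valuation (j 1) ^ q := by
  have hq2 : 2 ≤ q ^ 2 := by nlinarith
  have h0 : 1 < V.valuation (j 0) := by
    by_contra hcon
    rw [not_lt] at hcon
    have h1 : V.valuation (j 0 ^ (q ^ 2) - j 0) ≤ 1 :=
      (Valuation.map_sub _ _ _).trans (max_le (by rw [map_pow]; exact pow_le_one₀ zero_le hcon) hcon)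
    exact absurd ht (not_lt.2 h1)
  have hj0 : j 0 ≠ 0 := by
    rintro h
    rw [h, map_zero] at h0
    exact absurd h0 (not_lt.2 zero_le)
  have hinv : ∀ {a : F}, 1 < V.valuation a → a⁻¹ ∈ V := by
    intro a ha
    rw [← V.valuation_le_one_iff, map_inv₀]
    exact inv_le_one_of_one_le₀ ha.le
  have h01 : V.valuation (j 1) ≤ V.valuation (j 0) ^ q := by
    have h1 : j 1 / j 0 ^ q ∈ V := intCl_le_of_mem hR (hinv h0) J.inf01
    rw [← V.valuation_le_one_iff, map_div₀, map_pow] at h1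
    exact (div_le_one₀ (pow_pos (lt_trans zero_lt_one h0) _)).1 h1
  have h1 : 1 < V.valuation (j 1) := by
    by_contra hcon
    rw [not_lt] at hcon
    have : j 0 ∈ V := intCl_le_of_mem hR ((V.valuation_le_one_iff _).1 hcon) J.int10
    exact absurd h0 (not_lt.2 ((V.valuation_le_one_iff _).2 this))
  have h12 : V.valuation (j 2) ≤ V.valuation (j 1) ^ q := by
    have h2 : j 2 / j 1 ^ q ∈ V := intCl_le_of_mem hR (hinv h1) J.inf12
    rw [← V.valuation_le_one_iff, map_div₀, map_pow] at h2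
    exact (div_le_one₀ (pow_pos (lt_trans zero_lt_one h1) _)).1 h2
  exact ⟨h0, val_pow_sub_self h0 hq2, h01, h12⟩

/-- all `j i` are regular where `t` is. -/
theorem JTriple.val_le_one (J : JTriple R q O j) (hq : 2 ≤ q) {V : ValuationSubring F}
    (hR : ∀ r : R, algebraMap R F r ∈ V) (ht : V.valuation (j 0 ^ (q ^ 2) - j 0) ≤ 1) :
    V.valuation (j 0) ≤ 1 ∧ V.valuation (j 1) ≤ 1 ∧ V.valuation (j 2) ≤ 1 := by
  have hq2 : 2 ≤ q ^ 2 := by nlinarith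
  have h0 := val_le_one_of_pow_sub_self hq2 ht
  have h1 : j 1 ∈ V := intCl_le_of_mem hR ((V.valuation_le_one_iff _).1 h0) J.int01
  have h2 : j 2 ∈ V := intCl_le_of_mem hR h1 J.int12
  exact ⟨h0, (V.valuation_le_one_iff _).2 h1, (V.valuation_le_one_iff _).2 h2⟩

/-- the four numerators are bounded by `t`. -/
theorem JTriple.val_le_t (J : JTriple R q O j) (hq : 2 ≤ q) {V : ValuationSubring F}
    (hR : ∀ r : R, algebraMap R F r ∈ V) (ht : 1 ≤ V.valuation (j 0 ^ (q ^ 2) - j 0)) :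
    V.valuation (j 0) ≤ V.valuation (j 0 ^ (q ^ 2) - j 0) ∧
    V.valuation (j 0 ^ (q ^ 2)) ≤ V.valuation (j 0 ^ (q ^ 2) - j 0) ∧
    V.valuation (j 1 ^ q) ≤ V.valuation (j 0 ^ (q ^ 2) - j 0) ∧
    V.valuation (j 2) ≤ V.valuation (j 0 ^ (q ^ 2) - j 0) := by
  rcases ht.lt_or_eq with ht | ht
  · obtain ⟨h0, hT, h01, h12⟩ := J.val_of_pole hq hR ht
    have h1q : V.valuation (j 1) ^ q ≤ V.valuation (j 0) ^ (q ^ 2) := by
      rw [pow_two, pow_mul]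
      exact pow_le_pow_left₀ zero_le h01 q
    rw [hT]
    refine ⟨?_, by rw [map_pow], by rw [map_pow]; exact h1q, h12.trans h1q⟩
    calc V.valuation (j 0) = V.valuation (j 0) ^ 1 := (pow_one _).symm
      _ ≤ V.valuation (j 0) ^ (q ^ 2) := pow_le_pow_right₀ h0.le (by nlinarith)
  · obtain ⟨h0, h1, h2⟩ := J.val_le_one hq hR ht.symm.le
    rw [← ht]
    exact ⟨h0, by rw [map_pow]; exact pow_le_one₀ zero_le h0,
      by rw [map_pow]; exact pow_le_one₀ zero_le h1, h2⟩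

theorem div_mem_intCl_inv_of_forall {t x : F}
    (h : ∀ V : ValuationSubring F, (∀ r : R, algebraMap R F r ∈ V) → 1 ≤ V.valuation t →
      V.valuation x ≤ V.valuation t) : x / t ∈ intCl R t⁻¹ := by
  rcases eq_or_ne t 0 with rfl | ht0
  · rw [div_zero]; exact Subring.zero_mem _
  refine mem_intCl_of_forall_valuationSubring fun V hR ht => ?_
  rw [← V.valuation_le_one_iff, map_inv₀] at ht
  have hpos : 0 < V.valuation t := by
    rw [pos_iff_ne_zero]; exact (Valuation.ne_zero_iff _).2 ht0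
  have h1 : 1 ≤ V.valuation t := (inv_le_one₀ hpos).1 ht
  rw [← V.valuation_le_one_iff, map_div₀]
  exact (div_le_one₀ hpos).2 (h V hR h1)

end Aux

variable {R : Type*} [CommRing R] [IsDomain R] [IsDiscreteValuationRing R]
  {K : Type*} [Field K] [Algebra R K] [IsFractionRing R K]
  {F : Type*} [Field F] [CharZero F] [Algebra R F] [Algebra K F] [IsScalarTower R K F]
  {π : R} {q : ℕ} {O : Fin 3 → ValuationSubring F} {e f : Fin 3 → ℕ} {j : Fin 3 → F}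

omit [IsDomain R] [IsDiscreteValuationRing R] [CharZero F] in
theorem JTriple.mem_chart₂ (J : JTriple R q O j) (hq : 2 ≤ q) :
    j 0 / (j 0 ^ (q ^ 2) - j 0) ∈ intCl R (j 0 ^ (q ^ 2) - j 0)⁻¹ ∧
    j 0 ^ (q ^ 2) / (j 0 ^ (q ^ 2) - j 0) ∈ intCl R (j 0 ^ (q ^ 2) - j 0)⁻¹ ∧
    j 1 ^ q / (j 0 ^ (q ^ 2) - j 0) ∈ intCl R (j 0 ^ (q ^ 2) - j 0)⁻¹ ∧
    j 2 / (j 0 ^ (q ^ 2) - j 0) ∈ intCl R (j 0 ^ (q ^ 2) - j 0)⁻¹ :=
  ⟨div_mem_intCl_inv_of_forall fun _ hR ht => (J.val_le_t hq hR ht).1,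
    div_mem_intCl_inv_of_forall fun _ hR ht => (J.val_le_t hq hR ht).2.1,
    div_mem_intCl_inv_of_forall fun _ hR ht => (J.val_le_t hq hR ht).2.2.1,
    div_mem_intCl_inv_of_forall fun _ hR ht => (J.val_le_t hq hR ht).2.2.2⟩

omit [IsFractionRing R K] [CharZero F] [IsScalarTower R K F] in
/-- the separating functions and their valuations. -/
theorem JTriple.sep_aux (J : JTriple R q O j) (hq : 2 ≤ q) (hπ : Irreducible π)
    (S : GaussSys K π (j 0 ^ (q ^ 2) - j 0) O e f) :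
    (j 1 ^ q - j 0 ^ (q ^ 2)) / (j 0 ^ (q ^ 2) - j 0) ∈ intCl R (j 0 ^ (q ^ 2) - j 0)⁻¹ ∧
    (j 1 ^ q - j 0) / (j 0 ^ (q ^ 2) - j 0) ∈ intCl R (j 0 ^ (q ^ 2) - j 0)⁻¹ ∧
    (j 2 - j 0 ^ (q ^ 2)) / (j 0 ^ (q ^ 2) - j 0) ∈ intCl R (j 0 ^ (q ^ 2) - j 0)⁻¹ ∧
    (j 2 - j 0) / (j 0 ^ (q ^ 2) - j 0) ∈ intCl R (j 0 ^ (q ^ 2) - j 0)⁻¹ ∧
    (O 0).valuation ((j 1 ^ q - j 0 ^ (q ^ 2)) / (j 0 ^ (q ^ 2) - j 0)) < 1 ∧
    (O 1).valuation ((j 1 ^ q - j 0 ^ (q ^ 2)) / (j 0 ^ (q ^ 2) - j 0)) < 1 ∧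
    (O 2).valuation ((j 1 ^ q - j 0) / (j 0 ^ (q ^ 2) - j 0)) < 1 ∧
    (O 0).valuation ((j 2 - j 0 ^ (q ^ 2)) / (j 0 ^ (q ^ 2) - j 0)) < 1 ∧
    (O 1).valuation ((j 2 - j 0) / (j 0 ^ (q ^ 2) - j 0)) < 1 := by
  obtain ⟨m0, m1, m2, m3⟩ := J.mem_chart₂ hq
  have hvt : ∀ i, (O i).valuation (j 0 ^ (q ^ 2) - j 0) = 1 := fun i =>
    GaussAux.val_t hπ (S.gauss i)
  have hle : ∀ i, (O i).valuation (j 0) ≤ 1 ∧ (O i).valuation (j 1) ≤ 1 ∧
      (O i).valuation (j 2) ≤ 1 := fun i => J.val_le_one hq (S.gauss i).const (hvt i).le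
  have hpow : ∀ i, (O i).valuation (j 1 - j 0 ^ q) < 1 →
      (O i).valuation (j 1 ^ q - j 0 ^ (q ^ 2)) < 1 := by
    intro i h
    rw [pow_two, pow_mul]
    exact val_pow_sub_pow_lt (hle i).2.1 (by rw [map_pow]; exact pow_le_one₀ zero_le (hle i).1) h q
  refine ⟨by rw [sub_div]; exact Subring.sub_mem _ m2 m1, by rw [sub_div]; exact Subring.sub_mem _ m2 m0,
    by rw [sub_div]; exact Subring.sub_mem _ m3 m1, by rw [sub_div]; exact Subring.sub_mem _ m3 m0,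
    ?_, ?_, ?_, ?_, ?_⟩
  · rw [map_div₀, hvt, div_one]; exact hpow 0 J.red0a
  · rw [map_div₀, hvt, div_one]; exact hpow 1 J.red1a
  · rw [map_div₀, hvt, div_one, Valuation.map_sub_swap]; exact J.red2a
  · rw [map_div₀, hvt, div_one]
    have : j 2 - j 0 ^ (q ^ 2) = (j 2 - j 1 ^ q) + (j 1 ^ q - j 0 ^ (q ^ 2)) := by ring
    rw [this]
    exact lt_of_le_of_lt (Valuation.map_add _ _ _) (max_lt J.red0b (hpow 0 J.red0a))
  · rw [map_div₀, hvt, div_one]; exact J.red1b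

/-- **[SEP-ABS]** -/
theorem JTriple.sep (J : JTriple R q O j) (hq : 2 ≤ q) (hπ : Irreducible π)
    (S : GaussSys K π (j 0 ^ (q ^ 2) - j 0) O e f) (i l : Fin 3) (hil : i ≠ l) :
    ∃ x ∈ intCl R (j 0 ^ (q ^ 2) - j 0)⁻¹, (O i).valuation x < 1 ∧ (O l).valuation (x - 1) < 1 := by
  obtain ⟨mx₁, my₁, mx₂, my₂, a0, a1, a2, b0, b1⟩ := J.sep_aux hq hπ S
  have ht0 : j 0 ^ (q ^ 2) - j 0 ≠ 0 := by
    intro h
    have := GaussAux.val_t hπ (S.gauss 0)
    rw [h, map_zero] at this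
    exact zero_ne_one this
  set T := j 0 ^ (q ^ 2) - j 0 with hT
  have e1 : (j 1 ^ q - j 0) / T - 1 = (j 1 ^ q - j 0 ^ (q ^ 2)) / T := by
    field_simp
    rw [hT]; ring
  have e2 : (j 2 - j 0) / T - 1 = (j 2 - j 0 ^ (q ^ 2)) / T := by
    field_simp
    rw [hT]; ring
  have e1' : -((j 1 ^ q - j 0 ^ (q ^ 2)) / T) - 1 = -((j 1 ^ q - j 0) / T) := by
    rw [← e1]; ring
  have e2' : -((j 2 - j 0 ^ (q ^ 2)) / T) - 1 = -((j 2 - j 0) / T) := by
    rw [← e2]; ring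
  fin_cases i <;> fin_cases l
  · exact absurd rfl hil
  · exact ⟨_, Subring.neg_mem _ mx₂, by rw [Valuation.map_neg]; exact b0,
      by rw [e2', Valuation.map_neg]; exact b1⟩
  · exact ⟨_, Subring.neg_mem _ mx₁, by rw [Valuation.map_neg]; exact a0,
      by rw [e1', Valuation.map_neg]; exact a2⟩
  · exact ⟨_, my₂, b1, by rw [e2]; exact b0⟩
  · exact absurd rfl hil
  · exact ⟨_, Subring.neg_mem _ mx₁, by rw [Valuation.map_neg]; exact a1,
      by rw [e1', Valuation.map_neg]; exact a2⟩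
  · exact ⟨_, my₁, a2, by rw [e1]; exact a0⟩
  · exact ⟨_, my₁, a2, by rw [e1]; exact a1⟩
  · exact absurd rfl hil

/-- **[CUSP-ABS-1]** -/
theorem JTriple.memAt_div (J : JTriple R q O j) (hq : 2 ≤ q) (hπ : Irreducible π)
    (S : GaussSys K π (j 0 ^ (q ^ 2) - j 0) O e f)
    (𝔪 : Ideal (intCl R (j 0 ^ (q ^ 2) - j 0)⁻¹)) (h𝔪 : 𝔪.IsMaximal)
    (ht : tinvB R (j 0 ^ (q ^ 2) - j 0) ∈ 𝔪) (h1 : (S.inv hπ).p 1 ≤ 𝔪) :
    MemAt (intCl R (j 0 ^ (q ^ 2) - j 0)⁻¹) 𝔪 (j 0 / j 2) := by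
  obtain ⟨mx₁, my₁, mx₂, my₂, a0, a1, a2, b0, b1⟩ := J.sep_aux hq hπ S
  refine memAt_of_forall_valuationSubring 𝔪 h𝔪.isPrime fun V hBV hV => ?_
  have hR : ∀ r : R, algebraMap R F r ∈ V := fun r => hBV (algebraMap_mem_intCl R _ r)
  have ht' : V.valuation (j 0 ^ (q ^ 2) - j 0)⁻¹ < 1 := (hV _).1 ht
  have ht0 : j 0 ^ (q ^ 2) - j 0 ≠ 0 := by
    intro h
    have := GaussAux.val_t hπ (S.gauss 0)
    rw [h, map_zero] at this
    exact zero_ne_one this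
  have hpos : 0 < V.valuation (j 0 ^ (q ^ 2) - j 0) := by
    rw [pos_iff_ne_zero]; exact (Valuation.ne_zero_iff _).2 ht0
  have hT1 : 1 < V.valuation (j 0 ^ (q ^ 2) - j 0) := by
    rw [map_inv₀] at ht'
    exact (inv_lt_one₀ hpos).1 ht'
  obtain ⟨h0, hT, h01, h12⟩ := J.val_of_pole hq hR hT1
  -- `x₁ ∈ 𝔪`
  have hx₁ : V.valuation ((j 1 ^ q - j 0 ^ (q ^ 2)) / (j 0 ^ (q ^ 2) - j 0)) < 1 :=
    (hV ⟨_, mx₁⟩).1 (h1 (((S.inv hπ).mem_p 1).2 a1))
  have hy₁ : V.valuation ((j 1 ^ q - j 0) / (j 0 ^ (q ^ 2) - j 0)) = 1 := by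
    have e1 : (j 1 ^ q - j 0) / (j 0 ^ (q ^ 2) - j 0) =
        1 + (j 1 ^ q - j 0 ^ (q ^ 2)) / (j 0 ^ (q ^ 2) - j 0) := by
      field_simp
      ring
    rw [e1]
    exact Valuation.map_one_add_of_lt _ hx₁
  have h2 : V.valuation (j 1 ^ q - j 0) = V.valuation (j 0) ^ (q ^ 2) := by
    rw [map_div₀, div_eq_one_iff_eq hpos.ne'] at hy₁
    rw [hy₁, hT]
  have h3 : V.valuation (j 1) ^ q = V.valuation (j 0) ^ (q ^ 2) := by
    have hlt : V.valuation (j 0) < V.valuation (j 1 ^ q - j 0) := by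
      rw [h2]
      calc V.valuation (j 0) = V.valuation (j 0) ^ 1 := (pow_one _).symm
        _ < V.valuation (j 0) ^ (q ^ 2) := pow_lt_pow_right₀ h0 (by nlinarith)
    have e2 : j 1 ^ q = (j 1 ^ q - j 0) + j 0 := by ring
    rw [← map_pow, e2, Valuation.map_add_eq_of_lt_left _ hlt, h2]
  have hq0 : q ≠ 0 := by omega
  have h4 : V.valuation (j 1) = V.valuation (j 0) ^ q := by
    rw [pow_two, pow_mul] at h3
    exact (pow_left_inj₀ zero_le zero_le hq0).1 h3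
  have h5 : 1 < V.valuation (j 1) := by rw [h4]; exact one_lt_pow₀ h0 hq0
  have h6 : 1 < V.valuation (j 2) := by
    by_contra hcon
    rw [not_lt] at hcon
    have : j 1 ∈ V := intCl_le_of_mem hR ((V.valuation_le_one_iff _).1 hcon) J.int21
    exact absurd h5 (not_lt.2 ((V.valuation_le_one_iff _).2 this))
  have h7 : V.valuation (j 1) ≤ V.valuation (j 2) ^ q := by
    have hinv : (j 2)⁻¹ ∈ V := by
      rw [← V.valuation_le_one_iff, map_inv₀]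
      exact inv_le_one_of_one_le₀ h6.le
    have h8 : j 1 / j 2 ^ q ∈ V := intCl_le_of_mem hR hinv J.inf21
    rw [← V.valuation_le_one_iff, map_div₀, map_pow] at h8
    exact (div_le_one₀ (pow_pos (lt_trans zero_lt_one h6) _)).1 h8
  rw [h4] at h7
  have h9 : V.valuation (j 0) ≤ V.valuation (j 2) := (pow_le_pow_iff_left₀ zero_le zero_le hq0).1 h7
  rw [← V.valuation_le_one_iff, map_div₀]
  exact (div_le_one₀ (lt_trans zero_lt_one h6)).2 h9

/-- **[CUSP-ABS-2]**  the field `cusp` of `GeomDatum`, with `ϖc = 1 - j 0 / j 2`.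

`hz`: `v₁ (z) = 1` for `z := ϖc^(q-1) / π`  (`σ₂ (ϖc) = (1 - ζ)(1 + T (..))`).
`hres`: the reduction of `z` is a rational function `c (jb) / s (jb)` of `jb` which is a unit at `jb = ∞`
(`GaussSys.res_exact` at the level `q²`, where `f 1 = 1`, gives `s, c`; the `T`-expansion
`zbar = -1 + O(T)` gives `deg cbar = deg sbar = d`; truncate `s`, `c` at the degree `d`).

Proof.  `ϖc ∈ (B₂)_𝔪` by `memAt_div`; `z ∈ (B₂)_𝔪` by `memAt_div_pi` (`𝔪` lies on the component `1` only, by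
`sep`).  `S₁ := s (j 0) / j 0^d`, `C₁ := c (j 0) / j 0^d ∈ R[1 / j 0] ⊆ B₂` are congruent modulo `1 / j 0 ∈ 𝔪`
to the units `s_d`, `c_d`.  `S₁ z - C₁ ∈ (B₂)_𝔪` has `v₁ < 1`, hence is in `𝔪 (B₂)_𝔪` (SAT).  So `z` is a unit
at `𝔪`. -/
theorem JTriple.cusp (J : JTriple R q O j) (hq : 2 ≤ q) (hπ : Irreducible π)
    (S : GaussSys K π (j 0 ^ (q ^ 2) - j 0) O e f)
    (hz : (O 1).valuation ((1 - j 0 / j 2) ^ (q - 1) / algebraMap R F π) = 1)
    (hres : ∃ (s c : R[X]) (d : ℕ), s.natDegree ≤ d ∧ c.natDegree ≤ d ∧ IsUnit (s.coeff d) ∧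
      IsUnit (c.coeff d) ∧ (O 1).valuation (aeval (j 0) s *
        ((1 - j 0 / j 2) ^ (q - 1) / algebraMap R F π) - aeval (j 0) c) < 1)
    (𝔪 : Ideal (intCl R (j 0 ^ (q ^ 2) - j 0)⁻¹)) (h𝔪 : 𝔪.IsMaximal)
    (ht : tinvB R (j 0 ^ (q ^ 2) - j 0) ∈ 𝔪) (h1 : (S.inv hπ).p 1 ≤ 𝔪) :
    (O 1).valuation (1 - j 0 / j 2) < 1 ∧
    MemAt (intCl R (j 0 ^ (q ^ 2) - j 0)⁻¹) 𝔪 (1 - j 0 / j 2) ∧
    UnitAt (intCl R (j 0 ^ (q ^ 2) - j 0)⁻¹) 𝔪
      ((1 - j 0 / j 2) ^ (q - 1) / algebraMap R F π) :=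
  CuspAux.main hq hπ rfl S hz hres 𝔪 h𝔪 ht h1 (J.memAt_div hq hπ S 𝔪 h𝔪 ht h1)
    (fun l hl => J.sep hq hπ S l 1 hl)

end Fermat.Agent.S36
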