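import Fermat.Agent.S36.Abs.DedTransfer
import Fermat.Agent.S36.Abs.SepCusp
import Fermat.Agent.S36.Abs.GaussPoly
import Fermat.Agent.S36.Abs.DedGlob
import Fermat.Agent.S36.Abs.DedChart
import Fermat.Agent.S36.Abs.DedT2

/-!
# S36 / abstract part : `[DED]`  the fields `ded₁`, `ded₂`, `glob` of `GeomDatum`

The components of the special fibre of `X₀(q² M)` are copies of `X₀(M) mod q`: the residue ring
`B_c ⧸ p i` of a chart is identified with the residue ring `B'_c ⧸ p'` of the corresponding chart of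
`X₀(M)` (good reduction, one component), via `a₀ : u ↦ u(τ)` for `i = 0, 1` and `a₂ : u ↦ u(q² τ)` for
`i = 2`.  Everything here is pure algebra; the modular input is the structure `DedDatum`.
See board, topic S36, `[DED]` (helper47).
-/

set_option autoImplicit false

open Polynomial

namespace Fermat.Agent.S36

variable {R : Type*} [CommRing R] [IsDomain R] [IsDiscreteValuationRing R]
  {K : Type*} [Field K] [Algebra R K] [IsFractionRing R K]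
  {F : Type*} [Field F] [CharZero F] [Algebra R F] [Algebra K F] [IsScalarTower R K F]
  {F₁ : Type*} [Field F₁] [CharZero F₁] [Algebra R F₁] [Algebra K F₁] [IsScalarTower R K F₁]
  {π : R}

section General

variable {ι : Type*} [Fintype ι] {O : ι → ValuationSubring F} {e f : ι → ℕ}
  {ι₁ : Type*} [Fintype ι₁] {O₁ : ι₁ → ValuationSubring F₁} {e₁ f₁ : ι₁ → ℕ}

/-- **[GLOB]**  Proof.  Let `x` be integral over `R[t]` and over `R[t⁻¹]`.  Every valuation ring `V ⊇ K` of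
`F` contains `t` or `t⁻¹`, hence `x`; so `x` is integral over `K`
(`Subring.exists_le_valuationSubring_of_isIntegrallyClosedIn` applied to `integralClosure K F`, as in
`RED.DRH.isIntegral_iff_forall_place`), `x = algebraMap K F c`.  Write `c = r / π ^ n` with `π ∤ r` or
`n = 0` (DVR); `x ∈ O i` (`intCl_le`) and `v (π) < 1`, `v (unit) = 1` give `n = 0`. -/
theorem GaussSys.glob [Nonempty ι] {t : F} (hπ : Irreducible π) (S : GaussSys K π t O e f)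
    (hK : ∀ x : F, IsIntegral K x → x ∈ Set.range (algebraMap K F)) :
    ∀ x, x ∈ intCl R t → x ∈ intCl R t⁻¹ → x ∈ Set.range (algebraMap R F) :=
  S.glob_aux hπ hK

/-- **[APPROX-RES]** residue degree one from the shape of the lifts `ω` in `GaussSys.res`.
Proof.  `S.res_exact` gives `s` primitive, `c` with `v (s(t) y - ∑ c k (t) a (ω k)) < 1`, `v (s(t)) = 1`.
`p(t) ≡ a (p(τ))` for every `p : R[X]` (`t, a τ ∈ O i`).  Take `y' = (∑ c k (τ) ω k) / s(τ)`. -/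
theorem GaussSys.approx_of_res {t : F} (hπ : Irreducible π) (S : GaussSys K π t O e f) (i : ι)
    (a : F₁ →ₐ[K] F) {τ : F₁} (hτ : (O i).valuation (t - a τ) < 1)
    (ω : Fin (f i) → F₁) (h1 : ∀ k, a (ω k) ∈ O i)
    (h2 : ∀ c : Fin (f i) → R[X],
      (O i).valuation (∑ k, aeval t (c k) * a (ω k)) < 1 → ∀ k, C π ∣ c k)
    {y : F} (hy : y ∈ O i) : ∃ y' : F₁, (O i).valuation (y - a y') < 1 :=
  S.approx_of_res_aux hπ i a hτ ω h1 h2 hy

/-- a root, modulo the maximal ideal of `O₁ i₁`, of a monic polynomial with coefficients in the chart is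
congruent to an element of the chart, if the residue ring of the chart is integrally closed.
Proof.  If `v x < 1` take `b = 0`.  Otherwise `v x = 1` and `S₁.unitAt_centre` gives `x * t = s` with
`s, t ∈ B₁ \ p`.  In `D = B₁ ⧸ p` : `∑ c l * s ^ l * t ^ (m - l) = 0` (`c m = 1`), so `s / t ∈ Frac D` is integral
over `D`, so `s = b t` in `D` (`IsIntegrallyClosed.isIntegral_iff` in `FractionRing D`), i.e.
`v ((b - x) t) < 1`. -/
theorem GaussSys.exists_approx_of_monic {s₁ : F₁} (hπ : Irreducible π)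
    (S₁ : GaussSys K π s₁ O₁ e₁ f₁) (i₁ : ι₁) (hD : IsDedekindDomain (intCl R s₁ ⧸ S₁.p i₁))
    {x : F₁} (hx : x ∈ O₁ i₁) (m : ℕ) (c : ℕ → F₁) (hc : ∀ l, c l ∈ intCl R s₁)
    (h : (O₁ i₁).valuation (x ^ m + ∑ l ∈ Finset.range m, c l * x ^ l) < 1) :
    ∃ b ∈ intCl R s₁, (O₁ i₁).valuation (x - b) < 1 :=
  S₁.exists_approx_of_monic_aux hπ i₁ hD hx m c hc h

/-- **[APPROX-CHART]**  Let `x ∈ intCl R s`, `x ≡ a x'` (`happ`), `x' ∈ O₁ i₁` (`hO`).  A monic equation of `x`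
over `R[s]` has coefficients `γ l (s)`, `γ l : R[X]`; `γ l (s) ≡ a (γ l (s₁ ^ n))`, so `x'` is a root modulo the
maximal ideal of the monic polynomial with coefficients `γ l (s₁ ^ n) ∈ intCl R s₁`
(`hO` : `v (a z) < 1 ↔ v₁ z < 1`); conclude by `exists_approx_of_monic`. -/
theorem GaussSys.exists_approx_chart {s : F} {s₁ : F₁} (hπ : Irreducible π)
    (S : GaussSys K π s O e f) (S₁ : GaussSys K π s₁ O₁ e₁ f₁) (i : ι) (i₁ : ι₁)
    (a : F₁ →ₐ[K] F) (hO : (O i).comap (a : F₁ →+* F) = O₁ i₁)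
    (happ : ∀ y ∈ O i, ∃ y' : F₁, (O i).valuation (y - a y') < 1)
    (n : ℕ) (hs : (O i).valuation (s - a (s₁ ^ n)) < 1)
    (hD : IsDedekindDomain (intCl R s₁ ⧸ S₁.p i₁)) :
    ∀ x ∈ intCl R s, ∃ x' ∈ intCl R s₁, (O i).valuation (x - a x') < 1 :=
  S.exists_approx_chart_aux hπ S₁ i i₁ a hO happ n hs hD

/-- **[DED-LEVEL]** -/
theorem GaussSys.ded_of_level {s : F} {s₁ : F₁} (hπ : Irreducible π)
    (S : GaussSys K π s O e f) (S₁ : GaussSys K π s₁ O₁ e₁ f₁) (i : ι) (i₁ : ι₁)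
    (a : F₁ →ₐ[K] F) (hO : (O i).comap (a : F₁ →+* F) = O₁ i₁)
    (happ : ∀ y ∈ O i, ∃ y' : F₁, (O i).valuation (y - a y') < 1)
    (n : ℕ) (hs : (O i).valuation (s - a (s₁ ^ n)) < 1)
    (hlift : ∀ x' ∈ intCl R s₁, ∃ x ∈ intCl R s, (O i).valuation (x - a x') < 1)
    (hD : IsDedekindDomain (intCl R s₁ ⧸ S₁.p i₁)) :
    IsDedekindDomain (intCl R s ⧸ S.p i) :=
  isDedekindDomain_centre_of_approx (a : F₁ →+* F) hO (intCl_le (S.gauss i))
    (intCl_le (S₁.gauss i₁)) (S.exists_approx_chart hπ S₁ i i₁ a hO happ n hs hD) hlift hD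

omit [IsDomain R] [IsDiscreteValuationRing R] [CharZero F] in
/-- **[IDEAL-TRICK]**  `y` lies in every valuation ring `V ⊇ B = intCl R s` with `v (π) < 1` ⟹
`(1 + π b) y ∈ B` for some `b ∈ B`.
Proof.  `I = {c ∈ B | c y ∈ B}` is an ideal.  If `I + π B ≠ ⊤` it lies in a maximal ideal `𝔪`;
`memAt_of_forall_valuationSubring 𝔪` gives `y * t = s`, `t ∉ 𝔪`, but `t ∈ I`. -/
theorem exists_mul_mem_intCl_of_forall_valuationSubring {s y : F} (π : R)
    (h : ∀ V : ValuationSubring F, intCl R s ≤ V.toSubring →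
      V.valuation (algebraMap R F π) < 1 → y ∈ V) :
    ∃ b ∈ intCl R s, (1 + algebraMap R F π * b) * y ∈ intCl R s :=
  exists_mul_mem_intCl_of_forall_valuationSubring_aux π h

end General

section Three

variable {q : ℕ} {O : Fin 3 → ValuationSubring F} {e f : Fin 3 → ℕ} {j : Fin 3 → F}

omit [IsDomain R] [IsDiscreteValuationRing R] [CharZero F] in
/-- the first charts for `j 0` and `j 2` coincide (`int01 .. int21`, `intCl_aeval_eq`, `intCl_le_intCl_of_mem`). -/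
theorem JTriple.intCl_t₂_le (J : JTriple R q O j) (hq : 2 ≤ q) :
    intCl R (j 2 ^ (q ^ 2) - j 2) ≤ intCl R (j 0 ^ (q ^ 2) - j 0) :=
  J.intCl_t₂_le_aux hq

/-- the reductions of `t₂ = j 2 ^ (q²) - j 2` : `t₂ ≡ t ^ (q²)`, `t₂ ≡ t`, `t ≡ t₂ ^ (q²)`.
(residue fields have characteristic `q` : `sub_pow_expChar_pow` in `IsLocalRing.ResidueField (O i)`,
or `(x - y)^(q^2) - (x^(q^2) - y^(q^2)) ∈ q ℤ[x, y]`.) -/
theorem JTriple.red_t₂ (J : JTriple R q O j) (hq : q.Prime)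
    (S : GaussSys K ((q : ℕ) : R) (j 0 ^ (q ^ 2) - j 0) O e f)
    (h2b : (O 2).valuation (j 1 - j 2 ^ q) < 1) :
    (O 0).valuation ((j 2 ^ (q ^ 2) - j 2) - (j 0 ^ (q ^ 2) - j 0) ^ (q ^ 2)) < 1 ∧
    (O 1).valuation ((j 2 ^ (q ^ 2) - j 2) - (j 0 ^ (q ^ 2) - j 0)) < 1 ∧
    (O 2).valuation ((j 0 ^ (q ^ 2) - j 0) - (j 2 ^ (q ^ 2) - j 2) ^ (q ^ 2)) < 1 :=
  J.red_t₂_aux hq S h2b

/-- **(L)**  every valuation ring `V ⊇ B₂` of residue characteristic `q` contains `1 / t₂`.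
Proof.  `t⁻¹ ∈ V`.  (i) `j 0 ∈ V`: then `j 1, j 2 ∈ V`, `B₁ = intCl R t ≤ V`, `v t = 1`.  The centre of `V` on `B₁` is a
prime containing `q`, hence contains `S.p i` for some `i` (`S.cover`); by `red_t₂` one of
`t₂ - t^(q²)`, `t₂ - t`, `t - t₂^(q²)` (elements of `B₁`) has `v < 1`; in each case `v t₂ = 1`.
(ii) `j 0 ∉ V`: then `j 2 ∉ V` (`int21`, `int10`), `v t₂ = v (j 2) ^ (q²) > 1`. -/
theorem JTriple.inv_t₂_mem (J : JTriple R q O j) (hq : q.Prime)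
    (irr : Irreducible ((q : ℕ) : R))
    (S : GaussSys K ((q : ℕ) : R) (j 0 ^ (q ^ 2) - j 0) O e f)
    (h2b : (O 2).valuation (j 1 - j 2 ^ q) < 1)
    (V : ValuationSubring F) (hV : intCl R (j 0 ^ (q ^ 2) - j 0)⁻¹ ≤ V.toSubring)
    (hVq : V.valuation (q : F) < 1) : (j 2 ^ (q ^ 2) - j 2)⁻¹ ∈ V :=
  J.inv_t₂_mem_aux hq irr S h2b V hV hVq

/-- **The modular input for `[DED]`** : the level `M` (one component, good reduction) and the two maps
`a₀ : u ↦ u(τ)`, `a₂ : u ↦ u(q² τ)`. -/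
structure DedDatum (K : Type*) [Field K] [Algebra R K] [IsFractionRing R K] [Algebra K F]
    [IsScalarTower R K F] [Algebra K F₁] [IsScalarTower R K F₁]
    (q : ℕ) (irr : Irreducible ((q : ℕ) : R)) (O : Fin 3 → ValuationSubring F) (j : Fin 3 → F)
    (j₁ : F₁) (O₁ : ValuationSubring F₁) (a₀ a₂ : F₁ →ₐ[K] F) (e₁ f₁ : Fin 1 → ℕ) : Prop where
  sys₁ : GaussSys K ((q : ℕ) : R) (j₁ ^ (q ^ 2) - j₁) (fun _ : Fin 1 => O₁) e₁ f₁
  a₀_j : a₀ j₁ = j 0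
  a₂_j : a₂ j₁ = j 2
  comap₀ : (O 0).comap (a₀ : F₁ →+* F) = O₁
  comap₁ : (O 1).comap (a₀ : F₁ →+* F) = O₁
  comap₂ : (O 2).comap (a₂ : F₁ →+* F) = O₁
  /-- residue degree one (see `GaussSys.approx_of_res`) -/
  approx₀ : ∀ y ∈ O 0, ∃ y' : F₁, (O 0).valuation (y - a₀ y') < 1
  approx₁ : ∀ y ∈ O 1, ∃ y' : F₁, (O 1).valuation (y - a₀ y') < 1
  approx₂ : ∀ y ∈ O 2, ∃ y' : F₁, (O 2).valuation (y - a₂ y') < 1
  red2b : (O 2).valuation (j 1 - j 2 ^ q) < 1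
  /-- good reduction at the level `M` -/
  ded₁ : IsDedekindDomain (intCl R (j₁ ^ (q ^ 2) - j₁) ⧸ sys₁.p 0)
  ded₂ : IsDedekindDomain (intCl R (j₁ ^ (q ^ 2) - j₁)⁻¹ ⧸ (sys₁.inv irr).p 0)

variable {irr : Irreducible ((q : ℕ) : R)} {j₁ : F₁} {O₁ : ValuationSubring F₁}
  {a₀ a₂ : F₁ →ₐ[K] F} {e₁ f₁ : Fin 1 → ℕ}

/-- **[DED-1]**  `ded_of_level` with `(a, n) = (a₀, 1), (a₀, 1), (a₂, q²)`; `hlift` : `x = a x'`
(`map_mem_intCl_aux`, `intCl_t₂_le`); `hs` : equality for `i = 0, 1`, `red_t₂` for `i = 2`. -/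
theorem DedDatum.ded_chart₁ (D : DedDatum K q irr O j j₁ O₁ a₀ a₂ e₁ f₁) (J : JTriple R q O j)
    (hq : q.Prime) (S : GaussSys K ((q : ℕ) : R) (j 0 ^ (q ^ 2) - j 0) O e f) (i : Fin 3) :
    IsDedekindDomain (intCl R (j 0 ^ (q ^ 2) - j 0) ⧸ S.p i) := by
  have ht₀ : a₀ (j₁ ^ (q ^ 2) - j₁) = j 0 ^ (q ^ 2) - j 0 := by rw [map_sub, map_pow, D.a₀_j]
  have ht₂ : a₂ (j₁ ^ (q ^ 2) - j₁) = j 2 ^ (q ^ 2) - j 2 := by rw [map_sub, map_pow, D.a₂_j]
  have hs₀ : ∀ i, (O i).valuation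
      ((j 0 ^ (q ^ 2) - j 0) - a₀ ((j₁ ^ (q ^ 2) - j₁) ^ 1)) < 1 := by
    intro i
    rw [pow_one, ht₀, sub_self, map_zero]
    exact zero_lt_one
  have hl₀ : ∀ i, ∀ x' ∈ intCl R (j₁ ^ (q ^ 2) - j₁), ∃ x ∈ intCl R (j 0 ^ (q ^ 2) - j 0),
      (O i).valuation (x - a₀ x') < 1 := by
    intro i x' hx'
    refine ⟨a₀ x', ?_, by rw [sub_self, map_zero]; exact zero_lt_one⟩
    have := map_mem_intCl_aux (R := R) a₀ hx'
    rwa [ht₀] at this
  have h0 : IsDedekindDomain (intCl R (j 0 ^ (q ^ 2) - j 0) ⧸ S.p 0) :=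
    S.ded_of_level irr D.sys₁ 0 0 a₀ D.comap₀ D.approx₀ 1 (hs₀ 0) (hl₀ 0) D.ded₁
  have h1 : IsDedekindDomain (intCl R (j 0 ^ (q ^ 2) - j 0) ⧸ S.p 1) :=
    S.ded_of_level irr D.sys₁ 1 0 a₀ D.comap₁ D.approx₁ 1 (hs₀ 1) (hl₀ 1) D.ded₁
  have h2 : IsDedekindDomain (intCl R (j 0 ^ (q ^ 2) - j 0) ⧸ S.p 2) := by
    refine S.ded_of_level irr D.sys₁ 2 0 a₂ D.comap₂ D.approx₂ (q ^ 2) ?_ ?_ D.ded₁
    · rw [map_pow, ht₂]
      exact (J.red_t₂ hq S D.red2b).2.2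
    · intro x' hx'
      refine ⟨a₂ x', ?_, by rw [sub_self, map_zero]; exact zero_lt_one⟩
      have := map_mem_intCl_aux (R := R) a₂ hx'
      rw [ht₂] at this
      exact J.intCl_t₂_le hq.two_le this
  fin_cases i
  exacts [h0, h1, h2]

/-- **[DED-2]**  `ded_of_level` for `S.inv irr`, `D.sys₁.inv irr`.  `i = 0, 1` as in the first chart.
`i = 2`: `hs` : `t⁻¹ ≡ a₂ ((t₁⁻¹)^(q²))` from `red_t₂` (`v₂ t = v₂ t₂ = 1`).  `hlift` : `y = a₂ x'` is integral over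
`R[t₂⁻¹]`, hence lies in every `V ⊇ B₂` with `v q < 1` (`inv_t₂_mem`); `[IDEAL-TRICK]` gives `b ∈ B₂` with
`x = (1 + q b) y ∈ B₂`, and `v₂ (x - y) = v₂ (q b y) < 1`. -/
theorem DedDatum.ded_chart₂ (D : DedDatum K q irr O j j₁ O₁ a₀ a₂ e₁ f₁) (J : JTriple R q O j)
    (hq : q.Prime) (S : GaussSys K ((q : ℕ) : R) (j 0 ^ (q ^ 2) - j 0) O e f) (i : Fin 3) :
    IsDedekindDomain (intCl R (j 0 ^ (q ^ 2) - j 0)⁻¹ ⧸ (S.inv irr).p i) := by
  have ht₀ : a₀ (j₁ ^ (q ^ 2) - j₁)⁻¹ = (j 0 ^ (q ^ 2) - j 0)⁻¹ := by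
    rw [map_inv₀, map_sub, map_pow, D.a₀_j]
  have ht₂ : a₂ (j₁ ^ (q ^ 2) - j₁)⁻¹ = (j 2 ^ (q ^ 2) - j 2)⁻¹ := by
    rw [map_inv₀, map_sub, map_pow, D.a₂_j]
  have hs₀ : ∀ i, (O i).valuation
      ((j 0 ^ (q ^ 2) - j 0)⁻¹ - a₀ ((j₁ ^ (q ^ 2) - j₁)⁻¹ ^ 1)) < 1 := by
    intro i
    rw [pow_one, ht₀, sub_self, map_zero]
    exact zero_lt_one
  have hl₀ : ∀ i, ∀ x' ∈ intCl R (j₁ ^ (q ^ 2) - j₁)⁻¹, ∃ x ∈ intCl R (j 0 ^ (q ^ 2) - j 0)⁻¹,
      (O i).valuation (x - a₀ x') < 1 := by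
    intro i x' hx'
    refine ⟨a₀ x', ?_, by rw [sub_self, map_zero]; exact zero_lt_one⟩
    have := map_mem_intCl_aux (R := R) a₀ hx'
    rwa [ht₀] at this
  have h0 : IsDedekindDomain (intCl R (j 0 ^ (q ^ 2) - j 0)⁻¹ ⧸ (S.inv irr).p 0) :=
    (S.inv irr).ded_of_level irr (D.sys₁.inv irr) 0 0 a₀ D.comap₀ D.approx₀ 1 (hs₀ 0) (hl₀ 0) D.ded₂
  have h1 : IsDedekindDomain (intCl R (j 0 ^ (q ^ 2) - j 0)⁻¹ ⧸ (S.inv irr).p 1) :=
    (S.inv irr).ded_of_level irr (D.sys₁.inv irr) 1 0 a₀ D.comap₁ D.approx₁ 1 (hs₀ 1) (hl₀ 1) D.ded₂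
  have hq2 : (O 2).valuation (algebraMap R F ((q : ℕ) : R)) < 1 := (S.gauss 2).lt_one
  have h2 : IsDedekindDomain (intCl R (j 0 ^ (q ^ 2) - j 0)⁻¹ ⧸ (S.inv irr).p 2) := by
    refine (S.inv irr).ded_of_level irr (D.sys₁.inv irr) 2 0 a₂ D.comap₂ D.approx₂ (q ^ 2) ?_ ?_
      D.ded₂
    · -- `t⁻¹ ≡ (t₂⁻¹)^(q²)`
      rw [map_pow, ht₂]
      have hred := (J.red_t₂ hq S D.red2b).2.2
      have hvt : (O 2).valuation (j 0 ^ (q ^ 2) - j 0) = 1 := KrullAux.valuation_t (S.gauss 2)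
      set t := j 0 ^ (q ^ 2) - j 0 with ht
      set t₂ := j 2 ^ (q ^ 2) - j 2 with ht₂'
      have hvt₂ : (O 2).valuation (t₂ ^ (q ^ 2)) = 1 := by
        have : t₂ ^ (q ^ 2) = t + -(t - t₂ ^ (q ^ 2)) := by ring
        rw [this, Valuation.map_add_eq_of_lt_left _ (by rw [Valuation.map_neg, hvt]; exact hred),
          hvt]
      have ht0 : t ≠ 0 := by
        intro h
        rw [h, map_zero] at hvt
        exact zero_ne_one hvt
      have ht20 : t₂ ^ (q ^ 2) ≠ 0 := by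
        intro h
        rw [h, map_zero] at hvt₂
        exact zero_ne_one hvt₂
      have e : t⁻¹ - t₂⁻¹ ^ (q ^ 2) = -(t - t₂ ^ (q ^ 2)) * (t⁻¹ * (t₂ ^ (q ^ 2))⁻¹) := by
        rw [inv_pow]
        field_simp
        ring
      rw [e, map_mul, map_mul, map_inv₀, map_inv₀, hvt, hvt₂, Valuation.map_neg]
      simpa using hred
    · intro x' hx'
      have hy := map_mem_intCl_aux (R := R) a₂ hx'
      rw [ht₂] at hy
      obtain ⟨b, hb, hby⟩ := exists_mul_mem_intCl_of_forall_valuationSubring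
        (s := (j 0 ^ (q ^ 2) - j 0)⁻¹) (y := a₂ x') ((q : ℕ) : R) (fun V hV hVq => by
          have h1 := J.inv_t₂_mem hq irr S D.red2b V hV (by simpa using hVq)
          exact intCl_le_of_mem
            (fun r => hV (algebraMap_mem_intCl R _ r)) h1 hy)
      refine ⟨_, hby, ?_⟩
      have hyO : a₂ x' ∈ O 2 := by
        have : x' ∈ (O 2).comap (a₂ : F₁ →+* F) := by
          rw [D.comap₂]
          exact intCl_le ((D.sys₁.inv irr).gauss 0) hx'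
        exact this
      have hbO : b ∈ O 2 := intCl_le ((S.inv irr).gauss 2) hb
      have e : (1 + algebraMap R F ((q : ℕ) : R) * b) * a₂ x' - a₂ x' =
          algebraMap R F ((q : ℕ) : R) * (b * a₂ x') := by ring
      rw [e, map_mul]
      have h3 : (O 2).valuation (b * a₂ x') ≤ 1 :=
        ((O 2).valuation_le_one_iff _).2 ((O 2).mul_mem _ _ hbO hyO)
      calc (O 2).valuation (algebraMap R F ((q : ℕ) : R)) * (O 2).valuation (b * a₂ x')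
          ≤ (O 2).valuation (algebraMap R F ((q : ℕ) : R)) * 1 := by gcongr
        _ < 1 := by simpa using hq2
  fin_cases i
  exacts [h0, h1, h2]

end Three

end Fermat.Agent.S36
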