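import Fermat.Agent.S36.Abs.DedLocal

/-!
# S36 / abstract part : `[DED-RED]`, `[DED-TRANSFER]`

`B ⊆ O` a subring of a valuation ring of `F`, `p = centre B O`.  Two ways of proving that `B ⧸ p` is a
Dedekind domain:

* `[DED-RED]` a residue map `ρ : O → L` with `ρ (B) = D`, `D` a Dedekind subring of `L`;
* `[DED-TRANSFER]` a map `a : F' → F` with `O ∩ F' = O'` such that `B` and `a (B')` have the same
  image in the residue field of `O`, and `B' ⧸ p'` is Dedekind.
-/

set_option autoImplicit false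

namespace Fermat.Agent.S36

/-- a surjective ring homomorphism onto a Dedekind domain -/
theorem isDedekindDomain_quotient_of_surjective {B D : Type*} [CommRing B] [CommRing D]
    (g : B →+* D) (hg : Function.Surjective g) (p : Ideal B) (hp : ∀ x, x ∈ p ↔ g x = 0)
    (hD : IsDedekindDomain D) : IsDedekindDomain (B ⧸ p) := by
  have hker : RingHom.ker g = p := by
    ext x
    rw [RingHom.mem_ker, hp]
  exact isDedekindDomain_of_ringEquiv
    ((Ideal.quotEquivOfEq hker.symm).trans (RingHom.quotientKerEquivOfSurjective hg))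

variable {F : Type*} [Field F]

/-- **[DED-RED]** -/
theorem isDedekindDomain_centre_of_red {L : Type*} [CommRing L] {B : Subring F}
    {O : ValuationSubring F} (hB : B ≤ O.toSubring) (ρ : O →+* L)
    (hρ : ∀ x : O, ρ x = 0 ↔ O.valuation (x : F) < 1)
    (D : Subring L) (hD : IsDedekindDomain D)
    (h1 : ∀ x : B, ρ (Subring.inclusion hB x) ∈ D)
    (h2 : ∀ y ∈ D, ∃ x : B, ρ (Subring.inclusion hB x) = y) :
    IsDedekindDomain (B ⧸ centre B O hB) := by
  refine isDedekindDomain_quotient_of_surjective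
    ((ρ.comp (Subring.inclusion hB)).codRestrict D h1) ?_ _ ?_ hD
  · rintro ⟨y, hy⟩
    obtain ⟨x, hx⟩ := h2 y hy
    exact ⟨x, Subtype.ext hx⟩
  · intro x
    rw [mem_centre, ← Subtype.coe_inj]
    exact (hρ (Subring.inclusion hB x)).symm

/-- **[DED-TRANSFER]** -/
theorem isDedekindDomain_centre_of_approx {F' : Type*} [Field F'] (a : F' →+* F)
    {B : Subring F} {B' : Subring F'} {O : ValuationSubring F} {O' : ValuationSubring F'}
    (hO : O.comap a = O') (hB : B ≤ O.toSubring) (hB' : B' ≤ O'.toSubring)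
    (h1 : ∀ x ∈ B, ∃ x' ∈ B', O.valuation (x - a x') < 1)
    (h2 : ∀ x' ∈ B', ∃ x ∈ B, O.valuation (x - a x') < 1)
    (hD : IsDedekindDomain (B' ⧸ centre B' O' hB')) : IsDedekindDomain (B ⧸ centre B O hB) := by
  have haO : ∀ x' : B', a (x' : F') ∈ O := by
    intro x'
    have : (x' : F') ∈ O.comap a := by rw [hO]; exact hB' x'.2
    exact this
  let a' : B' →+* O := (a.comp B'.subtype).codRestrict O.toSubring haO
  let φ : B' →+* IsLocalRing.ResidueField O := (IsLocalRing.residue O).comp a'
  have hres : ∀ x : O, IsLocalRing.residue O x = 0 ↔ O.valuation (x : F) < 1 := by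
    intro x
    rw [IsLocalRing.residue_eq_zero_iff, ValuationSubring.valuation_lt_one_iff]
  have hval : ∀ x' : F', O.valuation (a x') < 1 ↔ O'.valuation x' < 1 := by
    intro x'
    subst hO
    rw [← not_le, ← not_le, not_iff_not]
    by_cases h0 : x' = 0
    · subst h0; simp
    have h0' : a x' ≠ 0 := by rwa [Ne, map_eq_zero]
    have e1 : 1 ≤ O.valuation (a x') ↔ a x'⁻¹ ∈ O := by
      rw [← ValuationSubring.valuation_le_one_iff, map_inv₀, map_inv₀,
        inv_le_one₀ (zero_lt_iff.2 ((Valuation.ne_zero_iff _).2 h0'))]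
    have e2 : 1 ≤ (O.comap a).valuation x' ↔ x'⁻¹ ∈ O.comap a := by
      rw [← ValuationSubring.valuation_le_one_iff, map_inv₀,
        inv_le_one₀ (zero_lt_iff.2 ((Valuation.ne_zero_iff _).2 h0))]
    rw [e1, e2, ValuationSubring.mem_comap]
  have hker : ∀ x' : B', x' ∈ centre B' O' hB' ↔ φ.rangeRestrict x' = 0 := by
    intro x'
    rw [mem_centre, ← Subtype.coe_inj]
    show _ ↔ IsLocalRing.residue O (a' x') = 0
    rw [hres]
    exact (hval _).symm
  have hDr : IsDedekindDomain φ.range := by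
    have hk : RingHom.ker φ.rangeRestrict = centre B' O' hB' := by
      ext x'
      rw [RingHom.mem_ker, hker]
    exact isDedekindDomain_of_ringEquiv
      ((Ideal.quotEquivOfEq hk.symm).trans
        (RingHom.quotientKerEquivOfSurjective φ.rangeRestrict_surjective)).symm
  have hsub : ∀ (x : B) (x' : B'), O.valuation ((x : F) - a x') < 1 →
      IsLocalRing.residue O (Subring.inclusion hB x) = φ x' := by
    intro x x' h
    show _ = IsLocalRing.residue O (a' x')
    rw [← sub_eq_zero, ← map_sub, hres]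
    exact h
  refine isDedekindDomain_centre_of_red hB (IsLocalRing.residue O) hres φ.range hDr ?_ ?_
  · intro x
    obtain ⟨x', hx', h⟩ := h1 x x.2
    exact ⟨⟨x', hx'⟩, (hsub x ⟨x', hx'⟩ h).symm⟩
  · rintro _ ⟨x', rfl⟩
    obtain ⟨x, hx, h⟩ := h2 x' x'.2
    exact ⟨⟨x, hx⟩, hsub ⟨x, hx⟩ x' h⟩

end Fermat.Agent.S36
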