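import Fermat.Agent.S36.Abs.Chart

/-!
# S36 / abstract part : `[VALCRIT]` valuative criteria, `[INT-SCALE]`

Tools for the modular side: membership in a chart `intCl R t` or in one of its local rings can be tested
on valuation rings (Mathlib: `Subring.exists_le_valuationSubring_of_isIntegrallyClosedIn`,
`LocalSubring.exists_le_valuationSubring_of_isIntegrallyClosedIn`, `LocalSubring.ofPrime`).
-/

set_option autoImplicit false

open Polynomial

namespace Fermat.Agent.S36

theorem self_mem_intCl (R : Type*) [CommRing R] {F : Type*} [Field F] [Algebra R F] (t : F) :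
    t ∈ intCl R t := by
  rw [mem_intCl]
  exact (isIntegral_algebraMap (R := Algebra.adjoin R {t})
    (x := ⟨t, Algebra.subset_adjoin (Set.mem_singleton _)⟩))

instance isIntegrallyClosedIn_intCl (R : Type*) [CommRing R] {F : Type*} [Field F] [Algebra R F]
    (t : F) : IsIntegrallyClosedIn (intCl R t) F :=
  inferInstanceAs (IsIntegrallyClosedIn (integralClosure (Algebra.adjoin R {t}) F).toSubring F)

/-- **[VALCRIT-1]** -/
theorem mem_intCl_of_forall_valuationSubring {R : Type*} [CommRing R] {F : Type*} [Field F]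
    [Algebra R F] {t x : F}
    (h : ∀ V : ValuationSubring F, (∀ r : R, algebraMap R F r ∈ V) → t ∈ V → x ∈ V) :
    x ∈ intCl R t := by
  by_contra hx
  obtain ⟨V, hV, hxV⟩ := Subring.exists_le_valuationSubring_of_isIntegrallyClosedIn hx
  exact hxV (h V (fun r => hV (algebraMap_mem_intCl R t r)) (hV (self_mem_intCl R t)))

/-- membership in the localisation, in terms of `LocalSubring.ofPrime`. -/
theorem memAt_iff_mem_ofPrime {F : Type*} [Field F] (B : Subring F) (𝔪 : Ideal B) [𝔪.IsPrime]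
    {x : F} : MemAt B 𝔪 x ↔ x ∈ (LocalSubring.ofPrime B 𝔪).toSubring := by
  constructor
  · rintro ⟨s, t, ht, hst⟩
    have hu : IsUnit (algebraMap B (LocalSubring.ofPrime B 𝔪).toSubring t) :=
      IsLocalization.map_units (M := 𝔪.primeCompl) _ ⟨t, ht⟩
    obtain ⟨u, hu⟩ := hu
    have h1 : ((u⁻¹ : ((LocalSubring.ofPrime B 𝔪).toSubring)ˣ) :
        (LocalSubring.ofPrime B 𝔪).toSubring).1 * (t : F) = 1 := by
      have h2 : ((u⁻¹ : ((LocalSubring.ofPrime B 𝔪).toSubring)ˣ) :
        (LocalSubring.ofPrime B 𝔪).toSubring) *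
          algebraMap B (LocalSubring.ofPrime B 𝔪).toSubring t = 1 := by
        rw [← hu]; exact u.inv_mul
      exact congrArg Subtype.val h2
    have h3 : x = (s : F) * ((u⁻¹ : ((LocalSubring.ofPrime B 𝔪).toSubring)ˣ) :
        (LocalSubring.ofPrime B 𝔪).toSubring).1 := by
      rw [← hst, mul_assoc, mul_comm (t : F), h1, mul_one]
    rw [h3]
    exact Subring.mul_mem _ (LocalSubring.le_ofPrime B 𝔪 s.2) (Subtype.mem _)
  · intro hx
    obtain ⟨⟨a, m⟩, ham⟩ := IsLocalization.surj (M := 𝔪.primeCompl)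
      (⟨x, hx⟩ : (LocalSubring.ofPrime B 𝔪).toSubring)
    exact ⟨a, m, m.2, congrArg Subtype.val ham⟩

/-- **[VALCRIT-2]** -/
theorem memAt_of_forall_valuationSubring {R : Type*} [CommRing R] {F : Type*} [Field F]
    [Algebra R F] {t x : F} (𝔪 : Ideal (intCl R t)) (h𝔪 : 𝔪.IsPrime)
    (h : ∀ V : ValuationSubring F, intCl R t ≤ V.toSubring →
      (∀ b : intCl R t, b ∈ 𝔪 ↔ V.valuation (b : F) < 1) → x ∈ V) :
    MemAt (intCl R t) 𝔪 x := by
  generalize hB : intCl R t = B at 𝔪 h𝔪 h ⊢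
  have hBic : IsIntegrallyClosedIn B F := hB ▸ isIntegrallyClosedIn_intCl R t
  set L := LocalSubring.ofPrime B 𝔪 with hL
  have hIC : IsIntegrallyClosedIn L.toSubring F := by
    rw [Subring.isIntegrallyClosedIn_iff]
    intro y hy
    obtain ⟨m, hm⟩ := IsIntegral.exists_multiple_integral_of_isLocalization 𝔪.primeCompl y hy
    have h1 : (m : B) • y ∈ B :=
      (Subring.isIntegrallyClosedIn_iff (S := B)).1 hBic hm
    rw [hL, ← memAt_iff_mem_ofPrime]
    exact ⟨⟨_, h1⟩, m, m.2, by rw [mul_comm]; rfl⟩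
  by_contra hx
  rw [memAt_iff_mem_ofPrime] at hx
  obtain ⟨V, ⟨hle, hloc⟩, hxV⟩ := LocalSubring.exists_le_valuationSubring_of_isIntegrallyClosedIn hx
  have hBV : B ≤ V.toSubring := (LocalSubring.le_ofPrime B 𝔪).trans hle
  refine hxV (h V hBV fun b => ?_)
  have hunit : IsUnit (algebraMap B L.toSubring b) ↔ b ∉ 𝔪 :=
    IsLocalization.AtPrime.isUnit_to_map_iff L.toSubring 𝔪 b
  have hbV : (b : F) ∈ V := hBV b.2
  have hv1 : IsUnit (⟨(b : F), hbV⟩ : V) ↔ V.valuation (b : F) = 1 :=
    V.valuation_eq_one_iff ⟨(b : F), hbV⟩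
  have hle1 : V.valuation (b : F) ≤ 1 := (V.valuation_le_one_iff _).2 hbV
  have himg : Subring.inclusion hle (algebraMap B L.toSubring b) = (⟨(b : F), hbV⟩ : V) := rfl
  constructor
  · intro hb
    refine lt_of_le_of_ne hle1 fun h1 => ?_
    have h2 : IsUnit (Subring.inclusion hle (algebraMap B L.toSubring b)) := by
      rw [himg]; exact hv1.2 h1
    exact hunit.1 (hloc.map_nonunit _ h2) hb
  · intro hlt
    by_contra hb
    have h2 : IsUnit (Subring.inclusion hle (algebraMap B L.toSubring b)) :=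
      (hunit.2 hb).map _
    rw [himg] at h2
    exact hlt.ne (hv1.1 h2)

variable {R : Type*} [CommRing R] [IsDomain R] [IsDiscreteValuationRing R]
  {K : Type*} [Field K] [Algebra R K] [IsFractionRing R K]
  {F : Type*} [Field F] [CharZero F] [Algebra R F] [Algebra K F] [IsScalarTower R K F]
  {π : R} {t : F} {ι : Type*} [Fintype ι] {O : ι → ValuationSubring F} {e f : ι → ℕ}

omit [CharZero F] in
theorem adjoin_mul_pi_pow (hπ : Irreducible π) (a : Algebra.adjoin K {t}) :
    ∃ D : ℕ, ∀ d, D ≤ d → algebraMap (Algebra.adjoin K {t}) F a * algebraMap R F π ^ d ∈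
      (algebraMap (Algebra.adjoin R {t}) F).range := by
  obtain ⟨P, hP⟩ := Algebra.adjoin_mem_exists_aeval _ _ a.2
  obtain ⟨b, p, hb, hp⟩ := GaussAux.exists_int (R := R) (t := t) P
  obtain ⟨D, u, hu⟩ := IsDiscreteValuationRing.eq_unit_mul_pow_irreducible hb hπ
  refine ⟨D, fun d hd => ?_⟩
  refine ⟨⟨aeval t (C (((u⁻¹ : Rˣ) : R) * π ^ (d - D)) * p), aeval_mem_adjoin_singleton R _⟩, ?_⟩
  change aeval t (C (((u⁻¹ : Rˣ) : R) * π ^ (d - D)) * p) = (a : F) * algebraMap R F π ^ d
  rw [map_mul, aeval_C, hp, hP, hu, ← map_pow, ← mul_assoc, ← map_mul, mul_comm (a : F)]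
  congr 2
  obtain ⟨k, rfl⟩ := Nat.exists_eq_add_of_le hd
  rw [Nat.add_sub_cancel_left, pow_add]
  calc ((u⁻¹ : Rˣ) : R) * π ^ k * ((u : R) * π ^ D) = (((u⁻¹ : Rˣ) : R) * (u : R)) * (π ^ D * π ^ k) := by
        ring
    _ = _ := by rw [Units.inv_mul, one_mul]

/-- **[INT-SCALE]** -/
theorem GaussSys.mem_intCl_of_isIntegral [Nonempty ι] (hπ : Irreducible π)
    (S : GaussSys K π t O e f) {y : F} (hy : ∀ i, y ∈ O i)
    (hK : IsIntegral (Algebra.adjoin K {t}) y) : y ∈ intCl R t := by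
  obtain ⟨D, hD⟩ := KrullAux.isIntegralElem_scale (algebraMap (Algebra.adjoin K {t}) F)
    (algebraMap (Algebra.adjoin R {t}) F) (algebraMap R F π) (adjoin_mul_pi_pow hπ) hK
  exact krull3_intCl (K := K) hπ S.gauss (S.semi hπ) hy D (hD D le_rfl)

/-- **[LOCAL-KRULL]** -/
theorem GaussSys.memAt_div_pi [Nonempty ι] (hπ : Irreducible π) (S : GaussSys K π t O e f)
    (𝔪 : Ideal (intCl R t)) (h𝔪 : 𝔪.IsPrime) (i : ι) (honly : ∀ j, j ≠ i → ¬ S.p j ≤ 𝔪)
    {w : F} (hw : MemAt (intCl R t) 𝔪 w)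
    (hv : (O i).valuation w ≤ (O i).valuation (algebraMap R F π)) :
    MemAt (intCl R t) 𝔪 (w / algebraMap R F π) := by
  classical
  obtain ⟨b, s₀, hs₀, hb⟩ := hw
  have hπ0 : algebraMap R F π ≠ 0 := chart_pi_ne_zero K hπ
  have h1 : ∀ j, ∃ x : intCl R t, (j ≠ i → x ∈ S.p j) ∧ x ∉ 𝔪 := by
    intro j
    by_cases hj : j = i
    · exact ⟨1, fun h => absurd hj h, fun h => h𝔪.ne_top ((Ideal.eq_top_iff_one _).2 h)⟩
    · obtain ⟨x, hx, hx'⟩ := SetLike.not_le_iff_exists.1 (honly j hj)
      exact ⟨x, fun _ => hx, hx'⟩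
  choose x hxp hxq using h1
  set σ : intCl R t := ∏ j ∈ Finset.univ.erase i, x j ^ e j with hσ
  have hσ𝔪 : σ ∉ 𝔪 := by
    intro h
    obtain ⟨j, -, hj⟩ := Ideal.IsPrime.prod_mem_iff.1 h
    exact hxq j (h𝔪.mem_of_pow_mem _ hj)
  have hy : ∀ l, (σ : F) * (b : F) / algebraMap R F π ∈ O l := by
    intro l
    rw [← ValuationSubring.valuation_le_one_iff, map_div₀, map_mul]
    apply div_le_one_of_le₀ _ zero_le
    by_cases hl : l = i
    · subst hl
      calc (O l).valuation (σ : F) * (O l).valuation (b : F)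
          ≤ 1 * (O l).valuation (algebraMap R F π) := by
            gcongr
            · exact S.chart_val_le_one l σ
            · rw [← hb, map_mul]
              calc (O l).valuation w * (O l).valuation (s₀ : F)
                  ≤ (O l).valuation (algebraMap R F π) * 1 := by
                    gcongr
                    exact S.chart_val_le_one l s₀
                _ = _ := mul_one _
        _ = _ := one_mul _
    · calc (O l).valuation (σ : F) * (O l).valuation (b : F)
          ≤ (O l).valuation (algebraMap R F π) * 1 := by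
            gcongr
            · exact S.chart_val_prod_le hπ x (Finset.univ.erase i)
                (fun j hj => hxp j (Finset.ne_of_mem_erase hj))
                (Finset.mem_erase.2 ⟨hl, Finset.mem_univ l⟩)
            · exact S.chart_val_le_one l b
        _ = _ := mul_one _
  have hyB := krull3_intCl (K := K) hπ S.gauss (S.semi hπ) hy 1 (by
    rw [pow_one, mul_div_cancel₀ _ hπ0]
    exact (σ * b).2)
  refine ⟨⟨_, hyB⟩, σ * s₀, fun h => ?_, ?_⟩
  · rcases h𝔪.mem_or_mem h with h | h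
    · exact hσ𝔪 h
    · exact hs₀ h
  · change w / algebraMap R F π * ((σ : F) * (s₀ : F)) = (σ : F) * (b : F) / algebraMap R F π
    rw [← hb]
    ring

end Fermat.Agent.S36
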