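import Mathlib

/-!
# S36 / abstract part : `[EXT]` complete systems of extensions of a discrete valuation

`F / F'` a finite separable extension, `O'` a discrete valuation ring of `F'` with uniformizer `ϖ'`,
`O i` pairwise distinct valuation rings of `F` above `O'`, with LOWER bounds `e i`, `f i` for the
ramification indices and residue degrees such that `[F : F'] ≤ ∑ e i * f i`.
Then (fundamental inequality) the `O i` are all the extensions, `e i`, `f i` are exact,
`⋂ O i` is the integral closure of `O'`, and valuations / residues of norms can be computed.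

Suggested proof: `C := integralClosure O' F` is a Dedekind domain, finite free over `O'`;
`P i := C ∩ 𝔪 (O i)` are distinct maximal ideals, `C_(P i) = O i` (a DVR is a maximal subring),
`Ideal.sum_ramification_inertia`, `Ideal.relNorm_eq_pow_of_isMaximal`, `Ideal.relNorm_singleton`;
for the residues: `Algebra.norm = det` on the free module `C`, reduce modulo `ϖ'`,
`C / ϖ' C = ∏ C / P i ^ e i`, and `u = scalar + nilpotent` on each factor when `f i = 1`.
-/

set_option autoImplicit false

open Polynomial

namespace Fermat.Agent.S36

/-- `O` is a discrete valuation ring of `F` with uniformizer `ϖ`. -/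
structure IsUnif {F : Type*} [Field F] (O : ValuationSubring F) (ϖ : F) : Prop where
  lt_one : O.valuation ϖ < 1
  ne_zero : ϖ ≠ 0
  disc : ∀ x : F, x ≠ 0 → ∃ n : ℤ, O.valuation x = O.valuation ϖ ^ n

/-- a complete system of extensions of the discrete valuation ring `O'` (see the header). -/
structure ExtSys {F' F : Type*} [Field F'] [Field F] [Algebra F' F] (O' : ValuationSubring F')
    (ϖ' : F') {ι : Type*} [Fintype ι] (O : ι → ValuationSubring F) (e f : ι → ℕ) : Prop where
  unif : IsUnif O' ϖ'
  inj : Function.Injective O
  comap : ∀ i, (O i).comap (algebraMap F' F) = O'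
  ram : ∀ i, ∃ ϖ : F, (O i).valuation ϖ < 1 ∧
    (O i).valuation (algebraMap F' F ϖ') ≤ (O i).valuation ϖ ^ e i
  res : ∀ i, ∃ ω : Fin (f i) → F, (∀ k, ω k ∈ O i) ∧ ∀ c : Fin (f i) → F', (∀ k, c k ∈ O') →
    (O i).valuation (∑ k, algebraMap F' F (c k) * ω k) < 1 → ∀ k, O'.valuation (c k) < 1
  sum : Module.finrank F' F ≤ ∑ i, e i * f i

end Fermat.Agent.S36
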