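import Fermat.Agent.S36.Abs.SepCusp
import Fermat.Agent.S36.Abs.GaussPoly

/-!
# S36 / abstract part : `[LIFT-TOOLS]`  (DL5)  tools for `Abs/DedLevel.lean`

`map_mem_intCl_aux`, `intCl_le_intCl_of_mem_aux`, `exists_mul_mem_intCl_of_forall_valuationSubring_aux`,
`JTriple.intCl_t₂_le_aux` : same statements as in `Abs/DedLevel.lean`.
-/

set_option autoImplicit false

open Polynomial

namespace Fermat.Agent.S36

section General

variable {R : Type*} [CommRing R] {K : Type*} [Field K] [Algebra R K]
  {F : Type*} [Field F] [Algebra R F] [Algebra K F] [IsScalarTower R K F]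
  {F₁ : Type*} [Field F₁] [Algebra R F₁] [Algebra K F₁] [IsScalarTower R K F₁]

/-- integrality is transported by `a` -/
theorem map_mem_intCl_aux (a : F₁ →ₐ[K] F) {s₁ x : F₁} (hx : x ∈ intCl R s₁) :
    a x ∈ intCl R (a s₁) := by
  refine mem_intCl_of_forall_valuationSubring fun V hR hs => ?_
  have h1 : intCl R s₁ ≤ (V.comap (a : F₁ →+* F)).toSubring := by
    refine intCl_le_of_mem (fun r => ?_) ?_
    · rw [ValuationSubring.mem_comap]
      have : (a : F₁ →+* F) (algebraMap R F₁ r) = algebraMap R F r := by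
        rw [IsScalarTower.algebraMap_apply R K F₁, IsScalarTower.algebraMap_apply R K F]
        exact a.commutes _
      rw [this]
      exact hR r
    · rw [ValuationSubring.mem_comap]
      exact hs
  exact h1 hx

omit [Algebra K F] [IsScalarTower R K F] in
/-- transitivity of integrality -/
theorem intCl_le_intCl_of_mem_aux {s s' : F} (h : s ∈ intCl R s') : intCl R s ≤ intCl R s' := by
  intro x hx
  refine mem_intCl_of_forall_valuationSubring fun V hR hs' => ?_
  exact intCl_le_of_mem hR (intCl_le_of_mem hR hs' h) hx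

omit [Algebra K F] [IsScalarTower R K F] in
/-- **[IDEAL-TRICK]** -/
theorem exists_mul_mem_intCl_of_forall_valuationSubring_aux {s y : F} (π : R)
    (h : ∀ V : ValuationSubring F, intCl R s ≤ V.toSubring →
      V.valuation (algebraMap R F π) < 1 → y ∈ V) :
    ∃ b ∈ intCl R s, (1 + algebraMap R F π * b) * y ∈ intCl R s := by
  classical
  let I : Ideal (intCl R s) :=
    { carrier := {c | (c : F) * y ∈ intCl R s}
      add_mem' := by
        intro c d hc hd
        change ((c + d : intCl R s) : F) * y ∈ intCl R s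
        rw [Subring.coe_add, add_mul]
        exact Subring.add_mem _ hc hd
      zero_mem' := by
        change ((0 : intCl R s) : F) * y ∈ intCl R s
        rw [Subring.coe_zero, zero_mul]
        exact Subring.zero_mem _
      smul_mem' := by
        intro c d hd
        change ((c * d : intCl R s) : F) * y ∈ intCl R s
        rw [Subring.coe_mul, mul_assoc]
        exact Subring.mul_mem _ c.2 hd }
  have hI : ∀ c : intCl R s, c ∈ I ↔ (c : F) * y ∈ intCl R s := fun _ => Iff.rfl
  have htop : I ⊔ Ideal.span {piB R s π} = ⊤ := by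
    by_contra hne
    obtain ⟨𝔪, h𝔪, hle⟩ := Ideal.exists_le_maximal _ hne
    have hπ𝔪 : piB R s π ∈ 𝔪 :=
      hle (Ideal.mem_sup_right (Ideal.subset_span (Set.mem_singleton _)))
    obtain ⟨a, t, ht, hat⟩ := memAt_of_forall_valuationSubring 𝔪 h𝔪.isPrime (x := y)
      (fun V hV hVm => h V hV ((hVm _).1 hπ𝔪))
    apply ht
    apply hle
    apply Ideal.mem_sup_left
    rw [hI, mul_comm, hat]
    exact a.2
  have h1 : (1 : intCl R s) ∈ I ⊔ Ideal.span {piB R s π} := by
    rw [htop]; exact Submodule.mem_top
  obtain ⟨c, hc, d, hd, hcd⟩ := Submodule.mem_sup.1 h1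
  obtain ⟨b, rfl⟩ := Ideal.mem_span_singleton'.1 hd
  refine ⟨-(b : F), Subring.neg_mem _ b.2, ?_⟩
  have h2 : (c : F) = 1 + algebraMap R F π * -(b : F) := by
    have h3 := congrArg (Subtype.val) hcd
    rw [Subring.coe_add, Subring.coe_mul, Subring.coe_one] at h3
    have h4 : ((piB R s π : intCl R s) : F) = algebraMap R F π := rfl
    rw [h4] at h3
    linear_combination h3
  rw [← h2]
  exact (hI c).1 hc

end General

section Three

variable {R : Type*} [CommRing R] {F : Type*} [Field F] [Algebra R F]
  {q : ℕ} {O : Fin 3 → ValuationSubring F} {j : Fin 3 → F}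

/-- the chart of `a ^ n - a` is the chart of `a`. -/
theorem intCl_pow_sub_self_aux (a : F) {n : ℕ} (hn : 2 ≤ n) :
    intCl R (a ^ n - a) = intCl R a := by
  have : Nontrivial R := (algebraMap R F).domain_nontrivial
  have hdeg : (X : R[X]).degree < ((n : ℕ) : WithBot ℕ) := by
    rw [degree_X]
    exact_mod_cast (by omega : 1 < n)
  have hP : (X ^ n - X : R[X]).Monic := monic_X_pow_sub hdeg
  have hd : (X ^ n - X : R[X]).natDegree = n := by
    rw [natDegree_sub_eq_left_of_natDegree_lt (by rw [natDegree_X, natDegree_X_pow]; omega),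
      natDegree_X_pow]
  have h := intCl_aeval_eq (R := R) a hP (by rw [hd]; omega)
  rwa [map_sub, map_pow, aeval_X] at h

/-- the first charts for `j 0` and `j 2` coincide. -/
theorem JTriple.intCl_t₂_le_aux (J : JTriple R q O j) (hq : 2 ≤ q) :
    intCl R (j 2 ^ (q ^ 2) - j 2) ≤ intCl R (j 0 ^ (q ^ 2) - j 0) := by
  have hq2 : 2 ≤ q ^ 2 := by nlinarith
  rw [intCl_pow_sub_self_aux _ hq2, intCl_pow_sub_self_aux _ hq2]
  exact (intCl_le_intCl_of_mem_aux J.int12).trans (intCl_le_intCl_of_mem_aux J.int01)

end Three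

end Fermat.Agent.S36
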