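import Fermat.Agent.S36.Abs.Datum

/-!
# S36 / abstract part : consequences of the geometric datum

`[G-UNIF]`, `[G-LOCGEN1]`, `[G-TRIPLE]`, `[G-DISJ2]`, `[G-LOCGEN2]`, `[G-LD]`, `[APPROX3]`.
Notation: `B₁ = intCl R D.t`, `B₂ = intCl R D.t⁻¹`, `p i = D.sys.p i`, `a = ϖ 0`, `b = ϖ 2`,
`c' = q / (a b)`.
-/

set_option autoImplicit false

open Polynomial

namespace Fermat.Agent.S36

section Gen

variable {F : Type*} [Field F]

theorem IsUnif.val_ne_zero {O : ValuationSubring F} {ϖ : F} (h : IsUnif O ϖ) :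
    O.valuation ϖ ≠ 0 := (O.valuation.ne_zero_iff).mpr h.ne_zero

/-- high powers of the uniformizer kill any pole -/
theorem IsUnif.exists_pow_mul_lt {O : ValuationSubring F} {ϖ : F} (h : IsUnif O ϖ) (x : F) :
    ∃ N₀ : ℕ, ∀ N, N₀ ≤ N → O.valuation ϖ ^ N * O.valuation x < 1 := by
  rcases eq_or_ne x 0 with rfl | hx
  · exact ⟨0, fun N _ => by rw [map_zero, mul_zero]; exact zero_lt_one⟩
  obtain ⟨n, hn⟩ := h.disc x hx
  refine ⟨(1 - n).toNat, fun N hN => ?_⟩
  have h0 := h.val_ne_zero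
  obtain ⟨k, hk⟩ : ∃ k : ℕ, (N : ℤ) + n = (k : ℤ) + 1 := by
    have : (1 - n) ≤ N := by
      have := Int.self_le_toNat (1 - n)
      omega
    exact ⟨((N : ℤ) + n - 1).toNat, by omega⟩
  rw [hn, ← zpow_natCast, ← zpow_add₀ h0, hk]
  have : O.valuation ϖ ^ ((k : ℤ) + 1) = O.valuation ϖ ^ (k + 1) := by
    rw [← zpow_natCast]; push_cast; rfl
  rw [this]
  exact pow_lt_one₀ zero_le h.lt_one (Nat.succ_ne_zero k)

theorem val_add_eq_one_of_lt {O : ValuationSubring F} {a b : F} (ha : O.valuation a < 1)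
    (hb : O.valuation b = 1) : O.valuation (a + b) = 1 :=
  (O.valuation.map_add_eq_of_lt_right (show O.valuation a < O.valuation b by rw [hb]; exact ha)).trans
    hb

/-- weak approximation for finitely many independent discrete valuation rings with
independent uniformizers -/
theorem approx_of_isUnif {ι : Type*} [Fintype ι] (O : ι → ValuationSubring F)
    (ϖ : ι → F) (hU : ∀ i, IsUnif (O i) (ϖ i)) (hind : ∀ i j, i ≠ j → (O j).valuation (ϖ i) = 1)
    (ψ : ι → F) : ∃ g : F, ∀ i, (O i).valuation (g - ψ i) < 1 := by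
  classical
  choose N₀ hN₀ using fun p : ι × ι => (hU p.1).exists_pow_mul_lt (ψ p.2)
  set N : ℕ := (∑ p, N₀ p) + 1 with hN
  have hNle : ∀ p, N₀ p ≤ N := fun p =>
    le_trans (Finset.single_le_sum (f := N₀) (fun _ _ => Nat.zero_le _) (Finset.mem_univ p))
      (Nat.le_succ _)
  have hN0 : N ≠ 0 := Nat.succ_ne_zero _
  set y : ι → F := fun i => ∏ j ∈ Finset.univ.erase i, ϖ j with hy
  -- valuations of `y`
  have y_self : ∀ i, (O i).valuation (y i) = 1 := by
    intro i
    rw [hy, map_prod]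
    exact Finset.prod_eq_one fun j hj => hind j i (Finset.ne_of_mem_erase hj)
  have y_other : ∀ i j, i ≠ j → (O j).valuation (y i) = (O j).valuation (ϖ j) := by
    intro i j hij
    rw [hy, map_prod]
    exact Finset.prod_eq_single_of_mem j (Finset.mem_erase.mpr ⟨hij.symm, Finset.mem_univ j⟩)
      (fun k _ hk => hind k j hk)
  set dn : ι → F := fun i => ϖ i ^ N + y i ^ N with hdn
  have dn_self : ∀ i, (O i).valuation (dn i) = 1 := fun i =>
    val_add_eq_one_of_lt (by rw [map_pow]; exact pow_lt_one₀ zero_le (hU i).lt_one hN0)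
      (by rw [map_pow, y_self, one_pow])
  have dn_other : ∀ i j, i ≠ j → (O j).valuation (dn i) = 1 := fun i j hij => by
    rw [hdn]; beta_reduce
    rw [add_comm]
    exact val_add_eq_one_of_lt
      (by rw [map_pow, y_other i j hij]; exact pow_lt_one₀ zero_le (hU j).lt_one hN0)
      (by rw [map_pow, hind i j hij, one_pow])
  have dn_ne : ∀ i, dn i ≠ 0 := fun i h0 => by
    have := dn_self i
    rw [h0, map_zero] at this
    exact zero_ne_one this
  set ε : ι → F := fun i => y i ^ N / dn i with hε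
  have ε_self : ∀ i, (O i).valuation (ε i - 1) = (O i).valuation (ϖ i) ^ N := by
    intro i
    have : ε i - 1 = -(ϖ i ^ N) / dn i := by
      rw [hε]; beta_reduce
      rw [div_sub_one (dn_ne i), hdn]
      congr 1
      ring
    rw [this, map_div₀, dn_self, div_one, Valuation.map_neg, map_pow]
  have ε_other : ∀ i j, i ≠ j → (O j).valuation (ε i) = (O j).valuation (ϖ j) ^ N := by
    intro i j hij
    rw [hε]; beta_reduce
    rw [map_div₀, dn_other i j hij, div_one, map_pow, y_other i j hij]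
  refine ⟨∑ i, ε i * ψ i, fun i => ?_⟩
  have e1 : ∑ j, ε j * ψ j - ψ i = ∑ j, (if j = i then (ε i - 1) * ψ i else ε j * ψ j) := by
    rw [← Finset.add_sum_erase _ _ (Finset.mem_univ i), ← Finset.add_sum_erase _ _ (Finset.mem_univ i),
      if_pos rfl]
    have : ∑ j ∈ Finset.univ.erase i, (if j = i then (ε i - 1) * ψ i else ε j * ψ j) =
        ∑ j ∈ Finset.univ.erase i, ε j * ψ j :=
      Finset.sum_congr rfl fun j hj => if_neg (Finset.ne_of_mem_erase hj)
    rw [this]
    ring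
  rw [e1]
  refine (O i).valuation.map_sum_lt one_ne_zero fun j _ => ?_
  by_cases hj : j = i
  · subst hj
    rw [if_pos rfl, map_mul, ε_self]
    exact hN₀ (j, j) N (hNle _)
  · rw [if_neg hj, map_mul, ε_other j i hj]
    exact hN₀ (i, j) N (hNle _)

end Gen

variable {R K F : Type*} [CommRing R] [IsDomain R] [IsDiscreteValuationRing R]
    [Field K] [Algebra R K] [IsFractionRing R K]
    [Field F] [CharZero F] [Algebra R F] [Algebra K F] [IsScalarTower R K F]

namespace GeomDatum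

variable (D : GeomDatum R K F)

/-- the data of the second chart -/
theorem sys₂ : GaussSys K ((D.q : ℕ) : R) D.t⁻¹ D.O (eVec D.q) D.fdeg := D.sys.inv D.irr

/-- **[G-UNIF]** (`GaussSys.isUnif`) -/
theorem isUnif (i : Fin 3) : IsUnif (D.O i) (D.ϖ i) :=
  (D.sys.isUnif D.irr i (D.ϖ_lt i) (by rw [map_natCast]; exact D.ϖ_ram i)).1

theorem val_q (i : Fin 3) : (D.O i).valuation (D.q : F) = (D.O i).valuation (D.ϖ i) ^ eVec D.q i := by
  have := (D.sys.isUnif D.irr i (D.ϖ_lt i) (by rw [map_natCast]; exact D.ϖ_ram i)).2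
  rwa [map_natCast] at this

/-- prescribed valuations -/
theorem val_prod (n : Fin 3 → ℤ) (i : Fin 3) :
    (D.O i).valuation (∏ j, D.ϖ j ^ n j) = (D.O i).valuation (D.ϖ i) ^ n i := by
  rw [map_prod, Finset.prod_eq_single_of_mem i (Finset.mem_univ i), map_zpow₀]
  intro j _ hj
  rw [map_zpow₀, D.ϖ_indep j i hj, one_zpow]

/-- **[APPROX3]**  `⋂ O i → ∏ κ i` is onto.
Proof.  `ε_i := y_i^N / (ϖ_i^N + y_i^N)`, `y_i := ∏_{j ≠ i} ϖ_j`: `v_i (ε_i - 1) < 1` and
`v_j (ε_i) ≤ v_j (ϖ_j)^N`; take `g := ∑ ε_i ψ_i` with `N` large (`IsUnif.disc`). -/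
theorem approx3 (ψ : Fin 3 → F) (hψ : ∀ i, ψ i ∈ D.O i) :
    ∃ g : F, ∀ i, (D.O i).valuation (g - ψ i) < 1 :=
  approx_of_isUnif D.O D.ϖ D.isUnif D.ϖ_indep ψ

end GeomDatum

/-- stability of `Hor` -/
theorem Hor.mul_pow {m : ℕ} {g : F} (h : Hor K m g) (c : K) (hc : c ≠ 0) (n : ℕ) (x : F)
    (hx : x ≠ 0) : Hor K m (algebraMap K F c * g ^ n * x ^ m) := by
  intro W hW
  obtain ⟨y, hy0, hy⟩ := h W hW
  refine ⟨y ^ n * x⁻¹, mul_ne_zero (pow_ne_zero _ hy0) (inv_ne_zero hx), ?_⟩
  have hc1 : W.valuation (algebraMap K F c) = 1 := by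
    have h1 : W.valuation (algebraMap K F c) ≤ 1 := (W.valuation_le_one_iff _).mpr (hW c)
    have h2 : W.valuation (algebraMap K F c⁻¹) ≤ 1 := (W.valuation_le_one_iff _).mpr (hW c⁻¹)
    have h3 : W.valuation (algebraMap K F c) * W.valuation (algebraMap K F c⁻¹) = 1 := by
      rw [← map_mul, ← map_mul, mul_inv_cancel₀ hc, map_one, map_one]
    refine le_antisymm h1 ?_
    calc (1 : W.ValueGroup) = W.valuation (algebraMap K F c) * W.valuation (algebraMap K F c⁻¹) :=
          h3.symm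
      _ ≤ W.valuation (algebraMap K F c) * 1 := mul_le_mul_right h2 _
      _ = _ := mul_one _
  have e : (y ^ n * x⁻¹) ^ m * (algebraMap K F c * g ^ n * x ^ m) =
      algebraMap K F c * (y ^ m * g) ^ n := by
    have hxm : x⁻¹ ^ m * x ^ m = 1 := by rw [← _root_.mul_pow, inv_mul_cancel₀ hx, one_pow]
    calc _ = algebraMap K F c * (y ^ m * g) ^ n * (x⁻¹ ^ m * x ^ m) := by ring
      _ = _ := by rw [hxm, mul_one]
  rw [e, map_mul, map_pow, hy, hc1, one_pow, one_mul]

end Fermat.Agent.S36
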