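import Fermat.Agent.S36.Abs.Datum
import Fermat.Agent.S36.Abs.GeomA
import Fermat.Agent.S36.Abs.ExtNorm
import Fermat.Agent.S36.Abs.GaussPoly

/-!
# S36 / abstract part : construction of a `NormDatum` from four `ExtSys`

* `nb_map_mem_intCl`, `nb_intCl_le_intCl_of_mem`, `normHom_mem_intCl` : functoriality of the charts;
* `normHom φ` : the norm along an embedding of fields `φ : F' → F`;
* `NormDatum.ofExt` : the norm datum, from the complete systems of extensions of the two valuation
  rings `O' 0`, `O' 1` along `α` and along `β`.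
-/

set_option autoImplicit false
set_option linter.unusedSectionVars false

open Polynomial

namespace Fermat.Agent.S36

section IntCl

variable {R : Type*} [CommRing R] {F' F : Type*} [Field F'] [Field F] [Algebra R F'] [Algebra R F]

/-- the restriction of an `R`-algebra homomorphism to `R[s'] → R[φ s']`. -/
noncomputable def adjoinMap (φ : F' →ₐ[R] F) (s' : F') :
    Algebra.adjoin R {s'} →+* Algebra.adjoin R {φ s'} where
  toFun a := ⟨φ a, by
    have h : (Algebra.adjoin R {s'}).map φ = Algebra.adjoin R {φ s'} := by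
      rw [AlgHom.map_adjoin, Set.image_singleton]
    rw [← h]
    exact ⟨a, a.2, rfl⟩⟩
  map_one' := Subtype.ext (map_one φ)
  map_mul' _ _ := Subtype.ext (map_mul φ _ _)
  map_zero' := Subtype.ext (map_zero φ)
  map_add' _ _ := Subtype.ext (map_add φ _ _)

theorem adjoinMap_surjective (φ : F' →ₐ[R] F) (s' : F') :
    Function.Surjective (adjoinMap φ s') := by
  rintro ⟨b, hb⟩
  have h : (Algebra.adjoin R {s'}).map φ = Algebra.adjoin R {φ s'} := by
    rw [AlgHom.map_adjoin, Set.image_singleton]
  rw [← h] at hb
  obtain ⟨a, ha, rfl⟩ := hb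
  exact ⟨⟨a, ha⟩, rfl⟩

theorem nb_map_mem_intCl (φ : F' →ₐ[R] F) {s' x : F'} (hx : x ∈ intCl R s') :
    φ x ∈ intCl R (φ s') := by
  rw [mem_intCl] at hx ⊢
  obtain ⟨p, hp, h0⟩ := hx
  refine ⟨p.map (adjoinMap φ s'), hp.map _, ?_⟩
  rw [eval₂_map]
  have h1 : (algebraMap (Algebra.adjoin R {φ s'}) F).comp (adjoinMap φ s') =
      (φ : F' →+* F).comp (algebraMap (Algebra.adjoin R {s'}) F') := rfl
  rw [h1]
  have h2 := hom_eval₂ p (algebraMap (Algebra.adjoin R {s'}) F') (φ : F' →+* F) x
  rw [h0, map_zero] at h2
  exact h2.symm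

/-- transitivity of integral closures -/
theorem nb_intCl_le_intCl_of_mem {s t : F} (hs : s ∈ intCl R t) : intCl R s ≤ intCl R t := by
  intro x hx
  rw [mem_intCl] at hx ⊢
  have hle : Algebra.adjoin R {s} ≤
      (integralClosure (Algebra.adjoin R {t}) F).restrictScalars R := by
    refine Algebra.adjoin_le ?_
    intro y hy
    rw [Set.mem_singleton_iff] at hy
    rw [hy]
    exact hs
  have h1 : IsIntegral (integralClosure (Algebra.adjoin R {t}) F) x :=
    isIntegral_of_ringHom_gp
      (B := integralClosure (Algebra.adjoin R {t}) F)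
      ((Subalgebra.inclusion hle).toRingHom) (fun _ => rfl) hx
  exact isIntegral_trans x h1

theorem nb_intCl_eq_of_mem {s t : F} (hs : s ∈ intCl R t) (ht : t ∈ intCl R s) :
    intCl R s = intCl R t :=
  le_antisymm (nb_intCl_le_intCl_of_mem hs) (nb_intCl_le_intCl_of_mem ht)

/-- the norm along an embedding of fields, as a monoid homomorphism. -/
noncomputable def normHom (φ : F' →+* F) : F →* F' :=
  letI := φ.toAlgebra
  Algebra.norm F'

/-- **[NORM-INT]** -/
theorem normHom_mem_intCl (φ : F' →ₐ[R] F) {s' : F'} {x : F} (hx : x ∈ intCl R (φ s')) :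
    normHom (φ : F' →+* F) x ∈ intCl R s' := by
  rw [mem_intCl] at hx ⊢
  let _ : Algebra F' F := (φ : F' →+* F).toAlgebra
  have h1 : IsIntegral (Algebra.adjoin R {s'}) x := by
    obtain ⟨p, hp, h0⟩ := hx
    have hl : p ∈ lifts (adjoinMap φ s') := by
      rw [lifts_iff_coeff_lifts]
      intro n
      exact adjoinMap_surjective φ s' _
    obtain ⟨p', hp', -, hm⟩ := lifts_and_natDegree_eq_and_monic hl hp
    refine ⟨p', hm, ?_⟩
    rw [← hp', eval₂_map] at h0
    exact h0
  exact Algebra.isIntegral_norm F' h1

end IntCl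

section Build

variable {R K F : Type*} [CommRing R] [IsDomain R] [IsDiscreteValuationRing R]
  [Field K] [Algebra R K] [IsFractionRing R K]
  [Field F] [CharZero F] [Algebra R F] [Algebra K F] [IsScalarTower R K F]
  (D : GeomDatum R K F) {F' : Type*} [Field F'] [Algebra R F'] [Algebra K F']
  [IsScalarTower R K F']

theorem normHom_algebraMap (φ : F' →ₐ[K] F) {d : ℕ}
    (hd : @Module.finrank F' F _ _ φ.toRingHom.toAlgebra.toModule = d) (c : K) :
    normHom φ.toRingHom (algebraMap K F c) = algebraMap K F' c ^ d := by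
  let _ : Algebra F' F := φ.toRingHom.toAlgebra
  have h1 : algebraMap K F c = algebraMap F' F (algebraMap K F' c) := (φ.commutes c).symm
  rw [h1, ← hd]
  exact Algebra.norm_algebraMap _

/-- **the norm datum from four complete systems of extensions.** -/
noncomputable def NormDatum.ofExt (O' : Fin 2 → ValuationSubring F')
    (const' : ∀ i (r : R), algebraMap R F' r ∈ O' i) (s' : F') (α β : F' →ₐ[K] F)
    (hαs : intCl R (α s') = intCl R D.t) (hβs : intCl R (β s') = intCl R D.t)
    (finα : @Module.Finite F' F _ _ α.toRingHom.toAlgebra.toModule)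
    (degα : @Module.finrank F' F _ _ α.toRingHom.toAlgebra.toModule = D.q)
    (finβ : @Module.Finite F' F _ _ β.toRingHom.toAlgebra.toModule)
    (degβ : @Module.finrank F' F _ _ β.toRingHom.toAlgebra.toModule = D.q)
    (Sα0 : @ExtSys F' F _ _ α.toRingHom.toAlgebra (O' 0) (D.q : F') (Fin 2) _
      ![D.O 0, D.O 1] ![1, D.q - 1] ![1, 1])
    (Sα1 : @ExtSys F' F _ _ α.toRingHom.toAlgebra (O' 1) (D.q : F') Unit _
      (fun _ => D.O 2) (fun _ => 1) (fun _ => D.q))
    (Sβ0 : @ExtSys F' F _ _ β.toRingHom.toAlgebra (O' 0) (D.q : F') Unit _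
      (fun _ => D.O 0) (fun _ => 1) (fun _ => D.q))
    (Sβ1 : @ExtSys F' F _ _ β.toRingHom.toAlgebra (O' 1) (D.q : F') (Fin 2) _
      ![D.O 1, D.O 2] ![D.q - 1, 1] ![1, 1])
    (insα : ∀ x ∈ D.O 2, ∃ c ∈ O' 1, (D.O 2).valuation (x ^ D.q - α c) < 1)
    (insβ : ∀ x ∈ D.O 0, ∃ c ∈ O' 0, (D.O 0).valuation (x ^ D.q - β c) < 1)
    (approxα : ∀ i : Fin 3, i ≠ 2 → ∀ x ∈ intCl R D.t, ∃ x' ∈ intCl R s',
      (D.O i).valuation (x - α x') < 1)
    (approxβ : ∀ i : Fin 3, i ≠ 0 → ∀ x ∈ intCl R D.t, ∃ x' ∈ intCl R s',
      (D.O i).valuation (x - β x') < 1) : NormDatum D F' :=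
  have hchar : CharZero F' := α.toRingHom.charZero
  { O' := O'
    unif' := by
      intro i
      let _ : Algebra F' F := α.toRingHom.toAlgebra
      fin_cases i
      · exact Sα0.unif
      · exact Sα1.unif
    const' := const'
    B' := intCl R s'
    B'_root := fun m hm => rootClosed_intCl R s' hm
    B'_const := fun r => algebraMap_mem_intCl R s' r
    α := α
    β := β
    α_mem := fun x hx => by
      rw [← hαs]
      exact nb_map_mem_intCl (α.restrictScalars R) hx
    β_mem := fun x hx => by
      rw [← hβs]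
      exact nb_map_mem_intCl (β.restrictScalars R) hx
    comap_α := by
      intro i
      let _ : Algebra F' F := α.toRingHom.toAlgebra
      fin_cases i
      · exact Sα0.comap 0
      · exact Sα0.comap 1
      · exact Sα1.comap ()
    comap_β := by
      intro i
      let _ : Algebra F' F := β.toRingHom.toAlgebra
      fin_cases i
      · exact Sβ0.comap ()
      · exact Sβ1.comap 0
      · exact Sβ1.comap 1
    Nα := normHom α.toRingHom
    Nβ := normHom β.toRingHom
    Nα_const := normHom_algebraMap α degα
    Nβ_const := normHom_algebraMap β degβ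
    Nα_mem := fun x hx => by
      rw [← hαs] at hx
      exact normHom_mem_intCl (α.restrictScalars R) hx
    Nβ_mem := fun x hx => by
      rw [← hβs] at hx
      exact normHom_mem_intCl (β.restrictScalars R) hx
    approxα := approxα
    approxβ := approxβ
    redα₁ := by
      intro u c₀ c₁ h₀ h₁ hu₀ hu₁
      let _ : Algebra F' F := α.toRingHom.toAlgebra
      have := Sα0.norm_red_one (by intro i; fin_cases i <;> rfl) (u := u) ![c₀, c₁]
        (by intro i; fin_cases i; exacts [h₀, h₁]) (by intro i; fin_cases i; exacts [hu₀, hu₁])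
      simp only [Fin.prod_univ_two, Matrix.cons_val_zero, Matrix.cons_val_one, pow_one] at this
      exact this
    redα₂ := by
      intro u hu
      let _ : Algebra F' F := α.toRingHom.toAlgebra
      exact Sα1.norm_red_insep () (fun _ => rfl) D.hq degα Sα1.unif.lt_one insα hu
    redβ₁ := by
      intro u hu
      let _ : Algebra F' F := β.toRingHom.toAlgebra
      exact Sβ0.norm_red_insep () (fun _ => rfl) D.hq degβ Sβ0.unif.lt_one insβ hu
    redβ₂ := by
      intro u c₁ c₂ h₁ h₂ hu₁ hu₂
      let _ : Algebra F' F := β.toRingHom.toAlgebra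
      have := Sβ1.norm_red_one (by intro i; fin_cases i <;> rfl) (u := u) ![c₁, c₂]
        (by intro i; fin_cases i; exacts [h₁, h₂]) (by intro i; fin_cases i; exacts [hu₁, hu₂])
      simp only [Fin.prod_univ_two, Matrix.cons_val_zero, Matrix.cons_val_one, pow_one] at this
      exact this
    valα := by
      intro u n hu
      let _ : Algebra F' F := α.toRingHom.toAlgebra
      constructor
      · have := Sα0.norm_val ![D.ϖ 0, D.ϖ 1]
          (by intro i; fin_cases i; exacts [D.isUnif 0, D.isUnif 1]) (u := u) ![n 0, n 1]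
          (by intro i; fin_cases i; exacts [hu 0, hu 1])
        simp only [Fin.sum_univ_two, Matrix.cons_val_zero, Matrix.cons_val_one, Nat.cast_one,
          one_mul] at this
        exact this
      · have := Sα1.norm_val (fun _ => D.ϖ 2) (fun _ => D.isUnif 2) (u := u) (fun _ => n 2)
          (fun _ => hu 2)
        simp only [Finset.univ_unique, Finset.sum_const, Finset.card_singleton, one_smul] at this
        exact this
    valβ := by
      intro u n hu
      let _ : Algebra F' F := β.toRingHom.toAlgebra
      constructor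
      · have := Sβ0.norm_val (fun _ => D.ϖ 0) (fun _ => D.isUnif 0) (u := u) (fun _ => n 0)
          (fun _ => hu 0)
        simp only [Finset.univ_unique, Finset.sum_const, Finset.card_singleton, one_smul] at this
        exact this
      · have := Sβ1.norm_val ![D.ϖ 1, D.ϖ 2]
          (by intro i; fin_cases i; exacts [D.isUnif 1, D.isUnif 2]) (u := u) ![n 1, n 2]
          (by intro i; fin_cases i; exacts [hu 1, hu 2])
        simp only [Fin.sum_univ_two, Matrix.cons_val_zero, Matrix.cons_val_one, Nat.cast_one,
          one_mul] at this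
        exact this }

end Build

end Fermat.Agent.S36
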