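import Fermat.Agent.S36.Abs.KrullDefs
import Fermat.Agent.S36.Abs.ExtFund

/-!
# S36 / abstract part : `[FUND-POLY]` consequences of the numerical datum `GaussSys` (bridge to `ExtSys` over `K(t)`)

Helpers in `Fermat.Agent.S36.GaussAux`: valuations of a `comap`, normal form
`x * s(t) = π ^ n * p(t)` of the elements of `K(t)`, common primitive denominators,
`isIntegral_scale`, the archimedean lemma `arch`, reflection `t ↦ t⁻¹`.
-/

set_option autoImplicit false
set_option linter.unusedSectionVars false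

open Polynomial

namespace Fermat.Agent.S36

namespace GaussAux

section Val

variable {F' F : Type*} [Field F'] [Field F]

theorem isEquiv_comap (A : ValuationSubring F) (g : F' →+* F) :
    (A.valuation.comap g).IsEquiv (A.comap g).valuation := by
  have h : (A.valuation.comap g).valuationSubring = A.comap g := by
    ext x
    rw [Valuation.mem_valuationSubring_iff, ValuationSubring.mem_comap, Valuation.comap_apply,
      ValuationSubring.valuation_le_one_iff]
  have := Valuation.isEquiv_valuation_valuationSubring (A.valuation.comap g)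
  rwa [h] at this

theorem comap_lt_one {A : ValuationSubring F} {g : F' →+* F} {x : F'} :
    (A.comap g).valuation x < 1 ↔ A.valuation (g x) < 1 :=
  ((isEquiv_comap A g).lt_one_iff_lt_one (x := x)).symm

theorem comap_eq_one {A : ValuationSubring F} {g : F' →+* F} {x : F'} :
    (A.comap g).valuation x = 1 ↔ A.valuation (g x) = 1 :=
  ((isEquiv_comap A g).eq_one_iff_eq_one (x := x)).symm

end Val

section

variable {R : Type*} [CommRing R] [IsDomain R] [IsDiscreteValuationRing R]
  {F : Type*} [Field F] [Algebra R F] {π : R} {t : F} {O : ValuationSubring F}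

theorem prime_C (hπ : Irreducible π) : Prime (C π : R[X]) :=
  Polynomial.prime_C_iff.2 hπ.prime

theorem exists_prim (hπ : Irreducible π) {p : R[X]} (hp : p ≠ 0) :
    ∃ (n : ℕ) (p' : R[X]), ¬ (C π ∣ p') ∧ p = C π ^ n * p' :=
  WfDvdMonoid.max_power_factor hp (prime_C hπ).irreducible

theorem not_dvd_X (hπ : Irreducible π) : ¬ (C π ∣ (X : R[X])) := by
  intro h
  have := (C_dvd_iff_dvd_coeff _ _).1 h 1
  rw [coeff_X_one] at this
  exact hπ.not_isUnit (isUnit_of_dvd_one this)

theorem not_dvd_one (hπ : Irreducible π) : ¬ (C π ∣ (1 : R[X])) := by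
  intro h
  exact (prime_C hπ).not_isUnit (isUnit_of_dvd_one h)

theorem val_t (hπ : Irreducible π) (h : IsGaussAt π t O) : O.valuation t = 1 := by
  simpa using h.prim X (not_dvd_X hπ)

theorem aeval_mem (hπ : Irreducible π) (h : IsGaussAt π t O) (p : R[X]) : aeval t p ∈ O := by
  have ht : t ∈ O := (O.valuation_le_one_iff t).1 (val_t hπ h).le
  rw [aeval_eq_sum_range]
  refine sum_mem fun i _ => ?_
  rw [Algebra.smul_def]
  exact mul_mem (h.const _) (pow_mem ht i)

theorem val_aeval (h : IsGaussAt π t O) {n : ℕ} {p : R[X]} (hp : ¬ (C π ∣ p)) :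
    O.valuation (aeval t (C π ^ n * p)) = O.valuation (algebraMap R F π) ^ n := by
  rw [map_mul, map_mul, h.prim p hp, mul_one, map_pow, aeval_C, map_pow]

theorem val_lt_of_dvd (hπ : Irreducible π) (h : IsGaussAt π t O) {p : R[X]} (hp : C π ∣ p) :
    O.valuation (aeval t p) < 1 := by
  obtain ⟨q, rfl⟩ := hp
  rw [map_mul, map_mul, aeval_C]
  have := (O.valuation_le_one_iff _).2 (aeval_mem hπ h q)
  calc O.valuation (algebraMap R F π) * O.valuation (aeval t q)
      ≤ O.valuation (algebraMap R F π) * 1 := by gcongr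
    _ < 1 := by simpa using h.lt_one

end

section

variable {R : Type*} [CommRing R] [IsDomain R] [IsDiscreteValuationRing R]
  {K : Type*} [Field K] [Algebra R K] [IsFractionRing R K]
  {F : Type*} [Field F] [Algebra R F] [Algebra K F] [IsScalarTower R K F]
  {π : R} {t : F} {O : ValuationSubring F}

omit [IsDiscreteValuationRing R] in
variable (K) in
include K in
theorem algebraMap_ne_zero {r : R} (hr : r ≠ 0) : algebraMap R F r ≠ 0 := by
  rw [IsScalarTower.algebraMap_apply R K F]
  intro h
  rw [map_eq_zero] at h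
  exact hr ((IsFractionRing.injective R K) (by rw [h, map_zero]))

variable (K) in
include K in
theorem val_pi_ne_zero (hπ : Irreducible π) : O.valuation (algebraMap R F π) ≠ 0 :=
  (Valuation.ne_zero_iff _).2 (algebraMap_ne_zero K hπ.ne_zero)

variable (K) in
include K in
theorem aeval_ne_zero (hπ : Irreducible π) (h : IsGaussAt π t O) {p : R[X]} (hp : p ≠ 0) :
    aeval t p ≠ 0 := by
  obtain ⟨n, p', hp', rfl⟩ := exists_prim hπ hp
  rw [← Valuation.ne_zero_iff O.valuation, val_aeval h hp']
  exact pow_ne_zero _ (val_pi_ne_zero K hπ)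

/-- clearing the denominators of a polynomial over `K`. -/
theorem exists_int (P : K[X]) : ∃ (b : R) (p : R[X]), b ≠ 0 ∧
    aeval t p = algebraMap R F b * aeval t P := by
  obtain ⟨b, hb, h⟩ := IsLocalization.integerNormalization_spec (nonZeroDivisors R) P
  refine ⟨b, IsLocalization.integerNormalization (nonZeroDivisors R) P,
    nonZeroDivisors.ne_zero hb, ?_⟩
  rw [← aeval_map_algebraMap K, h, ← algebraMap_smul K b P, map_smul, Algebra.smul_def,
    ← IsScalarTower.algebraMap_apply]

theorem exists_frac {x : F} (hx : x ∈ IntermediateField.adjoin K {t}) :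
    ∃ p s : R[X], aeval t s ≠ 0 ∧ x * aeval t s = aeval t p := by
  obtain ⟨P, Q, rfl⟩ := (IntermediateField.mem_adjoin_simple_iff K x).1 hx
  by_cases hQ : aeval t Q = 0
  · refine ⟨0, 1, by simp, by simp [hQ]⟩
  obtain ⟨b, p, hb, hp⟩ := exists_int (R := R) (t := t) P
  obtain ⟨c, s, hc, hs⟩ := exists_int (R := R) (t := t) Q
  refine ⟨C c * p, C b * s, ?_, ?_⟩
  · rw [map_mul, aeval_C, hs]
    exact mul_ne_zero (algebraMap_ne_zero K hb) (mul_ne_zero (algebraMap_ne_zero K hc) hQ)
  · rw [map_mul, map_mul, aeval_C, aeval_C, hs, hp]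
    field_simp

/-- normal form of a non-zero element of `K(t)`. -/
theorem normal_form (hπ : Irreducible π) {x : F}
    (hx : x ∈ IntermediateField.adjoin K {t}) (hx0 : x ≠ 0) :
    ∃ (n : ℤ) (p s : R[X]), ¬ (C π ∣ p) ∧ ¬ (C π ∣ s) ∧
      x * aeval t s = algebraMap R F π ^ n * aeval t p := by
  obtain ⟨p, s, hs, h⟩ := exists_frac (R := R) hx
  have hs0 : s ≠ 0 := by rintro rfl; simp at hs
  have hp0 : p ≠ 0 := by
    rintro rfl
    rw [map_zero] at h
    exact mul_ne_zero hx0 hs h
  obtain ⟨a, p', hp', rfl⟩ := exists_prim hπ hp0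
  obtain ⟨b, s', hs', rfl⟩ := exists_prim hπ hs0
  refine ⟨a - b, p', s', hp', hs', ?_⟩
  have hπ0 : algebraMap R F π ≠ 0 := algebraMap_ne_zero K hπ.ne_zero
  rw [map_mul, map_mul, map_pow, map_pow, aeval_C] at h
  rw [zpow_sub₀ hπ0, zpow_natCast, zpow_natCast]
  field_simp
  linear_combination h

theorem val_of_normal_form (h : IsGaussAt π t O) {x : F} {n : ℤ} {p s : R[X]}
    (hp : ¬ (C π ∣ p)) (hs : ¬ (C π ∣ s))
    (hx : x * aeval t s = algebraMap R F π ^ n * aeval t p) :
    O.valuation x = O.valuation (algebraMap R F π) ^ n := by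
  have := congrArg O.valuation hx
  rwa [map_mul, map_mul, h.prim p hp, h.prim s hs, mul_one, mul_one, map_zpow₀] at this

theorem mem_iff (hπ : Irreducible π) (h : IsGaussAt π t O) {x : F}
    (hx : x ∈ IntermediateField.adjoin K {t}) :
    x ∈ O ↔ ∃ p s : R[X], ¬ (C π ∣ s) ∧ x * aeval t s = aeval t p := by
  constructor
  · intro hxO
    by_cases hx0 : x = 0
    · exact ⟨0, 1, not_dvd_one hπ, by simp [hx0]⟩
    obtain ⟨n, p, s, hp, hs, hxe⟩ := normal_form hπ hx hx0
    have hv := val_of_normal_form h hp hs hxe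
    rw [← O.valuation_le_one_iff, hv, zpow_le_one_iff_right_of_lt_one₀
      (zero_lt_iff.2 (val_pi_ne_zero K hπ)) h.lt_one] at hxO
    obtain ⟨m, rfl⟩ := Int.eq_ofNat_of_zero_le hxO
    refine ⟨C π ^ m * p, s, hs, ?_⟩
    rw [hxe, map_mul, map_pow, aeval_C, zpow_natCast]
  · rintro ⟨p, s, hs, hxe⟩
    rw [← O.valuation_le_one_iff]
    have := congrArg O.valuation hxe
    rw [map_mul, h.prim s hs, mul_one] at this
    rw [this]
    exact (O.valuation_le_one_iff _).2 (aeval_mem hπ h p)

end

section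

variable {R : Type*} [CommRing R] [IsDomain R] [IsDiscreteValuationRing R]
  {F : Type*} [Field F] [Algebra R F] {π : R} {t : F} {O : ValuationSubring F}

/-- common primitive denominator. -/
theorem common_den (hπ : Irreducible π) {κ : Type*} [Fintype κ] {c : κ → F}
    (h : ∀ k, ∃ p s : R[X], ¬ (C π ∣ s) ∧ c k * aeval t s = aeval t p) :
    ∃ (s : R[X]) (q : κ → R[X]), ¬ (C π ∣ s) ∧ ∀ k, c k * aeval t s = aeval t (q k) := by
  classical
  choose p s hs hc using h
  refine ⟨∏ k, s k, fun k => p k * ∏ j ∈ Finset.univ.erase k, s j, ?_, fun k => ?_⟩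
  · rw [(prime_C hπ).dvd_finsetProd_iff]
    rintro ⟨k, -, hk⟩
    exact hs k hk
  · rw [← Finset.mul_prod_erase _ _ (Finset.mem_univ k), map_mul, map_mul, ← hc k]
    ring

theorem res_bridge (hπ : Irreducible π) (h : IsGaussAt π t O) {n : ℕ} {ω : Fin n → F}
    (h2 : ∀ c : Fin n → R[X],
      O.valuation (∑ k, aeval t (c k) * ω k) < 1 → ∀ k, C π ∣ c k)
    {c : Fin n → F} (hc : ∀ k, ∃ p s : R[X], ¬ (C π ∣ s) ∧ c k * aeval t s = aeval t p)
    (hv : O.valuation (∑ k, c k * ω k) < 1) (k : Fin n) : O.valuation (c k) < 1 := by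
  obtain ⟨s, q, hs, hq⟩ := common_den hπ hc
  have h3 : ∑ k, aeval t (q k) * ω k = aeval t s * ∑ k, c k * ω k := by
    rw [Finset.mul_sum]
    refine Finset.sum_congr rfl fun k _ => ?_
    rw [← hq k]; ring
  have h4 := h2 q (by rw [h3, map_mul, h.prim s hs, one_mul]; exact hv) k
  have h5 := val_lt_of_dvd hπ h h4
  rwa [← hq k, map_mul, h.prim s hs, mul_one] at h5

end

section

variable {R : Type*} [CommRing R] {F : Type*} [Field F] [Algebra R F]

theorem isIntegral_scale (A : Subalgebra R F) {P : F[X]} (hP : P.Monic) {y s : F}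
    (hy : aeval y P = 0) (hs : ∀ j < P.natDegree, P.coeff j * s ^ (P.natDegree - j) ∈ A) :
    IsIntegral A (s * y) := by
  have hl : scaleRoots P s ∈ lifts (algebraMap A F) := by
    rw [lifts_iff_coeff_lifts]
    intro j
    rw [coeff_scaleRoots]
    rcases lt_trichotomy j P.natDegree with h | h | h
    · exact ⟨⟨_, hs j h⟩, rfl⟩
    · subst h
      refine ⟨1, ?_⟩
      rw [map_one, hP.coeff_natDegree, tsub_self, pow_zero, mul_one]
    · refine ⟨0, ?_⟩
      rw [map_zero, coeff_eq_zero_of_natDegree_lt h, zero_mul]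
  obtain ⟨q, hq, -, hqm⟩ := lifts_and_natDegree_eq_and_monic hl ((monic_scaleRoots_iff s).2 hP)
  refine ⟨q, hqm, ?_⟩
  rw [← eval_map, hq]
  have := scaleRoots_aeval_eq_zero (r := s) hy
  simpa [aeval_def] using this

theorem aeval_mem_intCl (t : F) (p : R[X]) : aeval t p ∈ intCl R t := by
  rw [mem_intCl]
  exact isIntegral_algebraMap (R := Algebra.adjoin R {t})
    (x := ⟨aeval t p, aeval_mem_adjoin_singleton R t⟩)

end

end GaussAux

section

variable {R : Type*} [CommRing R] [IsDomain R] [IsDiscreteValuationRing R]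
  {K : Type*} [Field K] [Algebra R K] [IsFractionRing R K]
  {F : Type*} [Field F] [CharZero F] [Algebra R F] [Algebra K F] [IsScalarTower R K F]
  {π : R} {t : F} {ι : Type*} [Fintype ι] {O : ι → ValuationSubring F} {e f : ι → ℕ}

open GaussAux

theorem GaussAux.coe_pi :
    algebraMap (IntermediateField.adjoin K {t}) F
      (algebraMap K (IntermediateField.adjoin K {t}) (algebraMap R K π)) = algebraMap R F π := by
  rw [← IsScalarTower.algebraMap_apply K, ← IsScalarTower.algebraMap_apply R K F]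

/-- **[FUND-POLY]** bridge to `ExtSys` over `E = K(t)`. -/
theorem GaussSys.extSys [Nonempty ι] (hπ : Irreducible π) (S : GaussSys K π t O e f) :
    ∃ OG : ValuationSubring (IntermediateField.adjoin K {t}),
      ExtSys OG (algebraMap K (IntermediateField.adjoin K {t}) (algebraMap R K π)) O e f ∧
      ∀ x : IntermediateField.adjoin K {t}, x ∈ OG ↔
        ∃ p s : R[X], ¬ (C π ∣ s) ∧ (x : F) * aeval t s = aeval t p := by
  obtain ⟨i₀⟩ := ‹Nonempty ι›
  set E := IntermediateField.adjoin K {t} with hE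
  have hmem : ∀ i, ∀ x : E, x ∈ (O i).comap (algebraMap E F) ↔
      ∃ p s : R[X], ¬ (C π ∣ s) ∧ (x : F) * aeval t s = aeval t p := fun i x => by
    rw [ValuationSubring.mem_comap]
    exact mem_iff hπ (S.gauss i) x.2
  have hcomap : ∀ i, (O i).comap (algebraMap E F) = (O i₀).comap (algebraMap E F) := fun i => by
    ext x
    rw [hmem i, hmem i₀]
  refine ⟨(O i₀).comap (algebraMap E F), ⟨⟨?_, ?_, ?_⟩, S.inj, hcomap, ?_, ?_, S.sum⟩, hmem i₀⟩
  · rw [comap_lt_one, coe_pi]
    exact (S.gauss i₀).lt_one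
  · intro h
    have := congrArg (algebraMap E F) h
    rw [coe_pi, map_zero] at this
    exact algebraMap_ne_zero K hπ.ne_zero this
  · intro x hx
    have hx0 : (x : F) ≠ 0 := by simpa using hx
    obtain ⟨n, p, s, hp, hs, hxe⟩ := normal_form hπ x.2 hx0
    have hv := val_of_normal_form (S.gauss i₀) hp hs hxe
    refine ⟨n, ?_⟩
    set ϖ : E := algebraMap K E (algebraMap R K π) with hϖ
    have hϖ0 : ϖ ≠ 0 := by
      intro h
      have := congrArg (algebraMap E F) h
      rw [coe_pi, map_zero] at this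
      exact algebraMap_ne_zero K hπ.ne_zero this
    have h1 : ((O i₀).comap (algebraMap E F)).valuation (x * ϖ ^ (-n)) = 1 := by
      rw [comap_eq_one, map_mul, map_zpow₀, coe_pi, map_mul, map_zpow₀]
      change (O i₀).valuation (x : F) * _ = 1
      rw [hv, ← zpow_add₀ (val_pi_ne_zero K hπ)]
      simp
    rw [map_mul, map_zpow₀, zpow_neg] at h1
    have h2 : ((O i₀).comap (algebraMap E F)).valuation ϖ ^ n ≠ 0 :=
      zpow_ne_zero _ ((Valuation.ne_zero_iff _).2 hϖ0)
    exact (mul_inv_eq_one₀ h2).1 h1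
  · intro i
    obtain ⟨ϖ, h1, h2⟩ := S.ram i
    exact ⟨ϖ, h1, by rw [coe_pi]; exact h2⟩
  · intro i
    obtain ⟨ω, h1, h2⟩ := S.res i
    refine ⟨ω, h1, fun c hc hv k => ?_⟩
    rw [← hcomap i, comap_lt_one]
    exact res_bridge hπ (S.gauss i) h2 (c := fun k => algebraMap E F (c k))
      (fun k => (hmem i₀ (c k)).1 (hc k)) hv k

theorem GaussAux.nonempty (S : GaussSys K π t O e f) : Nonempty ι := by
  by_contra h
  rw [not_nonempty_iff] at h
  have h1 := S.sum
  have := S.fin
  rw [Finset.univ_eq_empty, Finset.sum_empty] at h1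
  have h2 := Module.finrank_pos (R := IntermediateField.adjoin K {t}) (M := F)
  omega

theorem GaussAux.isSeparable [FiniteDimensional (IntermediateField.adjoin K {t}) F] :
    Algebra.IsSeparable (IntermediateField.adjoin K {t}) F := by
  have : CharZero (IntermediateField.adjoin K {t}) :=
    ((algebraMap (IntermediateField.adjoin K {t}) F).charZero_iff
      (algebraMap (IntermediateField.adjoin K {t}) F).injective).2 inferInstance
  infer_instance

theorem GaussSys.semi (hπ : Irreducible π) (S : GaussSys K π t O e f) : Semi π t O := by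
  intro y hy
  have := nonempty S
  have := S.fin
  have : Algebra.IsSeparable (IntermediateField.adjoin K {t}) F := isSeparable
  obtain ⟨OG, hS, hmem⟩ := S.extSys hπ
  obtain ⟨P, hP, hc, h0⟩ := hS.isIntegral hy
  obtain ⟨s, q, hs, hq⟩ := common_den hπ (t := t)
    (c := fun j : Fin P.natDegree => ((P.coeff j : IntermediateField.adjoin K {t}) : F))
    (fun j => (hmem _).1 (hc j))
  refine ⟨s, hs, ?_⟩
  rw [mem_intCl]
  refine isIntegral_scale (Algebra.adjoin R {t})
    (P := P.map (algebraMap (IntermediateField.adjoin K {t}) F)) (hP.map _) ?_ ?_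
  · rwa [aeval_map_algebraMap]
  · intro j hj
    rw [hP.natDegree_map] at hj ⊢
    obtain ⟨m, hm⟩ : ∃ m, P.natDegree - j = m + 1 := ⟨P.natDegree - j - 1, by omega⟩
    rw [hm, coeff_map, pow_succ', ← mul_assoc]
    have := hq ⟨j, hj⟩
    simp only at this
    change ((P.coeff j : IntermediateField.adjoin K {t}) : F) * _ * _ ∈ _
    rw [this]
    exact mul_mem (aeval_mem_adjoin_singleton R t) (pow_mem (aeval_mem_adjoin_singleton R t) m)

theorem GaussSys.isUnif (hπ : Irreducible π) (S : GaussSys K π t O e f) (i : ι) {ϖ : F}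
    (h1 : (O i).valuation ϖ < 1)
    (h2 : (O i).valuation (algebraMap R F π) ≤ (O i).valuation ϖ ^ e i) :
    IsUnif (O i) ϖ ∧ (O i).valuation (algebraMap R F π) = (O i).valuation ϖ ^ e i := by
  have := nonempty S
  have := S.fin
  have : Algebra.IsSeparable (IntermediateField.adjoin K {t}) F := isSeparable
  obtain ⟨OG, hS, -⟩ := S.extSys hπ
  have := hS.isUnif i h1 (by rw [coe_pi]; exact h2)
  rwa [coe_pi] at this

/-- the residue field of `O i` is spanned by the `ω k` over `k(t)`. -/
theorem GaussSys.res_exact (hπ : Irreducible π) (S : GaussSys K π t O e f) (i : ι)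
    {ω : Fin (f i) → F} (h1 : ∀ k, ω k ∈ O i)
    (h2 : ∀ c : Fin (f i) → R[X],
      (O i).valuation (∑ k, aeval t (c k) * ω k) < 1 → ∀ k, C π ∣ c k)
    {y : F} (hy : y ∈ O i) :
    ∃ (s : R[X]) (c : Fin (f i) → R[X]), ¬ (C π ∣ s) ∧
      (O i).valuation (aeval t s * y - ∑ k, aeval t (c k) * ω k) < 1 := by
  have := nonempty S
  have := S.fin
  have : Algebra.IsSeparable (IntermediateField.adjoin K {t}) F := isSeparable
  obtain ⟨OG, hS, hmem⟩ := S.extSys hπ
  obtain ⟨c, hc, hv⟩ := hS.res_exact i h1 (fun c hc hv k => by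
    rw [← hS.comap i, comap_lt_one]
    exact res_bridge hπ (S.gauss i) h2
      (c := fun k => algebraMap (IntermediateField.adjoin K {t}) F (c k))
      (fun k => (hmem (c k)).1 (hc k)) hv k) hy
  obtain ⟨s, q, hs, hq⟩ := common_den hπ (t := t)
    (c := fun k => algebraMap (IntermediateField.adjoin K {t}) F (c k))
    (fun k => (hmem (c k)).1 (hc k))
  refine ⟨s, q, hs, ?_⟩
  have h3 : aeval t s * y - ∑ k, aeval t (q k) * ω k
      = aeval t s * (y - ∑ k, algebraMap (IntermediateField.adjoin K {t}) F (c k) * ω k) := by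
    rw [mul_sub, Finset.mul_sum]
    congr 1
    refine Finset.sum_congr rfl fun k _ => ?_
    rw [← hq k]; ring
  rw [h3, map_mul, (S.gauss i).prim s hs, one_mul]
  exact hv

theorem GaussAux.arch (hπ : Irreducible π) (S : GaussSys K π t O e f) (l : ι) {x : F}
    (hx : 1 < (O l).valuation x) :
    1 ≤ (O l).valuation x ^ e l * (O l).valuation (algebraMap R F π) := by
  obtain ⟨ϖ, h1, h2⟩ := S.ram l
  obtain ⟨hU, heq⟩ := S.isUnif hπ l h1 h2
  have hx0 : x ≠ 0 := by
    rintro rfl
    simp at hx
  obtain ⟨n, hn⟩ := hU.disc x hx0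
  have hϖ0 : 0 < (O l).valuation ϖ := zero_lt_iff.2 ((Valuation.ne_zero_iff _).2 hU.ne_zero)
  rw [hn, one_lt_zpow_iff_right_of_lt_one₀ hϖ0 h1] at hx
  rw [hn, heq, ← zpow_natCast, ← zpow_natCast, ← zpow_mul, ← zpow_add₀ hϖ0.ne',
    one_le_zpow_iff_right_of_lt_one₀ hϖ0 h1]
  nlinarith [Int.natCast_nonneg (e l)]

/-- **[LOC-EQ]** `O i` is the localisation of the chart at its centre
(`C := ⋂ O j` is a semi-local Dedekind domain with `C_(P i) = O i`, and `C ⊆ B_(p i)` by `semi`). -/
theorem GaussSys.unitAt_centre (hπ : Irreducible π) (S : GaussSys K π t O e f) (i : ι)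
    (hBO : intCl R t ≤ (O i).toSubring) {x : F} (hx : (O i).valuation x = 1) :
    UnitAt (intCl R t) (centre (intCl R t) (O i) hBO) x := by
  set M := ∑ l, e l with hM
  set w : F := x ^ (M + 1) * algebraMap R F π with hw
  have key : ∀ l, ((O l).valuation x ≤ 1 → (O l).valuation (1 + w) = 1) ∧
      (O l).valuation (1 + w)⁻¹ ≤ 1 ∧ (O l).valuation (x * (1 + w)⁻¹) ≤ 1 := by
    intro l
    rcases le_or_gt ((O l).valuation x) 1 with h | h
    · have h1 : (O l).valuation w < 1 := by
        rw [hw, map_mul, map_pow]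
        calc (O l).valuation x ^ (M + 1) * (O l).valuation (algebraMap R F π)
            ≤ 1 * (O l).valuation (algebraMap R F π) := by
              gcongr
              exact pow_le_one₀ zero_le h
          _ < 1 := by simpa using (S.gauss l).lt_one
      have h2 := Valuation.map_one_add_of_lt (O l).valuation h1
      refine ⟨fun _ => h2, ?_, ?_⟩
      · rw [map_inv₀, h2, inv_one]
      · rw [map_mul, map_inv₀, h2, inv_one, mul_one]; exact h
    · have h0 := arch hπ S l h
      have h1 : (O l).valuation x ≤ (O l).valuation w := by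
        rw [hw, map_mul, map_pow, pow_succ', mul_assoc]
        calc (O l).valuation x = (O l).valuation x * 1 := (mul_one _).symm
          _ ≤ (O l).valuation x * ((O l).valuation x ^ e l * (O l).valuation (algebraMap R F π)) := by
              gcongr
          _ ≤ (O l).valuation x * ((O l).valuation x ^ M * (O l).valuation (algebraMap R F π)) := by
              gcongr
              · exact h.le
              · exact Finset.single_le_sum (fun _ _ => Nat.zero_le _) (Finset.mem_univ l)
      have h2 : (O l).valuation (1 + w) = (O l).valuation w := by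
        apply Valuation.map_add_eq_of_lt_right
        rw [map_one]
        exact h.trans_le h1
      have hw0 : (O l).valuation w ≠ 0 := (zero_lt_one.trans (h.trans_le h1)).ne'
      refine ⟨fun h' => absurd h' (not_le.2 h), ?_, ?_⟩
      · rw [map_inv₀, h2]
        exact inv_le_one_of_one_le₀ (h.trans_le h1).le
      · rw [map_mul, map_inv₀, h2]
        exact (mul_inv_le_iff₀ (zero_lt_iff.2 hw0)).2 (by simpa using h1)
  have hi : (O i).valuation (1 + w)⁻¹ = 1 := by
    rw [map_inv₀, (key i).1 hx.le, inv_one]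
  obtain ⟨s₁, hs₁, h₁⟩ := S.semi hπ (1 + w)⁻¹ fun l => ((O l).valuation_le_one_iff _).1 (key l).2.1
  obtain ⟨s₂, hs₂, h₂⟩ := S.semi hπ (x * (1 + w)⁻¹)
    fun l => ((O l).valuation_le_one_iff _).1 (key l).2.2
  refine ⟨⟨aeval t s₁ * (aeval t s₂ * (x * (1 + w)⁻¹)), mul_mem (aeval_mem_intCl t s₁) h₂⟩,
    ⟨aeval t s₂ * (aeval t s₁ * (1 + w)⁻¹), mul_mem (aeval_mem_intCl t s₂) h₁⟩, ?_, ?_, ?_⟩
  · rw [mem_centre]
    simp only [map_mul, (S.gauss i).prim s₁ hs₁, (S.gauss i).prim s₂ hs₂, hx, hi, mul_one]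
    exact lt_irrefl _
  · rw [mem_centre]
    simp only [map_mul, (S.gauss i).prim s₁ hs₁, (S.gauss i).prim s₂ hs₂, hi, mul_one]
    exact lt_irrefl _
  · simp only
    ring

theorem GaussAux.aeval_inv (ht : t ≠ 0) {N : ℕ} {p : R[X]} (hp : p.natDegree ≤ N) :
    aeval t⁻¹ p = aeval t (reflect N p) * t⁻¹ ^ N := by
  let : Invertible t⁻¹ := invertibleOfNonzero (inv_ne_zero ht)
  have := eval₂_reflect_mul_pow (algebraMap R F) t⁻¹ N p hp
  rw [invOf_eq_inv, inv_inv] at this
  rw [aeval_def, aeval_def, this]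

theorem GaussAux.dvd_reflect_iff {N : ℕ} {p : R[X]} : C π ∣ reflect N p ↔ C π ∣ p := by
  rw [C_dvd_iff_dvd_coeff, C_dvd_iff_dvd_coeff]
  constructor
  · intro h n
    have := h (revAt N n)
    rwa [coeff_reflect, revAt_invol] at this
  · intro h n
    rw [coeff_reflect]
    exact h _

theorem GaussAux.adjoin_inv : IntermediateField.adjoin K {t⁻¹} = IntermediateField.adjoin K {t} := by
  apply le_antisymm
  · rw [IntermediateField.adjoin_simple_le_iff]
    exact inv_mem (IntermediateField.mem_adjoin_simple_self K t)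
  · rw [IntermediateField.adjoin_simple_le_iff]
    have := inv_mem (IntermediateField.mem_adjoin_simple_self K t⁻¹)
    rwa [inv_inv] at this

/-- the same data for the chart `t⁻¹` (`K(t⁻¹) = K(t)`). -/
theorem GaussSys.inv (hπ : Irreducible π) (S : GaussSys K π t O e f) :
    GaussSys K π t⁻¹ O e f := by
  have hvt : ∀ i, (O i).valuation t = 1 := fun i => val_t hπ (S.gauss i)
  obtain ⟨i₀⟩ := nonempty S
  have ht : t ≠ 0 := by
    rintro rfl
    simpa using hvt i₀
  refine ⟨S.inj, fun i => ⟨(S.gauss i).const, (S.gauss i).lt_one, fun p hp => ?_⟩, S.ram,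
    fun i => ?_, ?_, ?_⟩
  · rw [aeval_inv ht le_rfl, map_mul, map_pow, map_inv₀, hvt i, inv_one, one_pow, mul_one]
    exact (S.gauss i).prim _ (fun h => hp (dvd_reflect_iff.1 h))
  · obtain ⟨ω, h1, h2⟩ := S.res i
    refine ⟨ω, h1, fun c hv k => ?_⟩
    set N := Finset.univ.sup fun k => (c k).natDegree with hN
    have hle : ∀ k, (c k).natDegree ≤ N := fun k =>
      Finset.le_sup (f := fun k => (c k).natDegree) (Finset.mem_univ k)
    have h3 : ∑ k, aeval t⁻¹ (c k) * ω k
        = t⁻¹ ^ N * ∑ k, aeval t (reflect N (c k)) * ω k := by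
      rw [Finset.mul_sum]
      refine Finset.sum_congr rfl fun k _ => ?_
      rw [aeval_inv ht (hle k)]; ring
    rw [h3, map_mul, map_pow, map_inv₀, hvt i, inv_one, one_pow, one_mul] at hv
    exact dvd_reflect_iff.1 (h2 _ hv k)
  · rw [adjoin_inv]; exact S.fin
  · rw [adjoin_inv]; exact S.sum

end

end Fermat.Agent.S36
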