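import Fermat.Agent.S36.Abs.Comp
import Fermat.Agent.S36.Alg.Reg2

/-!
# S36 / abstract part : `[REG2]` regularity criterion and `[LD-REG]` local factoriality

`[REG2]`  A noetherian local domain `A` with `a ∈ 𝔪` such that `A / (a)` is a principal ideal ring
(a DVR in the application): every prime ideal not containing `a` is principal (Nakayama), hence
`A` is a UFD (Kaplansky) as soon as `(a)` is prime.

`[LD-REG]`  consequence for `B_𝔪`, in the elementwise language of `Basic.lean`.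
-/

set_option autoImplicit false

namespace Fermat.Agent.S36

/-- **[REG2]**  Proof.  The image of `P` in `A / (a)` is generated by the class of some `p ∈ P`;
`P ⊆ (p) + (a) ∩ P = (p) + a P` (`a ∉ P`, `P` prime), so `P = (p)` by Nakayama. -/
theorem isPrincipal_of_notMem {A : Type*} [CommRing A] [IsDomain A] [IsLocalRing A]
    [IsNoetherianRing A] (a : A) (ha : a ∈ IsLocalRing.maximalIdeal A)
    (hPIR : IsPrincipalIdealRing (A ⧸ Ideal.span {a})) (P : Ideal A) [P.IsPrime] (haP : a ∉ P) :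
    P.IsPrincipal :=
  reg2_isPrincipal ha P haP

/-- **[REG2-UFD]**  (`UniqueFactorizationMonoid.iff_exists_prime_mem_of_isPrime`). -/
theorem ufd_of_reg2 {A : Type*} [CommRing A] [IsDomain A] [IsLocalRing A]
    [IsNoetherianRing A] (a : A) (ha : a ∈ IsLocalRing.maximalIdeal A) (ha' : Prime a)
    (hPIR : IsPrincipalIdealRing (A ⧸ Ideal.span {a})) : UniqueFactorizationMonoid A :=
  reg2_ufm ha'

variable {F : Type*} [Field F]

namespace RegAux

theorem isFractionRing (B : Subring F)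
    (hfrac : ∀ x : F, ∃ s t : B, t ≠ 0 ∧ x * (t : F) = (s : F)) : IsFractionRing B F := by
  refine IsFractionRing.of_field B F fun z => ?_
  obtain ⟨s, t, ht, h⟩ := hfrac z
  refine ⟨s, t, ?_⟩
  have ht' : (t : F) ≠ 0 := fun h0 => ht (Subtype.ext h0)
  show z = (s : F) / (t : F)
  rw [← h, mul_div_assoc, div_self ht', mul_one]

variable (B : Subring F) [IsFractionRing B F] (𝔮 : Ideal B) [h𝔮 : 𝔮.IsPrime]

/-- `B_𝔮` as a subalgebra of `F` -/
noncomputable def locSub : Subalgebra B F :=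
  Localization.subalgebra.ofField F 𝔮.primeCompl 𝔮.primeCompl_le_nonZeroDivisors

instance : IsLocalization.AtPrime (locSub B 𝔮) 𝔮 :=
  Localization.subalgebra.isLocalization_ofField F 𝔮.primeCompl 𝔮.primeCompl_le_nonZeroDivisors

variable {B 𝔮}

theorem mem_locSub {x : F} : x ∈ locSub B 𝔮 ↔ MemAt B 𝔮 x := by
  constructor
  · rintro ⟨a, s, hs, rfl⟩
    refine ⟨a, s, hs, ?_⟩
    have hs0 : (s : F) ≠ 0 := by
      intro h0
      apply hs
      have : s = 0 := Subtype.ext h0
      rw [this]; exact 𝔮.zero_mem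
    show (a : F) * (s : F)⁻¹ * (s : F) = a
    rw [mul_assoc, inv_mul_cancel₀ hs0, mul_one]
  · rintro ⟨s, t, ht, h⟩
    refine ⟨s, t, ht, ?_⟩
    have ht0 : (t : F) ≠ 0 := by
      intro h0
      apply ht
      have : t = 0 := Subtype.ext h0
      rw [this]; exact 𝔮.zero_mem
    show x = (s : F) * (t : F)⁻¹
    rw [← h, mul_assoc, mul_inv_cancel₀ ht0, mul_one]

theorem isUnit_locSub_iff {x : locSub B 𝔮} : IsUnit x ↔ UnitAt B 𝔮 (x : F) := by
  constructor
  · intro hx
    obtain ⟨s, t, ht, h⟩ := mem_locSub.1 x.2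
    refine ⟨s, t, ?_, ht, h⟩
    have h1 : algebraMap B (locSub B 𝔮) s = x * algebraMap B (locSub B 𝔮) t :=
      Subtype.ext h.symm
    have h2 : IsUnit (algebraMap B (locSub B 𝔮) s) := by
      rw [h1]
      exact hx.mul ((IsLocalization.AtPrime.isUnit_to_map_iff (locSub B 𝔮) 𝔮 t).2 ht)
    exact (IsLocalization.AtPrime.isUnit_to_map_iff (locSub B 𝔮) 𝔮 s).1 h2
  · intro hx
    have hinv := hx.inv
    refine IsUnit.of_mul_eq_one ⟨(x : F)⁻¹, mem_locSub.2 hinv.memAt⟩ (Subtype.ext ?_)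
    show (x : F) * (x : F)⁻¹ = 1
    exact mul_inv_cancel₀ hx.ne_zero

/-- the ideal `p B_𝔮` is generated by `a` if `a` generates `p` at `𝔮` -/
theorem map_eq_span (p : Ideal B) {a : F} (ha : MemAt B 𝔮 a)
    (h1 : ∃ s t : B, s ∈ p ∧ t ∉ 𝔮 ∧ a * (t : F) = (s : F)) (ha0 : a ≠ 0)
    (h2 : ∀ x ∈ p, MemAt B 𝔮 ((x : F) / a)) :
    p.map (algebraMap B (locSub B 𝔮)) = Ideal.span {(⟨a, mem_locSub.2 ha⟩ : locSub B 𝔮)} := by
  apply le_antisymm
  · rw [Ideal.map_le_iff_le_comap]
    intro x hx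
    rw [Ideal.mem_comap, Ideal.mem_span_singleton]
    refine ⟨⟨(x : F) / a, mem_locSub.2 (h2 x hx)⟩, Subtype.ext ?_⟩
    show (x : F) = a * ((x : F) / a)
    rw [mul_div_assoc', mul_div_cancel_left₀ _ ha0]
  · rw [Ideal.span_singleton_le_iff_mem]
    obtain ⟨s, t, hs, ht, h⟩ := h1
    have hu : IsUnit (algebraMap B (locSub B 𝔮) t) :=
      (IsLocalization.AtPrime.isUnit_to_map_iff (locSub B 𝔮) 𝔮 t).2 ht
    have h3 : (⟨a, mem_locSub.2 ha⟩ : locSub B 𝔮) * algebraMap B (locSub B 𝔮) t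
        = algebraMap B (locSub B 𝔮) s := Subtype.ext h
    have h4 : (⟨a, mem_locSub.2 ha⟩ : locSub B 𝔮) * algebraMap B (locSub B 𝔮) t
        ∈ p.map (algebraMap B (locSub B 𝔮)) := by
      rw [h3]; exact Ideal.mem_map_of_mem _ hs
    exact (Ideal.mul_unit_mem_iff_mem _ hu).1 h4

theorem valuation_eq_one_of_notMem {B : Subring F} {O : ValuationSubring F}
    (hBO : B ≤ O.toSubring) {b : B} (hb : b ∉ centre B O hBO) : O.valuation (b : F) = 1 := by
  have h1 : O.valuation (b : F) ≤ 1 := (O.valuation_le_one_iff _).2 (hBO b.2)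
  have h2 : ¬ O.valuation (b : F) < 1 := fun h => hb ((mem_centre hBO).2 h)
  exact le_antisymm h1 (not_lt.1 h2)

theorem valuation_lt_one_of_zeroAt {B : Subring F} {O : ValuationSubring F}
    (hBO : B ≤ O.toSubring) {x : F} (hx : ZeroAt B (centre B O hBO) x) : O.valuation x < 1 := by
  obtain ⟨s, t, hs, ht, h⟩ := hx
  have h1 := valuation_eq_one_of_notMem hBO ht
  have h2 := (mem_centre hBO).1 hs
  rw [← h, map_mul, h1, mul_one] at h2
  exact h2

/-- an ideal of a Dedekind domain is principal at every prime -/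
theorem exists_local_gen {D : Type*} [CommRing D] [IsDedekindDomain D] (M : Ideal D)
    [hM : M.IsPrime] (I : Ideal D) : ∃ h ∈ I, ∃ t, t ∉ M ∧ ∀ x ∈ I, h ∣ t * x := by
  by_cases hI : I = ⊥
  · refine ⟨0, I.zero_mem, 1, fun h => hM.ne_top ((Ideal.eq_top_iff_one _).2 h), ?_⟩
    intro x hx
    rw [hI, Ideal.mem_bot] at hx
    rw [hx, mul_zero]
  have hne : I * M ≠ I := by
    intro h
    have := (mul_eq_left₀ hI).1 h
    exact hM.ne_top (by rwa [Ideal.one_eq_top] at this)
  have hlt : I * M < I := lt_of_le_of_ne Ideal.mul_le_left hne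
  obtain ⟨h, hhI, hhIM⟩ := SetLike.exists_of_lt hlt
  have hle : Ideal.span {h} ≤ I := (Ideal.span_singleton_le_iff_mem _).2 hhI
  obtain ⟨J, hJ⟩ := Ideal.dvd_iff_le.2 hle
  have hJM : ¬ J ≤ M := by
    intro hJM
    apply hhIM
    have : Ideal.span {h} ≤ I * M := by rw [hJ]; exact Ideal.mul_mono_right hJM
    exact this (Ideal.mem_span_singleton_self h)
  obtain ⟨t, htJ, htM⟩ := SetLike.not_le_iff_exists.1 hJM
  refine ⟨h, hhI, t, htM, fun x hx => ?_⟩
  rw [← Ideal.mem_span_singleton, hJ, mul_comm t x]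
  exact Ideal.mul_mem_mul hx htJ

/-- in a UFD, an element all of whose multiplicities are divisible by `m` is a unit times an
`m`-th power -/
theorem exists_pow_mul_unit {A : Type*} [CommRing A] [IsDomain A] [UniqueFactorizationMonoid A]
    {m : ℕ} (hm : m ≠ 0) (x : A) (hx : x ≠ 0) (H : ∀ g : A, Prime g → m ∣ multiplicity g x) :
    ∃ (z : A) (w : Aˣ), z ≠ 0 ∧ z ^ m * w = x := by
  classical
  let _ := UniqueFactorizationMonoid.strongNormalizationMonoid (α := A)
  have h1 : ∀ a ∈ UniqueFactorizationMonoid.normalizedFactors x,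
      m ∣ (UniqueFactorizationMonoid.normalizedFactors x).count a := by
    intro a ha
    have hirr := UniqueFactorizationMonoid.irreducible_of_normalized_factor a ha
    have hn := UniqueFactorizationMonoid.normalize_normalized_factor a ha
    have h2 := UniqueFactorizationMonoid.emultiplicity_eq_count_normalizedFactors hirr hx
    rw [hn] at h2
    have hfin : FiniteMultiplicity a x :=
      FiniteMultiplicity.of_prime_left (UniqueFactorizationMonoid.irreducible_iff_prime.1 hirr) hx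
    rw [hfin.emultiplicity_eq_multiplicity] at h2
    have h3 : multiplicity a x = (UniqueFactorizationMonoid.normalizedFactors x).count a := by
      exact_mod_cast h2
    rw [← h3]
    exact H a (UniqueFactorizationMonoid.irreducible_iff_prime.1 hirr)
  obtain ⟨u, hu⟩ := Multiset.exists_smul_of_dvd_count _ h1
  have h4 := UniqueFactorizationMonoid.prod_normalizedFactors hx
  rw [hu, Multiset.prod_nsmul] at h4
  obtain ⟨w, hw⟩ := h4
  refine ⟨u.prod, w, ?_, hw⟩
  intro h0
  rw [h0, zero_pow hm, zero_mul] at hw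
  exact hx hw.symm

/-- in a UFD `A` with fraction field `F`: an element which is a unit times an `m`-th power at every
prime element is a unit times an `m`-th power. -/
theorem exists_pow_mul_eq_unit {A F : Type*} [CommRing A] [IsDomain A]
    [UniqueFactorizationMonoid A] [Field F] [Algebra A F] [IsFractionRing A F] {m : ℕ}
    (hm : m ≠ 0) (f : F) (hf : f ≠ 0)
    (H : ∀ g : A, Prime g → ∃ (h : F) (s t : A), h ≠ 0 ∧ ¬ g ∣ s ∧ ¬ g ∣ t ∧
      h ^ m * f * algebraMap A F t = algebraMap A F s) :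
    ∃ (h : F) (u : Aˣ), h ≠ 0 ∧ h ^ m * f = algebraMap A F u := by
  have hinj : Function.Injective (algebraMap A F) := IsFractionRing.injective A F
  obtain ⟨x, ⟨y, hy⟩, hrel, hxy⟩ := IsFractionRing.exists_reduced_fraction (A := A) f
  have hy0 : y ≠ 0 := nonZeroDivisors.ne_zero hy
  have hy0' : algebraMap A F y ≠ 0 := by rwa [Ne, map_eq_zero_iff _ hinj]
  have hfxy : f * algebraMap A F y = algebraMap A F x := by
    rw [← hxy]; exact IsLocalization.mk'_spec F x ⟨y, hy⟩
  have hx0 : x ≠ 0 := by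
    rintro rfl
    rw [map_zero] at hfxy
    exact (mul_ne_zero hf hy0') hfxy
  have key : ∀ g : A, Prime g → m ∣ multiplicity g x ∧ m ∣ multiplicity g y := by
    intro g hg
    obtain ⟨h, s, t, hh, hs, ht, hst⟩ := H g hg
    obtain ⟨c, d, hd, rfl⟩ := IsFractionRing.div_surjective (A := A) h
    have hd0 : d ≠ 0 := nonZeroDivisors.ne_zero hd
    have hd0' : algebraMap A F d ≠ 0 := by rwa [Ne, map_eq_zero_iff _ hinj]
    have hc0 : c ≠ 0 := by
      rintro rfl
      simp at hh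
    have hs0 : s ≠ 0 := fun h0 => hs (h0 ▸ dvd_zero g)
    have ht0 : t ≠ 0 := fun h0 => ht (h0 ▸ dvd_zero g)
    have e1 : c ^ m * x * t = s * y * d ^ m := by
      apply hinj
      simp only [map_mul, map_pow]
      rw [← hst, ← hfxy, div_pow]
      field_simp
    have fin : ∀ b : A, b ≠ 0 → FiniteMultiplicity g b :=
      fun b hb => FiniteMultiplicity.of_prime_left hg hb
    have e2 := congrArg (multiplicity g) e1
    rw [multiplicity_mul hg (fin _ (mul_ne_zero (mul_ne_zero (pow_ne_zero _ hc0) hx0) ht0)),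
      multiplicity_mul hg (fin _ (mul_ne_zero (pow_ne_zero _ hc0) hx0)),
      (fin _ hc0).multiplicity_pow hg,
      multiplicity_mul hg (fin _ (mul_ne_zero (mul_ne_zero hs0 hy0) (pow_ne_zero _ hd0))),
      multiplicity_mul hg (fin _ (mul_ne_zero hs0 hy0)),
      (fin _ hd0).multiplicity_pow hg,
      multiplicity_eq_zero.2 hs, multiplicity_eq_zero.2 ht] at e2
    by_cases hgy : g ∣ y
    · have hgx : ¬ g ∣ x := fun hgx => hg.not_isUnit (hrel hgx hgy)
      rw [multiplicity_eq_zero.2 hgx] at e2 ⊢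
      refine ⟨dvd_zero _, ?_⟩
      have : m * multiplicity g c = multiplicity g y + m * multiplicity g d := by omega
      exact (Nat.dvd_add_left (dvd_mul_right m _)).1 (this ▸ dvd_mul_right m _)
    · rw [multiplicity_eq_zero.2 hgy] at e2 ⊢
      refine ⟨?_, dvd_zero _⟩
      have : m * multiplicity g d = multiplicity g x + m * multiplicity g c := by omega
      exact (Nat.dvd_add_left (dvd_mul_right m _)).1 (this ▸ dvd_mul_right m _)
  obtain ⟨z, w, hz, hzw⟩ := exists_pow_mul_unit hm x hx0 (fun g hg => (key g hg).1)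
  obtain ⟨z', w', hz', hzw'⟩ := exists_pow_mul_unit hm y hy0 (fun g hg => (key g hg).2)
  have hz0 : algebraMap A F z ≠ 0 := by rwa [Ne, map_eq_zero_iff _ hinj]
  have hz0' : algebraMap A F z' ≠ 0 := by rwa [Ne, map_eq_zero_iff _ hinj]
  refine ⟨algebraMap A F z' / algebraMap A F z, w * w'⁻¹, div_ne_zero hz0' hz0, ?_⟩
  have hw' : algebraMap A F (w' : A) ≠ 0 := by
    rw [Ne, map_eq_zero_iff _ hinj]; exact w'.ne_zero
  have e3 : f = algebraMap A F x / algebraMap A F y := by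
    rw [← hfxy, mul_div_assoc, div_self hy0', mul_one]
  have e4 : algebraMap A F ((w'⁻¹ : Aˣ) : A) = (algebraMap A F (w' : A))⁻¹ := by
    apply eq_inv_of_mul_eq_one_left
    rw [← map_mul, Units.inv_mul, map_one]
  rw [e3, ← hzw, ← hzw', Units.val_mul]
  simp only [map_mul, map_pow, div_pow, e4]
  field_simp


/-- `B_𝔪 / (a)` is a principal ideal ring if `(a) = p B_𝔪` and `B / p` is Dedekind -/
theorem isPrincipalIdealRing_quotient {B A : Type*} [CommRing B] [CommRing A] [Algebra B A]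
    (𝔪 : Ideal B) [h𝔪 : 𝔪.IsPrime] [IsLocalization.AtPrime A 𝔪] (p : Ideal B) [hp : p.IsPrime]
    (hp𝔪 : p ≤ 𝔪) [IsDedekindDomain (B ⧸ p)]
    (aA : A) (haA : p.map (algebraMap B A) = Ideal.span {aA}) :
    IsPrincipalIdealRing (A ⧸ Ideal.span {aA}) := by
  constructor
  intro Jb
  set J : Ideal A := Jb.comap (Ideal.Quotient.mk (Ideal.span {aA})) with hJ
  set I : Ideal B := J.comap (algebraMap B A) with hI
  have hJI : I.map (algebraMap B A) = J := IsLocalization.map_under 𝔪.primeCompl A J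
  have hMprime : (𝔪.map (Ideal.Quotient.mk p)).IsPrime :=
    Ideal.map_isPrime_of_surjective Ideal.Quotient.mk_surjective (by rwa [Ideal.mk_ker])
  obtain ⟨hb, hhb, tb, htb, hdiv⟩ :=
    exists_local_gen (𝔪.map (Ideal.Quotient.mk p)) (I.map (Ideal.Quotient.mk p))
  obtain ⟨h, hhI, rfl⟩ := (Ideal.mem_map_iff_of_surjective _ Ideal.Quotient.mk_surjective).1 hhb
  obtain ⟨t, rfl⟩ := Ideal.Quotient.mk_surjective tb
  have ht : t ∉ 𝔪 := fun h' => htb (Ideal.mem_map_of_mem _ h')
  have htu : IsUnit (algebraMap B A t) := (IsLocalization.AtPrime.isUnit_to_map_iff A 𝔪 t).2 ht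
  have hle : J ≤ Ideal.span {algebraMap B A h} ⊔ Ideal.span {aA} := by
    rw [← hJI, Ideal.map_le_iff_le_comap]
    intro x hx
    rw [Ideal.mem_comap]
    obtain ⟨yb, hyb⟩ := hdiv _ (Ideal.mem_map_of_mem _ hx)
    obtain ⟨y, rfl⟩ := Ideal.Quotient.mk_surjective yb
    rw [← map_mul, ← map_mul, Ideal.Quotient.eq] at hyb
    have h1 : algebraMap B A (t * x - h * y) ∈ Ideal.span {aA} := by
      rw [← haA]; exact Ideal.mem_map_of_mem _ hyb
    have h2 : algebraMap B A t * algebraMap B A x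
        ∈ Ideal.span {algebraMap B A h} ⊔ Ideal.span {aA} := by
      have : algebraMap B A t * algebraMap B A x
          = algebraMap B A h * algebraMap B A y + algebraMap B A (t * x - h * y) := by
        rw [map_sub, map_mul, map_mul]; ring
      rw [this]
      exact Submodule.add_mem_sup
        (Ideal.mul_mem_right _ _ (Ideal.mem_span_singleton_self _)) h1
    exact (Ideal.unit_mul_mem_iff_mem _ htu).1 h2
  refine ⟨Ideal.Quotient.mk (Ideal.span {aA}) (algebraMap B A h), ?_⟩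
  apply le_antisymm
  · intro zb hzb
    obtain ⟨z, rfl⟩ := Ideal.Quotient.mk_surjective zb
    have hz : z ∈ J := hzb
    obtain ⟨z1, hz1, z2, hz2, rfl⟩ := Submodule.mem_sup.1 (hle hz)
    obtain ⟨c, rfl⟩ := Ideal.mem_span_singleton'.1 hz1
    rw [map_add, (Ideal.Quotient.eq_zero_iff_mem).2 hz2, add_zero, map_mul]
    exact Ideal.mul_mem_left _ _ (Ideal.mem_span_singleton_self _)
  · have : Ideal.span {Ideal.Quotient.mk (Ideal.span {aA}) (algebraMap B A h)} ≤ Jb := by
      rw [Ideal.span_singleton_le_iff_mem]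
      exact hhI
    exact this

end RegAux

/-- `a` generates `p B_𝔪`. -/
def LocGen (B : Subring F) (𝔪 p : Ideal B) (a : F) : Prop :=
  a ≠ 0 ∧ (∃ s t : B, s ∈ p ∧ t ∉ 𝔪 ∧ a * (t : F) = (s : F)) ∧
    ∀ x ∈ p, MemAt B 𝔪 ((x : F) / a)

open RegAux in
/-- **[DVR-EQ]**  If the centre `p` of `O` on the noetherian ring `B` is locally principal at some
`𝔪 ⊇ p`, then `O = B_p`.
Proof.  `B_p` is a noetherian local domain with principal maximal ideal `(a)`, `a ≠ 0`, so it is a
valuation ring of `F`; an element of `B_p` of valuation one is a unit of `B_p`. -/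
theorem unitAt_centre_of_locGen (B : Subring F) [IsNoetherianRing B]
    (hfrac : ∀ x : F, ∃ s t : B, t ≠ 0 ∧ x * (t : F) = (s : F))
    (O : ValuationSubring F) (hBO : B ≤ O.toSubring) (hne : centre B O hBO ≠ ⊥)
    (𝔪 : Ideal B) (h𝔪 : 𝔪.IsPrime) (hp𝔪 : centre B O hBO ≤ 𝔪) {a : F}
    (ha : LocGen B 𝔪 (centre B O hBO) a) {x : F} (hx : O.valuation x = 1) :
    UnitAt B (centre B O hBO) x := by
  have hFR : IsFractionRing B F := isFractionRing B hfrac
  set 𝔭 := centre B O hBO with h𝔭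
  obtain ⟨ha0, ⟨s, t, hs, ht, hst⟩, ha2⟩ := ha
  have ht' : t ∉ 𝔭 := fun h => ht (hp𝔪 h)
  have haM : MemAt B 𝔭 a := ⟨s, t, ht', hst⟩
  have hloc : IsLocalRing (locSub B 𝔭) := IsLocalization.AtPrime.isLocalRing (locSub B 𝔭) 𝔭
  have hnoe : IsNoetherianRing (locSub B 𝔭) :=
    IsLocalization.isNoetherianRing 𝔭.primeCompl (locSub B 𝔭) inferInstance
  have hmax : IsLocalRing.maximalIdeal (locSub B 𝔭)
      = Ideal.span {(⟨a, mem_locSub.2 haM⟩ : locSub B 𝔭)} := by
    rw [← IsLocalization.AtPrime.map_eq_maximalIdeal 𝔭 (locSub B 𝔭)]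
    exact map_eq_span 𝔭 haM ⟨s, t, hs, ht', hst⟩ ha0 (fun x hx => (ha2 x hx).mono hp𝔪)
  have hnf : ¬ IsField (locSub B 𝔭) := by
    rw [IsLocalRing.isField_iff_maximalIdeal_eq, hmax, Ideal.span_singleton_eq_bot]
    intro h
    exact ha0 (congrArg Subtype.val h)
  have hval : ValuationRing (locSub B 𝔭) :=
    ((IsDiscreteValuationRing.TFAE (locSub B 𝔭) hnf).out 1 4).2
      (⟨⟨_, hmax⟩⟩ : (IsLocalRing.maximalIdeal (locSub B 𝔭)).IsPrincipal)
  have key : ∀ y : F, O.valuation y = 1 → MemAt B 𝔭 y → UnitAt B 𝔭 y := by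
    intro y hy hyM
    rcases hyM.zeroAt_or_unitAt with h | h
    · exact absurd (valuation_lt_one_of_zeroAt hBO h) (by rw [hy]; exact lt_irrefl _)
    · exact h
  rcases ValuationRing.isInteger_or_isInteger (locSub B 𝔭) x with ⟨y, hy⟩ | ⟨y, hy⟩
  · exact key x hx (mem_locSub.1 (hy ▸ y.2))
  · have h1 : O.valuation x⁻¹ = 1 := by rw [map_inv₀, hx, inv_one]
    have h2 := (key x⁻¹ h1 (mem_locSub.1 (hy ▸ y.2))).inv
    rwa [inv_inv] at h2


open RegAux in
/-- **[LD-REG]**  `p < 𝔪` a nonzero prime, locally principal at `𝔪`, with `B / p` Dedekind.  If `f` is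
"an `m`-th power up to units" at every non-maximal prime `𝔮 < 𝔪`, then also at `𝔪`.

Proof.  `A := B_𝔪` (`Localization.AtPrime 𝔪`, fraction field `F`) is a UFD by `[REG2-UFD]`
(`A / (a) = (B / p)_𝔪` is a DVR).  `f = unit * ∏ p_k ^ n_k`; `𝔮_k := (p_k) ∩ B ≠ 𝔪` (otherwise `A`
would be a DVR, but `0 ≠ p A ≠ 𝔪 A`), `A_(p_k) = B_(𝔮_k)` is a DVR with uniformizer `p_k`, and
`h ^ m * f` unit there gives `m ∣ n_k`.  Take `h := ∏ p_k ^ (- n_k / m)`. -/
theorem ld_at_of_locGen (B : Subring F) [IsNoetherianRing B]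
    (hfrac : ∀ x : F, ∃ s t : B, t ≠ 0 ∧ x * (t : F) = (s : F))
    {m : ℕ} (hm : m ≠ 0) (𝔪 : Ideal B) (h𝔪 : 𝔪.IsMaximal) (p : Ideal B) (hp : p.IsPrime)
    (hp0 : p ≠ ⊥) (hp𝔪 : p < 𝔪) (hDed : IsDedekindDomain (B ⧸ p)) {a : F} (ha : LocGen B 𝔪 p a)
    {f : F} (hf : f ≠ 0)
    (hval : ∀ 𝔮 : Ideal B, 𝔮.IsPrime → 𝔮 < 𝔪 → ∃ h : F, h ≠ 0 ∧ UnitAt B 𝔮 (h ^ m * f)) :
    ∃ h : F, h ≠ 0 ∧ UnitAt B 𝔪 (h ^ m * f) := by
  have hFR : IsFractionRing B F := isFractionRing B hfrac
  have h𝔪p : 𝔪.IsPrime := h𝔪.isPrime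
  obtain ⟨ha0, ⟨s, t, hs, ht, hst⟩, ha2⟩ := ha
  have haM : MemAt B 𝔪 a := ⟨s, t, ht, hst⟩
  set A := locSub B 𝔪 with hA
  have hloc : IsLocalRing A := IsLocalization.AtPrime.isLocalRing A 𝔪
  have hnoe : IsNoetherianRing A := IsLocalization.isNoetherianRing 𝔪.primeCompl A inferInstance
  set aA : A := ⟨a, mem_locSub.2 haM⟩ with haA
  have hmap : p.map (algebraMap B A) = Ideal.span {aA} :=
    map_eq_span p haM ⟨s, t, hs, ht, hst⟩ ha0 ha2
  have haA0 : aA ≠ 0 := fun h => ha0 (congrArg Subtype.val h)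
  have hdisj : Disjoint (𝔪.primeCompl : Set B) (p : Set B) := by
    rw [Set.disjoint_left]
    intro x hx hxp
    exact hx (hp𝔪.le hxp)
  have hprime : Prime aA := by
    rw [← Ideal.span_singleton_prime haA0, ← hmap]
    exact IsLocalization.isPrime_of_isPrime_disjoint 𝔪.primeCompl A p hp hdisj
  have hPIR : IsPrincipalIdealRing (A ⧸ Ideal.span {aA}) :=
    isPrincipalIdealRing_quotient 𝔪 p hp𝔪.le aA hmap
  have hUFD : UniqueFactorizationMonoid A := reg2_ufm hprime
  obtain ⟨h, u, hh, hu⟩ := exists_pow_mul_eq_unit (A := A) (F := F) hm f hf (by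
    intro g hg
    have hgp : (Ideal.span {g}).IsPrime := (Ideal.span_singleton_prime hg.ne_zero).2 hg
    set 𝔮 : Ideal B := (Ideal.span {g}).comap (algebraMap B A) with h𝔮
    have h𝔮p : 𝔮.IsPrime := Ideal.comap_isPrime _ _
    have hmem : ∀ b : B, b ∈ 𝔮 ↔ g ∣ algebraMap B A b := by
      intro b
      rw [h𝔮, Ideal.mem_comap, Ideal.mem_span_singleton]
    have hle : 𝔮 ≤ 𝔪 := by
      intro b hb
      by_contra hb𝔪
      have h1 : IsUnit (algebraMap B A b) :=
        (IsLocalization.AtPrime.isUnit_to_map_iff A 𝔪 b).2 hb𝔪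
      exact hg.not_isUnit (isUnit_of_dvd_unit ((hmem b).1 hb) h1)
    have hne : 𝔮 ≠ 𝔪 := by
      intro heq
      have h1 : p.map (algebraMap B A) ≤ Ideal.span {g} := by
        rw [Ideal.map_le_iff_le_comap, ← h𝔮, heq]
        exact hp𝔪.le
      rw [hmap, Ideal.span_singleton_le_iff_mem, Ideal.mem_span_singleton] at h1
      obtain ⟨c, hc⟩ := h1
      have hcu : IsUnit c := (hprime.irreducible.isUnit_or_isUnit hc).resolve_left hg.not_isUnit
      have h2 : Ideal.span {g} = Ideal.span {aA} := by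
        rw [Ideal.span_singleton_eq_span_singleton]
        obtain ⟨cu, rfl⟩ := hcu
        exact ⟨cu, hc.symm⟩
      have h3 : 𝔮 = p := by
        rw [h𝔮, h2, ← hmap]
        exact IsLocalization.under_map_of_isPrime_disjoint 𝔪.primeCompl A hp hdisj
      exact hp𝔪.ne (h3.symm.trans heq)
    obtain ⟨h, hh, s', t', hs', ht', hst'⟩ := hval 𝔮 h𝔮p (lt_of_le_of_ne hle hne)
    exact ⟨h, algebraMap B A s', algebraMap B A t', hh, fun h' => hs' ((hmem s').2 h'),
      fun h' => ht' ((hmem t').2 h'), hst'⟩)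
  refine ⟨h, hh, ?_⟩
  have h1 : UnitAt B 𝔪 (((u : A) : F)) := isUnit_locSub_iff.1 u.isUnit
  rw [hu]
  exact h1

open RegAux in
/-- **[HROOT]**  `B / p` integrally closed and `O = B_p` ⟹ the image of `B` in the residue field of
`O` is closed under `m`-th roots (hypothesis `hroot` of `comp`). -/
theorem hroot_of_isIntegrallyClosed (B : Subring F) (O : ValuationSubring F)
    (hBO : B ≤ O.toSubring) (hIC : IsIntegrallyClosed (B ⧸ centre B O hBO))
    (hloc : ∀ x : F, O.valuation x = 1 → UnitAt B (centre B O hBO) x) {m : ℕ} (hm : m ≠ 0)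
    (y : F) (hy : y ∈ O) (hb : ∃ b : B, O.valuation (y ^ m - (b : F)) < 1) :
    ∃ b : B, O.valuation (y - (b : F)) < 1 := by
  obtain ⟨b, hb⟩ := hb
  have hy1 : O.valuation y ≤ 1 := (O.valuation_le_one_iff _).2 hy
  rcases lt_or_eq_of_le hy1 with hlt | heq
  · exact ⟨0, by simpa using hlt⟩
  obtain ⟨s, t, hs, ht, hst⟩ := hloc y heq
  set 𝔭 := centre B O hBO with h𝔭
  have hvt := valuation_eq_one_of_notMem hBO ht
  -- `s ^ m - b * t ^ m ∈ 𝔭`
  have h1 : s ^ m - b * t ^ m ∈ 𝔭 := by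
    rw [h𝔭, mem_centre]
    have : ((s ^ m - b * t ^ m : B) : F) = (y ^ m - (b : F)) * (t : F) ^ m := by
      push_cast
      rw [← hst]; ring
    rw [this, map_mul, map_pow, hvt, one_pow, mul_one]
    exact hb
  let D := B ⧸ 𝔭
  let K := FractionRing D
  have ht0 : algebraMap D K (Ideal.Quotient.mk 𝔭 t) ≠ 0 := by
    rw [Ne, map_eq_zero_iff _ (IsFractionRing.injective D K), Ideal.Quotient.eq_zero_iff_mem]
    exact ht
  have h2 : (algebraMap D K (Ideal.Quotient.mk 𝔭 s) / algebraMap D K (Ideal.Quotient.mk 𝔭 t)) ^ m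
      = algebraMap D K (Ideal.Quotient.mk 𝔭 b) := by
    rw [div_pow, div_eq_iff (pow_ne_zero _ ht0)]
    have h5 : Ideal.Quotient.mk 𝔭 (s ^ m) = Ideal.Quotient.mk 𝔭 (b * t ^ m) :=
      (Ideal.Quotient.eq).2 h1
    rw [map_pow, map_mul, map_pow] at h5
    have h6 := congrArg (algebraMap D K) h5
    rw [map_pow, map_mul, map_pow] at h6
    exact h6
  obtain ⟨c', hc'⟩ := IsIntegrallyClosed.exists_algebraMap_eq_of_isIntegral_pow (R := D) (K := K)
    (Nat.pos_of_ne_zero hm) (h2 ▸ isIntegral_algebraMap)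
  obtain ⟨c, rfl⟩ := Ideal.Quotient.mk_surjective c'
  refine ⟨c, ?_⟩
  have h3 : c * t - s ∈ 𝔭 := by
    rw [← Ideal.Quotient.eq, map_mul]
    apply IsFractionRing.injective D K
    rw [map_mul, hc', div_mul_cancel₀ _ ht0]
  rw [h𝔭, mem_centre] at h3
  have h4 : ((c * t - s : B) : F) = -((y - (c : F)) * (t : F)) := by
    push_cast
    rw [← hst]; ring
  rw [h4, Valuation.map_neg, map_mul, hvt, mul_one] at h3
  exact h3

end Fermat.Agent.S36
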