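import Fermat.Agent.S36.Abs.KrullDefs
import Fermat.Agent.S36.Abs.GaussSys
import Fermat.Agent.S36.Abs.Reg
import Fermat.Agent.S36.Alg.Krull

/-!
# S36 / abstract part : `[KRULL3]` and the algebra of a chart `intCl R t`
-/

set_option autoImplicit false
set_option linter.unusedSectionVars false
set_option linter.unusedVariables false

open Polynomial

namespace Fermat.Agent.S36

namespace KrullAux

section Reflect

variable {R : Type*} [CommRing R] {F : Type*} [Field F] [Algebra R F]

theorem aeval_inv_reflect {t : F} (ht : t ≠ 0) (N : ℕ) (p : R[X]) (hp : p.natDegree ≤ N) :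
    aeval t⁻¹ (reflect N p) = aeval t p * t⁻¹ ^ N := by
  let _ : Invertible t := invertibleOfNonzero ht
  have h := eval₂_reflect_mul_pow (algebraMap R F) t N p hp
  rw [invOf_eq_inv] at h
  rw [aeval_def, aeval_def, ← h, mul_assoc, ← mul_pow, mul_inv_cancel₀ ht, one_pow, mul_one]

theorem not_dvd_reflect {π : R} {N : ℕ} {p : R[X]} (hp : p.natDegree ≤ N) (h : ¬ (C π ∣ p)) :
    ¬ (C π ∣ reflect N p) := by
  intro h'
  apply h
  rw [C_dvd_iff_dvd_coeff] at h' ⊢
  intro i
  by_cases hi : i ≤ N
  · have := h' (revAt N i)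
    rwa [coeff_reflect, revAt_invol] at this
  · rw [coeff_eq_zero_of_natDegree_lt (by omega)]
    exact dvd_zero _

end Reflect

section Gauss

variable {R : Type*} [CommRing R] {F : Type*} [Field F] [Algebra R F] {π : R} {t : F}
  {V : ValuationSubring F}

theorem not_isUnit (h : IsGaussAt π t V) : ¬ IsUnit π := by
  rintro ⟨u, rfl⟩
  have h1 := h.lt_one
  have h2 : V.valuation (algebraMap R F ((u⁻¹ : Rˣ) : R)) ≤ 1 :=
    (V.valuation_le_one_iff _).2 (h.const _)
  have h3 : V.valuation (algebraMap R F (u : R)) * V.valuation (algebraMap R F ((u⁻¹ : Rˣ) : R))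
      = 1 := by
    rw [← map_mul, ← map_mul, Units.mul_inv, map_one, map_one]
  have h4 : V.valuation (algebraMap R F (u : R)) * V.valuation (algebraMap R F ((u⁻¹ : Rˣ) : R))
      < 1 := mul_lt_one_of_lt_of_le h1 h2
  exact absurd h3 h4.ne

theorem valuation_t (h : IsGaussAt π t V) : V.valuation t = 1 := by
  have := h.prim X (fun hd => not_isUnit h (by
    rw [C_dvd_iff_dvd_coeff] at hd
    have := hd 1
    rw [coeff_X_one] at this
    exact isUnit_of_dvd_one this))
  rwa [aeval_X] at this

theorem t_ne_zero (h : IsGaussAt π t V) : t ≠ 0 := by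
  intro h0
  have := valuation_t h
  rw [h0, map_zero] at this
  exact zero_ne_one this

theorem adjoin_le (h : IsGaussAt π t V) (x : F) (hx : x ∈ Algebra.adjoin R {t}) : x ∈ V := by
  induction hx using Algebra.adjoin_induction with
  | mem x hx =>
    rw [Set.mem_singleton_iff] at hx
    rw [hx, ← ValuationSubring.valuation_le_one_iff, valuation_t h]
  | algebraMap r => exact h.const r
  | add x y _ _ hx hy => exact V.add_mem _ _ hx hy
  | mul x y _ _ hx hy => exact V.mul_mem _ _ hx hy

end Gauss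

/-- scaling an integral element: if `a * w ^ d ∈ A'` for all `a ∈ A`, `d ≫ 0`, and `z` is integral
over `A`, then `w ^ d * z` is integral over `A'` for `d ≫ 0`. -/
theorem isIntegralElem_scale {A A' F : Type*} [CommRing A] [CommRing A'] [Field F]
    (f : A →+* F) (f' : A' →+* F) (w : F)
    (hw : ∀ a : A, ∃ D : ℕ, ∀ d, D ≤ d → f a * w ^ d ∈ f'.range) {z : F}
    (hz : f.IsIntegralElem z) :
    ∃ D : ℕ, ∀ d, D ≤ d → f'.IsIntegralElem (w ^ d * z) := by
  obtain ⟨P, hP, h0⟩ := hz
  choose Df hDf using hw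
  refine ⟨(Finset.range P.natDegree).sup (fun i => Df (P.coeff i)), fun d hd => ?_⟩
  have hdeg : (P.map f).natDegree = P.natDegree := hP.natDegree_map f
  have hmon : ((P.map f).scaleRoots (w ^ d)).Monic :=
    (monic_scaleRoots_iff _).2 (hP.map f)
  have hlift : (P.map f).scaleRoots (w ^ d) ∈ lifts f' := by
    rw [lifts_iff_coeff_lifts]
    intro i
    rw [coeff_scaleRoots, hdeg, coeff_map]
    rcases lt_trichotomy i P.natDegree with hi | hi | hi
    · rw [← pow_mul]
      apply hDf
      have h1 : Df (P.coeff i) ≤ d :=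
        le_trans (Finset.le_sup (f := fun i => Df (P.coeff i)) (Finset.mem_range.2 hi)) hd
      have h2 : 1 ≤ P.natDegree - i := by omega
      calc Df (P.coeff i) ≤ d * 1 := by omega
        _ ≤ d * (P.natDegree - i) := Nat.mul_le_mul_left d h2
    · rw [hi, hP.coeff_natDegree, map_one, Nat.sub_self, pow_zero, mul_one]
      exact ⟨1, map_one f'⟩
    · rw [coeff_eq_zero_of_natDegree_lt hi, map_zero, zero_mul]
      exact ⟨0, map_zero f'⟩
  obtain ⟨q, hq, -, hqm⟩ := lifts_and_natDegree_eq_and_monic hlift hmon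
  refine ⟨q, hqm, ?_⟩
  have h1 : eval₂ (RingHom.id F) z (P.map f) = 0 := by
    rw [eval₂_map, RingHom.id_comp]; exact h0
  have h2 := scaleRoots_eval₂_eq_zero (RingHom.id F) (s := w ^ d) h1
  rw [← hq, eval₂_map, RingHom.id_comp, RingHom.id_apply] at h2
  exact h2

theorem adjoin_mul_inv_pow {R : Type*} [CommRing R] {F : Type*} [Field F] [Algebra R F] {t : F}
    (ht : t ≠ 0) (a : Algebra.adjoin R {t}) :
    ∃ D : ℕ, ∀ d, D ≤ d → algebraMap (Algebra.adjoin R {t}) F a * t⁻¹ ^ d ∈
      (algebraMap (Algebra.adjoin R {t⁻¹}) F).range := by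
  obtain ⟨q, hq⟩ := Algebra.adjoin_mem_exists_aeval _ _ a.2
  refine ⟨q.natDegree, fun d hd => ?_⟩
  refine ⟨⟨aeval t⁻¹ (reflect d q), aeval_mem_adjoin_singleton R _⟩, ?_⟩
  change aeval t⁻¹ (reflect d q) = (a : F) * t⁻¹ ^ d
  rw [aeval_inv_reflect ht d q hd, hq]

section Frac

variable (R : Type*) [CommRing R] [IsDomain R]
  (K : Type*) [Field K] [Algebra R K] [IsFractionRing R K]
  {F : Type*} [Field F] [Algebra R F] [Algebra K F] [IsScalarTower R K F] (t : F)

theorem adjoin_le_E (x : F) (hx : x ∈ Algebra.adjoin R {t}) :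
    x ∈ IntermediateField.adjoin K {t} := by
  induction hx using Algebra.adjoin_induction with
  | mem x hx =>
    rw [Set.mem_singleton_iff] at hx
    rw [hx]
    exact IntermediateField.mem_adjoin_simple_self K t
  | algebraMap r =>
    rw [IsScalarTower.algebraMap_apply R K F]
    exact IntermediateField.algebraMap_mem _ _
  | add x y _ _ hx hy => exact add_mem hx hy
  | mul x y _ _ hx hy => exact mul_mem hx hy

/-- `R[t] → K(t)` -/
def toE : Algebra.adjoin R {t} →+* IntermediateField.adjoin K {t} where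
  toFun a := ⟨a.1, adjoin_le_E R K t a.1 a.2⟩
  map_one' := rfl
  map_mul' _ _ := rfl
  map_zero' := rfl
  map_add' _ _ := rfl

/-- `K(t)` as an algebra over `R[t]` -/
abbrev algE : Algebra (Algebra.adjoin R {t}) (IntermediateField.adjoin K {t}) :=
  (toE R K t).toAlgebra

theorem tower_E :
    let _ := algE R K t
    IsScalarTower (Algebra.adjoin R {t}) (IntermediateField.adjoin K {t}) F :=
  let _ := algE R K t
  IsScalarTower.of_algebraMap_eq (fun _ => rfl)

theorem isFractionRing_E :
    let _ := algE R K t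
    IsFractionRing (Algebra.adjoin R {t}) (IntermediateField.adjoin K {t}) := by
  let _ := algE R K t
  have : FaithfulSMul (Algebra.adjoin R {t}) (IntermediateField.adjoin K {t}) := by
    rw [faithfulSMul_iff_algebraMap_injective]
    intro a b hab
    exact Subtype.ext (congrArg (fun x : IntermediateField.adjoin K {t} => (x : F)) hab)
  refine IsFractionRing.of_field _ _ fun z => ?_
  obtain ⟨r, s, hz⟩ := (IntermediateField.mem_adjoin_simple_iff K z.1).1 z.2
  obtain ⟨b, hbM, hb⟩ := IsLocalization.integerNormalization_spec (nonZeroDivisors R) r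
  obtain ⟨c, hcM, hc⟩ := IsLocalization.integerNormalization_spec (nonZeroDivisors R) s
  set r' := IsLocalization.integerNormalization (nonZeroDivisors R) r
  set s' := IsLocalization.integerNormalization (nonZeroDivisors R) s
  have hb' : aeval t r' = algebraMap R F b * aeval t r := by
    rw [← aeval_map_algebraMap K, hb, ← algebraMap_smul K b r, map_smul, Algebra.smul_def,
      ← IsScalarTower.algebraMap_apply]
  have hc' : aeval t s' = algebraMap R F c * aeval t s := by
    rw [← aeval_map_algebraMap K, hc, ← algebraMap_smul K c s, map_smul, Algebra.smul_def,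
      ← IsScalarTower.algebraMap_apply]
  have hinj : Function.Injective (algebraMap R F) := by
    rw [IsScalarTower.algebraMap_eq R K F]
    exact (algebraMap K F).injective.comp (IsFractionRing.injective R K)
  have hb0 : algebraMap R F b ≠ 0 := by
    rw [Ne, map_eq_zero_iff _ hinj]; exact nonZeroDivisors.ne_zero hbM
  have hc0 : algebraMap R F c ≠ 0 := by
    rw [Ne, map_eq_zero_iff _ hinj]; exact nonZeroDivisors.ne_zero hcM
  refine ⟨algebraMap R _ c * ⟨aeval t r', aeval_mem_adjoin_singleton R _⟩,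
    algebraMap R _ b * ⟨aeval t s', aeval_mem_adjoin_singleton R _⟩, Subtype.ext ?_⟩
  change (z : F) = (algebraMap R F c * aeval t r') / (algebraMap R F b * aeval t s')
  rw [hz, hb', hc']
  by_cases hs0 : aeval t s = 0
  · simp [hs0]
  · field_simp

end Frac

section Trans

variable {R : Type*} [CommRing R] [IsDomain R] [IsDiscreteValuationRing R]
  {F : Type*} [Field F] [Algebra R F] {π : R} {t : F} {V : ValuationSubring F}

theorem transcendental (hinj : Function.Injective (algebraMap R F)) (hπ : Irreducible π)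
    (h : IsGaussAt π t V) : Transcendental R t := by
  rw [transcendental_iff]
  intro p hp
  by_contra hp0
  have hπ' : Irreducible (C π) := (prime_C_iff.2 hπ.prime).irreducible
  obtain ⟨n, a, ha, rfl⟩ := WfDvdMonoid.max_power_factor hp0 hπ'
  have h1 := h.prim a ha
  rw [map_mul, map_pow, aeval_C] at hp
  have h2 : algebraMap R F π ≠ 0 := by
    rw [Ne, map_eq_zero_iff _ hinj]; exact hπ.ne_zero
  rcases mul_eq_zero.1 hp with h3 | h3
  · exact pow_ne_zero n h2 h3
  · rw [h3, map_zero] at h1
    exact zero_ne_one h1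

theorem isIntegrallyClosed_adjoin (ht : Transcendental R t) :
    IsIntegrallyClosed (Algebra.adjoin R {t}) :=
  IsIntegrallyClosed.of_equiv (algEquivOfTranscendental R t ht).toRingEquiv

theorem isNoetherianRing_adjoin (ht : Transcendental R t) :
    IsNoetherianRing (Algebra.adjoin R {t}) :=
  isNoetherianRing_of_ringEquiv _ (algEquivOfTranscendental R t ht).toRingEquiv

theorem prime_adjoin (ht : Transcendental R t) (hπ : Irreducible π) :
    Prime (algebraMap R (Algebra.adjoin R {t}) π) := by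
  have h1 : Prime (C π) := prime_C_iff.2 hπ.prime
  have h2 := (MulEquiv.prime_iff (algEquivOfTranscendental R t ht).toMulEquiv).2 h1
  have h3 : (algEquivOfTranscendental R t ht) (C π) = algebraMap R (Algebra.adjoin R {t}) π :=
    (algEquivOfTranscendental R t ht).commutes π
  rw [← h3]
  exact h2

theorem not_dvd_adjoin (ht : Transcendental R t) {s : R[X]} (hs : ¬ (C π ∣ s)) :
    ¬ (algebraMap R (Algebra.adjoin R {t}) π ∣
      (⟨aeval t s, aeval_mem_adjoin_singleton R t⟩ : Algebra.adjoin R {t})) := by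
  intro h
  apply hs
  have h3 : (algEquivOfTranscendental R t ht) (C π) = algebraMap R (Algebra.adjoin R {t}) π :=
    (algEquivOfTranscendental R t ht).commutes π
  have h4 : (algEquivOfTranscendental R t ht) s =
      (⟨aeval t s, aeval_mem_adjoin_singleton R t⟩ : Algebra.adjoin R {t}) := by
    apply Subtype.ext
    simp [algEquivOfTranscendental]
  rw [← h3, ← h4] at h
  exact (map_dvd_iff (algEquivOfTranscendental R t ht)).1 h

end Trans

/-- the localisation of a Dedekind domain at a non-zero prime, as a valuation subring of the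
fraction field. -/
theorem exists_valuationSubring_of_dedekind (C : Type*) [CommRing C] [IsDedekindDomain C]
    (F : Type*) [Field F] [Algebra C F] [IsFractionRing C F] (𝔔 : Ideal C) [h𝔔 : 𝔔.IsPrime]
    (h0 : 𝔔 ≠ ⊥) :
    ∃ W : ValuationSubring F, ∀ x : F, x ∈ W ↔
      ∃ a s : C, s ∉ 𝔔 ∧ x = algebraMap C F a * (algebraMap C F s)⁻¹ := by
  have hS : 𝔔.primeCompl ≤ nonZeroDivisors C := Ideal.primeCompl_le_nonZeroDivisors 𝔔
  let W₀ := Localization.subalgebra.ofField F 𝔔.primeCompl hS
  have : IsLocalization.AtPrime W₀ 𝔔 := Localization.subalgebra.isLocalization_ofField F _ hS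
  have : IsDiscreteValuationRing W₀ :=
    IsLocalization.AtPrime.isDiscreteValuationRing_of_dedekind_domain C h0 W₀
  have hmem : ∀ x : F, x ∈ W₀ ↔
      ∃ a s : C, s ∉ 𝔔 ∧ x = algebraMap C F a * (algebraMap C F s)⁻¹ := by
    intro x
    constructor
    · rintro ⟨a, s, hs, h⟩
      exact ⟨a, s, hs, h⟩
    · rintro ⟨a, s, hs, h⟩
      exact ⟨a, s, hs, h⟩
  refine ⟨{ W₀.toSubring with
    mem_or_inv_mem' := fun x => ?_ }, hmem⟩
  rcases ValuationRing.isInteger_or_isInteger W₀ x with ⟨w, hw⟩ | ⟨w, hw⟩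
  · left
    rw [← hw]
    exact w.2
  · right
    rw [← hw]
    exact w.2

/-- abstract form of **[HORIZ-ABS]**: `C = B[1/π]` a Dedekind domain. -/
theorem horiz_abstract {B C F : Type*} [CommRing B] [CommRing C] [IsDedekindDomain C] [Field F]
    (iB : B →+* F) (hinj : Function.Injective iB) [Algebra C F] [IsFractionRing C F]
    (j : B →+* C) (hj : ∀ b, algebraMap C F (j b) = iB b)
    (πB : B) (hunit : IsUnit (j πB)) (hCB : ∀ c : C, ∃ (n : ℕ) (b : B), j b = j πB ^ n * c)
    (𝔮 : Ideal B) (h𝔮 : 𝔮.IsPrime) (hπ𝔮 : πB ∉ 𝔮) (hq0 : 𝔮 ≠ ⊥) :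
    ∃ W : ValuationSubring F, (∀ c : C, algebraMap C F c ∈ W) ∧
      ∀ x : F, W.valuation x = 1 → ∃ s u : B, s ∉ 𝔮 ∧ u ∉ 𝔮 ∧ x * iB u = iB s := by
  have hjinj : Function.Injective j := by
    intro x y hxy
    apply hinj
    rw [← hj, ← hj, hxy]
  have hCinj : Function.Injective (algebraMap C F) := IsFractionRing.injective C F
  let _ : Algebra B C := j.toAlgebra
  have hloc : IsLocalization (Submonoid.powers πB) C := by
    rw [isLocalization_iff]
    refine ⟨?_, ?_, ?_⟩
    · rintro ⟨_, n, rfl⟩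
      change IsUnit (j (πB ^ n))
      rw [map_pow]
      exact hunit.pow n
    · intro z
      obtain ⟨n, b, hb⟩ := hCB z
      refine ⟨(b, ⟨πB ^ n, n, rfl⟩), ?_⟩
      change z * j (πB ^ n) = j b
      rw [hb, map_pow, mul_comm]
    · intro x y hxy
      exact ⟨1, by rw [hjinj hxy]⟩
  have h𝔔 : (𝔮.map j).IsPrime :=
    IsLocalization.isPrime_of_isPrime_disjoint (Submonoid.powers πB) _ 𝔮 h𝔮
      ((Ideal.disjoint_powers_iff_notMem_of_isPrime _).2 hπ𝔮)
  have h𝔔0 : 𝔮.map j ≠ ⊥ := by
    intro h0
    apply hq0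
    rw [eq_bot_iff]
    intro b hb
    have h1 : j b ∈ 𝔮.map j := Ideal.mem_map_of_mem j hb
    rw [h0, Ideal.mem_bot] at h1
    rw [Ideal.mem_bot]
    exact hjinj (by rw [h1, map_zero])
  obtain ⟨W, hW⟩ := exists_valuationSubring_of_dedekind C F (𝔮.map j) h𝔔0
  have key : ∀ a : C, a ∉ 𝔮.map j → ∀ (n : ℕ) (b : B), j b = j πB ^ n * a → b ∉ 𝔮 := by
    intro a ha n b h hmem
    apply ha
    have h1 : j b ∈ 𝔮.map j := Ideal.mem_map_of_mem j hmem
    rw [h] at h1
    exact (Ideal.unit_mul_mem_iff_mem _ (hunit.pow n)).1 h1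
  refine ⟨W, fun c => ?_, fun x hx => ?_⟩
  · rw [hW]
    exact ⟨c, 1, (Ideal.ne_top_iff_one _).1 h𝔔.ne_top, by rw [map_one, inv_one, mul_one]⟩
  · have hx1 : x ∈ W := (W.valuation_le_one_iff x).1 hx.le
    have hx2 : x⁻¹ ∈ W := (W.valuation_le_one_iff x⁻¹).1 (by rw [map_inv₀, hx, inv_one])
    have hx0 : x ≠ 0 := by
      rintro rfl
      rw [map_zero] at hx
      exact zero_ne_one hx
    obtain ⟨a, s, hs, h1⟩ := (hW x).1 hx1
    obtain ⟨a', s', hs', h2⟩ := (hW x⁻¹).1 hx2
    have hs0 : algebraMap C F s ≠ 0 := by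
      rw [Ne, map_eq_zero_iff _ hCinj]
      rintro rfl
      exact hs (Ideal.zero_mem _)
    have hs0' : algebraMap C F s' ≠ 0 := by
      rw [Ne, map_eq_zero_iff _ hCinj]
      rintro rfl
      exact hs' (Ideal.zero_mem _)
    have ha : a ∉ 𝔮.map j := by
      intro ha
      have h3 : a * a' = s * s' := by
        apply hCinj
        rw [map_mul, map_mul]
        have h4 : x * x⁻¹ = 1 := mul_inv_cancel₀ hx0
        rw [h2, h1] at h4
        field_simp at h4
        exact h4
      have h5 : s * s' ∈ 𝔮.map j := h3 ▸ Ideal.mul_mem_right _ _ ha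
      rcases h𝔔.mem_or_mem h5 with h6 | h6
      · exact hs h6
      · exact hs' h6
    obtain ⟨n, b, hb⟩ := hCB a
    obtain ⟨m, c, hc⟩ := hCB s
    have hb' : j (πB ^ m * b) = j πB ^ (n + m) * a := by
      rw [map_mul, hb, map_pow, pow_add]; ring
    have hc' : j (πB ^ n * c) = j πB ^ (n + m) * s := by
      rw [map_mul, hc, map_pow, pow_add]; ring
    refine ⟨πB ^ m * b, πB ^ n * c, key a ha _ _ hb', key s hs _ _ hc', ?_⟩
    rw [← hj, ← hj, hb', hc', map_mul, map_mul, h1]
    field_simp

/-- variant of `horiz_abstract` with all the hypotheses inside `F`. -/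
theorem horiz_abstract' {B C F : Type*} [CommRing B] [CommRing C] [IsDedekindDomain C] [Field F]
    (iB : B →+* F) (hinj : Function.Injective iB) [Algebra C F] [IsFractionRing C F]
    (hBC : ∀ b : B, ∃ c : C, algebraMap C F c = iB b)
    (πB : B) (hunit : ∃ c : C, iB πB * algebraMap C F c = 1)
    (hCB : ∀ c : C, ∃ (n : ℕ) (b : B), iB b = iB πB ^ n * algebraMap C F c)
    (𝔮 : Ideal B) (h𝔮 : 𝔮.IsPrime) (hπ𝔮 : πB ∉ 𝔮) (hq0 : 𝔮 ≠ ⊥) :
    ∃ W : ValuationSubring F, (∀ c : C, algebraMap C F c ∈ W) ∧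
      ∀ x : F, W.valuation x = 1 → ∃ s u : B, s ∉ 𝔮 ∧ u ∉ 𝔮 ∧ x * iB u = iB s := by
  have hCinj : Function.Injective (algebraMap C F) := IsFractionRing.injective C F
  choose jf hjf using hBC
  let j : B →+* C :=
    { toFun := jf
      map_one' := hCinj (by rw [hjf, map_one, map_one])
      map_mul' := fun x y => hCinj (by rw [hjf, map_mul, map_mul, hjf, hjf])
      map_zero' := hCinj (by rw [hjf, map_zero, map_zero])
      map_add' := fun x y => hCinj (by rw [hjf, map_add, map_add, hjf, hjf]) }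
  have hj : ∀ b, algebraMap C F (j b) = iB b := hjf
  refine horiz_abstract iB hinj j hj πB ?_ ?_ 𝔮 h𝔮 hπ𝔮 hq0
  · obtain ⟨c, hc⟩ := hunit
    exact IsUnit.of_mul_eq_one c (hCinj (by rw [map_mul, hj, hc, map_one]))
  · intro c
    obtain ⟨n, b, hb⟩ := hCB c
    exact ⟨n, b, hCinj (by rw [hj, hb, map_mul, map_pow, hj])⟩

section Horiz

variable {R : Type*} [CommRing R] [IsDomain R] [IsDiscreteValuationRing R]
  {K : Type*} [Field K] [Algebra R K] [IsFractionRing R K]
  {F : Type*} [Field F] [Algebra R F] [Algebra K F] [IsScalarTower R K F]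
  {π : R} {t : F}

theorem adjoinK_mul_pow (hπ : Irreducible π) (a : Algebra.adjoin K {t}) :
    ∃ D : ℕ, ∀ d, D ≤ d → algebraMap (Algebra.adjoin K {t}) F a * algebraMap R F π ^ d ∈
      (algebraMap (Algebra.adjoin R {t}) F).range := by
  obtain ⟨r, hr⟩ := Algebra.adjoin_mem_exists_aeval _ _ a.2
  obtain ⟨b, hbM, hb⟩ := IsLocalization.integerNormalization_spec (nonZeroDivisors R) r
  set r' := IsLocalization.integerNormalization (nonZeroDivisors R) r
  have hb' : aeval t r' = algebraMap R F b * aeval t r := by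
    rw [← aeval_map_algebraMap K, hb, ← algebraMap_smul K b r, map_smul, Algebra.smul_def,
      ← IsScalarTower.algebraMap_apply]
  obtain ⟨D, u, hu⟩ := IsDiscreteValuationRing.associated_pow_irreducible
    (nonZeroDivisors.ne_zero hbM) hπ
  refine ⟨D, fun d hd => ?_⟩
  refine ⟨algebraMap R _ (π ^ (d - D) * u) * ⟨aeval t r', aeval_mem_adjoin_singleton R _⟩, ?_⟩
  change algebraMap R F (π ^ (d - D) * u) * aeval t r' = (a : F) * algebraMap R F π ^ d
  rw [hb', ← hr, ← mul_assoc, ← map_mul, mul_assoc, mul_comm (u : R), hu, ← pow_add,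
    Nat.sub_add_cancel hd, map_pow, mul_comm]

theorem adjoinR_mul_one (a : Algebra.adjoin R {t}) :
    ∃ D : ℕ, ∀ d, D ≤ d → algebraMap (Algebra.adjoin R {t}) F a * 1 ^ d ∈
      (algebraMap (Algebra.adjoin K {t}) F).range := by
  refine ⟨0, fun d _ => ?_⟩
  rw [one_pow, mul_one]
  obtain ⟨r, hr⟩ := Algebra.adjoin_mem_exists_aeval _ _ a.2
  refine ⟨⟨aeval t (r.map (algebraMap R K)), aeval_mem_adjoin_singleton K _⟩, ?_⟩
  change aeval t (r.map (algebraMap R K)) = (a : F)
  rw [aeval_map_algebraMap, hr]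

theorem isPrincipalIdealRing_adjoinK : IsPrincipalIdealRing (Algebra.adjoin K {t}) := by
  refine IsPrincipalIdealRing.of_surjective
    (aeval (R := K) (⟨t, Algebra.self_mem_adjoin_singleton K t⟩ : Algebra.adjoin K {t})).toRingHom ?_
  rintro ⟨a, ha⟩
  obtain ⟨r, rfl⟩ := Algebra.adjoin_mem_exists_aeval _ _ ha
  exact ⟨r, by ext; simp⟩

end Horiz

end KrullAux

open KrullAux

section

variable {R : Type*} [CommRing R] [IsDomain R] [IsDiscreteValuationRing R]
  {K : Type*} [Field K] [Algebra R K] [IsFractionRing R K]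
  {F : Type*} [Field F] [CharZero F] [Algebra R F] [Algebra K F] [IsScalarTower R K F]
  {π : R} {t : F} {ι : Type*} [Fintype ι] {O : ι → ValuationSubring F} {e f : ι → ℕ}

/-- `IsGaussAt` is symmetric in `t ↔ t⁻¹` (reverse the polynomial). -/
theorem IsGaussAt.inv (hπ : Irreducible π) {V : ValuationSubring F} (h : IsGaussAt π t V) :
    IsGaussAt π t⁻¹ V := by
  refine ⟨h.const, h.lt_one, fun p hp => ?_⟩
  have ht := t_ne_zero h
  have h1 := aeval_inv_reflect (R := R) (inv_ne_zero ht) p.natDegree p le_rfl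
  rw [inv_inv] at h1
  have h2 := h.prim _ (not_dvd_reflect le_rfl hp)
  rw [h1, map_mul, map_pow, valuation_t h, one_pow, mul_one] at h2
  exact h2

/-- **[SEMI-SYMM]**  `z` integral over `R[t]` ⟹ `z / t ^ d` integral over `R[t⁻¹]` for `d ≫ 0`. -/
theorem Semi.inv (hπ : Irreducible π) (hG : ∀ i, IsGaussAt π t (O i)) (h : Semi π t O) :
    Semi π t⁻¹ O := by
  by_cases ht : t = 0
  · rw [ht, inv_zero]; rw [ht] at h; exact h
  intro y hy
  obtain ⟨s, hs, hz⟩ := h y hy
  rw [mem_intCl] at hz
  obtain ⟨D, hD⟩ := isIntegralElem_scale (algebraMap (Algebra.adjoin R {t}) F)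
    (algebraMap (Algebra.adjoin R {t⁻¹}) F) t⁻¹ (adjoin_mul_inv_pow ht) hz
  refine ⟨reflect (max D s.natDegree) s, not_dvd_reflect (le_max_right _ _) hs, ?_⟩
  rw [mem_intCl, aeval_inv_reflect ht _ s (le_max_right _ _)]
  have := hD (max D s.natDegree) (le_max_left _ _)
  rw [← mul_assoc, mul_comm (t⁻¹ ^ _)] at this
  exact this

/-- `intCl R t ⊆ O` for a valuation ring containing `R[t]`. -/
theorem intCl_le {V : ValuationSubring F} (h : IsGaussAt π t V) : intCl R t ≤ V.toSubring := by
  intro x hx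
  rw [mem_intCl] at hx
  obtain ⟨P, hP, h0⟩ := hx
  let j : Algebra.adjoin R {t} →+* V :=
    { toFun := fun a => ⟨a.1, adjoin_le h a.1 a.2⟩
      map_one' := rfl
      map_mul' := fun _ _ => rfl
      map_zero' := rfl
      map_add' := fun _ _ => rfl }
  have hint : IsIntegral V x := by
    refine ⟨P.map j, hP.map j, ?_⟩
    rw [eval₂_map]
    exact h0
  obtain ⟨y, rfl⟩ := IsIntegrallyClosed.isIntegral_iff.1 hint
  exact y.2

include K in
theorem KrullAux.algebraMap_injective : Function.Injective (algebraMap R F) := by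
  rw [IsScalarTower.algebraMap_eq R K F]
  exact (algebraMap K F).injective.comp (IsFractionRing.injective R K)

include K in
/-- **[KRULL3]**  `B = B[1/π] ∩ ⋂ O i`.   (`K` is an implicit argument: `krull3_intCl (K := K)`;
without `K` the map `R → F` need not be injective and the statement is false.)

Proof.  `E := K(t)`.  `y` is integral over `R[t][1/π] = K[t]` and over `R[t]_(π)`, both integrally
closed in `E`, so the coefficients of `minpoly E y` lie in `K[t] ∩ R[t]_(π) = R[t]`
(`minpoly.isIntegrallyClosed_eq_field_fractions`; `t` is transcendental over `K` by `IsGaussAt`). -/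
theorem krull3_intCl [Nonempty ι] (hπ : Irreducible π) (hG : ∀ i, IsGaussAt π t (O i))
    (hS : Semi π t O) {y : F} (hy : ∀ i, y ∈ O i) (n : ℕ)
    (hn : algebraMap R F π ^ n * y ∈ intCl R t) : y ∈ intCl R t := by
  obtain ⟨i⟩ := ‹Nonempty ι›
  have ht : Transcendental R t :=
    transcendental (KrullAux.algebraMap_injective (K := K)) hπ (hG i)
  obtain ⟨s, hs, hsy⟩ := hS y hy
  rw [mem_intCl] at hn hsy ⊢
  let _ := algE R K t
  have := tower_E R K t
  have := isFractionRing_E R K t
  have := isIntegrallyClosed_adjoin ht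
  refine krull3 (IntermediateField.adjoin K {t}) _ _ (prime_adjoin ht hπ) (not_dvd_adjoin ht hs)
    y n ?_ hsy
  rw [map_pow]
  exact hn

/-- **[CHART-ALG]** the chart is noetherian -/
theorem isNoetherianRing_intCl {V : ValuationSubring F} (hπ : Irreducible π)
    (hG : IsGaussAt π t V) (hfin : FiniteDimensional (IntermediateField.adjoin K {t}) F) :
    IsNoetherianRing (intCl R t) := by
  have ht : Transcendental R t :=
    transcendental (KrullAux.algebraMap_injective (K := K)) hπ hG
  let _ := algE R K t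
  have := tower_E R K t
  have := isFractionRing_E R K t
  have := isIntegrallyClosed_adjoin ht
  have := isNoetherianRing_adjoin ht
  have : CharZero (IntermediateField.adjoin K {t}) := inferInstance
  have h := IsIntegralClosure.isNoetherianRing (Algebra.adjoin R {t})
    (IntermediateField.adjoin K {t}) F (integralClosure (Algebra.adjoin R {t}) F)
  exact h

/-- **[CHART-ALG]** `F = Frac B` -/
theorem exists_frac_intCl (hfin : FiniteDimensional (IntermediateField.adjoin K {t}) F) (x : F) :
    ∃ s u : intCl R t, u ≠ 0 ∧ x * (u : F) = (s : F) := by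
  let _ := algE R K t
  have := tower_E R K t
  have := isFractionRing_E R K t
  have h1 : IsAlgebraic (IntermediateField.adjoin K {t}) x := Algebra.IsAlgebraic.isAlgebraic x
  have h2 : IsAlgebraic (Algebra.adjoin R {t}) x :=
    (IsFractionRing.isAlgebraic_iff (Algebra.adjoin R {t}) (IntermediateField.adjoin K {t}) F).2 h1
  obtain ⟨a, ha, hint⟩ := h2.exists_integral_multiple
  refine ⟨⟨a • x, hint⟩, ⟨(a : F), isIntegral_algebraMap (x := a)⟩, ?_, ?_⟩
  · intro h
    apply ha
    exact Subtype.ext (congrArg (fun z : intCl R t => (z : F)) h)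
  · change x * (a : F) = a • x
    rw [Algebra.smul_def, mul_comm]
    rfl

/-- **[CHART-ALG]** the chart is integrally closed, in particular root closed -/
theorem rootClosed_intCl (R : Type*) [CommRing R] {F : Type*} [Field F] [Algebra R F] (t : F)
    {m : ℕ} (hm : m ≠ 0) : RootClosed (intCl R t) m := by
  intro y hy
  rw [mem_intCl] at hy ⊢
  exact hy.of_pow (Nat.pos_of_ne_zero hm)

open scoped IntermediateField.algebraAdjoinAdjoin in
/-- **[HORIZ-ABS]**  localisations of the chart at primes not containing `π` are valuation rings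
containing `K` (`B[1/π]` = integral closure of `K[t]` is a Dedekind domain). -/
theorem exists_valuationSubring_of_notMem {V : ValuationSubring F} (hπ : Irreducible π)
    (hG : IsGaussAt π t V) (hfin : FiniteDimensional (IntermediateField.adjoin K {t}) F)
    (𝔮 : Ideal (intCl R t)) (h𝔮 : 𝔮.IsPrime) (πB : intCl R t) (hπB : (πB : F) = algebraMap R F π)
    (hπ𝔮 : πB ∉ 𝔮) :
    ∃ W : ValuationSubring F, (∀ c : K, algebraMap K F c ∈ W) ∧
      ∀ x : F, W.valuation x = 1 → UnitAt (intCl R t) 𝔮 x := by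
  classical
  by_cases hq0 : 𝔮 = ⊥
  · refine ⟨⊤, fun c => ValuationSubring.mem_top _, fun x hx => ?_⟩
    have hx0 : x ≠ 0 := by
      rintro rfl
      rw [map_zero] at hx
      exact zero_ne_one hx
    obtain ⟨s, u, hu, h⟩ := exists_frac_intCl (R := R) (K := K) hfin x
    refine ⟨s, u, ?_, ?_, h⟩
    · rw [hq0, Ideal.mem_bot]
      rintro rfl
      have hu' : (u : F) ≠ 0 := fun h0 => hu (Subtype.ext h0)
      exact mul_ne_zero hx0 hu' h
    · rw [hq0, Ideal.mem_bot]; exact hu
  have := isPrincipalIdealRing_adjoinK (K := K) (t := t)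
  have : CharZero (IntermediateField.adjoin K {t}) := inferInstance
  have hC : IsDedekindDomain (integralClosure (Algebra.adjoin K {t}) F) :=
    integralClosure.isDedekindDomain (Algebra.adjoin K {t}) (IntermediateField.adjoin K {t}) F
  have hCF : IsFractionRing (integralClosure (Algebra.adjoin K {t}) F) F :=
    integralClosure.isFractionRing_of_finite_extension (IntermediateField.adjoin K {t}) F
  have hBC : ∀ b : F, b ∈ intCl R t → b ∈ integralClosure (Algebra.adjoin K {t}) F := by
    intro b hb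
    obtain ⟨D, hD⟩ := isIntegralElem_scale (algebraMap (Algebra.adjoin R {t}) F)
      (algebraMap (Algebra.adjoin K {t}) F) 1 adjoinR_mul_one hb
    have := hD D le_rfl
    rwa [one_pow, one_mul] at this
  have hCB : ∀ c : F, c ∈ integralClosure (Algebra.adjoin K {t}) F →
      ∃ n : ℕ, algebraMap R F π ^ n * c ∈ intCl R t := by
    intro c hc
    obtain ⟨D, hD⟩ := isIntegralElem_scale (algebraMap (Algebra.adjoin K {t}) F)
      (algebraMap (Algebra.adjoin R {t}) F) (algebraMap R F π) (adjoinK_mul_pow hπ) hc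
    exact ⟨D, hD D le_rfl⟩
  have hKC : ∀ c : K, algebraMap K F c ∈ integralClosure (Algebra.adjoin K {t}) F := fun c =>
    isIntegral_algebraMap (R := Algebra.adjoin K {t}) (x := algebraMap K (Algebra.adjoin K {t}) c)
  have hπ0 : algebraMap R F π ≠ 0 := by
    rw [Ne, map_eq_zero_iff _ (KrullAux.algebraMap_injective (K := K))]; exact hπ.ne_zero
  obtain ⟨W, hW1, hW2⟩ := horiz_abstract' (C := integralClosure (Algebra.adjoin K {t}) F)
    (intCl R t).subtype Subtype.val_injective (fun b => ⟨⟨b.1, hBC b.1 b.2⟩, rfl⟩) πB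
    ⟨⟨algebraMap K F (algebraMap R K π)⁻¹, hKC _⟩, by
      have : algebraMap (integralClosure (Algebra.adjoin K {t}) F) F
        ⟨algebraMap K F (algebraMap R K π)⁻¹, hKC _⟩ = algebraMap K F (algebraMap R K π)⁻¹ := rfl
      rw [this, Subring.subtype_apply, hπB, map_inv₀, ← IsScalarTower.algebraMap_apply,
        mul_inv_cancel₀ hπ0]⟩
    (fun c => by
      obtain ⟨n, hn⟩ := hCB c.1 c.2
      refine ⟨n, ⟨_, hn⟩, ?_⟩
      rw [Subring.subtype_apply, Subring.subtype_apply, hπB]
      rfl) 𝔮 h𝔮 hπ𝔮 hq0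
  exact ⟨W, fun c => hW1 ⟨_, hKC c⟩, hW2⟩

end

end Fermat.Agent.S36
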