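import Fermat.Agent.S36.Abs.Comp
import Fermat.Agent.S36.Abs.ExtDefs

/-!
# S36 / abstract part : `[KRULL3]` an affine chart of a normal arithmetic surface

`R` a DVR with uniformizer `π`, fraction field `K`; `F / K(t)` finite, `char 0`;
`intCl R t` = integral closure of `R[t]` in `F`.  `O i` = the valuation rings of the components of the
special fibre = all the extensions to `F` of the Gauss valuation of `K(t)`.
-/

set_option autoImplicit false

open Polynomial

namespace Fermat.Agent.S36

/-- the integral closure of `R[t]` in `F`, as a subring -/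
def intCl (R : Type*) [CommRing R] {F : Type*} [Field F] [Algebra R F] (t : F) : Subring F :=
  (integralClosure (Algebra.adjoin R {t}) F).toSubring

theorem mem_intCl {R : Type*} [CommRing R] {F : Type*} [Field F] [Algebra R F] {t x : F} :
    x ∈ intCl R t ↔ IsIntegral (Algebra.adjoin R {t}) x := Iff.rfl

/-- `O` induces the Gauss valuation on `K(t)`. -/
structure IsGaussAt {R : Type*} [CommRing R] {F : Type*} [Field F] [Algebra R F] (π : R) (t : F)
    (O : ValuationSubring F) : Prop where
  const : ∀ r : R, algebraMap R F r ∈ O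
  lt_one : O.valuation (algebraMap R F π) < 1
  prim : ∀ p : R[X], ¬ (C π ∣ p) → O.valuation (aeval t p) = 1

/-- **(SEMI)** `⋂ O i` is integral over the localisation `R[t]_(π)`. -/
def Semi {R : Type*} [CommRing R] {F : Type*} [Field F] [Algebra R F] (π : R) (t : F)
    {ι : Type*} (O : ι → ValuationSubring F) : Prop :=
  ∀ y : F, (∀ i, y ∈ O i) → ∃ s : R[X], ¬ (C π ∣ s) ∧ aeval t s * y ∈ intCl R t

/-- the numerical input: lower bounds `e i`, `f i` with `[F : K(t)] ≤ ∑ e i * f i`. -/
structure GaussSys {R : Type*} [CommRing R] (K : Type*) [Field K] [Algebra R K]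
    {F : Type*} [Field F] [Algebra R F] [Algebra K F] (π : R) (t : F)
    {ι : Type*} [Fintype ι] (O : ι → ValuationSubring F) (e f : ι → ℕ) : Prop where
  inj : Function.Injective O
  gauss : ∀ i, IsGaussAt π t (O i)
  ram : ∀ i, ∃ ϖ : F, (O i).valuation ϖ < 1 ∧
    (O i).valuation (algebraMap R F π) ≤ (O i).valuation ϖ ^ e i
  res : ∀ i, ∃ ω : Fin (f i) → F, (∀ k, ω k ∈ O i) ∧ ∀ c : Fin (f i) → R[X],
    (O i).valuation (∑ k, aeval t (c k) * ω k) < 1 → ∀ k, C π ∣ c k
  fin : FiniteDimensional (IntermediateField.adjoin K {t}) F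
  sum : Module.finrank (IntermediateField.adjoin K {t}) F ≤ ∑ i, e i * f i

end Fermat.Agent.S36
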