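import Mathlib

/-!
# S36 / abstract part : local language for a subring `B` of a field `F`

`B` is (the ring of functions of) an affine chart of a normal arithmetic surface, `F` its function
field.  Everything is elementwise: `MemAt B 𝔮 x` means `x ∈ B_𝔮`, `UnitAt B 𝔮 x` means `x ∈ B_𝔮ˣ`,
`ZeroAt B 𝔮 x` means `x ∈ 𝔮 B_𝔮`.  For `f : F`, `MM B m f = {u | u ^ m * f ∈ B}` is the
"line bundle `O(D)`" when `div f = m D`; `LD B m f` says that it is invertible.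
See board, topic S36, blueprint v0 (#848).
-/

set_option autoImplicit false

namespace Fermat.Agent.S36

variable {F : Type*} [Field F]

/-- `x ∈ B_𝔮` -/
def MemAt (B : Subring F) (𝔮 : Ideal B) (x : F) : Prop :=
  ∃ s t : B, t ∉ 𝔮 ∧ x * (t : F) = (s : F)

/-- `x ∈ B_𝔮ˣ` -/
def UnitAt (B : Subring F) (𝔮 : Ideal B) (x : F) : Prop :=
  ∃ s t : B, s ∉ 𝔮 ∧ t ∉ 𝔮 ∧ x * (t : F) = (s : F)

/-- `x ∈ 𝔮 B_𝔮` -/
def ZeroAt (B : Subring F) (𝔮 : Ideal B) (x : F) : Prop :=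
  ∃ s t : B, s ∈ 𝔮 ∧ t ∉ 𝔮 ∧ x * (t : F) = (s : F)

/-- `B` is closed under `m`-th roots in `F` (true if `B` is integrally closed in `F`). -/
def RootClosed (B : Subring F) (m : ℕ) : Prop := ∀ y : F, y ^ m ∈ B → y ∈ B

/-- `f` is locally (at every maximal ideal of `B`) a unit times an `m`-th power. -/
def LD (B : Subring F) (m : ℕ) (f : F) : Prop :=
  ∀ 𝔪 : Ideal B, 𝔪.IsMaximal → ∃ h : F, h ≠ 0 ∧ UnitAt B 𝔪 (h ^ m * f)

/-- the `B`-module `{u | u ^ m * f ∈ B}` (as a set). -/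
def MM (B : Subring F) (m : ℕ) (f : F) : Set F := {u | u ^ m * f ∈ B}

theorem mem_MM {B : Subring F} {m : ℕ} {f u : F} : u ∈ MM B m f ↔ u ^ m * f ∈ B := Iff.rfl

section Local

variable {B : Subring F} {𝔮 : Ideal B}

theorem UnitAt.memAt {x : F} (h : UnitAt B 𝔮 x) : MemAt B 𝔮 x := by
  obtain ⟨s, t, _, ht, h⟩ := h
  exact ⟨s, t, ht, h⟩

theorem ZeroAt.memAt {x : F} (h : ZeroAt B 𝔮 x) : MemAt B 𝔮 x := by
  obtain ⟨s, t, _, ht, h⟩ := h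
  exact ⟨s, t, ht, h⟩

theorem memAt_of_mem {x : F} (hx : x ∈ B) (h𝔮 : 𝔮 ≠ ⊤) : MemAt B 𝔮 x :=
  ⟨⟨x, hx⟩, 1, fun h => h𝔮 ((Ideal.eq_top_iff_one _).2 h), by simp⟩

theorem MemAt.add [𝔮.IsPrime] {x y : F} (hx : MemAt B 𝔮 x) (hy : MemAt B 𝔮 y) :
    MemAt B 𝔮 (x + y) := by
  obtain ⟨s, t, ht, h⟩ := hx
  obtain ⟨s', t', ht', h'⟩ := hy
  refine ⟨s * t' + s' * t, t * t', fun hc => ?_, ?_⟩
  · exact (Ideal.IsPrime.mem_or_mem ‹_› hc).elim ht ht'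
  · push_cast
    rw [← h, ← h']; ring

theorem MemAt.mul [𝔮.IsPrime] {x y : F} (hx : MemAt B 𝔮 x) (hy : MemAt B 𝔮 y) :
    MemAt B 𝔮 (x * y) := by
  obtain ⟨s, t, ht, h⟩ := hx
  obtain ⟨s', t', ht', h'⟩ := hy
  refine ⟨s * s', t * t', fun hc => ?_, ?_⟩
  · exact (Ideal.IsPrime.mem_or_mem ‹_› hc).elim ht ht'
  · push_cast
    rw [← h, ← h']; ring

theorem MemAt.neg {x : F} (hx : MemAt B 𝔮 x) : MemAt B 𝔮 (-x) := by
  obtain ⟨s, t, ht, h⟩ := hx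
  refine ⟨-s, t, ht, ?_⟩
  push_cast
  rw [← h]; ring

theorem MemAt.pow [𝔮.IsPrime] {x : F} (hx : MemAt B 𝔮 x) (n : ℕ) : MemAt B 𝔮 (x ^ n) := by
  induction n with
  | zero =>
    rw [pow_zero]
    exact memAt_of_mem B.one_mem (Ideal.IsPrime.ne_top ‹_›)
  | succ n ih =>
    rw [pow_succ]
    exact ih.mul hx

theorem UnitAt.mul [𝔮.IsPrime] {x y : F} (hx : UnitAt B 𝔮 x) (hy : UnitAt B 𝔮 y) :
    UnitAt B 𝔮 (x * y) := by
  obtain ⟨s, t, hs, ht, h⟩ := hx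
  obtain ⟨s', t', hs', ht', h'⟩ := hy
  refine ⟨s * s', t * t', fun hc => ?_, fun hc => ?_, ?_⟩
  · exact (Ideal.IsPrime.mem_or_mem ‹_› hc).elim hs hs'
  · exact (Ideal.IsPrime.mem_or_mem ‹_› hc).elim ht ht'
  · push_cast
    rw [← h, ← h']; ring

theorem UnitAt.inv {x : F} (hx : UnitAt B 𝔮 x) : UnitAt B 𝔮 x⁻¹ := by
  obtain ⟨s, t, hs, ht, h⟩ := hx
  have hx0 : x ≠ 0 := by
    rintro rfl
    rw [zero_mul] at h
    have : s = 0 := Subtype.ext h.symm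
    exact hs (this ▸ 𝔮.zero_mem)
  refine ⟨t, s, ht, hs, ?_⟩
  rw [← h, inv_mul_cancel_left₀ hx0]

theorem UnitAt.pow [𝔮.IsPrime] {x : F} (hx : UnitAt B 𝔮 x) (n : ℕ) : UnitAt B 𝔮 (x ^ n) := by
  have h1 : (1 : B) ∉ 𝔮 := fun h => Ideal.IsPrime.ne_top ‹_› ((Ideal.eq_top_iff_one _).2 h)
  induction n with
  | zero =>
    rw [pow_zero]
    exact ⟨1, 1, h1, h1, by simp⟩
  | succ n ih =>
    rw [pow_succ]
    exact ih.mul hx

theorem UnitAt.ne_zero [𝔮.IsPrime] {x : F} (hx : UnitAt B 𝔮 x) : x ≠ 0 := by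
  obtain ⟨s, t, hs, ht, h⟩ := hx
  rintro rfl
  rw [zero_mul] at h
  have : s = 0 := Subtype.ext h.symm
  exact hs (this ▸ 𝔮.zero_mem)

theorem ZeroAt.add [𝔮.IsPrime] {x y : F} (hx : ZeroAt B 𝔮 x) (hy : ZeroAt B 𝔮 y) :
    ZeroAt B 𝔮 (x + y) := by
  obtain ⟨s, t, hs, ht, h⟩ := hx
  obtain ⟨s', t', hs', ht', h'⟩ := hy
  refine ⟨s * t' + s' * t, t * t', ?_, fun hc => ?_, ?_⟩
  · exact 𝔮.add_mem (𝔮.mul_mem_right _ hs) (𝔮.mul_mem_right _ hs')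
  · exact (Ideal.IsPrime.mem_or_mem ‹_› hc).elim ht ht'
  · push_cast
    rw [← h, ← h']; ring

theorem ZeroAt.mul_memAt [𝔮.IsPrime] {x y : F} (hx : ZeroAt B 𝔮 x) (hy : MemAt B 𝔮 y) :
    ZeroAt B 𝔮 (x * y) := by
  obtain ⟨s, t, hs, ht, h⟩ := hx
  obtain ⟨s', t', ht', h'⟩ := hy
  refine ⟨s * s', t * t', 𝔮.mul_mem_right _ hs, fun hc => ?_, ?_⟩
  · exact (Ideal.IsPrime.mem_or_mem ‹_› hc).elim ht ht'
  · push_cast
    rw [← h, ← h']; ring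

/-- an element of `B_𝔮` is either in `𝔮 B_𝔮` or a unit -/
theorem MemAt.zeroAt_or_unitAt {x : F} (hx : MemAt B 𝔮 x) : ZeroAt B 𝔮 x ∨ UnitAt B 𝔮 x := by
  obtain ⟨s, t, ht, h⟩ := hx
  by_cases hs : s ∈ 𝔮
  · exact Or.inl ⟨s, t, hs, ht, h⟩
  · exact Or.inr ⟨s, t, hs, ht, h⟩

/-- `1 + 𝔮 B_𝔮 ⊆ B_𝔮ˣ` -/
theorem ZeroAt.unitAt_one_add [𝔮.IsPrime] {x : F} (hx : ZeroAt B 𝔮 x) : UnitAt B 𝔮 (1 + x) := by
  obtain ⟨s, t, hs, ht, h⟩ := hx
  refine ⟨t + s, t, fun hc => ht ?_, ht, ?_⟩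
  · have := 𝔮.sub_mem hc hs
    simpa using this
  · push_cast
    rw [← h]; ring

theorem not_zeroAt_and_unitAt [𝔮.IsPrime] {x : F} (h0 : ZeroAt B 𝔮 x) (h1 : UnitAt B 𝔮 x) :
    False := by
  obtain ⟨s, t, hs, ht, h⟩ := h0
  obtain ⟨s', t', hs', ht', h'⟩ := h1
  have e : s' * t = s * t' := by
    apply Subtype.ext
    push_cast
    rw [← h, ← h']; ring
  have hm : s' * t ∈ 𝔮 := e ▸ 𝔮.mul_mem_right _ hs
  exact (Ideal.IsPrime.mem_or_mem ‹_› hm).elim hs' ht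

/-- monotonicity in the prime -/
theorem MemAt.mono {𝔮' : Ideal B} (h : 𝔮' ≤ 𝔮) {x : F} (hx : MemAt B 𝔮 x) : MemAt B 𝔮' x := by
  obtain ⟨s, t, ht, hx⟩ := hx
  exact ⟨s, t, fun h' => ht (h h'), hx⟩

theorem UnitAt.mono {𝔮' : Ideal B} (h : 𝔮' ≤ 𝔮) {x : F} (hx : UnitAt B 𝔮 x) : UnitAt B 𝔮' x := by
  obtain ⟨s, t, hs, ht, hx⟩ := hx
  exact ⟨s, t, fun h' => hs (h h'), fun h' => ht (h h'), hx⟩

/-- root closedness passes to the localisations -/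
theorem MemAt.of_pow [𝔮.IsPrime] {m : ℕ} (hm : m ≠ 0) (hB : RootClosed B m) {x : F}
    (hx : MemAt B 𝔮 (x ^ m)) : MemAt B 𝔮 x := by
  obtain ⟨s, t, ht, h⟩ := hx
  have hb : x * (t : F) ∈ B := by
    apply hB
    obtain ⟨n, rfl⟩ := Nat.exists_eq_succ_of_ne_zero hm
    have : (x * (t : F)) ^ (n + 1) = (s : F) * (t : F) ^ n := by
      rw [← h, mul_pow, Nat.succ_eq_add_one]; ring
    rw [this]
    exact B.mul_mem s.2 (B.pow_mem t.2 n)
  exact ⟨⟨_, hb⟩, t, ht, rfl⟩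

theorem UnitAt.of_pow [𝔮.IsPrime] {m : ℕ} (hm : m ≠ 0) (hB : RootClosed B m) {x : F}
    (hx : UnitAt B 𝔮 (x ^ m)) : UnitAt B 𝔮 x := by
  obtain ⟨s, t, hs, ht, h⟩ := hx
  obtain ⟨n, rfl⟩ := Nat.exists_eq_succ_of_ne_zero hm
  have e : (x * (t : F)) ^ (n + 1) = (s : F) * (t : F) ^ n := by
    rw [← h, mul_pow, Nat.succ_eq_add_one]; ring
  have hb : x * (t : F) ∈ B := by
    apply hB
    rw [e]
    exact B.mul_mem s.2 (B.pow_mem t.2 n)
  refine ⟨⟨_, hb⟩, t, fun hc => ?_, ht, rfl⟩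
  have h1 : (⟨_, hb⟩ : B) ^ (n + 1) = s * t ^ n := Subtype.ext (by push_cast; exact e)
  have h2 : s * t ^ n ∈ 𝔮 := h1 ▸ 𝔮.pow_mem_of_mem hc _ (Nat.succ_pos n)
  rcases Ideal.IsPrime.mem_or_mem ‹_› h2 with h3 | h3
  · exact hs h3
  · exact ht (Ideal.IsPrime.mem_of_pow_mem ‹_› _ h3)

end Local

/-- **local-global principle**: `B = ⋂ B_𝔪`. -/
theorem mem_of_forall_memAt {B : Subring F} {x : F}
    (h : ∀ 𝔪 : Ideal B, 𝔪.IsMaximal → MemAt B 𝔪 x) : x ∈ B := by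
  let I : Ideal B :=
    { carrier := {t | x * (t : F) ∈ B}
      zero_mem' := by
        show x * ((0 : B) : F) ∈ B
        simp
      add_mem' := fun {a b} ha hb => by
        show x * ((a + b : B) : F) ∈ B
        push_cast
        rw [mul_add]
        exact B.add_mem ha hb
      smul_mem' := fun c a ha => by
        show x * ((c • a : B) : F) ∈ B
        rw [smul_eq_mul]
        push_cast
        rw [mul_left_comm]
        exact B.mul_mem c.2 ha }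
  by_cases hI : I = ⊤
  · have h1 : (1 : B) ∈ I := hI ▸ Submodule.mem_top
    have h2 : x * ((1 : B) : F) ∈ B := h1
    simpa using h2
  · obtain ⟨𝔪, h𝔪, hle⟩ := Ideal.exists_le_maximal I hI
    obtain ⟨s, t, ht, hx⟩ := h 𝔪 h𝔪
    exact absurd (hle (show x * (t : F) ∈ B from hx ▸ s.2)) ht

/-- local-global principle for membership in an ideal. -/
theorem mem_ideal_of_forall {B : Subring F} (I : Ideal B) (x : B)
    (h : ∀ 𝔪 : Ideal B, 𝔪.IsMaximal → ∃ t : B, t ∉ 𝔪 ∧ t * x ∈ I) : x ∈ I := by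
  let J : Ideal B :=
    { carrier := {t | t * x ∈ I}
      zero_mem' := by
        show (0 : B) * x ∈ I
        rw [zero_mul]; exact I.zero_mem
      add_mem' := fun {a b} ha hb => by
        show (a + b) * x ∈ I
        rw [add_mul]
        exact I.add_mem ha hb
      smul_mem' := fun c a ha => by
        show (c • a) * x ∈ I
        rw [smul_eq_mul, mul_assoc]
        exact I.mul_mem_left c ha }
  by_cases hJ : J = ⊤
  · have h1 : (1 : B) ∈ J := hJ ▸ Submodule.mem_top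
    have h2 : (1 : B) * x ∈ I := h1
    simpa using h2
  · obtain ⟨𝔪, h𝔪, hle⟩ := Ideal.exists_le_maximal J hJ
    obtain ⟨t, ht, hx⟩ := h 𝔪 h𝔪
    exact absurd (hle (show t * x ∈ I from hx)) ht

/-- `LD` holds at every prime. -/
theorem LD.at_prime {B : Subring F} {m : ℕ} {f : F} (h : LD B m f) (𝔮 : Ideal B) [𝔮.IsPrime] :
    ∃ h : F, h ≠ 0 ∧ UnitAt B 𝔮 (h ^ m * f) := by
  obtain ⟨𝔪, h𝔪, hle⟩ := Ideal.exists_le_maximal 𝔮 (Ideal.IsPrime.ne_top ‹_›)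
  obtain ⟨g, hg, hu⟩ := h 𝔪 h𝔪
  exact ⟨g, hg, hu.mono hle⟩

section Module

variable {B : Subring F} {m : ℕ} {f : F}

/-- with a local generator `h` at `𝔮`: `u ∈ M ⟹ u / h ∈ B_𝔮`. -/
theorem MM.div_memAt (hm : m ≠ 0) (hB : RootClosed B m) {𝔮 : Ideal B} [𝔮.IsPrime] {h u : F}
    (hh : UnitAt B 𝔮 (h ^ m * f)) (hu : u ∈ MM B m f) : MemAt B 𝔮 (u / h) := by
  apply MemAt.of_pow hm hB
  have h0 := hh.ne_zero
  have hf : f ≠ 0 := right_ne_zero_of_mul h0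
  have hhm : h ^ m ≠ 0 := left_ne_zero_of_mul h0
  have e : (u / h) ^ m = (u ^ m * f) * (h ^ m * f)⁻¹ := by
    rw [div_pow]
    field_simp
  rw [e]
  exact (memAt_of_mem hu (Ideal.IsPrime.ne_top ‹_›)).mul hh.inv.memAt

theorem MM.add (hm : m ≠ 0) (hB : RootClosed B m) (hLD : LD B m f) {u v : F}
    (hu : u ∈ MM B m f) (hv : v ∈ MM B m f) : u + v ∈ MM B m f := by
  rw [mem_MM]
  apply mem_of_forall_memAt
  intro 𝔪 h𝔪
  have := h𝔪.isPrime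
  obtain ⟨h, hh0, hh⟩ := hLD 𝔪 h𝔪
  have e : (u + v) ^ m * f = (u / h + v / h) ^ m * (h ^ m * f) := by
    rw [← add_div, div_pow]
    field_simp
  rw [e]
  exact (((MM.div_memAt hm hB hh hu).add (MM.div_memAt hm hB hh hv)).pow m).mul hh.memAt

theorem MM.neg {u : F} (hu : u ∈ MM B m f) : -u ∈ MM B m f := by
  rw [mem_MM] at hu ⊢
  rcases Nat.even_or_odd m with h | h
  · rw [h.neg_pow]; exact hu
  · rw [h.neg_pow, neg_mul]; exact B.neg_mem hu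

theorem MM.smul {b u : F} (hb : b ∈ B) (hu : u ∈ MM B m f) : b * u ∈ MM B m f := by
  rw [mem_MM] at hu ⊢
  rw [mul_pow, mul_assoc]
  exact B.mul_mem (B.pow_mem hb m) hu

/-- `M ^ m * f ⊆ B` (multilinear version). -/
theorem MM.prod_mul_mem (hm : m ≠ 0) (hB : RootClosed B m) (hLD : LD B m f) (μ : Fin m → F)
    (hμ : ∀ j, μ j ∈ MM B m f) : (∏ j, μ j) * f ∈ B := by
  apply mem_of_forall_memAt
  intro 𝔪 h𝔪
  have := h𝔪.isPrime
  obtain ⟨h, hh0, hh⟩ := hLD 𝔪 h𝔪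
  have e : (∏ j, μ j) * f = (∏ j, μ j / h) * (h ^ m * f) := by
    rw [Finset.prod_div_distrib, Finset.prod_const, Finset.card_univ, Fintype.card_fin]
    field_simp
  rw [e]
  refine MemAt.mul ?_ hh.memAt
  have key : ∀ s : Finset (Fin m), MemAt B 𝔪 (∏ j ∈ s, μ j / h) := by
    intro s
    induction s using Finset.induction_on with
    | empty =>
      rw [Finset.prod_empty]
      exact memAt_of_mem B.one_mem (Ideal.IsPrime.ne_top ‹_›)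
    | insert a s ha ih =>
      rw [Finset.prod_insert ha]
      exact (MM.div_memAt hm hB hh (hμ a)).mul ih
  exact key _

/-- `M` as a `B`-submodule of `F`. -/
def MM.submodule (hm : m ≠ 0) (hB : RootClosed B m) (hLD : LD B m f) : Submodule B F where
  carrier := MM B m f
  zero_mem' := by
    show (0 : F) ^ m * f ∈ B
    rw [zero_pow hm, zero_mul]; exact B.zero_mem
  add_mem' := fun hu hv => MM.add hm hB hLD hu hv
  smul_mem' := fun b _ hu => MM.smul b.2 hu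

end Module

end Fermat.Agent.S36
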