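import Fermat.Agent.S36.Abs.Krull

/-!
# S36 / abstract part : local structure of a chart (`[COVER]`, `[LOCGEN]`, `[LD-CHART]`)

Everything follows from `krull3_intCl`.  Notation: `B = intCl R t`, `p i = centre B (O i)`.
-/

set_option autoImplicit false

open Polynomial

namespace Fermat.Agent.S36

variable {R : Type*} [CommRing R] [IsDomain R] [IsDiscreteValuationRing R]
  {K : Type*} [Field K] [Algebra R K] [IsFractionRing R K]
  {F : Type*} [Field F] [CharZero F] [Algebra R F] [Algebra K F] [IsScalarTower R K F]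
  {π : R} {t : F} {ι : Type*} [Fintype ι] {O : ι → ValuationSubring F} {e f : ι → ℕ}

/-- the prime ideal of the `i`-th component in the chart `t` -/
def GaussSys.p (S : GaussSys K π t O e f) (i : ι) : Ideal (intCl R t) :=
  centre (intCl R t) (O i) (intCl_le (S.gauss i))

omit [IsFractionRing R K] [IsScalarTower R K F] in
theorem GaussSys.mem_p (S : GaussSys K π t O e f) (i : ι) {x : intCl R t} :
    x ∈ S.p i ↔ (O i).valuation (x : F) < 1 :=
  mem_centre _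

/-- constants are in the chart -/
theorem algebraMap_mem_intCl (R : Type*) [CommRing R] {F : Type*} [Field F] [Algebra R F] (t : F)
    (r : R) : algebraMap R F r ∈ intCl R t := by
  rw [mem_intCl]
  have : algebraMap R F r = algebraMap (Algebra.adjoin R {t}) F (algebraMap R _ r) := rfl
  rw [this]
  exact isIntegral_algebraMap

/-- `π` as an element of the chart -/
def piB (R : Type*) [CommRing R] {F : Type*} [Field F] [Algebra R F] (t : F) (π : R) :
    intCl R t := ⟨algebraMap R F π, algebraMap_mem_intCl R t π⟩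

/-- an element of positive valuation is divisible by the uniformizer -/
theorem IsUnif.chart_le_of_lt_one {F : Type*} [Field F] {V : ValuationSubring F} {ϖ : F}
    (h : IsUnif V ϖ) {x : F} (hx : V.valuation x < 1) : V.valuation x ≤ V.valuation ϖ := by
  by_cases hx0 : x = 0
  · rw [hx0, map_zero]; exact zero_le
  obtain ⟨n, hn⟩ := h.disc x hx0
  have hpos : 0 < V.valuation ϖ := by
    rw [pos_iff_ne_zero]; exact (Valuation.ne_zero_iff _).2 h.ne_zero
  have hn1 : 1 ≤ n := by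
    by_contra hcon
    have hn0 : n ≤ 0 := by omega
    have := zpow_le_zpow_right_of_le_one₀ hpos h.lt_one.le hn0
    rw [zpow_zero, ← hn] at this
    exact absurd hx (not_lt.2 this)
  rw [hn]
  have := zpow_le_zpow_right_of_le_one₀ hpos h.lt_one.le hn1
  rwa [zpow_one] at this

/-- `v_i x < 1 ⟹ v_i x ^ e i ≤ v_i π`. -/
theorem GaussSys.chart_pow_le_pi (hπ : Irreducible π) (S : GaussSys K π t O e f) (i : ι) {x : F}
    (hx : (O i).valuation x < 1) :
    (O i).valuation x ^ e i ≤ (O i).valuation (algebraMap R F π) := by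
  obtain ⟨ϖ, h1, h2⟩ := S.ram i
  obtain ⟨hU, heq⟩ := S.isUnif hπ i h1 h2
  rw [heq]
  exact pow_le_pow_left₀ zero_le (hU.chart_le_of_lt_one hx) _

omit [IsFractionRing R K] [IsScalarTower R K F] in
theorem GaussSys.chart_val_le_one (S : GaussSys K π t O e f) (i : ι) (b : intCl R t) :
    (O i).valuation (b : F) ≤ 1 :=
  (ValuationSubring.valuation_le_one_iff _ _).2 (intCl_le (S.gauss i) b.2)

omit [IsDomain R] [IsDiscreteValuationRing R] [CharZero F] in
theorem chart_pi_ne_zero (K : Type*) [Field K] [Algebra R K] [IsFractionRing R K]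
    [Algebra K F] [IsScalarTower R K F] (hπ : Irreducible π) : algebraMap R F π ≠ 0 := by
  rw [IsScalarTower.algebraMap_apply R K F]
  intro h
  have h1 : algebraMap R K π = 0 := (algebraMap K F).injective (by rw [h, map_zero])
  exact hπ.ne_zero ((IsFractionRing.injective R K) (by rw [h1, map_zero]))

/-- a product of elements `x j ∈ p j` (over a set `s` of indices), raised to the powers `e j`, has
`v_i ≤ v_i π` for `i ∈ s`. -/
theorem GaussSys.chart_val_prod_le (hπ : Irreducible π) (S : GaussSys K π t O e f)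
    (x : ι → intCl R t) (s : Finset ι) (hx : ∀ j ∈ s, x j ∈ S.p j) {i : ι} (hi : i ∈ s) :
    (O i).valuation ((∏ j ∈ s, x j ^ e j : intCl R t) : F) ≤
      (O i).valuation (algebraMap R F π) := by
  classical
  rw [← Finset.mul_prod_erase s _ hi]
  push_cast
  rw [map_mul, map_pow]
  calc (O i).valuation (x i : F) ^ e i * (O i).valuation (∏ j ∈ s.erase i, (x j : F) ^ e j)
      ≤ (O i).valuation (x i : F) ^ e i * 1 := by
        gcongr
        have := S.chart_val_le_one i (∏ j ∈ s.erase i, x j ^ e j)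
        push_cast at this
        exact this
    _ ≤ _ := by
        rw [mul_one]
        exact S.chart_pow_le_pi hπ i ((S.mem_p i).1 (hx i hi))

theorem GaussSys.cover [Nonempty ι] (hπ : Irreducible π) (S : GaussSys K π t O e f)
    (𝔮 : Ideal (intCl R t)) (h𝔮 : 𝔮.IsPrime) (hπ𝔮 : piB R t π ∈ 𝔮) : ∃ i, S.p i ≤ 𝔮 := by
  classical
  by_contra hcon
  push Not at hcon
  have h1 : ∀ i, ∃ x : intCl R t, x ∈ S.p i ∧ x ∉ 𝔮 :=
    fun i => SetLike.not_le_iff_exists.1 (hcon i)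
  choose x hxp hxq using h1
  have hXq : (∏ i, x i ^ e i) ∉ 𝔮 := by
    intro h
    obtain ⟨i, -, hi⟩ := Ideal.IsPrime.prod_mem_iff.1 h
    exact hxq i (h𝔮.mem_of_pow_mem _ hi)
  have hπ0 : algebraMap R F π ≠ 0 := chart_pi_ne_zero K hπ
  have hy : ∀ i, ((∏ i, x i ^ e i : intCl R t) : F) / algebraMap R F π ∈ O i := by
    intro i
    rw [← ValuationSubring.valuation_le_one_iff, map_div₀]
    exact div_le_one_of_le₀
      (S.chart_val_prod_le hπ x Finset.univ (fun j _ => hxp j) (Finset.mem_univ i)) zero_le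
  have hyB := krull3_intCl (K := K) hπ S.gauss (S.semi hπ) hy 1
    (by rw [pow_one, mul_div_cancel₀ _ hπ0]; exact (∏ i, x i ^ e i : intCl R t).2)
  apply hXq
  have : (∏ i, x i ^ e i) = piB R t π * ⟨_, hyB⟩ := by
    apply Subtype.ext
    rw [Subring.coe_mul]
    show _ = algebraMap R F π * (_ / algebraMap R F π)
    rw [mul_div_cancel₀ _ hπ0]
  rw [this]
  exact 𝔮.mul_mem_right _ hπ𝔮

/-- the inclusion `R[t] → B`. -/
def chartIncl (R : Type*) [CommRing R] {F : Type*} [Field F] [Algebra R F] (t : F) :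
    Algebra.adjoin R {t} →+* intCl R t where
  toFun a := ⟨(a : F), by
    rw [mem_intCl]
    exact (isIntegral_algebraMap (R := Algebra.adjoin R {t}) (x := a))⟩
  map_one' := rfl
  map_mul' _ _ := rfl
  map_zero' := rfl
  map_add' _ _ := rfl

theorem chartIncl_isIntegral (R : Type*) [CommRing R] {F : Type*} [Field F] [Algebra R F]
    (t : F) : (chartIncl R t).IsIntegral := by
  intro b
  obtain ⟨p, hp, hp0⟩ := mem_intCl.1 b.2
  refine ⟨p, hp, ?_⟩
  apply Subtype.ext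
  have h := Polynomial.hom_eval₂ p (chartIncl R t) (intCl R t).subtype b
  have h2 : (intCl R t).subtype.comp (chartIncl R t) =
      algebraMap (Algebra.adjoin R {t}) F := rfl
  rw [h2] at h
  exact h.trans hp0

/-- `p i` is not a maximal ideal (`B / p i` is integral over `k[t]`, which is not a field) and not
zero (`π ∈ p i`). -/
theorem GaussSys.p_lt (hπ : Irreducible π) (S : GaussSys K π t O e f) (i : ι)
    (𝔪 : Ideal (intCl R t)) (h𝔪 : 𝔪.IsMaximal) (h : S.p i ≤ 𝔪) : S.p i < 𝔪 := by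
  refine lt_of_le_of_ne h ?_
  intro heq
  have hmax : (S.p i).IsMaximal := heq ▸ h𝔪
  have hmax0 : ((S.p i).comap (chartIncl R t)).IsMaximal :=
    Ideal.isMaximal_comap_of_isIntegral_of_isMaximal' _ (chartIncl_isIntegral R t) _
  -- membership in the contraction
  have hmem : ∀ g : R[X], (⟨aeval t g, by
      rw [Algebra.adjoin_singleton_eq_range_aeval]; exact ⟨g, rfl⟩⟩ : Algebra.adjoin R {t}) ∈
      (S.p i).comap (chartIncl R t) → C π ∣ g := by
    intro g hg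
    by_contra hnd
    have h1 := (S.gauss i).prim g hnd
    have h2 : (O i).valuation (aeval t g) < 1 := (S.mem_p i).1 hg
    exact absurd h1 h2.ne
  set T : Algebra.adjoin R {t} := ⟨t, Algebra.subset_adjoin (Set.mem_singleton _)⟩ with hT
  have hTn : T ∉ (S.p i).comap (chartIncl R t) := by
    intro hmemT
    have : C π ∣ (X : R[X]) := by
      apply hmem X
      convert hmemT using 1
      apply Subtype.ext; simp [hT]
    have h3 := (Polynomial.C_dvd_iff_dvd_coeff _ _).1 this 1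
    rw [coeff_X_one] at h3
    exact hπ.not_isUnit (isUnit_of_dvd_one h3)
  obtain ⟨b, c, hc, hb⟩ := hmax0.exists_inv hTn
  obtain ⟨g, hg⟩ : ∃ g : R[X], aeval t g = (b : F) := by
    have h5 : (b : F) ∈ (aeval t : R[X] →ₐ[R] F).range := by
      rw [← Algebra.adjoin_singleton_eq_range_aeval]; exact b.2
    exact h5
  have : C π ∣ (1 - g * X : R[X]) := by
    apply hmem
    convert hc using 1
    apply Subtype.ext
    have h6 : (c : F) = 1 - (b : F) * t := by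
      have := congrArg (Subtype.val) hb
      simp only [hT] at this
      push_cast at this
      linear_combination this
    rw [h6]
    simp [hg]
  have h3 := (Polynomial.C_dvd_iff_dvd_coeff _ _).1 this 0
  simp at h3
  exact hπ.not_isUnit (isUnit_of_dvd_one h3)

omit [IsFractionRing R K] [IsScalarTower R K F] in
theorem GaussSys.piB_mem_p (S : GaussSys K π t O e f) (i : ι) : piB R t π ∈ S.p i :=
  (S.mem_p i).2 (S.gauss i).lt_one

theorem GaussSys.p_ne_bot (hπ : Irreducible π) (S : GaussSys K π t O e f) (i : ι) :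
    S.p i ≠ ⊥ := by
  intro h
  have h1 : piB R t π ∈ (⊥ : Ideal (intCl R t)) := h ▸ S.piB_mem_p i
  rw [Ideal.mem_bot] at h1
  exact chart_pi_ne_zero K hπ (congrArg Subtype.val h1)

theorem GaussSys.locGen_of_krull [Nonempty ι] (hπ : Irreducible π) (S : GaussSys K π t O e f)
    (𝔪 : Ideal (intCl R t)) (h𝔪 : 𝔪.IsPrime) (i : ι) {ϖ : F} (hϖ𝔪 : MemAt (intCl R t) 𝔪 ϖ)
    (hϖ : IsUnif (O i) ϖ) {E : ℕ} (hE : E ≠ 0) (s : intCl R t) (hs : s ∉ 𝔪)
    (hsj : ∀ j, j ≠ i → (O j).valuation (s : F) ≤ (O j).valuation ϖ ^ E) (n : ℕ)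
    (hn : algebraMap R F π ^ n * (s : F) / ϖ ^ E ∈ intCl R t) :
    LocGen (intCl R t) 𝔪 (S.p i) ϖ := by
  have hϖ0 := hϖ.ne_zero
  refine ⟨hϖ0, ?_, ?_⟩
  · obtain ⟨a, b, hb, hab⟩ := hϖ𝔪
    refine ⟨a, b, ?_, hb, hab⟩
    rw [S.mem_p, ← hab, map_mul]
    calc (O i).valuation ϖ * (O i).valuation (b : F) ≤ (O i).valuation ϖ * 1 := by
          gcongr; exact S.chart_val_le_one i b
      _ < 1 := by rw [mul_one]; exact hϖ.lt_one
  · intro x hx
    have hxv : (O i).valuation (x : F) < 1 := (S.mem_p i).1 hx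
    apply MemAt.of_pow hE (rootClosed_intCl R t hE)
    -- `y = s x^E / ϖ^E ∈ B`
    have hy : ∀ j, (s : F) * (x : F) ^ E / ϖ ^ E ∈ O j := by
      intro j
      rw [← ValuationSubring.valuation_le_one_iff, map_div₀, map_mul, map_pow, map_pow]
      apply div_le_one_of_le₀ _ zero_le
      by_cases hj : j = i
      · subst hj
        calc (O j).valuation (s : F) * (O j).valuation (x : F) ^ E
            ≤ 1 * (O j).valuation ϖ ^ E := by
              gcongr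
              · exact S.chart_val_le_one j s
              · exact hϖ.chart_le_of_lt_one hxv
          _ = _ := one_mul _
      · calc (O j).valuation (s : F) * (O j).valuation (x : F) ^ E
            ≤ (O j).valuation ϖ ^ E * 1 := by
              gcongr
              · exact hsj j hj
              · exact pow_le_one₀ zero_le (S.chart_val_le_one j x)
          _ = _ := mul_one _
    have hyB := krull3_intCl (K := K) hπ S.gauss (S.semi hπ) hy n (by
      have : algebraMap R F π ^ n * ((s : F) * (x : F) ^ E / ϖ ^ E) =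
          (algebraMap R F π ^ n * (s : F) / ϖ ^ E) * (x : F) ^ E := by ring
      rw [this]
      exact (intCl R t).mul_mem hn ((intCl R t).pow_mem x.2 E))
    refine ⟨⟨_, hyB⟩, s, hs, ?_⟩
    show ((x : F) / ϖ) ^ E * (s : F) = (s : F) * (x : F) ^ E / ϖ ^ E
    rw [div_pow]; ring

omit [IsFractionRing R K] [IsScalarTower R K F] in
/-- a unit at a prime containing `p i` is a unit of `O i`. -/
theorem GaussSys.chart_val_eq_one_of_unitAt (S : GaussSys K π t O e f) (i : ι)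
    {𝔪 : Ideal (intCl R t)} (hi : S.p i ≤ 𝔪) {x : F} (hx : UnitAt (intCl R t) 𝔪 x) :
    (O i).valuation x = 1 := by
  obtain ⟨a, b, ha, hb, hab⟩ := hx
  have h1 : ∀ c : intCl R t, c ∉ 𝔪 → (O i).valuation (c : F) = 1 := by
    intro c hc
    refine le_antisymm (S.chart_val_le_one i c) (not_lt.1 fun hlt => hc (hi ((S.mem_p i).2 hlt)))
  have := congrArg (O i).valuation hab
  rwa [map_mul, h1 a ha, h1 b hb, mul_one] at this

theorem GaussSys.locGen_of_unitAt [Nonempty ι] (hπ : Irreducible π) (S : GaussSys K π t O e f)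
    (𝔪 : Ideal (intCl R t)) (h𝔪 : 𝔪.IsPrime) (i : ι) (hi : S.p i ≤ 𝔪)
    (honly : ∀ j, j ≠ i → ¬ S.p j ≤ 𝔪)
    {ϖ : F} (hϖ𝔪 : MemAt (intCl R t) 𝔪 ϖ) (hϖ : (O i).valuation ϖ < 1) {E : ℕ} (hE : E = e i)
    (hunit : UnitAt (intCl R t) 𝔪 (ϖ ^ E / algebraMap R F π)) :
    LocGen (intCl R t) 𝔪 (S.p i) ϖ := by
  classical
  have hπ0 : algebraMap R F π ≠ 0 := chart_pi_ne_zero K hπ
  have hv1 := S.chart_val_eq_one_of_unitAt i hi hunit
  rw [map_div₀, map_pow, div_eq_one_iff_eq ((Valuation.ne_zero_iff _).2 hπ0)] at hv1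
  obtain ⟨hU, -⟩ := S.isUnif hπ i hϖ (by rw [← hE, hv1])
  have hE0 : E ≠ 0 := by
    rintro rfl
    rw [pow_zero] at hv1
    exact absurd hv1.symm (S.gauss i).lt_one.ne
  have hϖ0 := hU.ne_zero
  obtain ⟨s0, t0, hs0, ht0, hst⟩ := hunit
  have h1 : ∀ j, j ≠ i → ∃ x : intCl R t, x ∈ S.p j ∧ x ∉ 𝔪 :=
    fun j hj => SetLike.not_le_iff_exists.1 (honly j hj)
  choose! x hxp hxq using h1
  have hs' : (∏ j ∈ Finset.univ.erase i, x j ^ e j) ∉ 𝔪 := by
    intro h
    obtain ⟨j, hj, hjm⟩ := Ideal.IsPrime.prod_mem_iff.1 h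
    exact hxq j (Finset.ne_of_mem_erase hj) (h𝔪.mem_of_pow_mem _ hjm)
  have hs0F : (s0 : F) ≠ 0 := by
    intro h0
    apply hs0
    have : s0 = 0 := Subtype.ext h0
    rw [this]; exact 𝔪.zero_mem
  -- `π / ϖ^E = t0 / s0`
  have hkey : algebraMap R F π * (s0 : F) = ϖ ^ E * (t0 : F) := by
    rw [← hst]; field_simp
  refine S.locGen_of_krull hπ 𝔪 h𝔪 i hϖ𝔪 hU hE0 (s0 * ∏ j ∈ Finset.univ.erase i, x j ^ e j)
    (fun h => (h𝔪.mem_or_mem h).elim hs0 hs') ?_ 1 ?_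
  · intro j hj
    have hle := S.chart_val_prod_le hπ x (Finset.univ.erase i)
      (fun l hl => hxp l (Finset.ne_of_mem_erase hl)) (Finset.mem_erase.2 ⟨hj, Finset.mem_univ j⟩)
    rw [Subring.coe_mul, map_mul]
    have hk := congrArg (O j).valuation hkey
    rw [map_mul, map_mul, map_pow] at hk
    calc (O j).valuation (s0 : F) *
          (O j).valuation ((∏ l ∈ Finset.univ.erase i, x l ^ e l : intCl R t) : F)
        ≤ (O j).valuation (s0 : F) * (O j).valuation (algebraMap R F π) := by gcongr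
      _ = (O j).valuation ϖ ^ E * (O j).valuation (t0 : F) := by rw [mul_comm, hk]
      _ ≤ (O j).valuation ϖ ^ E * 1 := by gcongr; exact S.chart_val_le_one j t0
      _ = _ := mul_one _
  · have : algebraMap R F π ^ 1 *
        ((s0 * ∏ j ∈ Finset.univ.erase i, x j ^ e j : intCl R t) : F) / ϖ ^ E =
        ((t0 * ∏ j ∈ Finset.univ.erase i, x j ^ e j : intCl R t) : F) := by
      rw [Subring.coe_mul, Subring.coe_mul, pow_one, ← mul_assoc, hkey]
      field_simp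
    rw [this]
    exact (t0 * ∏ j ∈ Finset.univ.erase i, x j ^ e j : intCl R t).2

theorem GaussSys.ld_at_of_notMem [Nonempty ι] (hπ : Irreducible π) (S : GaussSys K π t O e f)
    (𝔪 : Ideal (intCl R t)) (h𝔪 : 𝔪.IsPrime) (hπ𝔪 : piB R t π ∉ 𝔪) {m : ℕ} {g : F}
    (hhor : ∀ W : ValuationSubring F, (∀ c : K, algebraMap K F c ∈ W) →
      ∃ h : F, h ≠ 0 ∧ W.valuation (h ^ m * g) = 1) :
    ∃ h : F, h ≠ 0 ∧ UnitAt (intCl R t) 𝔪 (h ^ m * g) := by
  obtain ⟨i⟩ := ‹Nonempty ι›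
  obtain ⟨W, hW, hWu⟩ := exists_valuationSubring_of_notMem (K := K) hπ (S.gauss i) S.fin 𝔪 h𝔪
    (piB R t π) rfl hπ𝔪
  obtain ⟨h, h0, hh⟩ := hhor W hW
  exact ⟨h, h0, hWu _ hh⟩

theorem GaussSys.ld_at [Nonempty ι] (hπ : Irreducible π) (S : GaussSys K π t O e f)
    (hDed : ∀ i, IsDedekindDomain (intCl R t ⧸ S.p i))
    (𝔪 : Ideal (intCl R t)) (h𝔪 : 𝔪.IsMaximal) (i : ι) (hi : S.p i ≤ 𝔪) {a : F}
    (ha : LocGen (intCl R t) 𝔪 (S.p i) a) {m : ℕ} (hm : m ≠ 0) {g : F}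
    (hgO : ∀ i, (O i).valuation g = 1)
    (hhor : ∀ W : ValuationSubring F, (∀ c : K, algebraMap K F c ∈ W) →
      ∃ h : F, h ≠ 0 ∧ W.valuation (h ^ m * g) = 1) :
    ∃ h : F, h ≠ 0 ∧ UnitAt (intCl R t) 𝔪 (h ^ m * g) := by
  have hN : IsNoetherianRing (intCl R t) := isNoetherianRing_intCl (K := K) hπ (S.gauss i) S.fin
  have hg0 : g ≠ 0 := by
    intro h0
    have := hgO i
    rw [h0, map_zero] at this
    exact zero_ne_one this
  refine ld_at_of_locGen (intCl R t) (exists_frac_intCl (K := K) S.fin) hm 𝔪 h𝔪 (S.p i)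
    (centre_isPrime _) (S.p_ne_bot hπ i) (S.p_lt hπ i 𝔪 h𝔪 hi) (hDed i) ha hg0 ?_
  intro 𝔮 h𝔮 hlt
  by_cases hπ𝔮 : piB R t π ∈ 𝔮
  · obtain ⟨j, hj⟩ := S.cover hπ 𝔮 h𝔮 hπ𝔮
    -- `𝔮 = p j`
    have heq : 𝔮 = S.p j := by
      by_contra hne
      have := hDed j
      have hprime : (𝔮.map (Ideal.Quotient.mk (S.p j))).IsPrime :=
        Ideal.map_isPrime_of_surjective Ideal.Quotient.mk_surjective (by
          rw [Ideal.mk_ker]; exact hj)
      have hne0 : 𝔮.map (Ideal.Quotient.mk (S.p j)) ≠ ⊥ := by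
        intro h0
        rw [Ideal.map_eq_bot_iff_le_ker, Ideal.mk_ker] at h0
        exact hne (le_antisymm h0 hj)
      have hmax := hprime.isMaximal hne0
      have hcm : (Ideal.comap (Ideal.Quotient.mk (S.p j))
          (𝔮.map (Ideal.Quotient.mk (S.p j)))).IsMaximal :=
        Ideal.comap_isMaximal_of_surjective _ Ideal.Quotient.mk_surjective
      rw [Ideal.comap_map_of_surjective _ Ideal.Quotient.mk_surjective, ← RingHom.ker_eq_comap_bot,
        Ideal.mk_ker, sup_eq_left.2 hj] at hcm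
      exact hlt.ne (hcm.eq_of_le h𝔪.ne_top hlt.le)
    refine ⟨1, one_ne_zero, ?_⟩
    rw [one_pow, one_mul, heq]
    exact S.unitAt_centre hπ j _ (hgO j)
  · exact S.ld_at_of_notMem hπ 𝔮 h𝔮 hπ𝔮 hhor

/-- `t⁻¹` as an element of the chart `t⁻¹` -/
def tinvB (R : Type*) [CommRing R] {F : Type*} [Field F] [Algebra R F] (t : F) : intCl R t⁻¹ :=
  ⟨t⁻¹, by
    rw [mem_intCl]
    exact (isIntegral_algebraMap (R := Algebra.adjoin R {t⁻¹})
      (x := ⟨t⁻¹, Algebra.subset_adjoin (Set.mem_singleton _)⟩))⟩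

section Transfer

variable {R : Type*} [CommRing R] {F : Type*} [Field F] [Algebra R F] {t : F}

/-- elements of `R[t]` become elements of `R[t⁻¹]` after multiplication by a power of `t⁻¹`. -/
theorem chart_exists_pow_mul_mem_adjoin_inv (ht : t ≠ 0) {a : F} (ha : a ∈ Algebra.adjoin R {t}) :
    ∃ N : ℕ, ∀ n, N ≤ n → t⁻¹ ^ n * a ∈ Algebra.adjoin R {t⁻¹} := by
  have htm : t⁻¹ ∈ Algebra.adjoin R {t⁻¹} := Algebra.subset_adjoin (Set.mem_singleton _)
  induction ha using Algebra.adjoin_induction with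
  | mem x hx =>
    rw [Set.mem_singleton_iff] at hx
    subst hx
    refine ⟨1, fun n hn => ?_⟩
    obtain ⟨k, rfl⟩ : ∃ k, n = k + 1 := ⟨n - 1, by omega⟩
    have : x⁻¹ ^ (k + 1) * x = x⁻¹ ^ k := by
      rw [pow_succ, mul_assoc, inv_mul_cancel₀ ht, mul_one]
    rw [this]
    exact Subalgebra.pow_mem _ htm k
  | algebraMap r =>
    exact ⟨0, fun n _ => Subalgebra.mul_mem _ (Subalgebra.pow_mem _ htm n)
      (Subalgebra.algebraMap_mem _ r)⟩
  | add x y _ _ hx hy =>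
    obtain ⟨N1, h1⟩ := hx
    obtain ⟨N2, h2⟩ := hy
    refine ⟨max N1 N2, fun n hn => ?_⟩
    rw [mul_add]
    exact Subalgebra.add_mem _ (h1 n (le_trans (le_max_left _ _) hn))
      (h2 n (le_trans (le_max_right _ _) hn))
  | mul x y _ _ hx hy =>
    obtain ⟨N1, h1⟩ := hx
    obtain ⟨N2, h2⟩ := hy
    refine ⟨N1 + N2, fun n hn => ?_⟩
    obtain ⟨k, rfl⟩ : ∃ k, n = N1 + k := ⟨n - N1, by omega⟩
    have : t⁻¹ ^ (N1 + k) * (x * y) = (t⁻¹ ^ N1 * x) * (t⁻¹ ^ k * y) := by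
      rw [pow_add]; ring
    rw [this]
    exact Subalgebra.mul_mem _ (h1 N1 le_rfl) (h2 k (by omega))

/-- every `x ∈ B₁` has `t^(-n) x ∈ B₂` for `n ≫ 0`. -/
theorem chart_exists_pow_mul_mem_intCl_inv (ht : t ≠ 0) {x : F} (hx : x ∈ intCl R t) :
    ∃ N : ℕ, ∀ n, N ≤ n → t⁻¹ ^ n * x ∈ intCl R t⁻¹ := by
  classical
  obtain ⟨p, hp, hp0⟩ := mem_intCl.1 hx
  have htm : t⁻¹ ∈ Algebra.adjoin R {t⁻¹} := Algebra.subset_adjoin (Set.mem_singleton _)
  -- a uniform bound for the coefficients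
  have h1 : ∀ j, ∃ N : ℕ, ∀ n, N ≤ n → t⁻¹ ^ n * ((p.coeff j : Algebra.adjoin R {t}) : F) ∈
      Algebra.adjoin R {t⁻¹} := fun j => chart_exists_pow_mul_mem_adjoin_inv ht (p.coeff j).2
  choose N hN using h1
  refine ⟨(Finset.range (p.natDegree + 1)).sup N, fun n hn => ?_⟩
  rw [mem_intCl]
  set P : F[X] := (p.map (algebraMap (Algebra.adjoin R {t}) F)).scaleRoots (t⁻¹ ^ n) with hP
  have hPm : P.Monic := (monic_scaleRoots_iff _).2 (hp.map _)
  have hdeg : (p.map (algebraMap (Algebra.adjoin R {t}) F)).natDegree = p.natDegree :=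
    hp.natDegree_map _
  have hlift : P ∈ Polynomial.lifts (algebraMap (Algebra.adjoin R {t⁻¹}) F) := by
    rw [Polynomial.lifts_iff_coeff_lifts]
    intro j
    rw [hP, coeff_scaleRoots, hdeg, coeff_map]
    rcases lt_trichotomy j p.natDegree with hj | hj | hj
    · obtain ⟨k, hk⟩ : ∃ k, p.natDegree - j = k + 1 := ⟨p.natDegree - j - 1, by omega⟩
      have hmem : t⁻¹ ^ n * ((p.coeff j : Algebra.adjoin R {t}) : F) ∈ Algebra.adjoin R {t⁻¹} :=
        hN j n (le_trans (Finset.le_sup (f := N) (Finset.mem_range.2 (by omega))) hn)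
      have hmem2 : (t⁻¹ ^ n) ^ k ∈ Algebra.adjoin R {t⁻¹} :=
        Subalgebra.pow_mem _ (Subalgebra.pow_mem _ htm n) k
      refine ⟨⟨_, Subalgebra.mul_mem _ hmem hmem2⟩, ?_⟩
      rw [hk, pow_succ]
      show t⁻¹ ^ n * ((p.coeff j : Algebra.adjoin R {t}) : F) * (t⁻¹ ^ n) ^ k = _
      show _ = ((p.coeff j : Algebra.adjoin R {t}) : F) * ((t⁻¹ ^ n) ^ k * t⁻¹ ^ n)
      ring
    · subst hj
      refine ⟨1, ?_⟩
      rw [Nat.sub_self, pow_zero, mul_one, map_one]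
      have : p.coeff p.natDegree = 1 := hp
      rw [this, map_one]
    · refine ⟨0, ?_⟩
      rw [coeff_eq_zero_of_natDegree_lt hj, map_zero, map_zero, zero_mul]
  obtain ⟨q, hq, -, hqm⟩ := Polynomial.lifts_and_natDegree_eq_and_monic hlift hPm
  refine ⟨q, hqm, ?_⟩
  rw [← Polynomial.eval_map, hq, hP]
  have h0 : (p.map (algebraMap (Algebra.adjoin R {t}) F)).eval x = 0 := by
    rw [Polynomial.eval_map]; exact hp0
  have := Polynomial.scaleRoots_eval₂_mul (p := p.map (algebraMap (Algebra.adjoin R {t}) F))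
    (RingHom.id F) x (t⁻¹ ^ n)
  simp only [RingHom.id_apply, Polynomial.eval₂_id] at this
  rw [this, h0, mul_zero]

/-- `z ∈ 𝔪` for `z : F` (membership in an ideal of a subring, as a predicate on `F`). -/
def InIdeal {B : Subring F} (𝔪 : Ideal B) (z : F) : Prop := ∃ h : z ∈ B, (⟨z, h⟩ : B) ∈ 𝔪

theorem InIdeal.mul_left {B : Subring F} {𝔪 : Ideal B} {z c : F} (hz : InIdeal 𝔪 z) (hc : c ∈ B) :
    InIdeal 𝔪 (c * z) := by
  obtain ⟨h, hm⟩ := hz
  exact ⟨B.mul_mem hc h, 𝔪.mul_mem_left ⟨c, hc⟩ hm⟩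

theorem InIdeal.add {B : Subring F} {𝔪 : Ideal B} {z w : F} (hz : InIdeal 𝔪 z)
    (hw : InIdeal 𝔪 w) : InIdeal 𝔪 (z + w) := by
  obtain ⟨h, hm⟩ := hz
  obtain ⟨h', hm'⟩ := hw
  exact ⟨B.add_mem h h', 𝔪.add_mem hm hm'⟩

theorem InIdeal.mem_or_mem {B : Subring F} {𝔪 : Ideal B} (h𝔪 : 𝔪.IsPrime) {z w : F} (hz : z ∈ B)
    (hw : w ∈ B) (h : InIdeal 𝔪 (z * w)) : InIdeal 𝔪 z ∨ InIdeal 𝔪 w := by
  obtain ⟨h1, hm⟩ := h
  have : (⟨z, hz⟩ * ⟨w, hw⟩ : B) ∈ 𝔪 := hm
  exact (h𝔪.mem_or_mem this).imp (fun h => ⟨hz, h⟩) (fun h => ⟨hw, h⟩)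

theorem chart_tinv_pow_mem (R : Type*) [CommRing R] {F : Type*} [Field F] [Algebra R F] (t : F)
    (n : ℕ) : t⁻¹ ^ n ∈ intCl R t⁻¹ :=
  (intCl R t⁻¹).pow_mem (tinvB R t).2 n

theorem not_inIdeal_tinv_pow {𝔪 : Ideal (intCl R t⁻¹)} (h𝔪 : 𝔪.IsPrime)
    (ht𝔪 : tinvB R t ∉ 𝔪) (n : ℕ) : ¬ InIdeal 𝔪 (t⁻¹ ^ n) := by
  rintro ⟨h, hm⟩
  have : (tinvB R t) ^ n ∈ 𝔪 := hm
  by_cases hn : n = 0
  · subst hn
    rw [pow_zero] at this
    exact h𝔪.ne_top ((Ideal.eq_top_iff_one _).2 this)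
  · exact ht𝔪 (h𝔪.mem_of_pow_mem _ this)

/-- the prime of the chart `t` defined by a prime of the chart `t⁻¹` not containing `t⁻¹`. -/
def transferIdeal (ht : t ≠ 0) (𝔪 : Ideal (intCl R t⁻¹)) : Ideal (intCl R t) where
  carrier := {x | ∃ n : ℕ, InIdeal 𝔪 (t⁻¹ ^ n * (x : F))}
  zero_mem' := ⟨0, by
    simp only [ZeroMemClass.coe_zero, mul_zero]
    exact ⟨(intCl R t⁻¹).zero_mem, 𝔪.zero_mem⟩⟩
  add_mem' := by
    rintro x y ⟨n1, h1⟩ ⟨n2, h2⟩
    refine ⟨n1 + n2, ?_⟩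
    have : t⁻¹ ^ (n1 + n2) * ((x + y : intCl R t) : F) =
        t⁻¹ ^ n2 * (t⁻¹ ^ n1 * (x : F)) + t⁻¹ ^ n1 * (t⁻¹ ^ n2 * (y : F)) := by
      rw [Subring.coe_add, pow_add]; ring
    rw [this]
    exact (h1.mul_left (chart_tinv_pow_mem R t n2)).add (h2.mul_left (chart_tinv_pow_mem R t n1))
  smul_mem' := by
    rintro c x ⟨n, h⟩
    obtain ⟨N, hN⟩ := chart_exists_pow_mul_mem_intCl_inv ht c.2
    refine ⟨N + n, ?_⟩
    have : t⁻¹ ^ (N + n) * ((c • x : intCl R t) : F) =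
        (t⁻¹ ^ N * (c : F)) * (t⁻¹ ^ n * (x : F)) := by
      rw [smul_eq_mul, Subring.coe_mul, pow_add]; ring
    rw [this]
    exact h.mul_left (hN N le_rfl)

theorem mem_transferIdeal (ht : t ≠ 0) {𝔪 : Ideal (intCl R t⁻¹)} {x : intCl R t} :
    x ∈ transferIdeal ht 𝔪 ↔ ∃ n : ℕ, InIdeal 𝔪 (t⁻¹ ^ n * (x : F)) := Iff.rfl

theorem transferIdeal_isPrime (ht : t ≠ 0) {𝔪 : Ideal (intCl R t⁻¹)} (h𝔪 : 𝔪.IsPrime)
    (ht𝔪 : tinvB R t ∉ 𝔪) : (transferIdeal ht 𝔪).IsPrime := by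
  refine ⟨?_, ?_⟩
  · intro htop
    have h1 : (1 : intCl R t) ∈ transferIdeal ht 𝔪 := htop ▸ Submodule.mem_top
    obtain ⟨n, hn⟩ := h1
    rw [Subring.coe_one, mul_one] at hn
    exact not_inIdeal_tinv_pow h𝔪 ht𝔪 n hn
  · intro x y hxy
    obtain ⟨n, hn⟩ := hxy
    obtain ⟨N1, h1⟩ := chart_exists_pow_mul_mem_intCl_inv ht x.2
    obtain ⟨N2, h2⟩ := chart_exists_pow_mul_mem_intCl_inv ht y.2
    have e : t⁻¹ ^ n * ((t⁻¹ ^ N1 * (x : F)) * (t⁻¹ ^ N2 * (y : F))) =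
        (t⁻¹ ^ N1 * t⁻¹ ^ N2) * (t⁻¹ ^ n * ((x * y : intCl R t) : F)) := by
      rw [Subring.coe_mul]; ring
    have h3 : InIdeal 𝔪 (t⁻¹ ^ n * ((t⁻¹ ^ N1 * (x : F)) * (t⁻¹ ^ N2 * (y : F)))) := by
      rw [e]
      exact hn.mul_left ((intCl R t⁻¹).mul_mem (chart_tinv_pow_mem R t N1) (chart_tinv_pow_mem R t N2))
    rcases InIdeal.mem_or_mem h𝔪 (chart_tinv_pow_mem R t n)
      ((intCl R t⁻¹).mul_mem (h1 N1 le_rfl) (h2 N2 le_rfl)) h3 with h4 | h4
    · exact absurd h4 (not_inIdeal_tinv_pow h𝔪 ht𝔪 n)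
    · rcases InIdeal.mem_or_mem h𝔪 (h1 N1 le_rfl) (h2 N2 le_rfl) h4 with h5 | h5
      · exact Or.inl ⟨N1, h5⟩
      · exact Or.inr ⟨N2, h5⟩

end Transfer

theorem ld_at_transfer (R : Type*) [CommRing R] {F : Type*} [Field F] [Algebra R F] {t : F}
    (ht : t ≠ 0) {m : ℕ} {g : F}
    (h₁ : LD (intCl R t) m g) (𝔪 : Ideal (intCl R t⁻¹)) (h𝔪 : 𝔪.IsMaximal)
    (ht𝔪 : tinvB R t ∉ 𝔪) : ∃ h : F, h ≠ 0 ∧ UnitAt (intCl R t⁻¹) 𝔪 (h ^ m * g) := by
  have hprime := transferIdeal_isPrime ht h𝔪.isPrime ht𝔪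
  obtain ⟨h, h0, s, s', hs, hs', e⟩ := h₁.at_prime (transferIdeal ht 𝔪)
  refine ⟨h, h0, ?_⟩
  obtain ⟨N1, h1⟩ := chart_exists_pow_mul_mem_intCl_inv ht s.2
  obtain ⟨N2, h2⟩ := chart_exists_pow_mul_mem_intCl_inv ht s'.2
  have hm1 := h1 (N1 + N2) (Nat.le_add_right _ _)
  have hm2 := h2 (N1 + N2) (Nat.le_add_left _ _)
  refine ⟨⟨_, hm1⟩, ⟨_, hm2⟩, fun hc => hs ⟨N1 + N2, hm1, hc⟩, fun hc => hs' ⟨N1 + N2, hm2, hc⟩, ?_⟩
  show h ^ m * g * (t⁻¹ ^ (N1 + N2) * (s' : F)) = t⁻¹ ^ (N1 + N2) * (s : F)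
  rw [← e]; ring

end Fermat.Agent.S36
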