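import Fermat.Agent.S36.Abs.Basic

/-!
# S36 / abstract part : `[COMP]` trivialisation along one component
-/

set_option autoImplicit false

namespace Fermat.Agent.S36

variable {F : Type*} [Field F]

/-- the prime ideal of `B` cut out by a valuation ring `O ⊇ B` -/
def centre (B : Subring F) (O : ValuationSubring F) (h : B ≤ O.toSubring) : Ideal B :=
  Ideal.comap (Subring.inclusion h) (IsLocalRing.maximalIdeal O)

theorem mem_centre {B : Subring F} {O : ValuationSubring F} (h : B ≤ O.toSubring) {b : B} :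
    b ∈ centre B O h ↔ O.valuation (b : F) < 1 := by
  unfold centre
  rw [Ideal.mem_comap, ValuationSubring.valuation_lt_one_iff]
  rfl

instance centre_isPrime {B : Subring F} {O : ValuationSubring F} (h : B ≤ O.toSubring) :
    (centre B O h).IsPrime :=
  Ideal.comap_isPrime _ _

/-- **(SAT)** `x ∈ B_𝔮`, `v_O(x) < 1`, `centre ≤ 𝔮` ⟹ `x ∈ 𝔮 B_𝔮`. -/
theorem zeroAt_of_valuation_lt {B : Subring F} {O : ValuationSubring F} (h : B ≤ O.toSubring)
    {𝔮 : Ideal B} (h𝔮 : centre B O h ≤ 𝔮) {x : F} (hx : MemAt B 𝔮 x) (hv : O.valuation x < 1) :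
    ZeroAt B 𝔮 x := by
  obtain ⟨s, t, ht, hxt⟩ := hx
  refine ⟨s, t, h𝔮 ((mem_centre h).2 ?_), ht, hxt⟩
  rw [← hxt, map_mul]
  have ht1 : O.valuation (t : F) ≤ 1 := (O.valuation_le_one_iff _).2 (h t.2)
  calc O.valuation x * O.valuation (t : F) ≤ O.valuation x * 1 := by gcongr
    _ < 1 := by simpa using hv

theorem comp_aux_val_f {O : ValuationSubring F} {f : F} (hf1 : O.valuation (f - 1) < 1) :
    O.valuation f = 1 := by
  have : f = 1 + (f - 1) := by ring
  rw [this]
  exact Valuation.map_one_add_of_lt _ hf1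

theorem comp_aux_pow {O : ValuationSubring F} {u b : F} (hu : O.valuation u ≤ 1)
    (hb : O.valuation b ≤ 1) (h : O.valuation (u - b) < 1) (n : ℕ) :
    O.valuation (u ^ n - b ^ n) < 1 := by
  induction n with
  | zero => simp
  | succ n ih =>
    have : u ^ (n + 1) - b ^ (n + 1) = u ^ n * (u - b) + (u ^ n - b ^ n) * b := by ring
    rw [this]
    refine Valuation.map_add_lt _ ?_ ?_
    · rw [map_mul, map_pow]
      calc O.valuation u ^ n * O.valuation (u - b) ≤ 1 * O.valuation (u - b) := by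
            gcongr; exact pow_le_one₀ zero_le hu
        _ < 1 := by simpa using h
    · rw [map_mul]
      calc O.valuation (u ^ n - b ^ n) * O.valuation b ≤ O.valuation (u ^ n - b ^ n) * 1 := by
            gcongr
        _ < 1 := by simpa using ih

/-- **[COMP]**  `O ⊇ B` a valuation ring with residue map `red : O → κ`; the image `Ob = red B` is
closed under `m`-th roots in `κ`; `f` is a unit of `O` with `red f = 1`; `M` is invertible (`LD`).
Then some `u ∈ M` has `red u = 1`.

Proof.  `u ∈ M ⟹ u ∈ O` and `(red u)^m = red (u^m f) ∈ Ob`, so `red u ∈ Ob`; `𝔞 := red M` is an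
ideal of `Ob`.  For a maximal ideal `𝔪 ⊇ centre`, `h` a local generator, `h^m f = s/t`:
`t h ∈ M` and `red (t h)^m = red (t^(m-1) s) ∉ 𝔪`.  So `𝔞` is contained in no maximal ideal. -/
theorem comp (B : Subring F) {m : ℕ} (hm : m ≠ 0) (hB : RootClosed B m) {f : F} (hf : f ≠ 0)
    (hLD : LD B m f) (O : ValuationSubring F) (hBO : B ≤ O.toSubring)
    (hroot : ∀ y : F, y ∈ O → (∃ b : B, O.valuation (y ^ m - (b : F)) < 1) →
      ∃ b : B, O.valuation (y - (b : F)) < 1)
    (hf1 : O.valuation (f - 1) < 1) :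
    ∃ u : F, u ^ m * f ∈ B ∧ O.valuation (u - 1) < 1 := by
  have hvf : O.valuation f = 1 := comp_aux_val_f hf1
  have hvB : ∀ b : B, O.valuation (b : F) ≤ 1 := fun b => (O.valuation_le_one_iff _).2 (hBO b.2)
  -- the ideal of reductions
  let 𝔞 : Ideal B :=
    { carrier := {b | ∃ u : F, u ∈ MM B m f ∧ O.valuation (u - (b : F)) < 1}
      zero_mem' := ⟨0, by
        show (0 : F) ^ m * f ∈ B
        rw [zero_pow hm, zero_mul]; exact B.zero_mem, by simp⟩
      add_mem' := by
        rintro a b ⟨u, hu, hua⟩ ⟨w, hw, hwb⟩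
        refine ⟨u + w, MM.add hm hB hLD hu hw, ?_⟩
        have : u + w - ((a + b : B) : F) = (u - a) + (w - b) := by push_cast; ring
        rw [this]
        exact Valuation.map_add_lt _ hua hwb
      smul_mem' := by
        rintro c b ⟨u, hu, hub⟩
        refine ⟨c * u, MM.smul c.2 hu, ?_⟩
        have : (c : F) * u - ((c • b : B) : F) = c * (u - b) := by
          simp only [smul_eq_mul, Subring.coe_mul]; ring
        rw [this, map_mul]
        calc O.valuation (c : F) * O.valuation (u - b) ≤ 1 * O.valuation (u - b) := by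
              gcongr; exact hvB c
          _ < 1 := by simpa using hub }
  have hmem : ∀ b : B, b ∈ 𝔞 ↔ ∃ u : F, u ∈ MM B m f ∧ O.valuation (u - (b : F)) < 1 :=
    fun _ => Iff.rfl
  have hcen : centre B O hBO ≤ 𝔞 := by
    intro b hb
    refine (hmem b).2 ⟨0, ?_, ?_⟩
    · show (0 : F) ^ m * f ∈ B
      rw [zero_pow hm, zero_mul]; exact B.zero_mem
    · rw [zero_sub, Valuation.map_neg]; exact (mem_centre hBO).1 hb
  have htop : 𝔞 = ⊤ := by
    by_contra hne
    obtain ⟨𝔪, h𝔪, hle⟩ := Ideal.exists_le_maximal 𝔞 hne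
    have := h𝔪.isPrime
    obtain ⟨h, hh0, s, t, hs, ht, hst⟩ := hLD 𝔪 h𝔪
    obtain ⟨k, rfl⟩ : ∃ k, m = k + 1 := ⟨m - 1, by omega⟩
    set u : F := t * h with hu
    have hum : u ^ (k + 1) * f = ((t ^ k * s : B) : F) := by
      push_cast
      rw [← hst, hu]; ring
    have huM : u ∈ MM B (k + 1) f := by
      rw [mem_MM, hum]; exact (t ^ k * s : B).2
    have hvu : O.valuation u ≤ 1 := by
      have h1 : O.valuation u ^ (k + 1) ≤ 1 := by
        have := hvB (t ^ k * s)
        rw [← hum, map_mul, hvf, mul_one, map_pow] at this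
        exact this
      exact (pow_le_one_iff_of_nonneg zero_le (Nat.succ_ne_zero k)).1 h1
    have hcong : O.valuation (u ^ (k + 1) - ((t ^ k * s : B) : F)) < 1 := by
      rw [← hum]
      have : u ^ (k + 1) - u ^ (k + 1) * f = - (u ^ (k + 1) * (f - 1)) := by ring
      rw [this, Valuation.map_neg, map_mul, map_pow]
      calc O.valuation u ^ (k + 1) * O.valuation (f - 1) ≤ 1 * O.valuation (f - 1) := by
            gcongr; exact pow_le_one₀ zero_le hvu
        _ < 1 := by simpa using hf1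
    obtain ⟨b, hb⟩ := hroot u ((O.valuation_le_one_iff _).1 hvu) ⟨_, hcong⟩
    have hb𝔪 : b ∈ 𝔪 := hle ((hmem b).2 ⟨u, huM, hb⟩)
    -- `b ^ (k+1) ≡ u ^ (k+1)`
    have hpow : O.valuation (u ^ (k + 1) - (b : F) ^ (k + 1)) < 1 :=
      comp_aux_pow hvu (hvB b) hb _
    have hdiff : (b ^ (k + 1) - t ^ k * s : B) ∈ centre B O hBO := by
      rw [mem_centre]
      have : ((b ^ (k + 1) - t ^ k * s : B) : F)
          = (u ^ (k + 1) - ((t ^ k * s : B) : F)) - (u ^ (k + 1) - (b : F) ^ (k + 1)) := by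
        push_cast; ring
      rw [this]
      exact Valuation.map_sub_lt _ hcong hpow
    have h1 : (t ^ k * s : B) ∈ 𝔪 := by
      have h2 := hle (hcen hdiff)
      have h3 : b ^ (k + 1) ∈ 𝔪 := Ideal.pow_mem_of_mem _ hb𝔪 _ (Nat.succ_pos k)
      have := 𝔪.sub_mem h3 h2
      simpa using this
    rcases h𝔪.isPrime.mem_or_mem h1 with h2 | h2
    · exact ht (h𝔪.isPrime.mem_of_pow_mem _ h2)
    · exact hs h2
  obtain ⟨u, hu, hu1⟩ := (hmem 1).1 (htop ▸ Submodule.mem_top)
  exact ⟨u, hu, by simpa using hu1⟩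

end Fermat.Agent.S36
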