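import Fermat.Agent.SS.Connected

/-!
# S36 / abstract part : `[CONN36]` a line bundle of order `m` which is trivial modulo `π` is trivial

Two charts `t ≠ ∞`, `t ≠ 0` of a proper normal curve over a rank one valuation ring `R`.
`B₁`, `B₂` are the integral closures of `R[t]`, `R[t⁻¹]` in `F`.

Proof (inside `F`, no auxiliary algebra, no roots of unity).  `M_c := {u | u ^ m * f ∈ B_c}` is a
`B_c`-module.  *Newton*: `v_c` can be improved to `x_c = s_c v_c` with `x_c ^ m f ∈ 1 + π ^ n B_c`.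
*Comparison*: `x₁ - x₂ ∈ π ^ n 𝓜`, where `𝓜 = 𝓞 v₂ + 𝓞 μ` and `𝓞` is a ring, finite over
`R[t, t⁻¹]`, containing `b₁, b₂` and all `v₂ ^ (m - l) μ ^ l f`.  *Čech*: `𝓜 / (M₁ + M₂)` is a finitely
generated `R`-module, so its `π`-power torsion is bounded; hence `x₁ - π a₁ = x₂ + π a₂ =: ε`
with `a_c ∈ M_c`, and `ε ^ m f ∈ B₁ ∩ B₂ = R` is `≡ 1 mod π B₁`.
-/

set_option autoImplicit false

open Polynomial Pointwise

namespace Fermat.Agent.S36.Conn

section S0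


variable {R F : Type*} [CommRing R] [Field F] [Algebra R F]

/-- elements of `R[s]` become elements of `R[s⁻¹]` after multiplication by a high power of `s⁻¹` -/
theorem exists_pow_mul_mem_adjoin_inv (s : F) (hs : s ≠ 0) {c : F} (hc : c ∈ Algebra.adjoin R {s}) :
    ∃ D₀ : ℕ, ∀ D, D₀ ≤ D → s⁻¹ ^ D * c ∈ Algebra.adjoin R {s⁻¹} := by
  have hsi : s⁻¹ ∈ Algebra.adjoin R {s⁻¹} := Algebra.subset_adjoin rfl
  induction hc using Algebra.adjoin_induction with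
  | mem x hx =>
    obtain rfl : x = s := hx
    refine ⟨1, fun D hD => ?_⟩
    obtain ⟨D', rfl⟩ : ∃ D', D = D' + 1 := ⟨D - 1, by omega⟩
    rw [pow_succ, mul_assoc, inv_mul_cancel₀ hs, mul_one]
    exact pow_mem hsi _
  | algebraMap r =>
    exact ⟨0, fun D _ => mul_mem (pow_mem hsi _) (Subalgebra.algebraMap_mem _ r)⟩
  | add x y _ _ hx hy =>
    obtain ⟨D₁, h₁⟩ := hx
    obtain ⟨D₂, h₂⟩ := hy
    refine ⟨max D₁ D₂, fun D hD => ?_⟩
    rw [mul_add]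
    exact add_mem (h₁ D (le_trans (le_max_left _ _) hD)) (h₂ D (le_trans (le_max_right _ _) hD))
  | mul x y _ _ hx hy =>
    obtain ⟨D₁, h₁⟩ := hx
    obtain ⟨D₂, h₂⟩ := hy
    refine ⟨D₁ + D₂, fun D hD => ?_⟩
    obtain ⟨D', rfl⟩ : ∃ D', D = D₁ + D' := ⟨D - D₁, by omega⟩
    have : s⁻¹ ^ (D₁ + D') * (x * y) = (s⁻¹ ^ D₁ * x) * (s⁻¹ ^ D' * y) := by
      rw [pow_add]; ring
    rw [this]
    exact mul_mem (h₁ D₁ le_rfl) (h₂ D' (by omega))

/-- **twisting**: integral over `R[s]` ⟹ integral over `R[s⁻¹]` after multiplication by `s⁻ᵈ`. -/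
theorem exists_isIntegral_inv_pow_mul (s : F) (hs : s ≠ 0) {x : F}
    (hx : IsIntegral (Algebra.adjoin R {s}) x) :
    ∃ d : ℕ, IsIntegral (Algebra.adjoin R {s⁻¹}) (s⁻¹ ^ d * x) := by
  classical
  obtain ⟨p, hp, hpx⟩ := hx
  set P₁ := Algebra.adjoin R {s}
  set P₂ := Algebra.adjoin R {s⁻¹}
  set pF : F[X] := p.map (algebraMap P₁ F) with hpF
  have hpFm : pF.Monic := hp.map _
  have hroot : pF.eval x = 0 := by rw [hpF, eval_map]; exact hpx
  have hcoef : ∀ i, ∃ D₀ : ℕ, ∀ D, D₀ ≤ D → s⁻¹ ^ D * pF.coeff i ∈ P₂ := by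
    intro i
    rw [hpF, coeff_map]
    exact exists_pow_mul_mem_adjoin_inv s hs (p.coeff i).2
  choose D₀ hD₀ using hcoef
  set k := pF.natDegree with hk
  set D := ∑ i ∈ Finset.range k, D₀ i with hD
  refine ⟨D, ?_⟩
  set qF : F[X] := scaleRoots pF (s⁻¹ ^ D) with hqF
  have hqm : qF.Monic := (monic_scaleRoots_iff _).2 hpFm
  have hqroot : qF.eval (s⁻¹ ^ D * x) = 0 := by
    have := scaleRoots_eval₂_eq_zero (RingHom.id F) (p := pF) (r := x) (s := s⁻¹ ^ D)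
      (by simpa using hroot)
    rw [eval₂_id, RingHom.id_apply] at this
    exact this
  have hlift : qF ∈ lifts (algebraMap P₂ F) := by
    rw [lifts_iff_coeff_lifts]
    intro i
    rw [hqF, coeff_scaleRoots]
    rcases lt_trichotomy i k with hi | hi | hi
    · have h1 : D₀ i ≤ D * (k - i) := by
        have h2 : D₀ i ≤ D := Finset.single_le_sum (f := D₀) (fun _ _ => Nat.zero_le _)
          (Finset.mem_range.2 hi)
        calc D₀ i ≤ D := h2
          _ = D * 1 := (mul_one _).symm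
          _ ≤ D * (k - i) := Nat.mul_le_mul_left _ (by omega)
      have := hD₀ i _ h1
      rw [← pow_mul, mul_comm]
      exact ⟨⟨_, this⟩, rfl⟩
    · subst hi
      rw [Nat.sub_self, pow_zero, mul_one, hk]
      have : pF.coeff pF.natDegree = 1 := hpFm
      rw [this]
      exact ⟨1, map_one _⟩
    · rw [coeff_eq_zero_of_natDegree_lt hi, zero_mul]
      exact ⟨0, map_zero _⟩
  obtain ⟨q, hq, -, hqmon⟩ := lifts_and_natDegree_eq_and_monic hlift hqm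
  refine ⟨q, hqmon, ?_⟩
  rw [← eval_map, hq]
  exact hqroot


end S0

section S1


theorem exists_one_add_pow {S : Type*} [CommRing S] (w : S) (m : ℕ) :
    ∃ c : S, (1 + w) ^ m = 1 + m * w + w ^ 2 * c := by
  induction m with
  | zero => exact ⟨0, by simp⟩
  | succ m ih =>
    obtain ⟨c, hc⟩ := ih
    refine ⟨m + c + c * w, ?_⟩
    rw [pow_succ, hc]
    push_cast
    ring

variable {F : Type*} [Field F]

/-- **Newton**: improve an approximate `m`-th root of `1 / f`. -/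
theorem newton (O : Subring F) {m : ℕ} {π q f v b : F} (hπ : π ∈ O) (hq : q ∈ O)
    (hmq : (m : F) * q = 1) (hb : b ∈ O) (h : v ^ m * f = 1 + π * b) (n : ℕ) :
    ∃ s ∈ O, ∃ b' ∈ O, (s * v) ^ m * f = 1 + π ^ (n + 1) * b' ∧ ∃ c ∈ O, s - 1 = π * c := by
  induction n with
  | zero => exact ⟨1, O.one_mem, b, hb, by simpa using h, 0, O.zero_mem, by simp⟩
  | succ n ih =>
    obtain ⟨s, hs, b', hb', h1, c, hc, h2⟩ := ih
    set u : F := π ^ (n + 1) * b' with hu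
    have huO : u ∈ O := O.mul_mem (O.pow_mem hπ _) hb'
    obtain ⟨d, hd⟩ := exists_one_add_pow (S := O) (-(⟨q, hq⟩ * ⟨u, huO⟩)) m
    have hd' : (1 + -(q * u)) ^ m = 1 + m * -(q * u) + (-(q * u)) ^ 2 * (d : F) := by
      have := congrArg (Subtype.val) hd
      simpa using this
    refine ⟨s * (1 + -(q * u)), O.mul_mem hs (O.add_mem O.one_mem (O.neg_mem (O.mul_mem hq huO))),
      π ^ n * b' ^ 2 * (q ^ 2 * d * (1 + u) - 1), ?_, ?_, c + -(s * q * π ^ n * b'), ?_, ?_⟩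
    · exact O.mul_mem (O.mul_mem (O.pow_mem hπ _) (O.pow_mem hb' _))
        (O.sub_mem (O.mul_mem (O.mul_mem (O.pow_mem hq _) d.2) (O.add_mem O.one_mem huO)) O.one_mem)
    · have e1 : (s * (1 + -(q * u)) * v) ^ m * f = ((s * v) ^ m * f) * (1 + -(q * u)) ^ m := by
        rw [mul_pow, mul_pow, mul_pow]; ring
      rw [e1, h1, hd']
      have e2 : (m : F) * -(q * u) = -u := by
        rw [mul_neg, ← mul_assoc, hmq, one_mul]
      rw [e2]
      have e3 : π ^ (n + 1 + 1) * (π ^ n * b' ^ 2 * (q ^ 2 * d * (1 + u) - 1))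
          = u ^ 2 * (q ^ 2 * d * (1 + u) - 1) := by
        rw [hu]; ring
      rw [e3]; ring
    · exact O.add_mem hc (O.neg_mem (O.mul_mem (O.mul_mem (O.mul_mem hs hq) (O.pow_mem hπ _)) hb'))
    · have : s * (1 + -(q * u)) - 1 = (s - 1) - s * q * u := by ring
      rw [this, h2, hu]; ring

/-- bounded torsion -/
theorem bounded_torsion {A V : Type*} [CommRing A] [IsDomain A] [AddCommGroup V] [Module A V]
    (Q G N : Submodule A V) (hG : G.FG) (hN : N ≤ Q ⊔ G) {π : A}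
    (harch : ∀ c : A, c ≠ 0 → ∃ n : ℕ, c ∣ π ^ n) (hπ : π ≠ 0) :
    ∃ n₀ : ℕ, ∀ (n : ℕ) (x : V), x ∈ N → π ^ n • x ∈ Q → π ^ n₀ • x ∈ Q := by
  set W : Submodule A (V ⧸ Q) := G.map Q.mkQ with hW
  have : Module.Finite A W := Module.Finite.iff_fg.mpr (hG.map _)
  obtain ⟨c, hc0, hc⟩ := SS.exists_ne_zero_smul_torsion_eq_zero (A := A) (M := W)
  obtain ⟨n₀, d, hd⟩ := harch c hc0
  refine ⟨n₀, fun n x hx hnx => ?_⟩
  obtain ⟨y, hy, g, hg, rfl⟩ := Submodule.mem_sup.1 (hN hx)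
  have hgW : Q.mkQ g ∈ W := Submodule.mem_map_of_mem hg
  have h1 : π ^ n • g ∈ Q := by
    have : π ^ n • g = π ^ n • (y + g) - π ^ n • y := by rw [smul_add]; abel
    rw [this]
    exact Q.sub_mem hnx (Q.smul_mem _ hy)
  have h2 : c • (⟨Q.mkQ g, hgW⟩ : W) = 0 := by
    refine hc _ ⟨π ^ n, pow_ne_zero _ hπ, ?_⟩
    apply Subtype.ext
    show π ^ n • Q.mkQ g = 0
    rw [← map_smul]
    exact (Submodule.Quotient.mk_eq_zero Q).2 h1
  have h3 : c • g ∈ Q := by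
    have := congrArg Subtype.val h2
    have h4 : c • Q.mkQ g = 0 := this
    rw [← map_smul] at h4
    exact (Submodule.Quotient.mk_eq_zero Q).1 h4
  rw [smul_add]
  refine Q.add_mem (Q.smul_mem _ hy) ?_
  rw [hd, mul_comm, mul_smul]
  exact Q.smul_mem _ h3


end S1

section S2


variable {R F : Type*} [CommRing R] [Field F] [Algebra R F]

theorem mul_mem_of_mem (O : Subalgebra R F) (M : Submodule O F) {a z : F} (ha : a ∈ O)
    (hz : z ∈ M) : a * z ∈ M := M.smul_mem ⟨a, ha⟩ hz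

theorem exists_add_pow_eq (O : Subalgebra R F) (M : Submodule O F) {y ν : F} (hy : y ∈ M)
    (hν : ν ∈ M) {ϖ : F} (hϖ : ϖ ∈ O) (k : ℕ) :
    ∃ r ∈ M ^ k, (y + ϖ * ν) ^ k = y ^ k + k * (y ^ (k - 1) * (ϖ * ν)) + ϖ ^ 2 * r := by
  induction k with
  | zero => exact ⟨0, Submodule.zero_mem _, by simp⟩
  | succ k ih =>
    obtain ⟨r, hr, h⟩ := ih
    rcases Nat.eq_zero_or_pos k with rfl | hk
    · exact ⟨0, Submodule.zero_mem _, by simp⟩
    · obtain ⟨k', rfl⟩ : ∃ k', k = k' + 1 := ⟨k - 1, by omega⟩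
      refine ⟨(k' + 1) • (y ^ k' * ν ^ 2) + r * y + ϖ * (r * ν), ?_, ?_⟩
      · have h1 : y ^ k' * ν ^ 2 ∈ M ^ (k' + 1 + 1) := by
          have : M ^ (k' + 1 + 1) = M ^ k' * M ^ 2 := by rw [← pow_add]
          rw [this]
          exact Submodule.mul_mem_mul (Submodule.pow_mem_pow _ hy _) (Submodule.pow_mem_pow _ hν _)
        have h2 : r * y ∈ M ^ (k' + 1 + 1) := by
          rw [pow_succ (M) (k' + 1)]
          exact Submodule.mul_mem_mul hr hy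
        have h3 : r * ν ∈ M ^ (k' + 1 + 1) := by
          rw [pow_succ (M) (k' + 1)]
          exact Submodule.mul_mem_mul hr hν
        exact add_mem (add_mem (Submodule.smul_of_tower_mem _ _ h1) h2) (mul_mem_of_mem O _ hϖ h3)
      · rw [pow_succ, h]
        simp only [Nat.add_sub_cancel, nsmul_eq_mul]
        push_cast
        ring

/-- **comparison** of two approximate roots. -/
theorem compare (O : Subalgebra R F) (M : Submodule O F) {m : ℕ} (hm : m ≠ 0) {f π q : F}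
    (hprod : ∀ z ∈ M ^ m, z * f ∈ O) (hπ : π ∈ O) (hπ0 : π ≠ 0) (hq : q ∈ O)
    (hmq : (m : F) * q = 1) {x y b₁ b₂ : F} (hy : y ∈ M) (n : ℕ)
    (hb₁ : b₁ ∈ O) (hb₂ : b₂ ∈ O) (hx1 : x ^ m * f = 1 + π ^ (n + 1) * b₁)
    (hy1 : y ^ m * f = 1 + π ^ (n + 1) * b₂) (hxy : ∃ ν ∈ M, x - y = π * ν) :
    ∃ ν ∈ M, x - y = π ^ (n + 1) * ν := by
  suffices H : ∀ j, j ≤ n → ∃ ν ∈ M, x - y = π ^ (j + 1) * ν from H n le_rfl
  intro j
  induction j with
  | zero => intro _; simpa using hxy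
  | succ j ih =>
    intro hj
    obtain ⟨ν, hν, h⟩ := ih (by omega)
    obtain ⟨m', rfl⟩ : ∃ m', m = m' + 1 := ⟨m - 1, by omega⟩
    have hϖ : π ^ (j + 1) ∈ O := pow_mem hπ _
    obtain ⟨r, hr, hexp⟩ := exists_add_pow_eq O M hy hν hϖ (m' + 1)
    have hx : x = y + π ^ (j + 1) * ν := by rw [← h]; ring
    set T : F := y ^ m' * ν * f with hT
    have hTO : T ∈ O := by
      apply hprod
      rw [pow_succ]
      exact Submodule.mul_mem_mul (Submodule.pow_mem_pow _ hy _) hν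
    have hrO : r * f ∈ O := hprod r hr
    obtain ⟨e, he⟩ : ∃ e, n = j + 1 + e := ⟨n - (j + 1), by omega⟩
    -- the key relation
    have key : ((m' + 1 : ℕ) : F) * T = π * (π ^ e * (b₁ - b₂) - π ^ j * (r * f)) := by
      have h1 : x ^ (m' + 1) * f - y ^ (m' + 1) * f = π ^ (n + 1) * (b₁ - b₂) := by
        rw [hx1, hy1]; ring
      rw [hx, hexp] at h1
      simp only [Nat.add_sub_cancel] at h1
      have h2 : π ^ (j + 1) * (((m' + 1 : ℕ) : F) * T)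
          = π ^ (j + 1) * (π * (π ^ e * (b₁ - b₂) - π ^ j * (r * f))) := by
        have e1 : π ^ (n + 1) = π ^ (j + 1) * (π * π ^ e) := by rw [he]; ring
        rw [e1] at h1
        rw [hT]
        linear_combination h1
      exact mul_left_cancel₀ (pow_ne_zero _ hπ0) h2
    set ρ : F := q * (π ^ e * (b₁ - b₂) - π ^ j * (r * f)) with hρ
    have hρO : ρ ∈ O := mul_mem hq (sub_mem (mul_mem (pow_mem hπ _) (sub_mem hb₁ hb₂))
      (mul_mem (pow_mem hπ _) hrO))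
    have hTρ : T = π * ρ := by
      have : T = q * (((m' + 1 : ℕ) : F) * T) := by
        rw [← mul_assoc, mul_comm q, hmq, one_mul]
      rw [this, key, hρ]; ring
    refine ⟨ρ * y - π ^ n * b₂ * ν, sub_mem (mul_mem_of_mem O M hρO hy)
      (mul_mem_of_mem O M (mul_mem (pow_mem hπ _) hb₂) hν), ?_⟩
    have h3 : T * y = (1 + π ^ (n + 1) * b₂) * ν := by
      rw [← hy1, hT]; ring
    have h4 : ν = π * (ρ * y - π ^ n * b₂ * ν) := by
      have : ν = T * y - π ^ (n + 1) * b₂ * ν := by rw [h3]; ring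
      rw [hTρ] at this
      linear_combination this
    rw [h]
    conv_lhs => rw [h4]
    ring


end S2

section S3


variable {R F : Type*} [CommRing R] [Field F] [Algebra R F]

theorem mixed_mem (B : Subring F) {m : ℕ} (hroot : ∀ y : F, y ^ m ∈ B → y ∈ B) {f u v : F}
    (hu : u ^ m * f ∈ B) (hv : v ^ m * f ∈ B) {i : ℕ} (hi : i ≤ m) :
    u ^ i * v ^ (m - i) * f ∈ B := by
  apply hroot
  obtain ⟨j, rfl⟩ : ∃ j, m = i + j := ⟨m - i, by omega⟩
  have : (u ^ i * v ^ (i + j - i) * f) ^ (i + j) = (u ^ (i + j) * f) ^ i * (v ^ (i + j) * f) ^ j := by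
    rw [Nat.add_sub_cancel_left]
    ring
  rw [this]
  exact B.mul_mem (B.pow_mem hu _) (B.pow_mem hv _)

/-- the `R`-module `{u | u ^ m * f ∈ B}` -/
def rootModule (B : Subring F) (m : ℕ) (hm : m ≠ 0) (hroot : ∀ y : F, y ^ m ∈ B → y ∈ B)
    (haB : ∀ r : R, algebraMap R F r ∈ B) (f : F) : Submodule R F where
  carrier := {u | u ^ m * f ∈ B}
  zero_mem' := by
    show (0 : F) ^ m * f ∈ B
    rw [zero_pow hm, zero_mul]; exact B.zero_mem
  add_mem' := by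
    intro u v hu hv
    show (u + v) ^ m * f ∈ B
    rw [add_pow, Finset.sum_mul]
    refine B.sum_mem fun i hi => ?_
    have h1 := mixed_mem B hroot hu hv (Nat.lt_succ_iff.1 (Finset.mem_range.1 hi))
    have : u ^ i * v ^ (m - i) * (m.choose i : F) * f = (m.choose i : F) * (u ^ i * v ^ (m - i) * f) := by
      ring
    rw [this]
    exact B.mul_mem (natCast_mem B _) h1
  smul_mem' := by
    intro r u hu
    show (r • u) ^ m * f ∈ B
    rw [Algebra.smul_def, mul_pow, mul_assoc]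
    exact B.mul_mem (B.pow_mem (haB r) _) hu

theorem mem_rootModule {B : Subring F} {m : ℕ} {hm : m ≠ 0} {hroot : ∀ y : F, y ^ m ∈ B → y ∈ B}
    {haB : ∀ r : R, algebraMap R F r ∈ B} {f u : F} :
    u ∈ rootModule B m hm hroot haB f ↔ u ^ m * f ∈ B := Iff.rfl

theorem mem_pair_pow {v μ x : F} {k : ℕ} (hx : x ∈ ({v, μ} : Set F) ^ k) :
    ∃ l, l ≤ k ∧ x = v ^ (k - l) * μ ^ l := by
  induction k generalizing x with
  | zero =>
    rw [pow_zero] at hx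
    obtain rfl : x = 1 := hx
    exact ⟨0, le_rfl, by simp⟩
  | succ k ih =>
    rw [pow_succ] at hx
    obtain ⟨a, ha, b, hb, rfl⟩ := Set.mem_mul.1 hx
    obtain ⟨l, hl, rfl⟩ := ih ha
    rcases hb with rfl | hb
    · refine ⟨l, by omega, ?_⟩
      have : k + 1 - l = (k - l) + 1 := by omega
      rw [this, pow_succ]; ring
    · obtain rfl : b = μ := hb
      refine ⟨l + 1, by omega, ?_⟩
      have : k + 1 - (l + 1) = k - l := by omega
      rw [this, pow_succ]; ring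

/-- `t ^ i * w` lies in `M₁` for `i ≫ 0`, in `M₂` for `i ≪ 0`. -/
theorem exists_fg_zpow (M₁ M₂ : Submodule R F) (t w : F)
    (h : ∃ N : ℕ, (∀ k : ℕ, N ≤ k → t ^ k * w ∈ M₁) ∧ (∀ k : ℕ, N ≤ k → t⁻¹ ^ k * w ∈ M₂)) :
    ∃ G : Submodule R F, G.FG ∧ ∀ i : ℤ, t ^ i * w ∈ M₁ ⊔ M₂ ⊔ G := by
  obtain ⟨N, h₁, h₂⟩ := h
  refine ⟨Submodule.span R ((fun i : ℤ => t ^ i * w) '' (Finset.Icc (-(N : ℤ)) N : Finset ℤ)),
    Submodule.fg_span ((Finset.finite_toSet _).image _), fun i => ?_⟩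
  rcases le_or_gt (N : ℤ) i with hi | hi
  · obtain ⟨k, rfl⟩ := Int.eq_ofNat_of_zero_le (le_trans (Int.natCast_nonneg N) hi)
    rw [zpow_natCast]
    exact Submodule.mem_sup_left (Submodule.mem_sup_left (h₁ k (by exact_mod_cast hi)))
  · rcases le_or_gt i (-(N : ℤ)) with hi' | hi'
    · obtain ⟨k, hk⟩ := Int.eq_ofNat_of_zero_le (a := -i) (by omega)
      have : t ^ i = t⁻¹ ^ k := by
        rw [inv_pow, ← zpow_natCast, ← hk, zpow_neg, inv_inv]
      rw [this]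
      exact Submodule.mem_sup_left (Submodule.mem_sup_right (h₂ k (by omega)))
    · refine Submodule.mem_sup_right (Submodule.subset_span ⟨i, ?_, rfl⟩)
      simp only [Finset.coe_Icc, Set.mem_Icc]
      omega


end S3

end Fermat.Agent.S36.Conn

namespace Fermat.Agent.S36

open Conn in
theorem conn36 {R F : Type*} [CommRing R] [IsDomain R] [ValuationRing R] [Field F] [Algebra R F]
    (hinj : Function.Injective (algebraMap R F))
    (π : R) (hπ0 : π ≠ 0) (hπ : ¬ IsUnit π) (harch : ∀ c : R, c ≠ 0 → ∃ n : ℕ, c ∣ π ^ n)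
    (t : F) (ht : t ≠ 0) (B₁ B₂ : Subring F)
    (hB₁ : ∀ x, x ∈ B₁ ↔ IsIntegral (Algebra.adjoin R {t}) x)
    (hB₂ : ∀ x, x ∈ B₂ ↔ IsIntegral (Algebra.adjoin R {t⁻¹}) x)
    (hglob : ∀ x, x ∈ B₁ → x ∈ B₂ → x ∈ Set.range (algebraMap R F))
    (hπB : ∀ b ∈ B₁, algebraMap R F π * b ≠ 1)
    (m : ℕ) (hm : IsUnit ((m : ℕ) : R)) (ζ : R) (hζ : IsPrimitiveRoot ζ m)
    (f v₁ v₂ μ : F) (hf : f ≠ 0)
    (h₁ : ∃ b ∈ B₁, v₁ ^ m * f = 1 + algebraMap R F π * b)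
    (h₂ : ∃ b ∈ B₂, v₂ ^ m * f = 1 + algebraMap R F π * b)
    (h₁₂ : v₁ - v₂ = algebraMap R F π * μ) (hμ : ∃ n : ℕ, t ^ n * (μ ^ m * f) ∈ B₁) :
    ∃ (c : R) (g : F), c ≠ 0 ∧ g ≠ 0 ∧ f = algebraMap R F c * g ^ m := by
  classical
  have hm0 : m ≠ 0 := by
    rintro rfl
    simp at hm
  obtain ⟨q, hq⟩ := hm.exists_right_inv
  have hmq : (m : F) * algebraMap R F q = 1 := by
    rw [← map_natCast (algebraMap R F), ← map_mul, hq, map_one]
  have hπF : algebraMap R F π ≠ 0 := by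
    rw [Ne, map_eq_zero_iff _ hinj]; exact hπ0
  -- basic facts on `B₁`, `B₂`
  have haB₁ : ∀ r : R, algebraMap R F r ∈ B₁ := fun r => by
    rw [hB₁]
    exact (isIntegral_algebraMap (R := Algebra.adjoin R {t}) (x := algebraMap R _ r))
  have haB₂ : ∀ r : R, algebraMap R F r ∈ B₂ := fun r => by
    rw [hB₂]
    exact (isIntegral_algebraMap (R := Algebra.adjoin R {t⁻¹}) (x := algebraMap R _ r))
  have htB₁ : t ∈ B₁ := by
    rw [hB₁]
    exact (isIntegral_algebraMap (R := Algebra.adjoin R {t})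
      (x := ⟨t, Algebra.subset_adjoin rfl⟩))
  have htB₂ : t⁻¹ ∈ B₂ := by
    rw [hB₂]
    exact (isIntegral_algebraMap (R := Algebra.adjoin R {t⁻¹})
      (x := ⟨t⁻¹, Algebra.subset_adjoin rfl⟩))
  have hroot₁ : ∀ y : F, y ^ m ∈ B₁ → y ∈ B₁ := fun y hy => by
    rw [hB₁] at hy ⊢
    exact IsIntegral.of_pow (Nat.pos_of_ne_zero hm0) hy
  have hroot₂ : ∀ y : F, y ^ m ∈ B₂ → y ∈ B₂ := fun y hy => by
    rw [hB₂] at hy ⊢
    exact IsIntegral.of_pow (Nat.pos_of_ne_zero hm0) hy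
  have tw₁₂ : ∀ x ∈ B₁, ∃ d : ℕ, t⁻¹ ^ d * x ∈ B₂ := fun x hx => by
    obtain ⟨d, hd⟩ := exists_isIntegral_inv_pow_mul t ht ((hB₁ x).1 hx)
    exact ⟨d, (hB₂ _).2 hd⟩
  have tw₂₁ : ∀ x ∈ B₂, ∃ d : ℕ, t ^ d * x ∈ B₁ := fun x hx => by
    obtain ⟨d, hd⟩ := exists_isIntegral_inv_pow_mul t⁻¹ (inv_ne_zero ht) ((hB₂ x).1 hx)
    rw [inv_inv] at hd
    exact ⟨d, (hB₁ _).2 hd⟩
  obtain ⟨b₁, hb₁, hv₁⟩ := h₁
  obtain ⟨b₂, hb₂, hv₂⟩ := h₂
  obtain ⟨n, hn⟩ := hμ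
  obtain ⟨e₂, he₂⟩ := tw₂₁ b₂ hb₂
  set a : R →+* F := algebraMap R F with ha
  set e : ℕ := e₂ + n with he
  set w : ℕ → F := fun l => v₂ ^ (m - l) * μ ^ l * f with hw
  have hteb₂ : t ^ e * b₂ ∈ B₁ := by
    have : t ^ e * b₂ = t ^ n * (t ^ e₂ * b₂) := by rw [he, pow_add]; ring
    rw [this]
    exact B₁.mul_mem (B₁.pow_mem htB₁ _) he₂
  have hwB : ∀ l, l ≤ m → t ^ e * w l ∈ B₁ := by
    intro l hl
    apply hroot₁
    obtain ⟨j, rfl⟩ : ∃ j, m = l + j := ⟨m - l, by omega⟩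
    have h1 : t ^ e₂ * (v₂ ^ (l + j) * f) ∈ B₁ := by
      rw [hv₂, mul_add, mul_one]
      have : t ^ e₂ * (a π * b₂) = a π * (t ^ e₂ * b₂) := by ring
      rw [this]
      exact B₁.add_mem (B₁.pow_mem htB₁ _) (B₁.mul_mem (haB₁ π) he₂)
    have : (t ^ e * w l) ^ (l + j) = t ^ (e₂ * l + n * j) * (t ^ e₂ * (v₂ ^ (l + j) * f)) ^ j
        * (t ^ n * (μ ^ (l + j) * f)) ^ l := by
      simp only [hw, he, Nat.add_sub_cancel_left]
      ring
    rw [this]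
    exact B₁.mul_mem (B₁.mul_mem (B₁.pow_mem htB₁ _) (B₁.pow_mem h1 _)) (B₁.pow_mem hn _)
  -- the finite `R[t]`-algebra `O₁`
  set P₁ := Algebra.adjoin R {t} with hP₁
  set S : Set F := {b₁, t ^ e * b₂} ∪ (fun l => t ^ e * w l) '' (Finset.range (m + 1) : Finset ℕ)
    with hS
  have hSfin : S.Finite := (Set.toFinite _).union ((Finset.finite_toSet _).image _)
  have hSB : ∀ x ∈ S, x ∈ B₁ := by
    rintro x (hx | ⟨l, hl, rfl⟩)
    · rcases hx with rfl | hx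
      · exact hb₁
      · obtain rfl : x = t ^ e * b₂ := hx
        exact hteb₂
    · exact hwB l (Nat.lt_succ_iff.1 (Finset.mem_range.1 hl))
  set O₁ : Subalgebra P₁ F := Algebra.adjoin P₁ S with hO₁
  have hO₁fg : (Subalgebra.toSubmodule O₁).FG :=
    fg_adjoin_of_finite hSfin fun x hx => (hB₁ x).1 (hSB x hx)
  have hO₁B : ∀ x ∈ O₁, x ∈ B₁ := by
    intro x hx
    rw [hB₁]
    have : O₁ ≤ integralClosure P₁ F :=
      Algebra.adjoin_le fun y hy => (hB₁ y).1 (hSB y hy)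
    exact this hx
  have htO₁ : t ∈ O₁ := O₁.algebraMap_mem (⟨t, Algebra.subset_adjoin rfl⟩ : P₁)
  have haO₁ : ∀ r : R, a r ∈ O₁ := fun r => O₁.algebraMap_mem (algebraMap R P₁ r)
  -- the ring `O = O₁[1/t]`
  let O : Subalgebra R F :=
    { carrier := {x | ∃ k : ℕ, t ^ k * x ∈ O₁}
      mul_mem' := by
        rintro x y ⟨k, hk⟩ ⟨k', hk'⟩
        refine ⟨k + k', ?_⟩
        have : t ^ (k + k') * (x * y) = (t ^ k * x) * (t ^ k' * y) := by rw [pow_add]; ring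
        rw [this]
        exact O₁.mul_mem hk hk'
      add_mem' := by
        rintro x y ⟨k, hk⟩ ⟨k', hk'⟩
        refine ⟨k + k', ?_⟩
        have : t ^ (k + k') * (x + y) = t ^ k' * (t ^ k * x) + t ^ k * (t ^ k' * y) := by
          rw [pow_add]; ring
        rw [this]
        exact O₁.add_mem (O₁.mul_mem (O₁.pow_mem htO₁ _) hk) (O₁.mul_mem (O₁.pow_mem htO₁ _) hk')
      algebraMap_mem' := fun r => ⟨0, by simpa using haO₁ r⟩ }
  have hOmem : ∀ x : F, x ∈ O ↔ ∃ k : ℕ, t ^ k * x ∈ O₁ := fun x => Iff.rfl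
  have hO₁O : ∀ x ∈ O₁, x ∈ O := fun x hx => ⟨0, by simpa using hx⟩
  have hb₁O : b₁ ∈ O := hO₁O _ (Algebra.subset_adjoin (Or.inl (Or.inl rfl)))
  have hb₂O : b₂ ∈ O := ⟨e, Algebra.subset_adjoin (Or.inl (Or.inr rfl))⟩
  have hwO : ∀ l, l ≤ m → w l ∈ O := fun l hl =>
    ⟨e, Algebra.subset_adjoin (Or.inr ⟨l, Finset.mem_range.2 (Nat.lt_succ_iff.2 hl), rfl⟩)⟩
  have haO : ∀ r : R, a r ∈ O := fun r => O.algebraMap_mem r
  -- the module `𝓜`
  set M : Submodule O F := Submodule.span O {v₂, μ} with hM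
  have hv₂M : v₂ ∈ M := Submodule.subset_span (Or.inl rfl)
  have hμM : μ ∈ M := Submodule.subset_span (Or.inr rfl)
  have hv₁M : v₁ ∈ M := by
    have : v₁ = v₂ + a π * μ := by rw [← h₁₂]; ring
    rw [this]
    exact M.add_mem hv₂M (mul_mem_of_mem O M (haO π) hμM)
  have hprod : ∀ z ∈ M ^ m, z * f ∈ O := by
    intro z hz
    rw [hM, Submodule.span_pow] at hz
    induction hz using Submodule.span_induction with
    | mem x hx =>
      obtain ⟨l, hl, rfl⟩ := mem_pair_pow hx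
      exact hwO l hl
    | zero => rw [zero_mul]; exact O.zero_mem
    | add x y _ _ hx hy => rw [add_mul]; exact O.add_mem hx hy
    | smul o x _ hx =>
      have : (o • x) * f = (o : F) * (x * f) := by
        rw [Algebra.smul_def, mul_assoc]; rfl
      rw [this]
      exact O.mul_mem o.2 hx
  -- the full modules `M₁`, `M₂`
  set M₁ : Submodule R F := rootModule B₁ m hm0 hroot₁ haB₁ f with hM₁
  set M₂ : Submodule R F := rootModule B₂ m hm0 hroot₂ haB₂ f with hM₂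
  -- tameness
  have tame : ∀ u : F, (∃ N₁ : ℕ, t ^ N₁ * (u ^ m * f) ∈ B₁) → (∃ N₂ : ℕ, t⁻¹ ^ N₂ * (u ^ m * f) ∈ B₂) →
      ∃ G : Submodule R F, G.FG ∧ ∀ i : ℤ, t ^ i * u ∈ M₁ ⊔ M₂ ⊔ G := by
    rintro u ⟨N₁, hN₁⟩ ⟨N₂, hN₂⟩
    apply exists_fg_zpow
    refine ⟨max N₁ N₂, fun k hk => ?_, fun k hk => ?_⟩
    · show (t ^ k * u) ^ m * f ∈ B₁
      have hk1 : N₁ ≤ k * m := le_trans (le_trans (le_max_left _ _) hk)
        (Nat.le_mul_of_pos_right _ (Nat.pos_of_ne_zero hm0))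
      obtain ⟨j, hj⟩ : ∃ j, k * m = N₁ + j := ⟨k * m - N₁, by omega⟩
      have : (t ^ k * u) ^ m * f = t ^ j * (t ^ N₁ * (u ^ m * f)) := by
        rw [mul_pow, ← pow_mul, hj, pow_add]; ring
      rw [this]
      exact B₁.mul_mem (B₁.pow_mem htB₁ _) hN₁
    · show (t⁻¹ ^ k * u) ^ m * f ∈ B₂
      have hk1 : N₂ ≤ k * m := le_trans (le_trans (le_max_right _ _) hk)
        (Nat.le_mul_of_pos_right _ (Nat.pos_of_ne_zero hm0))
      obtain ⟨j, hj⟩ : ∃ j, k * m = N₂ + j := ⟨k * m - N₂, by omega⟩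
      have : (t⁻¹ ^ k * u) ^ m * f = t⁻¹ ^ j * (t⁻¹ ^ N₂ * (u ^ m * f)) := by
        rw [mul_pow, ← pow_mul, hj, pow_add]; ring
      rw [this]
      exact B₂.mul_mem (B₂.pow_mem htB₂ _) hN₂
  have tame_v : ∀ g ∈ B₁, ∃ G : Submodule R F, G.FG ∧ ∀ i : ℤ, t ^ i * (g * v₂) ∈ M₁ ⊔ M₂ ⊔ G := by
    intro g hg
    apply tame
    · refine ⟨e₂, ?_⟩
      have : t ^ e₂ * ((g * v₂) ^ m * f) = g ^ m * (t ^ e₂ + a π * (t ^ e₂ * b₂)) := by
        rw [mul_pow, mul_assoc (g ^ m), hv₂]; ring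
      rw [this]
      exact B₁.mul_mem (B₁.pow_mem hg _)
        (B₁.add_mem (B₁.pow_mem htB₁ _) (B₁.mul_mem (haB₁ π) he₂))
    · obtain ⟨d, hd⟩ := tw₁₂ (g ^ m) (B₁.pow_mem hg _)
      refine ⟨d, ?_⟩
      have : t⁻¹ ^ d * ((g * v₂) ^ m * f) = (t⁻¹ ^ d * g ^ m) * (1 + a π * b₂) := by
        rw [mul_pow, mul_assoc (g ^ m), hv₂]; ring
      rw [this]
      exact B₂.mul_mem hd (B₂.add_mem B₂.one_mem (B₂.mul_mem (haB₂ π) hb₂))
  have tame_μ : ∀ g ∈ B₁, ∃ G : Submodule R F, G.FG ∧ ∀ i : ℤ, t ^ i * (g * μ) ∈ M₁ ⊔ M₂ ⊔ G := by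
    intro g hg
    apply tame
    · refine ⟨n, ?_⟩
      have : t ^ n * ((g * μ) ^ m * f) = g ^ m * (t ^ n * (μ ^ m * f)) := by
        rw [mul_pow]; ring
      rw [this]
      exact B₁.mul_mem (B₁.pow_mem hg _) hn
    · obtain ⟨d, hd⟩ := tw₁₂ (g ^ m * (t ^ n * (μ ^ m * f))) (B₁.mul_mem (B₁.pow_mem hg _) hn)
      refine ⟨d + n, ?_⟩
      have ht' : t⁻¹ ^ n * t ^ n = 1 := by rw [← mul_pow, inv_mul_cancel₀ ht, one_pow]
      have : t⁻¹ ^ (d + n) * ((g * μ) ^ m * f)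
          = t⁻¹ ^ (n + n) * (t⁻¹ ^ d * (g ^ m * (t ^ n * (μ ^ m * f)))) := by
        rw [mul_pow, pow_add, pow_add]
        linear_combination (-(t⁻¹ ^ d * t⁻¹ ^ n * g ^ m * μ ^ m * f)) * ht'
      rw [this]
      exact B₂.mul_mem (B₂.pow_mem htB₂ _) hd
  -- a finitely generated `G` with `M ≤ M₁ + M₂ + G`
  obtain ⟨gens, hgens⟩ := hO₁fg
  have hgensB : ∀ g ∈ gens, g ∈ B₁ := fun g hg => hO₁B g (by
    have : g ∈ Subalgebra.toSubmodule O₁ := hgens ▸ Submodule.subset_span hg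
    exact this)
  choose! Gv hGv hGv' using tame_v
  choose! Gμ hGμ hGμ' using tame_μ
  set G : Submodule R F := ⨆ g ∈ gens, (Gv g ⊔ Gμ g) with hG
  have hGfg : G.FG := Submodule.fg_biSup _ _ fun g hg => (hGv g (hgensB g hg)).sup (hGμ g (hgensB g hg))
  set U : Submodule R F := M₁ ⊔ M₂ ⊔ G with hU
  have hle : ∀ g ∈ gens, Gv g ⊔ Gμ g ≤ G := fun g hg => le_biSup (fun g => Gv g ⊔ Gμ g) hg
  -- `Good u := ∀ i, t ^ i * u ∈ U`
  have good_P : ∀ p ∈ P₁, ∀ u : F, (∀ i : ℤ, t ^ i * u ∈ U) → ∀ i : ℤ, t ^ i * (p * u) ∈ U := by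
    intro p hp
    induction hp using Algebra.adjoin_induction with
    | mem x hx =>
      obtain rfl : x = t := hx
      intro u hu i
      have : x ^ i * (x * u) = x ^ (i + 1) * u := by
        rw [zpow_add₀ ht, zpow_one]; ring
      rw [this]
      exact hu _
    | algebraMap r =>
      intro u hu i
      have : t ^ i * (algebraMap R F r * u) = r • (t ^ i * u) := by
        rw [Algebra.smul_def]; ring
      rw [this]
      exact U.smul_mem _ (hu i)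
    | add x y _ _ hx hy =>
      intro u hu i
      rw [add_mul, mul_add]
      exact U.add_mem (hx u hu i) (hy u hu i)
    | mul x y _ _ hx hy =>
      intro u hu i
      rw [mul_assoc]
      exact hx _ (hy u hu) i
  have good_O₁ : ∀ u₀ : F, (∀ g ∈ gens, ∀ i : ℤ, t ^ i * (g * u₀) ∈ U) →
      ∀ α ∈ O₁, ∀ i : ℤ, t ^ i * (α * u₀) ∈ U := by
    intro u₀ h0 α hα
    have hα' : α ∈ Submodule.span P₁ (gens : Set F) := by
      rw [hgens]; exact hα
    clear hα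
    induction hα' using Submodule.span_induction with
    | mem x hx => exact h0 x hx
    | zero => intro i; simp
    | add x y _ _ hx hy =>
      intro i
      rw [add_mul, mul_add]
      exact U.add_mem (hx i) (hy i)
    | smul p x _ hx =>
      intro i
      have : (p • x) * u₀ = (p : F) * (x * u₀) := by
        rw [Algebra.smul_def, mul_assoc]; rfl
      rw [this]
      exact good_P p p.2 _ hx i
  have good_O : ∀ u₀ : F, (∀ g ∈ gens, ∀ i : ℤ, t ^ i * (g * u₀) ∈ U) → ∀ α ∈ O, α * u₀ ∈ U := by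
    rintro u₀ h0 α ⟨k, hk⟩
    have := good_O₁ u₀ h0 _ hk (-(k : ℤ))
    have e1 : t ^ (-(k : ℤ)) * (t ^ k * α * u₀) = α * u₀ := by
      rw [zpow_neg, zpow_natCast]
      field_simp
    rwa [e1] at this
  have hMU : M.restrictScalars R ≤ M₁ ⊔ M₂ ⊔ G := by
    intro z hz
    have hz' : z ∈ M := hz
    rw [hM, Submodule.mem_span_pair] at hz'
    obtain ⟨α, β, rfl⟩ := hz'
    refine U.add_mem ?_ ?_
    · refine good_O v₂ (fun g hg i => ?_) α α.2
      exact (sup_le_sup_left (le_trans le_sup_left (hle g hg)) _) (hGv' g (hgensB g hg) i)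
    · refine good_O μ (fun g hg i => ?_) β β.2
      exact (sup_le_sup_left (le_trans le_sup_right (hle g hg)) _) (hGμ' g (hgensB g hg) i)
  obtain ⟨n₀, hn₀⟩ := bounded_torsion (M₁ ⊔ M₂) G (M.restrictScalars R) hGfg hMU harch hπ0
  -- Newton
  obtain ⟨s₁, hs₁, c₁, hc₁, hx1, d₁, hd₁, hsd₁⟩ := newton (O.toSubring ⊓ B₁) (m := m) (π := a π)
    (q := a q) (f := f) (v := v₁) (b := b₁) ⟨haO π, haB₁ π⟩ ⟨haO q, haB₁ q⟩ hmq ⟨hb₁O, hb₁⟩ hv₁ n₀
  obtain ⟨s₂, hs₂, c₂, hc₂, hy1, d₂, hd₂, hsd₂⟩ := newton (O.toSubring ⊓ B₂) (m := m) (π := a π)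
    (q := a q) (f := f) (v := v₂) (b := b₂) ⟨haO π, haB₂ π⟩ ⟨haO q, haB₂ q⟩ hmq ⟨hb₂O, hb₂⟩ hv₂ n₀
  set x : F := s₁ * v₁ with hx
  set y : F := s₂ * v₂ with hy
  have hyM : y ∈ M := mul_mem_of_mem O M hs₂.1 hv₂M
  obtain ⟨ν, hν, hxy⟩ := compare O M hm0 hprod (haO π) hπF (haO q) hmq hyM n₀ hc₁.1 hc₂.1 hx1 hy1
    ⟨d₁ * v₁ + μ - d₂ * v₂, M.sub_mem (M.add_mem (mul_mem_of_mem O M hd₁.1 hv₁M) hμM)
      (mul_mem_of_mem O M hd₂.1 hv₂M), by
      have : x - y = (s₁ - 1) * v₁ + (v₁ - v₂) - (s₂ - 1) * v₂ := by rw [hx, hy]; ring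
      rw [this, hsd₁, hsd₂, h₁₂]; ring⟩
  have hxM₁ : x ∈ M₁ := by
    show x ^ m * f ∈ B₁
    rw [hx1]
    exact B₁.add_mem B₁.one_mem (B₁.mul_mem (B₁.pow_mem (haB₁ π) _) hc₁.2)
  have hyM₂ : y ∈ M₂ := by
    show y ^ m * f ∈ B₂
    rw [hy1]
    exact B₂.add_mem B₂.one_mem (B₂.mul_mem (B₂.pow_mem (haB₂ π) _) hc₂.2)
  -- Čech
  have h5 : π ^ (n₀ + 1) • ν ∈ M₁ ⊔ M₂ := by
    have : π ^ (n₀ + 1) • ν = x + -y := by
      rw [Algebra.smul_def, map_pow, ← hxy]; ring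
    rw [this]
    exact Submodule.add_mem_sup hxM₁ (M₂.neg_mem hyM₂)
  obtain ⟨a₁, ha₁, a₂, ha₂, ha₁₂⟩ := Submodule.mem_sup.1 (hn₀ (n₀ + 1) ν hν h5)
  have h6 : x - y = a π * (a₁ + a₂) := by
    rw [hxy, ha₁₂, Algebra.smul_def, map_pow, pow_succ]; ring
  set ε : F := x - a π * a₁ with hε
  have hε₂ : ε = y + a π * a₂ := by rw [hε]; linear_combination h6
  have hεM₁ : ε ∈ M₁ := by
    rw [hε]
    refine M₁.sub_mem hxM₁ ?_
    have : a π * a₁ = π • a₁ := by rw [Algebra.smul_def]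
    rw [this]
    exact M₁.smul_mem _ ha₁
  have hεM₂ : ε ∈ M₂ := by
    rw [hε₂]
    refine M₂.add_mem hyM₂ ?_
    have : a π * a₂ = π • a₂ := by rw [Algebra.smul_def]
    rw [this]
    exact M₂.smul_mem _ ha₂
  obtain ⟨c, hc⟩ := hglob _ hεM₁ hεM₂
  -- `ε ^ m * f ≡ 1 mod π B₁`
  have h7 : ∃ b ∈ B₁, ε ^ m * f = 1 + a π * b := by
    have hna₁ : -a₁ ∈ M₁ := M₁.neg_mem ha₁
    refine ⟨a π ^ n₀ * c₁ + ∑ i ∈ Finset.range m, a π ^ (m - i - 1) * ((m.choose i : F) *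
      (x ^ i * (-a₁) ^ (m - i) * f)), ?_, ?_⟩
    · refine B₁.add_mem (B₁.mul_mem (B₁.pow_mem (haB₁ π) _) hc₁.2) (B₁.sum_mem fun i hi => ?_)
      exact B₁.mul_mem (B₁.pow_mem (haB₁ π) _) (B₁.mul_mem (natCast_mem B₁ _)
        (mixed_mem B₁ hroot₁ hxM₁ hna₁ (Finset.mem_range.1 hi).le))
    · have e1 : ε = x + a π * (-a₁) := by rw [hε]; ring
      rw [e1, add_pow, Finset.sum_range_succ, add_mul, Finset.sum_mul, mul_add, Finset.mul_sum]
      simp only [Nat.sub_self, pow_zero, mul_one, Nat.choose_self, Nat.cast_one]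
      rw [hx1]
      have e2 : ∀ i ∈ Finset.range m, x ^ i * (a π * -a₁) ^ (m - i) * (m.choose i : F) * f
          = a π * (a π ^ (m - i - 1) * ((m.choose i : F) * (x ^ i * (-a₁) ^ (m - i) * f))) := by
        intro i hi
        obtain ⟨j, hj⟩ : ∃ j, m - i = j + 1 := ⟨m - i - 1, by have := Finset.mem_range.1 hi; omega⟩
        rw [hj, Nat.add_sub_cancel]
        ring
      rw [Finset.sum_congr rfl e2, pow_succ]
      ring
  obtain ⟨b, hb, hεb⟩ := h7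
  have hc0 : c ≠ 0 := by
    rintro rfl
    rw [map_zero] at hc
    apply hπB (-b) (B₁.neg_mem hb)
    rw [← hc] at hεb
    linear_combination hεb
  have hε0 : ε ≠ 0 := by
    rintro h0
    rw [h0, zero_pow hm0, zero_mul] at hc
    exact hc0 ((map_eq_zero_iff _ hinj).1 hc)
  refine ⟨c, ε⁻¹, hc0, inv_ne_zero hε0, ?_⟩
  rw [hc, inv_pow]
  field_simp

end Fermat.Agent.S36
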