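import Fermat.Agent.S36.Abs.SepCusp
import Fermat.Agent.S36.Abs.GaussPoly

/-!
# S36 / abstract part : `[APPROX-RES]` (WP DL2)

`GaussSys.approx_of_res_aux` = the statement of `GaussSys.approx_of_res` of `Abs/DedLevel.lean`.
Tools (namespace `DedAux`): `val_mul_lt_left/right`, `val_aeval_sub_lt` (`p(x) ≡ p(y)` if `x ≡ y`), `map_aeval`.
-/

set_option autoImplicit false

open Polynomial

namespace Fermat.Agent.S36

namespace DedAux

section

variable {F : Type*} [Field F] {O : ValuationSubring F}

theorem val_mul_lt_left {x y : F} (hx : O.valuation x < 1) (hy : O.valuation y ≤ 1) :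
    O.valuation (x * y) < 1 := by
  rw [map_mul]
  calc O.valuation x * O.valuation y ≤ O.valuation x * 1 := by gcongr
    _ < 1 := by simpa using hx

theorem val_mul_lt_right {x y : F} (hx : O.valuation x ≤ 1) (hy : O.valuation y < 1) :
    O.valuation (x * y) < 1 := by
  rw [mul_comm]
  exact val_mul_lt_left hy hx

theorem val_sum_lt {κ : Type*} (s : Finset κ) (g : κ → F) (h : ∀ k ∈ s, O.valuation (g k) < 1) :
    O.valuation (∑ k ∈ s, g k) < 1 :=
  Valuation.map_sum_lt _ one_ne_zero h

variable {R : Type*} [CommRing R] [Algebra R F]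

/-- `p(x) ≡ p(y)` if `x ≡ y`. -/
theorem val_aeval_sub_lt (hR : ∀ r : R, algebraMap R F r ∈ O) {x y : F}
    (hx : O.valuation x ≤ 1) (hy : O.valuation y ≤ 1) (h : O.valuation (x - y) < 1) (p : R[X]) :
    O.valuation (aeval x p - aeval y p) < 1 := by
  induction p using Polynomial.induction_on' with
  | add p q hp hq =>
    have : aeval x (p + q) - aeval y (p + q)
        = (aeval x p - aeval y p) + (aeval x q - aeval y q) := by
      rw [map_add, map_add]; ring
    rw [this]
    exact Valuation.map_add_lt _ hp hq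
  | monomial n r =>
    rw [aeval_monomial, aeval_monomial, ← mul_sub]
    exact val_mul_lt_right ((O.valuation_le_one_iff _).2 (hR r)) (comp_aux_pow hx hy h n)

theorem val_aeval_le (hR : ∀ r : R, algebraMap R F r ∈ O) {x : F} (hx : O.valuation x ≤ 1)
    (p : R[X]) : O.valuation (aeval x p) ≤ 1 := by
  rw [O.valuation_le_one_iff] at hx ⊢
  rw [aeval_eq_sum_range]
  refine sum_mem fun i _ => ?_
  rw [Algebra.smul_def]
  exact mul_mem (hR _) (pow_mem hx i)

end

section

variable {R : Type*} [CommRing R] {K : Type*} [Field K] [Algebra R K]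
  {F : Type*} [Field F] [Algebra R F] [Algebra K F] [IsScalarTower R K F]
  {F₁ : Type*} [Field F₁] [Algebra R F₁] [Algebra K F₁] [IsScalarTower R K F₁]

theorem map_algebraMap (a : F₁ →ₐ[K] F) (r : R) : a (algebraMap R F₁ r) = algebraMap R F r := by
  rw [IsScalarTower.algebraMap_apply R K F₁, a.commutes, ← IsScalarTower.algebraMap_apply]

theorem map_aeval (a : F₁ →ₐ[K] F) (x : F₁) (p : R[X]) : a (aeval x p) = aeval (a x) p := by
  induction p using Polynomial.induction_on' with
  | add p q hp hq => rw [map_add, map_add, map_add, hp, hq]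
  | monomial n r => rw [aeval_monomial, aeval_monomial, map_mul, map_pow, map_algebraMap]

end

end DedAux

variable {R : Type*} [CommRing R] [IsDomain R] [IsDiscreteValuationRing R]
  {K : Type*} [Field K] [Algebra R K] [IsFractionRing R K]
  {F : Type*} [Field F] [CharZero F] [Algebra R F] [Algebra K F] [IsScalarTower R K F]
  {F₁ : Type*} [Field F₁] [CharZero F₁] [Algebra R F₁] [Algebra K F₁] [IsScalarTower R K F₁]
  {π : R}

variable {ι : Type*} [Fintype ι] {O : ι → ValuationSubring F} {e f : ι → ℕ}

open DedAux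

theorem GaussSys.approx_of_res_aux {t : F} (hπ : Irreducible π) (S : GaussSys K π t O e f) (i : ι)
    (a : F₁ →ₐ[K] F) {τ : F₁} (hτ : (O i).valuation (t - a τ) < 1)
    (ω : Fin (f i) → F₁) (h1 : ∀ k, a (ω k) ∈ O i)
    (h2 : ∀ c : Fin (f i) → R[X],
      (O i).valuation (∑ k, aeval t (c k) * a (ω k)) < 1 → ∀ k, C π ∣ c k)
    {y : F} (hy : y ∈ O i) : ∃ y' : F₁, (O i).valuation (y - a y') < 1 := by
  obtain ⟨s, c, hs, hv⟩ := S.res_exact hπ i h1 h2 hy
  have hR := (S.gauss i).const
  have ht : (O i).valuation t ≤ 1 := (GaussAux.val_t hπ (S.gauss i)).le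
  have haτ : (O i).valuation (a τ) ≤ 1 := by
    have : a τ = t - (t - a τ) := by ring
    rw [this]
    exact (Valuation.map_sub _ _ _).trans (max_le ht hτ.le)
  have hp : ∀ p : R[X], (O i).valuation (aeval t p - a (aeval τ p)) < 1 := fun p => by
    rw [map_aeval]
    exact val_aeval_sub_lt hR ht haτ hτ p
  have hs1 : (O i).valuation (aeval t s) = 1 := (S.gauss i).prim s hs
  have hS' : (O i).valuation (a (aeval τ s)) = 1 := by
    have : a (aeval τ s) = aeval t s + -(aeval t s - a (aeval τ s)) := by ring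
    rw [this, Valuation.map_add_eq_of_lt_left, hs1]
    rw [Valuation.map_neg, hs1]
    exact hp s
  have hS0 : a (aeval τ s) ≠ 0 := by
    intro h
    rw [h, map_zero] at hS'
    exact zero_ne_one hS'
  refine ⟨(∑ k, aeval τ (c k) * ω k) / aeval τ s, ?_⟩
  have key : a (aeval τ s) * (y - a ((∑ k, aeval τ (c k) * ω k) / aeval τ s))
      = -((aeval t s - a (aeval τ s)) * y) + ((aeval t s * y - ∑ k, aeval t (c k) * a (ω k))
        + ∑ k, (aeval t (c k) - a (aeval τ (c k))) * a (ω k)) := by
    rw [map_div₀, map_sum]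
    simp only [map_mul, sub_mul, Finset.sum_sub_distrib]
    field_simp
    ring
  have hlt : (O i).valuation (a (aeval τ s) *
      (y - a ((∑ k, aeval τ (c k) * ω k) / aeval τ s))) < 1 := by
    rw [key]
    refine Valuation.map_add_lt _ ?_ (Valuation.map_add_lt _ hv ?_)
    · rw [Valuation.map_neg]
      exact val_mul_lt_left (hp s) (((O i).valuation_le_one_iff _).2 hy)
    · exact val_sum_lt _ _ fun k _ =>
        val_mul_lt_left (hp (c k)) (((O i).valuation_le_one_iff _).2 (h1 k))
  rwa [map_mul, hS', one_mul] at hlt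

end Fermat.Agent.S36
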