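import Fermat.Agent.S36.Abs.DedApprox

/-!
# S36 / abstract part : `[IC]` (WP DL3)

`GaussSys.exists_approx_of_monic_aux` = the statement of `GaussSys.exists_approx_of_monic` of `Abs/DedLevel.lean`.
-/

set_option autoImplicit false

open Polynomial

namespace Fermat.Agent.S36

namespace DedAux

/-- in an integrally closed domain: `s ^ m + ∑_{l<m} c l s ^ l t ^ (m - l) = 0`, `t ≠ 0` ⟹ `t ∣ s`. -/
theorem exists_mul_eq_of_homog {D : Type*} [CommRing D] [IsDomain D] [IsIntegrallyClosed D]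
    {s t : D} (ht : t ≠ 0) (m : ℕ) (c : ℕ → D)
    (h : s ^ m + ∑ l ∈ Finset.range m, c l * s ^ l * t ^ (m - l) = 0) : ∃ b : D, b * t = s := by
  set L := FractionRing D
  have ht' : algebraMap D L t ≠ 0 := by
    intro h0
    exact ht ((IsFractionRing.injective D L) (by rw [h0, map_zero]))
  set u : L := algebraMap D L s / algebraMap D L t with hu
  have hint : IsIntegral D u := by
    refine ⟨X ^ m + ∑ l : Fin m, C (c l) * X ^ (l : ℕ), ?_, ?_⟩
    · exact monic_X_pow_add (degree_sum_fin_lt fun l : Fin m => c l)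
    · rw [eval₂_add, eval₂_pow, eval₂_X, eval₂_finsetSum]
      simp only [eval₂_mul, eval₂_C, eval₂_pow, eval₂_X]
      have h1 := congrArg (algebraMap D L) h
      rw [map_add, map_pow, map_sum, map_zero, Finset.sum_range] at h1
      simp only [map_mul, map_pow] at h1
      have h2 : (u ^ m + ∑ l : Fin m, algebraMap D L (c l) * u ^ (l : ℕ)) * algebraMap D L t ^ m
          = 0 := by
        rw [← h1, add_mul, Finset.sum_mul]
        congr 1
        · rw [hu, div_pow, div_mul_cancel₀ _ (pow_ne_zero m ht')]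
        · refine Finset.sum_congr rfl fun l _ => ?_
          have hl : m = (l : ℕ) + (m - l) := by have := l.2; omega
          have e1 : algebraMap D L t ^ m
              = algebraMap D L t ^ (l : ℕ) * algebraMap D L t ^ (m - (l : ℕ)) := by
            rw [← pow_add, ← hl]
          rw [e1, hu, div_pow]
          rw [mul_assoc, ← mul_assoc (_ / _), div_mul_cancel₀ _ (pow_ne_zero (l : ℕ) ht'), mul_assoc]
      exact (mul_eq_zero.1 h2).resolve_right (pow_ne_zero m ht')
  obtain ⟨b, hb⟩ := IsIntegrallyClosed.isIntegral_iff.1 hint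
  refine ⟨b, (IsFractionRing.injective D L) ?_⟩
  rw [map_mul, hb, hu, div_mul_cancel₀ _ ht']

end DedAux

variable {R : Type*} [CommRing R] [IsDomain R] [IsDiscreteValuationRing R]
  {K : Type*} [Field K] [Algebra R K] [IsFractionRing R K]
  {F₁ : Type*} [Field F₁] [CharZero F₁] [Algebra R F₁] [Algebra K F₁] [IsScalarTower R K F₁]
  {π : R}

variable {ι₁ : Type*} [Fintype ι₁] {O₁ : ι₁ → ValuationSubring F₁} {e₁ f₁ : ι₁ → ℕ}

open DedAux

theorem GaussSys.exists_approx_of_monic_aux {s₁ : F₁} (hπ : Irreducible π)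
    (S₁ : GaussSys K π s₁ O₁ e₁ f₁) (i₁ : ι₁) (hD : IsDedekindDomain (intCl R s₁ ⧸ S₁.p i₁))
    {x : F₁} (hx : x ∈ O₁ i₁) (m : ℕ) (c : ℕ → F₁) (hc : ∀ l, c l ∈ intCl R s₁)
    (h : (O₁ i₁).valuation (x ^ m + ∑ l ∈ Finset.range m, c l * x ^ l) < 1) :
    ∃ b ∈ intCl R s₁, (O₁ i₁).valuation (x - b) < 1 := by
  have hx1 : (O₁ i₁).valuation x ≤ 1 := ((O₁ i₁).valuation_le_one_iff _).2 hx
  rcases hx1.lt_or_eq with hlt | heq
  · exact ⟨0, zero_mem _, by simpa using hlt⟩
  obtain ⟨s, t, hs, ht, hst⟩ := S₁.unitAt_centre hπ i₁ (intCl_le (S₁.gauss i₁)) heq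
  change s ∉ S₁.p i₁ at hs
  change t ∉ S₁.p i₁ at ht
  have hBO : ∀ b : intCl R s₁, (O₁ i₁).valuation (b : F₁) ≤ 1 := fun b =>
    ((O₁ i₁).valuation_le_one_iff _).2 (intCl_le (S₁.gauss i₁) b.2)
  have hvt : (O₁ i₁).valuation (t : F₁) = 1 := by
    rw [S₁.mem_p, not_lt] at ht
    exact le_antisymm (hBO t) ht
  -- the homogenised equation
  set z : intCl R s₁ := s ^ m + ∑ l ∈ Finset.range m, ⟨c l, hc l⟩ * s ^ l * t ^ (m - l) with hz
  have hzF : (z : F₁) = (t : F₁) ^ m * (x ^ m + ∑ l ∈ Finset.range m, c l * x ^ l) := by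
    rw [hz]
    push_cast
    rw [mul_add, ← mul_pow, mul_comm (t : F₁) x, hst, Finset.mul_sum]
    congr 1
    refine Finset.sum_congr rfl fun l hl => ?_
    have hl' : m = l + (m - l) := by have := Finset.mem_range.1 hl; omega
    have e1 : (t : F₁) ^ m = (t : F₁) ^ l * (t : F₁) ^ (m - l) := by rw [← pow_add, ← hl']
    rw [e1, ← hst, mul_pow]
    ring
  have hzp : z ∈ S₁.p i₁ := by
    rw [S₁.mem_p, hzF]
    exact val_mul_lt_right (by rw [map_pow, hvt, one_pow]) h
  have := hD.toIsDomain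
  have ht0 : Ideal.Quotient.mk (S₁.p i₁) t ≠ 0 := by
    rwa [Ne, Ideal.Quotient.eq_zero_iff_mem]
  have hz0 : Ideal.Quotient.mk (S₁.p i₁) z = 0 := Ideal.Quotient.eq_zero_iff_mem.2 hzp
  rw [hz, map_add, map_pow, map_sum] at hz0
  simp only [map_mul, map_pow] at hz0
  obtain ⟨b', hb'⟩ := exists_mul_eq_of_homog ht0 m
    (fun l => Ideal.Quotient.mk (S₁.p i₁) ⟨c l, hc l⟩) hz0
  obtain ⟨b, rfl⟩ := Ideal.Quotient.mk_surjective b'
  refine ⟨b, b.2, ?_⟩
  rw [← map_mul, Ideal.Quotient.eq, S₁.mem_p] at hb'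
  have e2 : ((b * t - s : intCl R s₁) : F₁) = -((x - b) * t) := by
    push_cast
    rw [← hst]
    ring
  rwa [e2, Valuation.map_neg, map_mul, hvt, mul_one] at hb'

end Fermat.Agent.S36
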