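import Fermat.Agent.S36.Abs.Comp

/-!
# S36 / abstract part : `[DED-ABS]` a component of a chart is a Dedekind scheme

`B ⊆ O` a subring of a valuation ring of `F`, `ρ : O → Λ` "the" residue map, `D ⊆ Λ` a Dedekind ring
with `ρ B ⊆ D` such that every element of `D` lifts, *locally at every maximal ideal of `B` containing
the centre*, to an element of `B_𝔪 ∩ O`.  Then `B ⧸ centre ≃ D`.
-/

set_option autoImplicit false

namespace Fermat.Agent.S36

theorem isDedekindDomain_of_ringEquiv {A B : Type*} [CommRing A] [CommRing B] (e : A ≃+* B)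
    [IsDedekindDomain B] : IsDedekindDomain A := by
  have h1 : IsDomain A := e.toMulEquiv.isDomain B
  have h2 : IsNoetherianRing A := isNoetherianRing_of_ringEquiv B e.symm
  have h3 : Ring.DimensionLEOne A := Ring.DimensionLEOne.of_ringEquiv e
  have h4 : IsIntegrallyClosed A := IsIntegrallyClosed.of_equiv e.symm
  exact { }

variable {F : Type*} [Field F]

/-- **[DED-ABS]** (surjectivity part). -/
theorem exists_red_eq_of_local (B : Subring F) (O : ValuationSubring F) (hBO : B ≤ O.toSubring)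
    {Λ : Type*} [CommRing Λ] (ρ : O →+* Λ)
    (hρ : ∀ x : O, O.valuation (x : F) < 1 → ρ x = 0) (d : Λ)
    (hb : ∀ 𝔪 : Ideal B, 𝔪.IsMaximal → centre B O hBO ≤ 𝔪 →
      ∃ x : O, MemAt B 𝔪 (x : F) ∧ ρ x = d) :
    ∃ b : B, ρ (Subring.inclusion hBO b) = d := by
  let φ : B →+* Λ := ρ.comp (Subring.inclusion hBO)
  let I : Ideal B :=
    { carrier := {c | ∃ b : B, φ c * d = φ b}
      zero_mem' := ⟨0, by simp⟩
      add_mem' := by
        rintro a c ⟨b, hb⟩ ⟨b', hb'⟩
        exact ⟨b + b', by rw [map_add, map_add, add_mul, hb, hb']⟩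
      smul_mem' := by
        rintro r c ⟨b, hb⟩
        exact ⟨r * b, by rw [smul_eq_mul, map_mul, map_mul, mul_assoc, hb]⟩ }
  have hcen : centre B O hBO ≤ I := by
    intro c hc
    refine ⟨0, ?_⟩
    have : φ c = 0 := hρ _ ((mem_centre hBO).1 hc)
    rw [this, zero_mul, map_zero]
  have htop : I = ⊤ := by
    by_contra hne
    obtain ⟨𝔪, h𝔪, hle⟩ := Ideal.exists_le_maximal I hne
    obtain ⟨x, ⟨s, t, ht, hxt⟩, hx⟩ := hb 𝔪 h𝔪 (hcen.trans hle)
    apply ht
    apply hle
    refine ⟨s, ?_⟩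
    have e : x * Subring.inclusion hBO t = Subring.inclusion hBO s := Subtype.ext hxt
    show ρ (Subring.inclusion hBO t) * d = ρ (Subring.inclusion hBO s)
    rw [← e, map_mul, hx, mul_comm]
  obtain ⟨b, hb⟩ : (1 : B) ∈ I := htop ▸ Submodule.mem_top
  exact ⟨b, by rw [map_one, one_mul] at hb; exact hb.symm⟩

/-- **[DED-ABS]** -/
theorem isDedekindDomain_quotient_centre (B : Subring F) (O : ValuationSubring F)
    (hBO : B ≤ O.toSubring) {Λ : Type*} [CommRing Λ] (ρ : O →+* Λ)
    (hρ : ∀ x : O, ρ x = 0 ↔ O.valuation (x : F) < 1)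
    (D : Subring Λ) [IsDedekindDomain D]
    (ha : ∀ b : B, ρ (Subring.inclusion hBO b) ∈ D)
    (hb : ∀ d ∈ D, ∀ 𝔪 : Ideal B, 𝔪.IsMaximal → centre B O hBO ≤ 𝔪 →
      ∃ x : O, MemAt B 𝔪 (x : F) ∧ ρ x = d) :
    IsDedekindDomain (B ⧸ centre B O hBO) := by
  let φ : B →+* D := (ρ.comp (Subring.inclusion hBO)).codRestrict D ha
  have hsurj : Function.Surjective φ := by
    rintro ⟨d, hd⟩
    obtain ⟨b, hb'⟩ := exists_red_eq_of_local B O hBO ρ (fun x hx => (hρ x).2 hx) d (hb d hd)
    exact ⟨b, Subtype.ext hb'⟩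
  have hker : RingHom.ker φ = centre B O hBO := by
    ext b
    rw [RingHom.mem_ker, mem_centre]
    refine Iff.trans ?_ (hρ (Subring.inclusion hBO b))
    exact ⟨fun h => congrArg Subtype.val h, fun h => Subtype.ext h⟩
  exact isDedekindDomain_of_ringEquiv
    ((Ideal.quotEquivOfEq hker.symm).trans (RingHom.quotientKerEquivOfSurjective hsurj))

end Fermat.Agent.S36
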