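import Fermat.Agent.S36.Abs.ValCrit
import Fermat.Agent.S36.Abs.Chart
import Fermat.Agent.S36.Abs.DedLocal
import Fermat.Agent.RED.FF.Param

/-!
# S36 / abstract part : `[DED-RED]` good reduction with one component

One component `O`, residue map `ρ : O → Fb` onto a function field `Fb / k`, `ρ s` a separating
parameter, and **[RFORM]** : every element of `Fb` integral over `k[ρ s]` lifts to an element of `O`
integral over `K[s]`.  Then `intCl R s ⧸ p ≃` the integral closure of `k[ρ s]` in `Fb`, a Dedekind domain.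
-/

set_option autoImplicit false

open Polynomial

namespace Fermat.Agent.S36

open Fermat.Agent.S24 Fermat.Agent.RED

/-- the reduction of an element integral over `R[s]` is integral over `k[ρ s]`. -/
theorem isIntegral_red_of_isIntegral {R : Type*} [CommRing R] {F : Type*} [Field F] [Algebra R F]
    {k Fb : Type*} [Field k] [Field Fb] [Algebra k Fb] (O : ValuationSubring F) (ρ : O →+* Fb)
    {s : F} (hs : s ∈ O) (hR : ∀ r : R, algebraMap R F r ∈ O)
    (hconst : ∀ r : R, ρ ⟨algebraMap R F r, hR r⟩ ∈ Set.range (algebraMap k Fb))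
    {b : F} (hb : b ∈ O) (hint : IsIntegral (Algebra.adjoin R {s}) b) :
    IsIntegral (Algebra.adjoin k {ρ ⟨s, hs⟩}) (ρ ⟨b, hb⟩) := by
  have key : ∀ a ∈ Algebra.adjoin R {s}, ∃ ha : a ∈ O, ρ ⟨a, ha⟩ ∈ Algebra.adjoin k {ρ ⟨s, hs⟩} := by
    intro a ha
    induction ha using Algebra.adjoin_induction with
    | mem x hx =>
      rw [Set.mem_singleton_iff] at hx
      subst hx
      exact ⟨hs, Algebra.subset_adjoin rfl⟩
    | algebraMap r =>
      obtain ⟨c, hc⟩ := hconst r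
      exact ⟨hR r, by rw [← hc]; exact Subalgebra.algebraMap_mem _ c⟩
    | add x y _ _ hx hy =>
      obtain ⟨hx, hx'⟩ := hx
      obtain ⟨hy, hy'⟩ := hy
      refine ⟨add_mem hx hy, ?_⟩
      have : (⟨x + y, add_mem hx hy⟩ : O) = ⟨x, hx⟩ + ⟨y, hy⟩ := rfl
      rw [this, map_add]
      exact add_mem hx' hy'
    | mul x y _ _ hx hy =>
      obtain ⟨hx, hx'⟩ := hx
      obtain ⟨hy, hy'⟩ := hy
      refine ⟨mul_mem hx hy, ?_⟩
      have : (⟨x * y, mul_mem hx hy⟩ : O) = ⟨x, hx⟩ * ⟨y, hy⟩ := rfl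
      rw [this, map_mul]
      exact mul_mem hx' hy'
  let j : Algebra.adjoin R {s} →+* O :=
    { toFun := fun a => ⟨a.1, (key a.1 a.2).1⟩
      map_one' := rfl
      map_mul' := fun _ _ => rfl
      map_zero' := rfl
      map_add' := fun _ _ => rfl }
  let ψ : Algebra.adjoin R {s} →+* Algebra.adjoin k {ρ ⟨s, hs⟩} :=
    (ρ.comp j).codRestrict (Algebra.adjoin k {ρ ⟨s, hs⟩}) (fun a => (key a.1 a.2).2)
  obtain ⟨P, hP, h0⟩ := hint
  refine ⟨P.map ψ, hP.map ψ, ?_⟩
  rw [eval₂_map]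
  have e1 : (algebraMap (Algebra.adjoin k {ρ ⟨s, hs⟩}) Fb).comp ψ = ρ.comp j := rfl
  rw [e1, ← hom_eval₂]
  have e2 : eval₂ j (⟨b, hb⟩ : O) P = 0 := by
    apply Subtype.ext
    have := hom_eval₂ P j O.subtype (⟨b, hb⟩ : O)
    change O.subtype _ = 0
    rw [this]
    exact h0
  rw [e2, map_zero]

variable {R : Type*} [CommRing R] [IsDomain R] [IsDiscreteValuationRing R]
  {K : Type*} [Field K] [Algebra R K] [IsFractionRing R K]
  {F : Type*} [Field F] [CharZero F] [Algebra R F] [Algebra K F] [IsScalarTower R K F]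
  {π : R} {s : F} {O : ValuationSubring F} {e f : Fin 1 → ℕ}

/-- **[DED-RED]** -/
theorem GaussSys.isDedekindDomain_of_red (hπ : Irreducible π)
    (S : GaussSys K π s (fun _ : Fin 1 => O) e f)
    {k Fb : Type*} [Field k] [Field Fb] [Algebra k Fb] (ρ : O →+* Fb)
    (hρ : ∀ x : O, ρ x = 0 ↔ O.valuation (x : F) < 1)
    (hR : ∀ r : R, algebraMap R F r ∈ O)
    (hconst : ∀ r : R, ρ ⟨algebraMap R F r, hR r⟩ ∈ Set.range (algebraMap k Fb))
    (hs : s ∈ O) (hsep : IsSepParam k (ρ ⟨s, hs⟩))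
    (hlift : ∀ u : Fb, IsIntegral (Algebra.adjoin k {ρ ⟨s, hs⟩}) u →
      ∃ y : O, ρ y = u ∧ IsIntegral (Algebra.adjoin K {s}) (y : F)) :
    IsDedekindDomain (intCl R s ⧸ S.p 0) := by
  haveI : IsDedekindDomain (intRing k (ρ ⟨s, hs⟩)) := hsep.isDedekindDomain
  let E : (intRing k (ρ ⟨s, hs⟩)).toSubring ≃+* intRing k (ρ ⟨s, hs⟩) :=
    { toFun := fun x => ⟨x.1, x.2⟩
      invFun := fun x => ⟨x.1, x.2⟩
      left_inv := fun _ => rfl
      right_inv := fun _ => rfl
      map_mul' := fun _ _ => rfl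
      map_add' := fun _ _ => rfl }
  haveI : IsDedekindDomain (intRing k (ρ ⟨s, hs⟩)).toSubring := isDedekindDomain_of_ringEquiv E
  refine isDedekindDomain_quotient_centre (intCl R s) O (intCl_le (S.gauss 0)) ρ hρ
    (intRing k (ρ ⟨s, hs⟩)).toSubring ?_ ?_
  · intro b
    exact isIntegral_red_of_isIntegral O ρ hs hR hconst (intCl_le (S.gauss 0) b.2) b.2
  · intro d hd 𝔪 h𝔪 _
    obtain ⟨y, hy, hyint⟩ := hlift d hd
    refine ⟨y, ⟨⟨y, S.mem_intCl_of_isIntegral hπ (fun _ => y.2) hyint⟩, 1, ?_, ?_⟩, hy⟩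
    · exact fun h => h𝔪.ne_top ((Ideal.eq_top_iff_one _).2 h)
    · simp

end Fermat.Agent.S36
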