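import Fermat.Agent.S36.Abs.GeomA

/-!
# S36 / abstract part : consequences of the geometric datum

`[G-UNIF]`, `[G-LOCGEN1]`, `[G-TRIPLE]`, `[G-DISJ2]`, `[G-LOCGEN2]`, `[G-LD]`, `[APPROX3]`.
Notation: `B₁ = intCl R D.t`, `B₂ = intCl R D.t⁻¹`, `p i = D.sys.p i`, `a = ϖ 0`, `b = ϖ 2`,
`c' = q / (a b)`.
-/

set_option autoImplicit false

open Polynomial

namespace Fermat.Agent.S36

variable {R K F : Type*} [CommRing R] [IsDomain R] [IsDiscreteValuationRing R]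
    [Field K] [Algebra R K] [IsFractionRing R K]
    [Field F] [CharZero F] [Algebra R F] [Algebra K F] [IsScalarTower R K F]

theorem fin3_cases (i : Fin 3) : i = 0 ∨ i = 1 ∨ i = 2 := by
  fin_cases i <;> simp

namespace GeomDatum

variable (D : GeomDatum R K F)

/-- `[KRULL3]` for the first chart of the datum. -/
theorem mem_chart₁ {y : F} (hy : ∀ i, (D.O i).valuation y ≤ 1) (n : ℕ)
    (hn : (D.q : F) ^ n * y ∈ intCl R D.t) : y ∈ intCl R D.t := by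
  refine krull3_intCl (K := K) D.irr D.sys.gauss (D.sys.semi D.irr)
    (fun i => ((D.O i).valuation_le_one_iff _).1 (hy i)) n ?_
  rwa [map_natCast]

theorem q_ne_zero : (D.q : F) ≠ 0 := Nat.cast_ne_zero.2 D.hq.ne_zero

theorem ϖ_ne_zero (i : Fin 3) : D.ϖ i ≠ 0 := (D.isUnif i).ne_zero

theorem val_ϖ_ne_zero (i j : Fin 3) : (D.O j).valuation (D.ϖ i) ≠ 0 :=
  (Valuation.ne_zero_iff _).2 (D.ϖ_ne_zero i)

theorem val_q₀ : (D.O 0).valuation (D.q : F) = (D.O 0).valuation (D.ϖ 0) := by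
  rw [D.val_q 0]; simp [eVec]

theorem val_q₁ : (D.O 1).valuation (D.q : F) = (D.O 1).valuation (D.ϖ 1) ^ (D.q - 1) := by
  rw [D.val_q 1]; simp [eVec]

theorem val_q₂ : (D.O 2).valuation (D.q : F) = (D.O 2).valuation (D.ϖ 2) := by
  rw [D.val_q 2]; simp [eVec]

theorem q_sub_one_ne_zero : D.q - 1 ≠ 0 := by
  have := D.hq.two_le
  omega

/-- the valuations of `z' = ϖ 1 ^ (q - 1) a b / q` are all trivial. -/
theorem val_z' (i : Fin 3) :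
    (D.O i).valuation (D.ϖ 1 ^ (D.q - 1) * D.ϖ 0 * D.ϖ 2 / (D.q : F)) = 1 := by
  rw [map_div₀, map_mul, map_mul, map_pow]
  rcases fin3_cases i with rfl | rfl | rfl
  · rw [D.ϖ_indep 1 0 (by decide), D.ϖ_indep 2 0 (by decide), D.val_q₀, one_pow, one_mul, mul_one,
      div_self (D.val_ϖ_ne_zero 0 0)]
  · rw [D.ϖ_indep 0 1 (by decide), D.ϖ_indep 2 1 (by decide), D.val_q₁, mul_one, mul_one,
      div_self (pow_ne_zero _ (D.val_ϖ_ne_zero 1 1))]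
  · rw [D.ϖ_indep 1 2 (by decide), D.ϖ_indep 0 2 (by decide), D.val_q₂, one_pow, one_mul, one_mul,
      div_self (D.val_ϖ_ne_zero 2 2)]

theorem z'_mem : D.ϖ 1 ^ (D.q - 1) * D.ϖ 0 * D.ϖ 2 / (D.q : F) ∈ intCl R D.t := by
  refine D.mem_chart₁ (fun i => (D.val_z' i).le) 1 ?_
  have h : (D.q : F) ^ 1 * (D.ϖ 1 ^ (D.q - 1) * D.ϖ 0 * D.ϖ 2 / (D.q : F)) =
      D.ϖ 1 ^ (D.q - 1) * D.ϖ 0 * D.ϖ 2 := by
    have := D.q_ne_zero
    field_simp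
  rw [h]
  exact mul_mem (mul_mem (pow_mem (D.ϖ_mem 1) _) (D.ϖ_mem 0)) (D.ϖ_mem 2)

/-- **[G-LOCGEN1]**  every closed point of the special fibre of the first chart lies on a component
which is locally principal there.
Proof.  If `p 0 ≤ 𝔪`: `a` (`locGen_of_krull`, `E = 1`, `s = 1`, `inv₀`).  If `p 2 ≤ 𝔪`: `b`.
Otherwise `p 1 ≤ 𝔪` (`cover`): `ϖ 1`, `E = q - 1`, `s = z' := ϖ 1^(q-1) a b / q ∈ B₁`
(`krull3_intCl`), `q * s / ϖ 1^(q-1) = a b`, and `z' ∉ 𝔪` by `c2`. -/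
theorem locGen₁ (𝔪 : Ideal (intCl R D.t)) (h𝔪 : 𝔪.IsMaximal) (hπ : piB R D.t ((D.q : ℕ) : R) ∈ 𝔪) :
    ∃ (i : Fin 3) (a : F), D.sys.p i ≤ 𝔪 ∧ LocGen (intCl R D.t) 𝔪 (D.sys.p i) a := by
  have hne : 𝔪 ≠ ⊤ := h𝔪.ne_top
  have h1 : (1 : intCl R D.t) ∉ 𝔪 := fun h => hne ((Ideal.eq_top_iff_one _).2 h)
  obtain ⟨i, hi⟩ := D.sys.cover D.irr 𝔪 h𝔪.isPrime hπ
  refine ⟨i, D.ϖ i, hi, ?_⟩
  have hmem : MemAt (intCl R D.t) 𝔪 (D.ϖ i) := memAt_of_mem (D.ϖ_mem i) hne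
  rcases fin3_cases i with rfl | rfl | rfl
  · obtain ⟨n, hn⟩ := D.inv₀
    refine D.sys.locGen_of_krull D.irr 𝔪 h𝔪.isPrime 0 hmem (D.isUnif 0) one_ne_zero 1 h1 ?_ n ?_
    · intro j hj
      rw [D.ϖ_indep 0 j (Ne.symm hj)]
      simp
    · rw [map_natCast]
      simpa using hn
  · refine D.sys.locGen_of_krull D.irr 𝔪 h𝔪.isPrime 1 hmem (D.isUnif 1) D.q_sub_one_ne_zero
      ⟨_, D.z'_mem⟩ ?_ ?_ 1 ?_
    · intro hz
      obtain ⟨y, hy, hv⟩ := D.c2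
      have h2 : (⟨_, D.z'_mem⟩ * ⟨y, hy⟩ - 1 : intCl R D.t) ∈ D.sys.p 1 := by
        rw [D.sys.mem_p]
        exact hv
      apply h1
      have h3 := 𝔪.sub_mem (𝔪.mul_mem_right ⟨y, hy⟩ hz) (hi h2)
      simpa using h3
    · intro j hj
      rw [D.ϖ_indep 1 j (Ne.symm hj), one_pow]
      exact (D.val_z' j).le
    · rw [map_natCast]
      have h : (D.q : F) ^ 1 * (D.ϖ 1 ^ (D.q - 1) * D.ϖ 0 * D.ϖ 2 / (D.q : F)) / D.ϖ 1 ^ (D.q - 1) =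
          D.ϖ 0 * D.ϖ 2 := by
        have := D.q_ne_zero
        have := D.ϖ_ne_zero 1
        field_simp
      show (D.q : F) ^ 1 * (D.ϖ 1 ^ (D.q - 1) * D.ϖ 0 * D.ϖ 2 / (D.q : F)) / D.ϖ 1 ^ (D.q - 1) ∈ _
      rw [h]
      exact mul_mem (D.ϖ_mem 0) (D.ϖ_mem 2)
  · obtain ⟨n, hn⟩ := D.inv₂
    refine D.sys.locGen_of_krull D.irr 𝔪 h𝔪.isPrime 2 hmem (D.isUnif 2) one_ne_zero 1 h1 ?_ n ?_
    · intro j hj
      rw [D.ϖ_indep 2 j (Ne.symm hj)]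
      simp
    · rw [map_natCast]
      simpa using hn

/-- the elements `a`, `c'`, `b` of the first chart. -/
theorem val_c' (i : Fin 3) (hi : i ≠ 1) :
    (D.O i).valuation ((D.q : F) / (D.ϖ 0 * D.ϖ 2)) = 1 := by
  rw [map_div₀, map_mul]
  rcases fin3_cases i with rfl | rfl | rfl
  · rw [D.ϖ_indep 2 0 (by decide), D.val_q₀, mul_one, div_self (D.val_ϖ_ne_zero 0 0)]
  · exact absurd rfl hi
  · rw [D.ϖ_indep 0 2 (by decide), D.val_q₂, one_mul, div_self (D.val_ϖ_ne_zero 2 2)]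

theorem val_c'₁ : (D.O 1).valuation ((D.q : F) / (D.ϖ 0 * D.ϖ 2)) =
    (D.O 1).valuation (D.ϖ 1) ^ (D.q - 1) := by
  rw [map_div₀, map_mul, D.ϖ_indep 0 1 (by decide), D.ϖ_indep 2 1 (by decide), D.val_q₁]
  simp

theorem c'_mem : (D.q : F) / (D.ϖ 0 * D.ϖ 2) ∈ intCl R D.t := by
  obtain ⟨n₀, h₀⟩ := D.inv₀
  obtain ⟨n₂, h₂⟩ := D.inv₂
  refine D.mem_chart₁ ?_ (n₀ + n₂) ?_
  · intro i
    by_cases hi : i = 1
    · subst hi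
      rw [D.val_c'₁]
      exact pow_le_one₀ zero_le (D.ϖ_lt 1).le
    · exact (D.val_c' i hi).le
  · have h : (D.q : F) ^ (n₀ + n₂) * ((D.q : F) / (D.ϖ 0 * D.ϖ 2)) =
        (D.q : F) * ((D.q : F) ^ n₀ / D.ϖ 0) * ((D.q : F) ^ n₂ / D.ϖ 2) := by
      have := D.ϖ_ne_zero 0
      have := D.ϖ_ne_zero 2
      field_simp
      ring
    rw [h]
    refine mul_mem (mul_mem ?_ h₀) h₂
    have := algebraMap_mem_intCl R D.t ((D.q : ℕ) : R)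
    rwa [map_natCast] at this

/-- `p 0 = a B₁`, `p 2 = b B₁`. -/
theorem p_le_of_ϖ_mem (i : Fin 3) (hi : i ≠ 1) (𝔪 : Ideal (intCl R D.t))
    (h : (⟨D.ϖ i, D.ϖ_mem i⟩ : intCl R D.t) ∈ 𝔪) : D.sys.p i ≤ 𝔪 := by
  have hinv : ∃ n : ℕ, (D.q : F) ^ n / D.ϖ i ∈ intCl R D.t := by
    rcases fin3_cases i with rfl | rfl | rfl
    · exact D.inv₀
    · exact absurd rfl hi
    · exact D.inv₂
  obtain ⟨n, hn⟩ := hinv
  intro x hx
  rw [D.sys.mem_p] at hx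
  have hy : (x : F) / D.ϖ i ∈ intCl R D.t := by
    refine D.mem_chart₁ ?_ n ?_
    · intro j
      rw [map_div₀]
      by_cases hj : j = i
      · subst hj
        exact div_le_one_of_le₀ ((D.isUnif j).chart_le_of_lt_one hx) zero_le
      · rw [D.ϖ_indep i j (Ne.symm hj), div_one]
        exact D.sys.chart_val_le_one j x
    · have h' : (D.q : F) ^ n * ((x : F) / D.ϖ i) = (x : F) * ((D.q : F) ^ n / D.ϖ i) := by ring
      rw [h']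
      exact mul_mem x.2 hn
  have hx' : x = ⟨D.ϖ i, D.ϖ_mem i⟩ * ⟨_, hy⟩ := by
    apply Subtype.ext
    show (x : F) = D.ϖ i * ((x : F) / D.ϖ i)
    have := D.ϖ_ne_zero i
    field_simp
  rw [hx']
  exact 𝔪.mul_mem_right _ h

theorem ϖ_mem_p (i : Fin 3) : (⟨D.ϖ i, D.ϖ_mem i⟩ : intCl R D.t) ∈ D.sys.p i := by
  rw [D.sys.mem_p]
  exact D.ϖ_lt i

theorem c'_mem_p : (⟨_, D.c'_mem⟩ : intCl R D.t) ∈ D.sys.p 1 := by
  rw [D.sys.mem_p]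
  show (D.O 1).valuation ((D.q : F) / (D.ϖ 0 * D.ϖ 2)) < 1
  rw [D.val_c'₁]
  exact pow_lt_one₀ zero_le (D.ϖ_lt 1) D.q_sub_one_ne_zero

/-- `x ^ (q - 1) ∈ c' B₁` for `x ∈ p 1`. -/
theorem p₁_le_of_c'_mem (𝔪 : Ideal (intCl R D.t)) (h𝔪 : 𝔪.IsPrime)
    (h : (⟨_, D.c'_mem⟩ : intCl R D.t) ∈ 𝔪) : D.sys.p 1 ≤ 𝔪 := by
  intro x hx
  rw [D.sys.mem_p] at hx
  have hy : (x : F) ^ (D.q - 1) / ((D.q : F) / (D.ϖ 0 * D.ϖ 2)) ∈ intCl R D.t := by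
    refine D.mem_chart₁ ?_ 1 ?_
    · intro j
      rw [map_div₀, map_pow]
      by_cases hj : j = 1
      · subst hj
        rw [D.val_c'₁]
        exact div_le_one_of_le₀
          (pow_le_pow_left₀ zero_le ((D.isUnif 1).chart_le_of_lt_one hx) _) zero_le
      · rw [D.val_c' j hj, div_one]
        exact pow_le_one₀ zero_le (D.sys.chart_val_le_one j x)
    · have h' : (D.q : F) ^ 1 * ((x : F) ^ (D.q - 1) / ((D.q : F) / (D.ϖ 0 * D.ϖ 2))) =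
          (x : F) ^ (D.q - 1) * D.ϖ 0 * D.ϖ 2 := by
        have := D.ϖ_ne_zero 0
        have := D.ϖ_ne_zero 2
        have := D.q_ne_zero
        field_simp
      rw [h']
      exact mul_mem (mul_mem (pow_mem x.2 _) (D.ϖ_mem 0)) (D.ϖ_mem 2)
  have hx' : x ^ (D.q - 1) = ⟨_, D.c'_mem⟩ * ⟨_, hy⟩ := by
    apply Subtype.ext
    show (x : F) ^ (D.q - 1) = ((D.q : F) / (D.ϖ 0 * D.ϖ 2)) *
      ((x : F) ^ (D.q - 1) / ((D.q : F) / (D.ϖ 0 * D.ϖ 2)))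
    have := D.ϖ_ne_zero 0
    have := D.ϖ_ne_zero 2
    have := D.q_ne_zero
    field_simp
  exact h𝔪.mem_of_pow_mem _ (hx' ▸ 𝔪.mul_mem_right _ h)

/-- **[G-TRIPLE]**  in the first chart all intersection points are triple points.
Proof.  `p 0 = a B₁`, `p 2 = b B₁`, `c' ∈ p 1` and `x^(q-1) ∈ c' B₁` for `x ∈ p 1` (`krull3_intCl`), so
`p 1 ≤ 𝔪 ↔ c' ∈ 𝔪`.  By `t3`: `c' - b^(q-1) ∈ p 0`; by `t3'`: `c' - a^(q-1) ∈ p 2`. -/
theorem triple (𝔪 : Ideal (intCl R D.t)) (h𝔪 : 𝔪.IsMaximal) (i j : Fin 3) (hij : i ≠ j)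
    (hi : D.sys.p i ≤ 𝔪) (hj : D.sys.p j ≤ 𝔪) (l : Fin 3) : D.sys.p l ≤ 𝔪 := by
  have hpr := h𝔪.isPrime
  set a : intCl R D.t := ⟨D.ϖ 0, D.ϖ_mem 0⟩ with ha
  set b : intCl R D.t := ⟨D.ϖ 2, D.ϖ_mem 2⟩ with hb
  set c : intCl R D.t := ⟨_, D.c'_mem⟩ with hc
  have h3 : c - b ^ (D.q - 1) ∈ D.sys.p 0 := by
    rw [D.sys.mem_p]
    exact D.t3
  have h3' : c - a ^ (D.q - 1) ∈ D.sys.p 2 := by
    rw [D.sys.mem_p]
    exact D.t3'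
  -- the three implications
  have h02 : D.sys.p 0 ≤ 𝔪 → D.sys.p 2 ≤ 𝔪 → D.sys.p 1 ≤ 𝔪 := by
    intro h0 h2
    apply D.p₁_le_of_c'_mem 𝔪 hpr
    have hb' : b ^ (D.q - 1) ∈ 𝔪 := 𝔪.pow_mem_of_mem (h2 (D.ϖ_mem_p 2)) _
      (Nat.pos_of_ne_zero D.q_sub_one_ne_zero)
    have := 𝔪.add_mem (h0 h3) hb'
    simpa using this
  have h01 : D.sys.p 0 ≤ 𝔪 → D.sys.p 1 ≤ 𝔪 → D.sys.p 2 ≤ 𝔪 := by
    intro h0 h1
    apply D.p_le_of_ϖ_mem 2 (by decide)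
    have hc1 : c ∈ 𝔪 := h1 D.c'_mem_p
    have := 𝔪.sub_mem hc1 (h0 h3)
    have h' : b ^ (D.q - 1) ∈ 𝔪 := by simpa using this
    exact hpr.mem_of_pow_mem _ h'
  have h12 : D.sys.p 1 ≤ 𝔪 → D.sys.p 2 ≤ 𝔪 → D.sys.p 0 ≤ 𝔪 := by
    intro h1 h2
    apply D.p_le_of_ϖ_mem 0 (by decide)
    have hc1 : c ∈ 𝔪 := h1 D.c'_mem_p
    have := 𝔪.sub_mem hc1 (h2 h3')
    have h' : a ^ (D.q - 1) ∈ 𝔪 := by simpa using this
    exact hpr.mem_of_pow_mem _ h'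
  have hall : D.sys.p 0 ≤ 𝔪 ∧ D.sys.p 1 ≤ 𝔪 ∧ D.sys.p 2 ≤ 𝔪 := by
    rcases fin3_cases i with rfl | rfl | rfl <;> rcases fin3_cases j with rfl | rfl | rfl
    · exact absurd rfl hij
    · exact ⟨hi, hj, h01 hi hj⟩
    · exact ⟨hi, h02 hi hj, hj⟩
    · exact ⟨hj, hi, h01 hj hi⟩
    · exact absurd rfl hij
    · exact ⟨h12 hi hj, hi, hj⟩
    · exact ⟨hj, h02 hj hi, hi⟩
    · exact ⟨h12 hj hi, hj, hi⟩
    · exact absurd rfl hij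
  rcases fin3_cases l with rfl | rfl | rfl
  · exact hall.1
  · exact hall.2.1
  · exact hall.2.2

end GeomDatum

end Fermat.Agent.S36
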