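import Fermat.Agent.S36.Abs.GeomB

/-!
# S36 / abstract part : consequences of the geometric datum

`[G-UNIF]`, `[G-LOCGEN1]`, `[G-TRIPLE]`, `[G-DISJ2]`, `[G-LOCGEN2]`, `[G-LD]`, `[APPROX3]`.
Notation: `B₁ = intCl R D.t`, `B₂ = intCl R D.t⁻¹`, `p i = D.sys.p i`, `a = ϖ 0`, `b = ϖ 2`,
`c' = q / (a b)`.
-/

set_option autoImplicit false

open Polynomial

namespace Fermat.Agent.S36

variable {R K F : Type*} [CommRing R] [IsDomain R] [IsDiscreteValuationRing R]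
    [Field K] [Algebra R K] [IsFractionRing R K]
    [Field F] [CharZero F] [Algebra R F] [Algebra K F] [IsScalarTower R K F]

namespace GeomDatum

variable (D : GeomDatum R K F)

/-- **[G-DISJ2]** (`sep`) -/
theorem disj₂ (𝔪 : Ideal (intCl R D.t⁻¹)) (h𝔪 : 𝔪.IsMaximal) (i j : Fin 3) (hij : i ≠ j)
    (hi : D.sys₂.p i ≤ 𝔪) (hj : D.sys₂.p j ≤ 𝔪) : False := by
  obtain ⟨x, hx, hxi, hxj⟩ := D.sep i j hij
  have h1 : (⟨x, hx⟩ : intCl R D.t⁻¹) ∈ 𝔪 := hi ((D.sys₂.mem_p i).2 hxi)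
  have h2 : (⟨x, hx⟩ - 1 : intCl R D.t⁻¹) ∈ 𝔪 := hj ((D.sys₂.mem_p j).2 hxj)
  have h3 : (1 : intCl R D.t⁻¹) ∈ 𝔪 := by
    have := 𝔪.sub_mem h1 h2
    simpa using this
  exact h𝔪.ne_top ((Ideal.eq_top_iff_one _).2 h3)

/-- **[G-LOCGEN2]**  the cusps.  `𝔪` lies on exactly one component `i` (`cover`, `disj₂`); use
`locGen_of_unitAt` with `ϖ = q` (`i = 0, 2`), `ϖ = ϖc` of `cusp` (`i = 1`). -/
theorem locGen₂ (𝔪 : Ideal (intCl R D.t⁻¹)) (h𝔪 : 𝔪.IsMaximal)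
    (hπ : piB R D.t⁻¹ ((D.q : ℕ) : R) ∈ 𝔪) (ht : tinvB R D.t ∈ 𝔪) :
    ∃ (i : Fin 3) (a : F), D.sys₂.p i ≤ 𝔪 ∧ LocGen (intCl R D.t⁻¹) 𝔪 (D.sys₂.p i) a := by
  obtain ⟨i, hi⟩ := D.sys₂.cover D.irr 𝔪 h𝔪.isPrime hπ
  have honly : ∀ j, j ≠ i → ¬ D.sys₂.p j ≤ 𝔪 := fun j hj hle => D.disj₂ 𝔪 h𝔪 j i hj hle hi
  have hπ0 : algebraMap R F ((D.q : ℕ) : R) ≠ 0 := chart_pi_ne_zero K D.irr
  -- the case of a reduced component
  have hred : eVec D.q i = 1 →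
      LocGen (intCl R D.t⁻¹) 𝔪 (D.sys₂.p i) (algebraMap R F ((D.q : ℕ) : R)) := by
    intro he
    refine D.sys₂.locGen_of_unitAt D.irr 𝔪 h𝔪.isPrime i hi honly
      (memAt_of_mem (algebraMap_mem_intCl R _ _) h𝔪.ne_top) (D.sys₂.gauss i).lt_one
      (E := 1) he.symm ?_
    rw [pow_one, div_self hπ0]
    have h1 : (1 : intCl R D.t⁻¹) ∉ 𝔪 := fun h => h𝔪.ne_top ((Ideal.eq_top_iff_one _).2 h)
    exact ⟨1, 1, h1, h1, by simp⟩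
  fin_cases i
  · exact ⟨0, _, hi, hred rfl⟩
  · obtain ⟨ϖc, h1, h2, h3⟩ := D.cusp 𝔪 h𝔪 ht hi
    refine ⟨1, ϖc, hi, D.sys₂.locGen_of_unitAt D.irr 𝔪 h𝔪.isPrime 1 hi honly h2 h1
      (E := D.q - 1) rfl ?_⟩
    rw [map_natCast]
    exact h3
  · exact ⟨2, _, hi, hred rfl⟩

/-- **[G-LD1]** (`GaussSys.ld_at`, `GaussSys.ld_at_of_notMem`, `locGen₁`) -/
theorem ld₁ {m : ℕ} (hm : m ≠ 0) {g : F} (hg : ∀ i, (D.O i).valuation g = 1) (hhor : Hor K m g) :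
    LD (intCl R D.t) m g := by
  intro 𝔪 h𝔪
  by_cases hπ : piB R D.t ((D.q : ℕ) : R) ∈ 𝔪
  · obtain ⟨i, a, hi, ha⟩ := D.locGen₁ 𝔪 h𝔪 hπ
    exact D.sys.ld_at D.irr D.ded₁ 𝔪 h𝔪 i hi ha hm hg hhor
  · exact D.sys.ld_at_of_notMem D.irr 𝔪 h𝔪.isPrime hπ hhor

theorem t_ne_zero : D.t ≠ 0 := by
  intro h0
  have h1 := (D.sys.gauss 0).prim X (by
    intro hd
    have h2 := (Polynomial.C_dvd_iff_dvd_coeff _ _).1 hd 1
    rw [coeff_X_one] at h2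
    exact D.irr.not_isUnit (isUnit_of_dvd_one h2))
  rw [aeval_X, h0, map_zero] at h1
  exact zero_ne_one h1

/-- **[G-LD2]** (`ld_at_transfer` off the cusps, `locGen₂` at the cusps) -/
theorem ld₂ {m : ℕ} (hm : m ≠ 0) {g : F} (hg : ∀ i, (D.O i).valuation g = 1) (hhor : Hor K m g) :
    LD (intCl R D.t⁻¹) m g := by
  intro 𝔪 h𝔪
  by_cases ht : tinvB R D.t ∈ 𝔪
  · by_cases hπ : piB R D.t⁻¹ ((D.q : ℕ) : R) ∈ 𝔪
    · obtain ⟨i, a, hi, ha⟩ := D.locGen₂ 𝔪 h𝔪 hπ ht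
      exact D.sys₂.ld_at D.irr D.ded₂ 𝔪 h𝔪 i hi ha hm hg hhor
    · exact D.sys₂.ld_at_of_notMem D.irr 𝔪 h𝔪.isPrime hπ hhor
  · exact ld_at_transfer R D.t_ne_zero (D.ld₁ hm hg hhor) 𝔪 h𝔪 ht

/-- the gluing condition is empty in the second chart -/
theorem glued₂ (m : ℕ) (g : F) (z : Fin 3 → R) : Glued D.sys₂ m g z :=
  fun i j hij 𝔪 h𝔪 hi hj _ _ _ _ _ _ => (D.disj₂ 𝔪 h𝔪 i j hij hi hj).elim

/-- **[G-COMP]** trivialisation along one component of the first chart (`comp`,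
`hroot_of_isIntegrallyClosed`, `GaussSys.unitAt_centre`). -/
theorem exists_comp {m : ℕ} (hm : m ≠ 0) {g : F} (hg : ∀ i, (D.O i).valuation (g - 1) < 1)
    (hhor : Hor K m g) (i : Fin 3) :
    ∃ u : F, u ^ m * g ∈ intCl R D.t ∧ (D.O i).valuation (u - 1) < 1 := by
  have hvg : ∀ i, (D.O i).valuation g = 1 := fun i => comp_aux_val_f (hg i)
  have hg0 : g ≠ 0 := by
    rintro rfl
    have := hvg 0
    simp at this
  have hBO : intCl R D.t ≤ (D.O i).toSubring := intCl_le (D.sys.gauss i)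
  have hIC : IsIntegrallyClosed (intCl R D.t ⧸ centre (intCl R D.t) (D.O i) hBO) := by
    have := D.ded₁ i
    exact inferInstanceAs (IsIntegrallyClosed (intCl R D.t ⧸ D.sys.p i))
  exact comp (intCl R D.t) hm (rootClosed_intCl R D.t hm) hg0 (D.ld₁ hm hvg hhor) (D.O i) hBO
    (hroot_of_isIntegrallyClosed (intCl R D.t) (D.O i) hBO hIC
      (fun x hx => D.sys.unitAt_centre D.irr i hBO hx) hm) (hg i)

end GeomDatum

end Fermat.Agent.S36
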