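import Fermat.Agent.S36.Abs.Basic

/-!
# S36 / abstract part : gluing trivialisations of `M / I M` along the components

`[GLUE2]` two ideals, `[NILP]` removal of nilpotents, `[CHART]` three components.
All proofs are local-global arguments with `MemAt / UnitAt / ZeroAt` (see the doc-strings).
-/

set_option autoImplicit false

namespace Fermat.Agent.S36

variable {F : Type*} [Field F]

namespace GlueAux

/-! ### congruence to `1` at a prime -/

section One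

variable {B : Subring F} {𝔮 : Ideal B}

theorem memAt_one [h𝔮 : 𝔮.IsPrime] : MemAt B 𝔮 (1 : F) := memAt_of_mem B.one_mem h𝔮.ne_top

theorem zeroAt_of_mem [h𝔮 : 𝔮.IsPrime] {b : B} (hb : b ∈ 𝔮) : ZeroAt B 𝔮 (b : F) :=
  ⟨b, 1, hb, fun h => h𝔮.ne_top ((Ideal.eq_top_iff_one _).2 h), by simp⟩

theorem unitAt_of_notMem [h𝔮 : 𝔮.IsPrime] {b : B} (hb : b ∉ 𝔮) : UnitAt B 𝔮 (b : F) :=
  ⟨b, 1, hb, fun h => h𝔮.ne_top ((Ideal.eq_top_iff_one _).2 h), by simp⟩

theorem unitAt_of_one [𝔮.IsPrime] {a : F} (ha : ZeroAt B 𝔮 (a - 1)) : UnitAt B 𝔮 a := by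
  have := ha.unitAt_one_add
  rwa [add_sub_cancel] at this

theorem one_mul' [𝔮.IsPrime] {a b : F} (ha : ZeroAt B 𝔮 (a - 1)) (hb : ZeroAt B 𝔮 (b - 1)) :
    ZeroAt B 𝔮 (a * b - 1) := by
  have : a * b - 1 = (a - 1) * b + (b - 1) := by ring
  rw [this]
  exact (ha.mul_memAt (unitAt_of_one hb).memAt).add hb

theorem one_inv [𝔮.IsPrime] {b : F} (hb : ZeroAt B 𝔮 (b - 1)) : ZeroAt B 𝔮 (b⁻¹ - 1) := by
  have hU := unitAt_of_one hb
  have h0 := hU.ne_zero
  have : b⁻¹ - 1 = (b - 1) * (-b⁻¹) := by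
    field_simp
    ring
  rw [this]
  exact hb.mul_memAt hU.inv.memAt.neg

theorem one_div' [𝔮.IsPrime] {a b : F} (ha : ZeroAt B 𝔮 (a - 1)) (hb : ZeroAt B 𝔮 (b - 1)) :
    ZeroAt B 𝔮 (a / b - 1) := by
  rw [div_eq_mul_inv]
  exact one_mul' ha (one_inv hb)

end One

/-- local-global principle for membership in a submodule. -/
theorem mem_submodule_of_forall {B : Type*} [CommRing B] {V : Type*} [AddCommGroup V] [Module B V]
    (N : Submodule B V) (x : V)
    (h : ∀ 𝔪 : Ideal B, 𝔪.IsMaximal → ∃ t : B, t ∉ 𝔪 ∧ t • x ∈ N) : x ∈ N := by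
  let 𝔞 : Ideal B :=
    { carrier := {t | t • x ∈ N}
      zero_mem' := by simp
      add_mem' := fun {a b} ha hb => by
        show (a + b) • x ∈ N
        rw [add_smul]
        exact N.add_mem ha hb
      smul_mem' := fun c a ha => by
        show (c • a) • x ∈ N
        rw [smul_assoc]
        exact N.smul_mem c ha }
  by_cases htop : 𝔞 = ⊤
  · have : (1 : B) ∈ 𝔞 := by rw [htop]; exact Submodule.mem_top
    have h1 : (1 : B) • x ∈ N := this
    rwa [one_smul] at h1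
  · obtain ⟨𝔪, h𝔪, hle⟩ := Ideal.exists_le_maximal 𝔞 htop
    obtain ⟨t, ht, htx⟩ := h 𝔪 h𝔪
    exact absurd (hle htx) ht


/-! ### the module `M` -/

section Mod

variable {B : Subring F} {m : ℕ} {f : F}

/-- products of `m` elements of `M` times `f` lie in `B` (special shape). -/
theorem mul3_mem (hm : m ≠ 0) (hB : RootClosed B m) (hLD : LD B m f) {a b ν : F}
    (ha : a ∈ MM B m f) (hb : b ∈ MM B m f) (hν : ν ∈ MM B m f) {j l : ℕ} (hjl : j + l + 1 = m) :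
    a ^ j * b ^ l * ν * f ∈ B := by
  refine mem_of_forall_memAt fun 𝔪 h𝔪 => ?_
  have : 𝔪.IsPrime := h𝔪.isPrime
  obtain ⟨h, h0, hU⟩ := hLD 𝔪 h𝔪
  have e : a ^ j * b ^ l * ν * f = (a / h) ^ j * (b / h) ^ l * (ν / h) * (h ^ m * f) := by
    rw [← hjl, div_pow, div_pow]
    field_simp
    ring
  rw [e]
  exact ((((MM.div_memAt hm hB hU ha).pow j).mul ((MM.div_memAt hm hB hU hb).pow l)).mul
    (MM.div_memAt hm hB hU hν)).mul hU.memAt

theorem mul3_mem_ideal (hm : m ≠ 0) (hB : RootClosed B m) (hLD : LD B m f) (I : Ideal B)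
    {a b x : F} (ha : a ∈ MM B m f) (hb : b ∈ MM B m f)
    (hx : x ∈ I • MM.submodule hm hB hLD) {j l : ℕ} (hjl : j + l + 1 = m) :
    ∃ c ∈ I, a ^ j * b ^ l * x * f = ((c : B) : F) := by
  refine Submodule.smul_induction_on hx ?_ ?_
  · intro r hr n hn
    refine ⟨r * ⟨_, mul3_mem hm hB hLD ha hb hn hjl⟩, I.mul_mem_right _ hr, ?_⟩
    rw [Subring.smul_def]
    push_cast
    simp only [smul_eq_mul]
    ring
  · rintro x y ⟨c, hc, hx⟩ ⟨d, hd, hy⟩
    refine ⟨c + d, I.add_mem hc hd, ?_⟩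
    push_cast
    rw [← hx, ← hy]
    ring

theorem add_pow_mul (hm : m ≠ 0) (hB : RootClosed B m) (hLD : LD B m f) (I : Ideal B)
    {u x : F} (hu : u ∈ MM B m f) (hx : x ∈ I • MM.submodule hm hB hLD) :
    ∃ c ∈ I, (u + x) ^ m * f = u ^ m * f + ((c : B) : F) := by
  have hxM : x ∈ MM B m f := (Submodule.smul_le_right hx : x ∈ MM.submodule hm hB hLD)
  have huxM : u + x ∈ MM B m f := MM.add hm hB hLD hu hxM
  have h1 : ∀ i, ∃ c ∈ I, i < m → (u + x) ^ i * u ^ (m - 1 - i) * x * f = ((c : B) : F) := by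
    intro i
    by_cases hi : i < m
    · obtain ⟨c, hc, h⟩ := mul3_mem_ideal hm hB hLD I huxM hu hx
        (show i + (m - 1 - i) + 1 = m by omega)
      exact ⟨c, hc, fun _ => h⟩
    · exact ⟨0, I.zero_mem, fun h => absurd h hi⟩
  choose c hc hterm using h1
  refine ⟨∑ i ∈ Finset.range m, c i, I.sum_mem fun i _ => hc i, ?_⟩
  have h2 := geom_sum₂_mul (u + x) u m
  have h3 : (u + x) ^ m * f =
      u ^ m * f + ∑ i ∈ Finset.range m, (u + x) ^ i * u ^ (m - 1 - i) * x * f := by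
    have : (u + x) ^ m = u ^ m + (∑ i ∈ Finset.range m, (u + x) ^ i * u ^ (m - 1 - i)) * x := by
      rw [add_sub_cancel_left] at h2
      rw [h2]
      ring
    rw [this, add_mul, Finset.sum_mul, Finset.sum_mul]
  rw [h3]
  push_cast
  congr 1
  exact Finset.sum_congr rfl fun i hi => hterm i (Finset.mem_range.1 hi)

theorem zeroAt_div (hm : m ≠ 0) (hB : RootClosed B m) (hLD : LD B m f) (I : Ideal B)
    {𝔮 : Ideal B} [𝔮.IsPrime] (hI : I ≤ 𝔮) {u x : F} (hU : UnitAt B 𝔮 (u ^ m * f))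
    (hx : x ∈ I • MM.submodule hm hB hLD) : ZeroAt B 𝔮 (x / u) := by
  refine Submodule.smul_induction_on hx ?_ ?_
  · intro r hr n hn
    have : (r • n) / u = (r : F) * (n / u) := by
      rw [Subring.smul_def, smul_eq_mul, mul_div_assoc]
    rw [this]
    exact (zeroAt_of_mem (hI hr)).mul_memAt (MM.div_memAt hm hB hU hn)
  · intro x y hx hy
    rw [add_div]
    exact hx.add hy

/-- `w ≡ 1 mod I`, `I ≤ 𝔮` proper ⟹ `w ∉ 𝔮`. -/
theorem notMem_of_sub_one_mem {I 𝔮 : Ideal B} [h𝔮 : 𝔮.IsPrime] (hI : I ≤ 𝔮) {w : B}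
    (hw : w - 1 ∈ I) : w ∉ 𝔮 := by
  intro h
  apply h𝔮.ne_top
  rw [Ideal.eq_top_iff_one]
  have := 𝔮.sub_mem h (hI hw)
  simpa using this

end Mod

end GlueAux

open GlueAux

/-- **[NILP]**  If `w - 1` is nilpotent modulo `π` then `s ^ m * w ≡ 1 mod π` for some
`s ≡ 1 mod (w - 1)`: truncated binomial series of `(1 + n)^(-1/m)`. -/
theorem nilp {B : Type*} [CommRing B] {m : ℕ} (hm : IsUnit ((m : ℕ) : B)) (π w : B) (N : ℕ)
    (hw : (w - 1) ^ N ∈ Ideal.span {π}) :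
    ∃ s : B, s - 1 ∈ Ideal.span {w - 1} ∧ s ^ m * w - 1 ∈ Ideal.span {π} := by
  obtain ⟨μ, hμ⟩ := hm.exists_right_inv
  have key : ∀ k : ℕ, ∃ s : B, (w - 1) ∣ s - 1 ∧ (w - 1) ^ (k + 1) ∣ s ^ m * w - 1 := by
    intro k
    induction k with
    | zero => exact ⟨1, by simp, by simp⟩
    | succ k ih =>
      obtain ⟨s, hs1, hs2⟩ := ih
      set δ : B := s ^ m * w - 1 with hδ
      obtain ⟨e, he⟩ := Polynomial.powAddExpansion (1 : B) (-(μ * δ)) m
      refine ⟨s * (1 + -(μ * δ)), ?_, ?_⟩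
      · have h1 : (w - 1) ∣ δ := dvd_trans (dvd_pow_self _ (Nat.succ_ne_zero k)) hs2
        have : s * (1 + -(μ * δ)) - 1 = (s - 1) - s * μ * δ := by ring
        rw [this]
        exact dvd_sub hs1 (Dvd.dvd.mul_left h1 _)
      · have h2 : (s * (1 + -(μ * δ))) ^ m * w - 1 =
            δ ^ 2 * (-1 + e * μ ^ 2 * (1 + δ)) + (1 + δ) * δ * (1 - (m : B) * μ) := by
          rw [mul_pow, he]
          have : s ^ m * w = 1 + δ := by rw [hδ]; ring
          calc s ^ m * (1 ^ m + (m : B) * 1 ^ (m - 1) * -(μ * δ) + e * (-(μ * δ)) ^ 2) * w - 1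
              = (s ^ m * w) * (1 + (m : B) * -(μ * δ) + e * (-(μ * δ)) ^ 2) - 1 := by
                rw [one_pow, one_pow]; ring
            _ = _ := by rw [this]; ring
        rw [h2, hμ, sub_self, mul_zero, add_zero]
        refine Dvd.dvd.mul_right ?_ _
        refine dvd_trans (pow_dvd_pow _ (by omega : k + 1 + 1 ≤ (k + 1) * 2)) ?_
        rw [pow_mul]
        exact pow_dvd_pow_of_dvd hs2 2
  obtain ⟨s, hs1, hs2⟩ := key N
  refine ⟨s, Ideal.mem_span_singleton.2 hs1, Ideal.mem_span_singleton.2 ?_⟩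
  exact dvd_trans (Ideal.mem_span_singleton.1 hw) (dvd_trans (pow_dvd_pow _ (Nat.le_succ N)) hs2)

/-- **[GLUE2]**  `u` trivialises `M` modulo `I`, `u'` modulo `J`, and `u' / u` has the value `1` at
every point of `V(I) ∩ V(J)`.  Then there is `u''` trivialising `M` modulo `I ∩ J`, congruent to `u`
along `V(I)` and to `u'` along `V(J)`.

Proof.  `N := I M + J M`.  Claim `u' - u ∈ N`; the ideal `{t | t (u' - u) ∈ N}` is contained in no
maximal ideal `𝔪`: if `I + J ⊄ 𝔪` clear.  Otherwise `u' t = u (t + s)`, `s ∈ 𝔪`, `t ∉ 𝔪`, so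
`w ((t+s)^m - t^m) = (w' - w) t^m ∈ I + J`, i.e. `t' s ∈ I + J` with
`t' = w (m t^(m-1) + s (..)) ∉ 𝔪`, and `t' t (u' - u) = t' s u ∈ N`.
Write `u' - u = x + y`, `x ∈ I M`, `y ∈ J M`, `u'' := u + x = u' - y`; expand `(u + x)^m f` with
`MM.prod_mul_mem`. -/
theorem glue2 (B : Subring F) {m : ℕ} (hm : IsUnit ((m : ℕ) : B)) (hB : RootClosed B m) {f : F}
    (hf : f ≠ 0) (hLD : LD B m f) (I J : Ideal B) {u u' : F} (w w' : B)
    (hu : u ^ m * f = w) (hw : w - 1 ∈ I) (hu' : u' ^ m * f = w') (hw' : w' - 1 ∈ J)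
    (hglue : ∀ 𝔪 : Ideal B, 𝔪.IsMaximal → I ≤ 𝔪 → J ≤ 𝔪 → ZeroAt B 𝔪 (u' / u - 1)) :
    ∃ (u'' : F) (w'' : B), u'' ^ m * f = w'' ∧ w'' - 1 ∈ I ⊓ J ∧
      (∀ 𝔮 : Ideal B, 𝔮.IsPrime → I ≤ 𝔮 → ZeroAt B 𝔮 (u'' / u - 1)) ∧
      (∀ 𝔮 : Ideal B, 𝔮.IsPrime → J ≤ 𝔮 → ZeroAt B 𝔮 (u'' / u' - 1)) := by
  have hm0 : m ≠ 0 := by
    rintro rfl
    simp at hm
  set M := MM.submodule hm0 hB hLD with hM
  have huM : u ∈ MM B m f := by
    rw [mem_MM, hu]
    exact w.2
  have hu'M : u' ∈ MM B m f := by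
    rw [mem_MM, hu']
    exact w'.2
  have hsubM : u' - u ∈ M := M.sub_mem hu'M huM
  have hclaim : u' - u ∈ (I ⊔ J) • M := by
    refine mem_submodule_of_forall _ _ fun 𝔪 h𝔪 => ?_
    have hp : 𝔪.IsPrime := h𝔪.isPrime
    by_cases hI : I ≤ 𝔪
    · by_cases hJ : J ≤ 𝔪
      · obtain ⟨s, t, hs, ht, hst⟩ := hglue 𝔪 h𝔪 hI hJ
        have hw𝔪 : w ∉ 𝔪 := notMem_of_sub_one_mem hI hw
        have hu0 : u ≠ 0 := by
          rintro rfl
          rw [zero_pow hm0, zero_mul] at hu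
          apply hw𝔪
          have : w = 0 := Subtype.ext hu.symm
          rw [this]
          exact 𝔪.zero_mem
        have h1 : u' * (t : F) = u * ((t : F) + (s : F)) := by
          field_simp at hst
          linear_combination hst
        obtain ⟨e, he⟩ := Polynomial.powAddExpansion t s m
        have h2 : w' * t ^ m = w * (t + s) ^ m := by
          apply Subtype.ext
          push_cast
          rw [← hu, ← hu']
          calc u' ^ m * f * (t : F) ^ m = (u' * (t : F)) ^ m * f := by ring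
            _ = (u * ((t : F) + (s : F))) ^ m * f := by rw [h1]
            _ = _ := by rw [mul_pow]; ring
        set c : B := (m : B) * t ^ (m - 1) + e * s with hc
        have hc𝔪 : c ∉ 𝔪 := by
          intro h
          have h3 : (m : B) * t ^ (m - 1) ∈ 𝔪 := by
            have := 𝔪.sub_mem h (𝔪.mul_mem_left e hs)
            simpa [hc] using this
          rcases hp.mem_or_mem h3 with h4 | h4
          · exact hp.ne_top (Ideal.eq_top_of_isUnit_mem _ h4 hm)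
          · exact ht (hp.mem_of_pow_mem _ h4)
        have h4 : (w' - w) * t ^ m = w * c * s := by
          rw [sub_mul, h2, he, hc]
          ring
        refine ⟨w * c * t, ?_, ?_⟩
        · intro h
          rcases hp.mem_or_mem h with h5 | h5
          · rcases hp.mem_or_mem h5 with h6 | h6
            · exact hw𝔪 h6
            · exact hc𝔪 h6
          · exact ht h5
        · have h3 : (w * c * t) • (u' - u) = ((w' - w) * t ^ m) • u := by
            rw [h4, Subring.smul_def, Subring.smul_def, smul_eq_mul, smul_eq_mul]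
            push_cast
            linear_combination ((w : F) * (c : F)) * h1
          rw [h3]
          refine Submodule.smul_mem_smul (Ideal.mul_mem_right _ _ ?_) huM
          have : w' - w = (w' - 1) - (w - 1) := by ring
          rw [this]
          exact (I ⊔ J).sub_mem (Ideal.mem_sup_right hw') (Ideal.mem_sup_left hw)
      · obtain ⟨t, htJ, ht⟩ := SetLike.not_le_iff_exists.1 hJ
        exact ⟨t, ht, Submodule.smul_mem_smul (Ideal.mem_sup_right htJ) hsubM⟩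
    · obtain ⟨t, htI, ht⟩ := SetLike.not_le_iff_exists.1 hI
      exact ⟨t, ht, Submodule.smul_mem_smul (Ideal.mem_sup_left htI) hsubM⟩
  rw [Submodule.sup_smul] at hclaim
  obtain ⟨x, hx, y, hy, hxy⟩ := Submodule.mem_sup.1 hclaim
  have hny : -y ∈ J • M := (J • M).neg_mem hy
  have heq : u + x = u' + -y := by linear_combination hxy
  obtain ⟨c, hc, hcx⟩ := add_pow_mul hm0 hB hLD I huM hx
  obtain ⟨d, hd, hdy⟩ := add_pow_mul hm0 hB hLD J hu'M hny
  refine ⟨u + x, w + c, ?_, ⟨?_, ?_⟩, ?_, ?_⟩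
  · rw [hcx, hu]
    push_cast
    rfl
  · have : w + c - 1 = (w - 1) + c := by ring
    rw [this]
    exact I.add_mem hw hc
  · have h5 : w + c = w' + d := by
      apply Subtype.ext
      push_cast
      rw [← hu, ← hcx, heq, hdy, hu']
    have : w + c - 1 = (w' - 1) + d := by rw [h5]; ring
    rw [this]
    exact J.add_mem hw' hd
  · intro 𝔮 h𝔮 hI
    have hU : UnitAt B 𝔮 (u ^ m * f) := by
      rw [hu]
      exact unitAt_of_notMem (notMem_of_sub_one_mem hI hw)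
    have hu0 : u ≠ 0 := by
      rintro rfl
      rw [zero_pow hm0, zero_mul] at hU
      exact hU.ne_zero rfl
    have : (u + x) / u - 1 = x / u := by
      field_simp
      ring
    rw [this]
    exact zeroAt_div hm0 hB hLD I hI hU hx
  · intro 𝔮 h𝔮 hJ
    have hU : UnitAt B 𝔮 (u' ^ m * f) := by
      rw [hu']
      exact unitAt_of_notMem (notMem_of_sub_one_mem hJ hw')
    have hu0 : u' ≠ 0 := by
      rintro rfl
      rw [zero_pow hm0, zero_mul] at hU
      exact hU.ne_zero rfl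
    have : (u + x) / u' - 1 = (-y) / u' := by
      rw [heq]
      field_simp
      ring
    rw [this]
    exact zeroAt_div hm0 hB hLD J hJ hU hny

/-- **[CHART]**  three components `p 0, p 1, p 2` with `⋂ p i ⊆ √(π)`.  Component-wise
trivialisations `u i` which agree at the intersection points glue to a trivialisation modulo `π`. -/
theorem chart (B : Subring F) {m : ℕ} (hm : IsUnit ((m : ℕ) : B)) (hB : RootClosed B m) {f : F}
    (hf : f ≠ 0) (hLD : LD B m f) (π : B) (p : Fin 3 → Ideal B) (hp : ∀ i, (p i).IsPrime)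
    (hrad : ∀ x : B, (∀ i, x ∈ p i) → ∃ N : ℕ, x ^ N ∈ Ideal.span {π})
    (u : Fin 3 → F) (w : Fin 3 → B) (hu : ∀ i, u i ^ m * f = w i) (hw : ∀ i, w i - 1 ∈ p i)
    (hglue : ∀ i j, ∀ 𝔪 : Ideal B, 𝔪.IsMaximal → p i ≤ 𝔪 → p j ≤ 𝔪 →
      ZeroAt B 𝔪 (u j / u i - 1)) :
    ∃ (v : F) (b : B), v ^ m * f = 1 + (π : F) * (b : F) ∧
      ∀ i, ∀ 𝔮 : Ideal B, 𝔮.IsPrime → p i ≤ 𝔮 → ZeroAt B 𝔮 (v / u i - 1) := by
  obtain ⟨u₀₁, w₀₁, hu₀₁, hw₀₁, hA0, hA1⟩ := glue2 B hm hB hf hLD (p 0) (p 1) (w 0) (w 1)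
    (hu 0) (hw 0) (hu 1) (hw 1) (hglue 0 1)
  -- a cancellation lemma
  have hcancel : ∀ {𝔮 : Ideal B}, 𝔮.IsPrime → ∀ {a b c : F}, ZeroAt B 𝔮 (a / c - 1) →
      ZeroAt B 𝔮 (b / c - 1) → ZeroAt B 𝔮 (a / b - 1) := by
    intro 𝔮 h𝔮 a b c ha hb
    have hb0 : b / c ≠ 0 := (unitAt_of_one hb).ne_zero
    have hc0 : c ≠ 0 := fun h => hb0 (by rw [h, div_zero])
    have hb1 : b ≠ 0 := fun h => hb0 (by rw [h, zero_div])
    have : a / b = (a / c) / (b / c) := by
      field_simp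
    rw [this]
    exact one_div' ha hb
  have htrans : ∀ {𝔮 : Ideal B}, 𝔮.IsPrime → ∀ {a b c : F}, ZeroAt B 𝔮 (a / b - 1) →
      ZeroAt B 𝔮 (b / c - 1) → ZeroAt B 𝔮 (a / c - 1) := by
    intro 𝔮 h𝔮 a b c ha hb
    have hb0 : b / c ≠ 0 := (unitAt_of_one hb).ne_zero
    have hc0 : c ≠ 0 := fun h => hb0 (by rw [h, div_zero])
    have hb1 : b ≠ 0 := fun h => hb0 (by rw [h, zero_div])
    have : a / c = (a / b) * (b / c) := by
      field_simp
    rw [this]
    exact one_mul' ha hb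
  obtain ⟨v₀, w₀, hv₀, hw₀, hB01, hB2⟩ := glue2 B hm hB hf hLD (p 0 ⊓ p 1) (p 2) w₀₁ (w 2)
    hu₀₁ hw₀₁ (hu 2) (hw 2) (by
      intro 𝔪 h𝔪 h01 h2
      rcases (Ideal.IsPrime.inf_le h𝔪.isPrime).1 h01 with h0 | h1
      · exact hcancel h𝔪.isPrime (hglue 0 2 𝔪 h𝔪 h0 h2) (hA0 𝔪 h𝔪.isPrime h0)
      · exact hcancel h𝔪.isPrime (hglue 1 2 𝔪 h𝔪 h1 h2) (hA1 𝔪 h𝔪.isPrime h1))
  have hmem : ∀ i, w₀ - 1 ∈ p i := by
    intro i
    fin_cases i
    · exact hw₀.1.1
    · exact hw₀.1.2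
    · exact hw₀.2
  obtain ⟨N, hN⟩ := hrad (w₀ - 1) hmem
  obtain ⟨s, hs1, hs2⟩ := nilp hm π w₀ N hN
  obtain ⟨b, hb⟩ := Ideal.mem_span_singleton.1 hs2
  have hv₀i : ∀ i, ∀ 𝔮 : Ideal B, 𝔮.IsPrime → p i ≤ 𝔮 → ZeroAt B 𝔮 (v₀ / u i - 1) := by
    intro i 𝔮 h𝔮 hi
    fin_cases i
    · exact htrans h𝔮 (hB01 𝔮 h𝔮 (le_trans inf_le_left hi)) (hA0 𝔮 h𝔮 hi)
    · exact htrans h𝔮 (hB01 𝔮 h𝔮 (le_trans inf_le_right hi)) (hA1 𝔮 h𝔮 hi)
    · exact hB2 𝔮 h𝔮 hi
  refine ⟨(s : F) * v₀, b, ?_, ?_⟩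
  · rw [mul_pow, mul_assoc, hv₀]
    have := congrArg (fun z : B => (z : F)) hb
    push_cast at this
    linear_combination this
  · intro i 𝔮 h𝔮 hi
    have hs𝔮 : ZeroAt B 𝔮 ((s : F) - 1) := by
      have h1 : s - 1 ∈ 𝔮 := by
        obtain ⟨e, he⟩ := Ideal.mem_span_singleton.1 hs1
        rw [he]
        exact 𝔮.mul_mem_right _ (hi (hmem i))
      simpa using zeroAt_of_mem h1
    rw [mul_div_assoc]
    exact one_mul' hs𝔮 (hv₀i i 𝔮 h𝔮 hi)

end Fermat.Agent.S36
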