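import Fermat.Agent.S36.Abs.Basic

/-!
# S36 / abstract part : [LOCGEN] semilocal generators, in the language of `Abs/Basic.lean`

If `f` is locally a unit times an `m`-th power at every `𝔫` in a finite set `T` of maximal ideals
of `B`, then a single `h ∈ MM B m f` satisfies `UnitAt B 𝔫 (h ^ m * f)` for all `𝔫 ∈ T`.
-/

set_option autoImplicit false

namespace Fermat.Agent.S36

variable {F : Type*} [Field F]

theorem ZeroAt.sum {B : Subring F} {𝔮 : Ideal B} [𝔮.IsPrime] {ι : Type*} (s : Finset ι)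
    (g : ι → F) (h : ∀ i ∈ s, ZeroAt B 𝔮 (g i)) : ZeroAt B 𝔮 (∑ i ∈ s, g i) := by
  classical
  induction s using Finset.induction_on with
  | empty =>
    rw [Finset.sum_empty]
    exact ⟨0, 1, 𝔮.zero_mem, fun h => Ideal.IsPrime.ne_top ‹_› ((Ideal.eq_top_iff_one _).2 h),
      by simp⟩
  | insert a s ha ih =>
    rw [Finset.sum_insert ha]
    exact (h a (Finset.mem_insert_self _ _)).add
      (ih fun i hi => h i (Finset.mem_insert_of_mem hi))

theorem UnitAt.add_zeroAt {B : Subring F} {𝔮 : Ideal B} [𝔮.IsPrime] {x y : F}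
    (hx : UnitAt B 𝔮 x) (hy : ZeroAt B 𝔮 y) : UnitAt B 𝔮 (x + y) := by
  have hx0 := hx.ne_zero
  have e : x + y = x * (1 + y * x⁻¹) := by field_simp
  rw [e]
  exact hx.mul (hy.mul_memAt hx.inv.memAt).unitAt_one_add

/-- localisation commutes with `MM`: a local section becomes global after multiplication by
some `s ∉ 𝔮`. -/
theorem MM.exists_mul_mem {B : Subring F} {𝔮 : Ideal B} {m : ℕ} (hm : m ≠ 0) {f u : F}
    (h : MemAt B 𝔮 (u ^ m * f)) : ∃ s : B, s ∉ 𝔮 ∧ (s : F) * u ∈ MM B m f := by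
  obtain ⟨b, s, hs, e⟩ := h
  obtain ⟨k, rfl⟩ := Nat.exists_eq_succ_of_ne_zero hm
  refine ⟨s, hs, ?_⟩
  rw [mem_MM]
  rw [Nat.succ_eq_add_one] at e ⊢
  have : ((s : F) * u) ^ (k + 1) * f = (s : F) ^ k * (b : F) := by rw [← e]; ring
  rw [this]
  exact B.mul_mem (B.pow_mem s.2 k) b.2

/-- separating elements for a finite set of maximal ideals. -/
theorem exists_separator {B : Type*} [CommRing B] (T : Finset (Ideal B))
    (hT : ∀ 𝔫 ∈ T, 𝔫.IsMaximal) {𝔫 : Ideal B} (h𝔫 : 𝔫 ∈ T) :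
    ∃ c : B, c ∉ 𝔫 ∧ ∀ 𝔫' ∈ T, 𝔫' ≠ 𝔫 → c ∈ 𝔫' := by
  classical
  have := (hT 𝔫 h𝔫).isPrime
  have hnot : ¬ ((T.erase 𝔫).inf id ≤ 𝔫) := by
    rw [Ideal.IsPrime.inf_le' ‹_›]
    rintro ⟨n', hn', hle⟩
    obtain ⟨hne, hn'T⟩ := Finset.mem_erase.1 hn'
    exact hne ((hT n' hn'T).eq_of_le (hT 𝔫 h𝔫).ne_top hle)
  obtain ⟨c, hc, hcn⟩ := SetLike.not_le_iff_exists.1 hnot
  refine ⟨c, hcn, fun n' hn' hne => ?_⟩
  exact (Finset.inf_le (f := id) (Finset.mem_erase.2 ⟨hne, hn'⟩)) hc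

/-- **[LOCGEN]**. -/
theorem locgen_abs (B : Subring F) {m : ℕ} (hm : m ≠ 0) (hB : RootClosed B m) {f : F}
    (T : Finset (Ideal B)) (hT : ∀ 𝔫 ∈ T, 𝔫.IsMaximal)
    (hadd : ∀ u v : F, u ∈ MM B m f → v ∈ MM B m f → u + v ∈ MM B m f)
    (hloc : ∀ 𝔫 ∈ T, ∃ h : F, UnitAt B 𝔫 (h ^ m * f)) :
    ∃ h : F, h ∈ MM B m f ∧ ∀ 𝔫 ∈ T, UnitAt B 𝔫 (h ^ m * f) := by
  classical
  have h1 : ∀ n ∈ T, ∃ h : F, h ∈ MM B m f ∧ UnitAt B n (h ^ m * f) := by
    intro n hn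
    have := (hT n hn).isPrime
    obtain ⟨h, hh⟩ := hloc n hn
    obtain ⟨s, hs, hsm⟩ := MM.exists_mul_mem hm hh.memAt
    refine ⟨_, hsm, ?_⟩
    have e : ((s : F) * h) ^ m * f = (s : F) ^ m * (h ^ m * f) := by ring
    rw [e]
    have hsU : UnitAt B n (s : F) :=
      ⟨s, 1, hs, fun h => Ideal.IsPrime.ne_top ‹_› ((Ideal.eq_top_iff_one _).2 h), by simp⟩
    exact (hsU.pow m).mul hh
  choose! g hgM hgU using h1
  have h2 := fun n (hn : n ∈ T) => exists_separator T hT hn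
  choose! c hc hc' using h2
  have hsumM : ∀ s : Finset (Ideal B), s ⊆ T → (∑ n ∈ s, (c n : F) * g n) ∈ MM B m f := by
    intro s
    induction s using Finset.induction_on with
    | empty =>
      intro _
      rw [Finset.sum_empty, mem_MM, zero_pow hm, zero_mul]; exact B.zero_mem
    | insert a s ha ih =>
      intro hs
      rw [Finset.sum_insert ha]
      exact hadd _ _ (MM.smul (c a).2 (hgM a (hs (Finset.mem_insert_self _ _))))
        (ih fun i hi => hs (Finset.mem_insert_of_mem hi))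
  refine ⟨∑ n ∈ T, (c n : F) * g n, hsumM T (Finset.Subset.refl T), fun n hn => ?_⟩
  have := (hT n hn).isPrime
  have hU := hgU n hn
  have hg0 : g n ≠ 0 := by
    intro h0
    apply hU.ne_zero
    rw [h0, zero_pow hm, zero_mul]
  have hsum : (∑ n' ∈ T, (c n' : F) * g n') =
      ((c n : F) + ∑ n' ∈ T.erase n, (c n' : F) * (g n' / g n)) * g n := by
    rw [add_mul, Finset.sum_mul, ← Finset.add_sum_erase T _ hn]
    congr 1
    refine Finset.sum_congr rfl fun n' _ => ?_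
    field_simp
  rw [hsum, mul_pow, mul_assoc]
  refine UnitAt.mul (UnitAt.pow ?_ m) hU
  have hcU : UnitAt B n (c n : F) :=
    ⟨c n, 1, hc n hn, fun h => Ideal.IsPrime.ne_top ‹_› ((Ideal.eq_top_iff_one _).2 h), by simp⟩
  refine hcU.add_zeroAt (ZeroAt.sum _ _ fun n' hn' => ?_)
  obtain ⟨hne, hn'T⟩ := Finset.mem_erase.1 hn'
  have hz : ZeroAt B n (c n' : F) :=
    ⟨c n', 1, hc' n' hn'T n hn hne.symm,
      fun h => Ideal.IsPrime.ne_top ‹_› ((Ideal.eq_top_iff_one _).2 h), by simp⟩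
  exact hz.mul_memAt (MM.div_memAt hm hB hU (hgM n' hn'T))

/-- **[LOCGEN]** under `LD`. -/
theorem LD.locgen {B : Subring F} {m : ℕ} (hm : m ≠ 0) (hB : RootClosed B m) {f : F}
    (hLD : LD B m f) (T : Finset (Ideal B)) (hT : ∀ 𝔫 ∈ T, 𝔫.IsMaximal) :
    ∃ h : F, h ∈ MM B m f ∧ ∀ 𝔫 ∈ T, UnitAt B 𝔫 (h ^ m * f) :=
  locgen_abs B hm hB T hT (fun _ _ hu hv => MM.add hm hB hLD hu hv)
    fun 𝔫 h𝔫 => by
      obtain ⟨h, -, hh⟩ := hLD 𝔫 (hT 𝔫 h𝔫)
      exact ⟨h, hh⟩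

end Fermat.Agent.S36
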