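import Fermat.Agent.S36.Abs.StepDefs

/-!
# S36 / abstract part : `[NORM-GLUE]` the two relations at the triple points
-/

set_option autoImplicit false

open Polynomial

namespace Fermat.Agent.S36

namespace NG

section Val

variable {E : Type*} [Field E] (O : ValuationSubring E)

/-- congruence modulo the maximal ideal of `O` -/
def Cg (x y : E) : Prop := O.valuation (x - y) < 1

variable {O}

theorem Cg.refl (x : E) : Cg O x x := by
  unfold Cg; rw [sub_self, map_zero]; exact zero_lt_one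

theorem Cg.symm {x y : E} (h : Cg O x y) : Cg O y x := by
  unfold Cg at h ⊢; rwa [← neg_sub, Valuation.map_neg]

theorem Cg.trans {x y z : E} (h : Cg O x y) (h' : Cg O y z) : Cg O x z := by
  unfold Cg at h h' ⊢
  have : x - z = (x - y) + (y - z) := by ring
  rw [this]
  exact Valuation.map_add_lt _ h h'

theorem Cg.mem {x y : E} (h : Cg O x y) (hy : y ∈ O) : x ∈ O := by
  have : x = (x - y) + y := by ring
  rw [this]
  exact O.add_mem _ _ ((O.valuation_le_one_iff _).mp (le_of_lt h)) hy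

theorem lt_one_mul_mem {x y : E} (hx : O.valuation x < 1) (hy : y ∈ O) :
    O.valuation (x * y) < 1 := by
  rw [map_mul]
  exact mul_lt_one_of_lt_of_le hx ((O.valuation_le_one_iff _).mpr hy)

theorem Cg.mul {x x' y y' : E} (h : Cg O x x') (h' : Cg O y y') (hx' : x' ∈ O) (hy : y ∈ O) :
    Cg O (x * y) (x' * y') := by
  unfold Cg at h h' ⊢
  have : x * y - x' * y' = (x - x') * y + (y - y') * x' := by ring
  rw [this]
  exact Valuation.map_add_lt _ (lt_one_mul_mem h hy) (lt_one_mul_mem h' hx')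

theorem Cg.pow {x y : E} (h : Cg O x y) (hy : y ∈ O) (n : ℕ) : Cg O (x ^ n) (y ^ n) := by
  induction n with
  | zero => rw [pow_zero, pow_zero]; exact Cg.refl 1
  | succ n ih =>
    rw [pow_succ, pow_succ]
    exact ih.mul h (O.pow_mem hy n) (h.mem hy)

theorem val_lt_one_iff (x : E) : O.valuation x < 1 ↔ x = 0 ∨ x⁻¹ ∉ O := by
  by_cases hx : x = 0
  · simp [hx]
  · have hv : 0 < O.valuation x := zero_lt_iff.mpr ((Valuation.ne_zero_iff _).mpr hx)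
    rw [← O.valuation_le_one_iff, map_inv₀, inv_le_one₀ hv, not_le]
    simp [hx]

theorem val_comap {E' : Type*} [Field E'] {f : E' →+* E} {O' : ValuationSubring E'}
    (h : O.comap f = O') (x : E') : O'.valuation x < 1 ↔ O.valuation (f x) < 1 := by
  rw [val_lt_one_iff, val_lt_one_iff, ← h, ValuationSubring.mem_comap, map_inv₀, map_eq_zero]

theorem mem_comap' {E' : Type*} [Field E'] {f : E' →+* E} {O' : ValuationSubring E'}
    (h : O.comap f = O') (x : E') : x ∈ O' ↔ f x ∈ O := by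
  rw [← h, ValuationSubring.mem_comap]

theorem cg_comap {E' : Type*} [Field E'] {f : E' →+* E} {O' : ValuationSubring E'}
    (h : O.comap f = O') (x y : E') : Cg O' x y ↔ Cg O (f x) (f y) := by
  unfold Cg
  rw [val_comap h, map_sub]

/-- a product of valuation `< 1` has a factor of valuation `< 1`. -/
theorem exists_lt_one_of_prod {ι : Type*} (s : Finset ι) (a : ι → E)
    (h : O.valuation (∏ i ∈ s, a i) < 1) : ∃ i ∈ s, O.valuation (a i) < 1 := by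
  by_contra hcon
  push Not at hcon
  rw [map_prod] at h
  exact absurd h (not_lt.mpr (Finset.one_le_prod' hcon))

end Val

/-- `c h^m ≡ 1`, `c⁻¹ ≡ s^m` imply `h ≡ ζ^j s` for some `j`. -/
theorem exists_gamma {R E : Type*} [CommRing R] [IsDomain R] [Field E] [Algebra R E]
    (hinj : Function.Injective (algebraMap R E)) (O : ValuationSubring E)
    (hconst : ∀ r : R, algebraMap R E r ∈ O) {π : R} (hπ : O.valuation (algebraMap R E π) < 1)
    {m : ℕ} (hm : m ≠ 0) {ζ : R} (hζ : IsPrimitiveRoot ζ m) {c c' s : R} (hcc : c * c' = 1)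
    (hs : c' - s ^ m ∈ Ideal.span {π}) {h : E}
    (hrel : O.valuation (algebraMap R E c * h ^ m - 1) < 1) :
    ∃ j : ℕ, O.valuation (h - algebraMap R E (ζ ^ j * s)) < 1 := by
  have : NeZero m := ⟨hm⟩
  have hζ' : IsPrimitiveRoot (algebraMap R E ζ) m := hζ.map_of_injective hinj
  obtain ⟨x, hx⟩ := Ideal.mem_span_singleton.mp hs
  have h1 : O.valuation (h ^ m - algebraMap R E s ^ m) < 1 := by
    have e : h ^ m - algebraMap R E s ^ m =
        (algebraMap R E c * h ^ m - 1) * algebraMap R E c' +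
          algebraMap R E π * algebraMap R E x := by
      have e1 : algebraMap R E c * algebraMap R E c' = 1 := by rw [← map_mul, hcc, map_one]
      have e2 : algebraMap R E c' - algebraMap R E s ^ m = algebraMap R E π * algebraMap R E x := by
        rw [← map_pow, ← map_sub, hx, map_mul]
      linear_combination (-(h ^ m)) * e1 + e2
    rw [e]
    exact Valuation.map_add_lt _ (lt_one_mul_mem hrel (hconst c')) (lt_one_mul_mem hπ (hconst x))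
  rw [hζ'.pow_sub_pow_eq_prod_sub_mul _ _ (Nat.pos_of_ne_zero hm)] at h1
  obtain ⟨ξ, hξ, hv⟩ := exists_lt_one_of_prod _ _ h1
  rw [Polynomial.mem_nthRootsFinset (Nat.pos_of_ne_zero hm)] at hξ
  obtain ⟨j, -, rfl⟩ := hζ'.eq_pow_of_pow_eq_one hξ
  exact ⟨j, by rwa [map_mul, map_pow]⟩

theorem isUnit_of_sub_pow_mem {R : Type*} [CommRing R] [IsLocalRing R] {π c' s : R} {m : ℕ}
    (hπ : ¬ IsUnit π) (hc' : IsUnit c') (hs : c' - s ^ m ∈ Ideal.span {π}) (hm : m ≠ 0) :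
    IsUnit s := by
  by_contra hcon
  have h1 : s ∈ IsLocalRing.maximalIdeal R := (IsLocalRing.mem_maximalIdeal s).mpr hcon
  have h2 : Ideal.span {π} ≤ IsLocalRing.maximalIdeal R := by
    rw [Ideal.span_singleton_le_iff_mem]
    exact (IsLocalRing.mem_maximalIdeal π).mpr hπ
  have h3 : c' ∈ IsLocalRing.maximalIdeal R := by
    have := (IsLocalRing.maximalIdeal R).add_mem (h2 hs) (Ideal.pow_mem_of_mem _ h1 m
      (Nat.pos_of_ne_zero hm))
    simpa using this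
  exact (IsLocalRing.mem_maximalIdeal c').mp h3 hc'

end NG

open NG

variable {R K F : Type*} [CommRing R] [IsDomain R] [IsDiscreteValuationRing R]
    [Field K] [Algebra R K] [IsFractionRing R K]
    [Field F] [CharZero F] [Algebra R F] [Algebra K F] [IsScalarTower R K F]
    {D : GeomDatum R K F} {F' : Type*} [Field F'] [Algebra R F'] [Algebra K F']
    [IsScalarTower R K F']

/-- the common part of `[NORM-GLUE α]` and `[NORM-GLUE β]`. -/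
theorem norm_glue_aux (N : NormDatum D F') (φ : F' →ₐ[K] F) (Nm : F →* F')
    (i₁ i₂ i₃ : Fin 3) (a₁ a₂ : Fin 2)
    (φ_mem : ∀ x ∈ N.B', φ x ∈ intCl R D.t)
    (c1 : (D.O i₁).comap (φ : F' →+* F) = N.O' a₁)
    (c2 : (D.O i₂).comap (φ : F' →+* F) = N.O' a₂)
    (c3 : (D.O i₃).comap (φ : F' →+* F) = N.O' a₂)
    (Nm_mem : ∀ x ∈ intCl R D.t, Nm x ∈ N.B')
    (approx2 : ∀ x ∈ intCl R D.t, ∃ x' ∈ N.B', (D.O i₂).valuation (x - φ x') < 1)
    (approx3 : ∀ x ∈ intCl R D.t, ∃ x' ∈ N.B', (D.O i₃).valuation (x - φ x') < 1)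
    (red₁ : ∀ (u : F) (c c' : F'), c ∈ N.O' a₂ → c' ∈ N.O' a₂ →
      (D.O i₂).valuation (u - φ c) < 1 → (D.O i₃).valuation (u - φ c') < 1 →
      (N.O' a₂).valuation (Nm u - c * c' ^ (D.q - 1)) < 1)
    (red₂ : ∀ u ∈ D.O i₁, (D.O i₁).valuation (φ (Nm u) - u ^ D.q) < 1)
    {m : ℕ} (hm : m ≠ 0) (ζ : R) (hζ : IsPrimitiveRoot ζ m)
    (hk : ∀ r : R, IsUnit r → ∃ s : R, r - s ^ m ∈ Ideal.span {((D.q : ℕ) : R)})
    {g : F} (hg : ∀ i, (D.O i).valuation (g - 1) < 1)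
    (hnorm : ∃ (c : R) (h : F'), IsUnit c ∧ (∀ i, (N.O' i).valuation h = 1) ∧
      Nm g = algebraMap R F' c * h ^ m) :
    ∃ γ γ' : R, IsUnit γ ∧ IsUnit γ' ∧ ∀ (u : F) (b : Fin 3 → intCl R D.t),
      u ^ m * g ∈ intCl R D.t → (∀ i, (D.O i).valuation (u - (b i : F)) < 1) →
      ∀ 𝔪 : Ideal (intCl R D.t), (∀ i, D.sys.p i ≤ 𝔪) →
        b i₂ * b i₃ ^ (D.q - 1) * ⟨algebraMap R F γ, algebraMap_mem_intCl R D.t γ⟩ -
          b i₁ ^ D.q * ⟨algebraMap R F γ', algebraMap_mem_intCl R D.t γ'⟩ ∈ 𝔪 := by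
  obtain ⟨c, h', hc, hh', hNg⟩ := hnorm
  obtain ⟨c', hcc⟩ := hc.exists_right_inv
  have hc' : IsUnit c' := IsUnit.of_mul_eq_one c (by rw [mul_comm]; exact hcc)
  obtain ⟨s, hs⟩ := hk c' hc'
  have hsu : IsUnit s := isUnit_of_sub_pow_mem D.irr.not_isUnit hc' hs hm
  have hζu : IsUnit ζ := hζ.isUnit hm
  have hinj : Function.Injective (algebraMap R F') := by
    rw [IsScalarTower.algebraMap_eq R K F']
    exact (algebraMap K F').injective.comp (IsFractionRing.injective R K)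
  have hφc : ∀ r : R, φ (algebraMap R F' r) = algebraMap R F r := by
    intro r
    rw [IsScalarTower.algebraMap_apply R K F', φ.commutes, ← IsScalarTower.algebraMap_apply]
  have hBO : ∀ i, ∀ x ∈ intCl R D.t, x ∈ D.O i := fun i x hx => intCl_le (D.sys.gauss i) hx
  have hq' : ∀ a, (N.O' a).valuation (algebraMap R F' ((D.q : ℕ) : R)) < 1 := by
    intro a
    rw [map_natCast]
    exact (N.unif' a).lt_one
  have hh'mem : ∀ a, h' ∈ N.O' a := fun a => (ValuationSubring.valuation_le_one_iff _ _).mp (hh' a).le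
  -- `Nm g ≡ 1` on both components
  have hg2 : Cg (N.O' a₂) (Nm g) 1 := by
    have := red₁ g 1 1 (N.O' a₂).one_mem (N.O' a₂).one_mem (by rw [map_one]; exact hg i₂)
      (by rw [map_one]; exact hg i₃)
    rwa [one_pow, mul_one] at this
  have hg1 : Cg (N.O' a₁) (Nm g) 1 := by
    rw [cg_comap c1, map_one]
    have hgc : Cg (D.O i₁) g 1 := hg i₁
    have h2 := hgc.pow (D.O i₁).one_mem D.q
    rw [one_pow] at h2
    exact Cg.trans (red₂ g (hgc.mem (D.O i₁).one_mem)) h2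
  obtain ⟨j₂, hj₂⟩ := exists_gamma hinj (N.O' a₂) (N.const' a₂) (hq' a₂) hm hζ hcc hs
    (h := h') (by rw [← hNg]; exact hg2)
  obtain ⟨j₁, hj₁⟩ := exists_gamma hinj (N.O' a₁) (N.const' a₁) (hq' a₁) hm hζ hcc hs
    (h := h') (by rw [← hNg]; exact hg1)
  refine ⟨ζ ^ j₂ * s, ζ ^ j₁ * s, (hζu.pow j₂).mul hsu, (hζu.pow j₁).mul hsu, ?_⟩
  intro u b hu hb 𝔪 h𝔪
  set γ := ζ ^ j₂ * s with hγ
  set γ' := ζ ^ j₁ * s with hγ'
  -- `y`
  have hy : Nm u * h' ∈ N.B' := by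
    apply N.B'_root m hm
    have e : (Nm u * h') ^ m = algebraMap R F' c' * Nm (u ^ m * g) := by
      rw [map_mul, map_pow, hNg, mul_pow]
      have e1 : algebraMap R F' c * algebraMap R F' c' = 1 := by rw [← map_mul, hcc, map_one]
      linear_combination (-(Nm u ^ m * h' ^ m)) * e1
    rw [e]
    exact N.B'.mul_mem (N.B'_const c') (Nm_mem _ hu)
  obtain ⟨u₂, hu₂B, hu₂⟩ := approx2 (b i₂) (b i₂).2
  obtain ⟨u₃, hu₃B, hu₃⟩ := approx3 (b i₃) (b i₃).2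
  have hu₂O : u₂ ∈ N.O' a₂ := (mem_comap' c2 u₂).mpr (hBO i₂ _ (φ_mem _ hu₂B))
  have hu₃O : u₃ ∈ N.O' a₂ := (mem_comap' c3 u₃).mpr (hBO i₃ _ (φ_mem _ hu₃B))
  -- the relation on the component `a₂`
  have r1 : Cg (N.O' a₂) (Nm u * h') (u₂ * u₃ ^ (D.q - 1) * algebraMap R F' γ) := by
    have h1 : Cg (N.O' a₂) (Nm u) (u₂ * u₃ ^ (D.q - 1)) :=
      red₁ u u₂ u₃ hu₂O hu₃O (Cg.trans (hb i₂) hu₂) (Cg.trans (hb i₃) hu₃)
    exact h1.mul hj₂ ((N.O' a₂).mul_mem _ _ hu₂O ((N.O' a₂).pow_mem hu₃O _)) (hh'mem a₂)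
  have r1' : Cg (D.O i₂) (φ (Nm u * h')) (φ u₂ * φ u₃ ^ (D.q - 1) * algebraMap R F γ) := by
    have := (cg_comap c2 _ _).mp r1
    simpa only [RingHom.coe_coe, map_mul, map_pow, hφc] using this
  -- the relation on the component `a₁`
  have huO : u ∈ D.O i₁ := Cg.mem (hb i₁) (hBO i₁ _ (b i₁).2)
  have r2 : Cg (D.O i₁) (φ (Nm u * h')) ((b i₁ : F) ^ D.q * algebraMap R F γ') := by
    rw [map_mul]
    have h1 : Cg (D.O i₁) (φ (Nm u)) ((b i₁ : F) ^ D.q) :=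
      Cg.trans (red₂ u huO) (Cg.pow (hb i₁) (hBO i₁ _ (b i₁).2) D.q)
    have h2 : Cg (D.O i₁) (φ h') (algebraMap R F γ') := by
      have := (cg_comap c1 _ _).mp hj₁
      simpa only [RingHom.coe_coe, hφc] using this
    exact h1.mul h2 ((D.O i₁).pow_mem (hBO i₁ _ (b i₁).2) _) ((mem_comap' c1 h').mp (hh'mem a₁))
  -- in the quotient
  let Y : intCl R D.t := ⟨φ (Nm u * h'), φ_mem _ hy⟩
  let U₂ : intCl R D.t := ⟨φ u₂, φ_mem _ hu₂B⟩
  let U₃ : intCl R D.t := ⟨φ u₃, φ_mem _ hu₃B⟩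
  let Γ : intCl R D.t := ⟨algebraMap R F γ, algebraMap_mem_intCl R D.t γ⟩
  let Γ' : intCl R D.t := ⟨algebraMap R F γ', algebraMap_mem_intCl R D.t γ'⟩
  have e1 : Ideal.Quotient.mk 𝔪 Y = Ideal.Quotient.mk 𝔪 (U₂ * U₃ ^ (D.q - 1) * Γ) :=
    (Ideal.Quotient.eq).mpr (h𝔪 i₂ ((D.sys.mem_p i₂).mpr r1'))
  have e2 : Ideal.Quotient.mk 𝔪 Y = Ideal.Quotient.mk 𝔪 (b i₁ ^ D.q * Γ') :=
    (Ideal.Quotient.eq).mpr (h𝔪 i₁ ((D.sys.mem_p i₁).mpr r2))
  have e3 : Ideal.Quotient.mk 𝔪 (b i₂) = Ideal.Quotient.mk 𝔪 U₂ :=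
    (Ideal.Quotient.eq).mpr (h𝔪 i₂ ((D.sys.mem_p i₂).mpr hu₂))
  have e4 : Ideal.Quotient.mk 𝔪 (b i₃) = Ideal.Quotient.mk 𝔪 U₃ :=
    (Ideal.Quotient.eq).mpr (h𝔪 i₃ ((D.sys.mem_p i₃).mpr hu₃))
  show b i₂ * b i₃ ^ (D.q - 1) * Γ - b i₁ ^ D.q * Γ' ∈ 𝔪
  rw [← Ideal.Quotient.eq, ← e2, e1, map_mul, map_mul, map_pow, e3, e4, map_mul, map_mul, map_pow]

theorem NG.val_eq_one_of_sub_one {E : Type*} [Field E] {O : ValuationSubring E} {g : E}
    (h : O.valuation (g - 1) < 1) : O.valuation g = 1 := by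
  have := Valuation.map_one_add_of_lt _ h
  rwa [add_sub_cancel] at this

theorem NG.ne_zero_of_isUnit_cast {R : Type*} [CommRing R] [Nontrivial R] {m : ℕ}
    (hm : IsUnit ((m : ℕ) : R)) : m ≠ 0 := by
  rintro rfl
  rw [Nat.cast_zero] at hm
  exact not_isUnit_zero hm

/-- **[NORM-GLUE α]**  `g ≡ 1` on the three components.  There are units `γ₁ γ₂` of `R` such that for
every `u ∈ M = {u | u^m g ∈ B₁}`, all `b i ∈ B₁` with `b i ≡ u` on the component `i`, and every triple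
point `𝔪`:  `b 0 * b 1^(q-1) * γ₁ ≡ b 2^q * γ₂  (mod 𝔪)`.

Proof.  `Nα g = c h^m` normalised.  `Nα g ≡ 1` on both components of the lower curve (`redα₁` with
`c₀ = c₁ = 1`, `redα₂`), so `(h/s)^m ≡ 1` (`s^m ≡ c⁻¹`), `∏_j (h/s - ζ^j) ≡ 0`, `h ≡ γ₁ := s ζ^j` on the
component `0`, `h ≡ γ₂` on the component `1`.  `y := Nα u * h`: `c y^m = Nα (u^m g) ∈ B'`, so `y ∈ B'`.
Choose `u₀' u₁' ∈ B'` with `α u_i' ≡ b i` on the component `i` (`approxα`).  `redα₁`: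
`y - u₀' u₁'^(q-1) γ₁ ∈ B'` has `v'_0 < 1`, so its image under `α` is in `p 0 ≤ 𝔪`; `redα₂`:
`α y - b 2^q γ₂ ∈ p 2 ≤ 𝔪`; `α u₀' - b 0 ∈ p 0`, `α u₁' - b 1 ∈ p 1`. -/
theorem norm_glue_α (N : NormDatum D F') {m : ℕ} (hm : IsUnit ((m : ℕ) : R)) (ζ : R)
    (hζ : IsPrimitiveRoot ζ m)
    (hk : ∀ r : R, IsUnit r → ∃ s : R, r - s ^ m ∈ Ideal.span {((D.q : ℕ) : R)})
    {g : F} (hg : ∀ i, (D.O i).valuation (g - 1) < 1) (h : HasNorms N m g) :
    ∃ γ₁ γ₂ : R, IsUnit γ₁ ∧ IsUnit γ₂ ∧ ∀ (u : F) (b : Fin 3 → intCl R D.t),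
      u ^ m * g ∈ intCl R D.t → (∀ i, (D.O i).valuation (u - (b i : F)) < 1) →
      ∀ 𝔪 : Ideal (intCl R D.t), 𝔪.IsMaximal → (∀ i, D.sys.p i ≤ 𝔪) →
        b 0 * b 1 ^ (D.q - 1) * ⟨algebraMap R F γ₁, algebraMap_mem_intCl R D.t γ₁⟩ -
          b 2 ^ D.q * ⟨algebraMap R F γ₂, algebraMap_mem_intCl R D.t γ₂⟩ ∈ 𝔪 := by
  have hm0 : m ≠ 0 := NG.ne_zero_of_isUnit_cast hm
  obtain ⟨γ, γ', hγ, hγ', H⟩ := norm_glue_aux N N.α N.Nα 2 0 1 1 0 N.α_mem (N.comap_α 2)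
    (N.comap_α 0) (N.comap_α 1) N.Nα_mem (N.approxα 0 (by decide)) (N.approxα 1 (by decide))
    N.redα₁ N.redα₂ hm0 ζ hζ hk hg
    (h.normalise hm0 fun i => NG.val_eq_one_of_sub_one (hg i)).1
  exact ⟨γ, γ', hγ, hγ', fun u b hu hb 𝔪 _ h𝔪 => H u b hu hb 𝔪 h𝔪⟩

/-- **[NORM-GLUE β]**  symmetric: `b 0^q * γ₁ ≡ b 1^(q-1) * b 2 * γ₂  (mod 𝔪)`. -/
theorem norm_glue_β (N : NormDatum D F') {m : ℕ} (hm : IsUnit ((m : ℕ) : R)) (ζ : R)
    (hζ : IsPrimitiveRoot ζ m)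
    (hk : ∀ r : R, IsUnit r → ∃ s : R, r - s ^ m ∈ Ideal.span {((D.q : ℕ) : R)})
    {g : F} (hg : ∀ i, (D.O i).valuation (g - 1) < 1) (h : HasNorms N m g) :
    ∃ γ₁ γ₂ : R, IsUnit γ₁ ∧ IsUnit γ₂ ∧ ∀ (u : F) (b : Fin 3 → intCl R D.t),
      u ^ m * g ∈ intCl R D.t → (∀ i, (D.O i).valuation (u - (b i : F)) < 1) →
      ∀ 𝔪 : Ideal (intCl R D.t), 𝔪.IsMaximal → (∀ i, D.sys.p i ≤ 𝔪) →
        b 0 ^ D.q * ⟨algebraMap R F γ₁, algebraMap_mem_intCl R D.t γ₁⟩ -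
          b 1 ^ (D.q - 1) * b 2 * ⟨algebraMap R F γ₂, algebraMap_mem_intCl R D.t γ₂⟩ ∈ 𝔪 := by
  have hm0 : m ≠ 0 := NG.ne_zero_of_isUnit_cast hm
  obtain ⟨γ, γ', hγ, hγ', H⟩ := norm_glue_aux N N.β N.Nβ 0 2 1 0 1 N.β_mem (N.comap_β 0)
    (N.comap_β 2) (N.comap_β 1) N.Nβ_mem (N.approxβ 2 (by decide)) (N.approxβ 1 (by decide))
    (fun u c c' hc hc' h2 h3 => by
      rw [mul_comm]
      exact N.redβ₂ u c' c hc' hc h3 h2)
    N.redβ₁ hm0 ζ hζ hk hg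
    (h.normalise hm0 fun i => NG.val_eq_one_of_sub_one (hg i)).2
  refine ⟨γ', γ, hγ', hγ, fun u b hu hb 𝔪 _ h𝔪 => ?_⟩
  have h1 := 𝔪.neg_mem (H u b hu hb 𝔪 h𝔪)
  rw [neg_sub, mul_comm (b 2)] at h1
  exact h1

end Fermat.Agent.S36
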