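import Fermat.Agent.S36.Abs.Comp

/-!
# S36 / abstract part : `[OVERLAP]` two trivialisations modulo `π` with the same reductions differ
by an element of `π M`.
-/

set_option autoImplicit false

namespace Fermat.Agent.S36

variable {F : Type*} [Field F]

/-- `g ≡ 1` at `𝔮` ⟹ `g ^ n ≡ 1` at `𝔮`. -/
theorem ZeroAt.pow_sub_one {B : Subring F} {𝔮 : Ideal B} [𝔮.IsPrime] {g : F}
    (hg : MemAt B 𝔮 g) (h : ZeroAt B 𝔮 (g - 1)) (n : ℕ) : ZeroAt B 𝔮 (g ^ n - 1) := by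
  induction n with
  | zero =>
    have : g ^ 0 - 1 = (g - 1) * 0 := by simp
    rw [this]
    exact h.mul_memAt (memAt_of_mem B.zero_mem (Ideal.IsPrime.ne_top inferInstance))
  | succ n ih =>
    have : g ^ (n + 1) - 1 = (g ^ n - 1) * g + (g - 1) := by ring
    rw [this]
    exact (ih.mul_memAt hg).add h

/-- `g ≡ 1` at `𝔮` ⟹ `∑_{j < n} g ^ j ≡ n` at `𝔮`. -/
theorem ZeroAt.geom_sum_sub {B : Subring F} {𝔮 : Ideal B} [𝔮.IsPrime] {g : F}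
    (hg : MemAt B 𝔮 g) (h : ZeroAt B 𝔮 (g - 1)) (n : ℕ) :
    ZeroAt B 𝔮 (∑ j ∈ Finset.range n, g ^ j - (n : F)) := by
  induction n with
  | zero =>
    have : ∑ j ∈ Finset.range 0, g ^ j - ((0 : ℕ) : F) = (g - 1) * 0 := by simp
    rw [this]
    exact h.mul_memAt (memAt_of_mem B.zero_mem (Ideal.IsPrime.ne_top inferInstance))
  | succ n ih =>
    have : ∑ j ∈ Finset.range (n + 1), g ^ j - ((n + 1 : ℕ) : F) =
        (∑ j ∈ Finset.range n, g ^ j - (n : F)) + (g ^ n - 1) := by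
      rw [Finset.sum_range_succ]
      push_cast
      ring
    rw [this]
    exact ih.add (h.pow_sub_one hg n)

/-- a unit of `B` is a unit at every prime. -/
theorem unitAt_of_isUnit {B : Subring F} {𝔮 : Ideal B} [h𝔮 : 𝔮.IsPrime] {b : B} (hb : IsUnit b) :
    UnitAt B 𝔮 (b : F) :=
  ⟨b, 1, fun h => h𝔮.ne_top (Ideal.eq_top_of_isUnit_mem _ h hb),
    fun h => h𝔮.ne_top ((Ideal.eq_top_iff_one _).2 h), by simp⟩

/-- an element of `B` outside `𝔮` is a unit at `𝔮`. -/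
theorem unitAt_of_not_mem {B : Subring F} {𝔮 : Ideal B} [h𝔮 : 𝔮.IsPrime] {b : B} (hb : b ∉ 𝔮) :
    UnitAt B 𝔮 (b : F) :=
  ⟨b, 1, hb, fun h => h𝔮.ne_top ((Ideal.eq_top_iff_one _).2 h), by simp⟩

/-- `g ≡ 1` at `𝔮`, `m` a unit ⟹ `∑_{j < m} g ^ j` is a unit at `𝔮`. -/
theorem ZeroAt.unitAt_geom_sum {B : Subring F} {𝔮 : Ideal B} [𝔮.IsPrime] {g : F}
    (hg : MemAt B 𝔮 g) (h : ZeroAt B 𝔮 (g - 1)) {m : ℕ} (hm : IsUnit ((m : ℕ) : B)) :
    UnitAt B 𝔮 (∑ j ∈ Finset.range m, g ^ j) := by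
  have h0 := h.geom_sum_sub hg m
  have hmu : UnitAt B 𝔮 (m : F) := by
    have := unitAt_of_isUnit (𝔮 := 𝔮) hm
    simpa using this
  -- `S = m * (1 + (S - m) / m)`
  have h1 : ZeroAt B 𝔮 ((∑ j ∈ Finset.range m, g ^ j - (m : F)) * (m : F)⁻¹) :=
    h0.mul_memAt hmu.inv.memAt
  have h2 := hmu.mul h1.unitAt_one_add
  have hm0 : (m : F) ≠ 0 := hmu.ne_zero
  have h3 : (m : F) * (1 + (∑ j ∈ Finset.range m, g ^ j - (m : F)) * (m : F)⁻¹) =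
      ∑ j ∈ Finset.range m, g ^ j := by
    field_simp
    ring
  rwa [h3] at h2

/-- **[OVERLAP]**  (`B` is the ring of the intersection of the two charts.)

Proof.  `μ := (v₁ - v₂) / π`; show `μ^m f ∈ B_𝔪` for every maximal `𝔪`.  If `π ∉ 𝔪`: `v₁ - v₂ ∈ M`
(`MM.add`) and `π` is a unit at `𝔪`.  If `π ∈ 𝔪`: `𝔪 ⊇ centre i`; `g := v₁ / v₂`,
`g^m = (1 + π b₁)/(1 + π b₂) ∈ B_𝔪ˣ`, so `g ∈ B_𝔪` (`MemAt.of_pow`), `g - 1 ∈ 𝔪 B_𝔪` (SAT),
`(g - 1) (m + (g - 1)(..)) = g^m - 1 ∈ π B_𝔪`, hence `g - 1 = π y`, `y ∈ B_𝔪`, `μ = v₂ y`,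
`μ^m f = (1 + π b₂) y^m`. -/
theorem overlap (B : Subring F) {m : ℕ} (hm : IsUnit ((m : ℕ) : B)) (hB : RootClosed B m) {f : F}
    (hf : f ≠ 0) (hLD : LD B m f) (π : B) (hπ : π ≠ 0) {ι : Type*} (O : ι → ValuationSubring F)
    (hBO : ∀ i, B ≤ (O i).toSubring)
    (hcov : ∀ 𝔮 : Ideal B, 𝔮.IsPrime → π ∈ 𝔮 → ∃ i, centre B (O i) (hBO i) ≤ 𝔮)
    {v₁ v₂ : F} (b₁ b₂ : B) (h₁ : v₁ ^ m * f = 1 + (π : F) * (b₁ : F))
    (h₂ : v₂ ^ m * f = 1 + (π : F) * (b₂ : F))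
    (hv : ∀ i, (O i).valuation (v₁ / v₂ - 1) < 1) :
    ∃ μ : F, v₁ - v₂ = (π : F) * μ ∧ μ ^ m * f ∈ B := by
  have hπF : (π : F) ≠ 0 := fun h => hπ (Subtype.ext h)
  have hm0 : m ≠ 0 := by
    rintro rfl
    simp at hm
  refine ⟨(v₁ - v₂) / (π : F), by field_simp, ?_⟩
  have hM₁ : v₁ ∈ MM B m f := by
    rw [mem_MM, h₁]
    exact (1 + π * b₁ : B).2
  have hM₂ : v₂ ∈ MM B m f := by
    rw [mem_MM, h₂]
    exact (1 + π * b₂ : B).2
  refine mem_of_forall_memAt fun 𝔪 h𝔪 => ?_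
  have : 𝔪.IsPrime := h𝔪.isPrime
  by_cases hπ𝔪 : π ∈ 𝔪
  · obtain ⟨i, hi⟩ := hcov 𝔪 h𝔪.isPrime hπ𝔪
    have hu : ∀ b : B, (1 + π * b : B) ∉ 𝔪 := by
      intro b hb
      apply h𝔪.ne_top
      rw [Ideal.eq_top_iff_one]
      have := 𝔪.sub_mem hb (𝔪.mul_mem_right b hπ𝔪)
      simpa using this
    have hU₁ : UnitAt B 𝔪 (1 + (π : F) * (b₁ : F)) := by
      simpa using unitAt_of_not_mem (hu b₁)
    have hU₂ : UnitAt B 𝔪 (1 + (π : F) * (b₂ : F)) := by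
      simpa using unitAt_of_not_mem (hu b₂)
    have hv₂ : v₂ ≠ 0 := by
      rintro rfl
      rw [zero_pow hm0, zero_mul] at h₂
      exact hU₂.ne_zero h₂.symm
    set g : F := v₁ / v₂ with hg
    have hgm : g ^ m = (1 + (π : F) * (b₁ : F)) * (1 + (π : F) * (b₂ : F))⁻¹ := by
      rw [← h₁, ← h₂, hg, div_pow]
      field_simp
    have hgU : UnitAt B 𝔪 (g ^ m) := by
      rw [hgm]
      exact hU₁.mul hU₂.inv
    have hgM : MemAt B 𝔪 g := MemAt.of_pow hm0 hB hgU.memAt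
    have hone : MemAt B 𝔪 (1 : F) := memAt_of_mem B.one_mem h𝔪.ne_top
    have hg1M : MemAt B 𝔪 (g - 1) := by
      rw [sub_eq_add_neg]
      exact hgM.add hone.neg
    have hg1 : ZeroAt B 𝔪 (g - 1) := zeroAt_of_valuation_lt (hBO i) hi hg1M (hv i)
    have hS := hg1.unitAt_geom_sum hgM hm
    set S : F := ∑ j ∈ Finset.range m, g ^ j with hSdef
    have hS0 : S ≠ 0 := hS.ne_zero
    have hgeom : S * (g - 1) = g ^ m - 1 := geom_sum_mul g m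
    set y : F := ((b₁ : F) - (b₂ : F)) * (1 + (π : F) * (b₂ : F))⁻¹ * S⁻¹ with hy
    have hyM : MemAt B 𝔪 y := by
      have h1 : MemAt B 𝔪 ((b₁ : F) - (b₂ : F)) := memAt_of_mem (b₁ - b₂ : B).2 h𝔪.ne_top
      exact (h1.mul hU₂.inv.memAt).mul hS.inv.memAt
    have hU₂0 := hU₂.ne_zero
    have hgy : g - 1 = (π : F) * y := by
      have : g - 1 = (g ^ m - 1) * S⁻¹ := by
        rw [← hgeom]
        field_simp
      rw [this, hgm, hy]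
      field_simp
      ring
    have hμ : (v₁ - v₂) / (π : F) = v₂ * y := by
      have : v₁ - v₂ = v₂ * (g - 1) := by
        rw [hg]
        field_simp
      rw [this, hgy]
      field_simp
    rw [hμ, mul_pow, mul_right_comm, h₂]
    exact hU₂.memAt.mul (hyM.pow m)
  · have hsub : v₁ - v₂ ∈ MM B m f := by
      rw [sub_eq_add_neg]
      exact MM.add hm0 hB hLD hM₁ (MM.neg hM₂)
    refine ⟨⟨_, hsub⟩, π ^ m, fun h => hπ𝔪 (Ideal.IsPrime.mem_of_pow_mem inferInstance m h), ?_⟩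
    push_cast
    rw [div_pow]
    field_simp

end Fermat.Agent.S36
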