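import Mathlib

namespace Fermat.Agent.S36.Abs

open Ideal IsLocalRing

/-- [REG2] core: in a noetherian local ring `B`, if `a ∈ 𝔪`, `B/(a)` is a principal ideal ring,
then every prime ideal `P` not containing `a` is principal. -/
theorem isPrincipal_of_not_mem {B : Type*} [CommRing B] [IsNoetherianRing B] [IsLocalRing B]
    (a : B) (ha : a ∈ maximalIdeal B) [IsPrincipalIdealRing (B ⧸ span {a})]
    (P : Ideal B) [P.IsPrime] (hP : a ∉ P) : P.IsPrincipal := by
  classical
  -- image of P in the quotient is principal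
  obtain ⟨g, hg⟩ := (IsPrincipalIdealRing.principal
    (P.map (Ideal.Quotient.mk (span {a})))).principal
  have hsurj : Function.Surjective (Ideal.Quotient.mk (span {a})) := Ideal.Quotient.mk_surjective
  have hgmem : g ∈ P.map (Ideal.Quotient.mk (span {a})) := by
    rw [hg]; exact Submodule.mem_span_singleton_self g
  obtain ⟨h, hhP, rfl⟩ := (Ideal.mem_map_iff_of_surjective _ hsurj).1 hgmem
  refine ⟨⟨h, ?_⟩⟩
  have hle : P ≤ span {h} ⊔ maximalIdeal B • P := by
    intro x hx
    have hx' : Ideal.Quotient.mk (span {a}) x ∈ P.map (Ideal.Quotient.mk (span {a})) :=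
      Ideal.mem_map_of_mem _ hx
    rw [hg] at hx'
    obtain ⟨y, hy⟩ := Submodule.mem_span_singleton.1 hx'
    obtain ⟨y, rfl⟩ := hsurj y
    have h1 : x - y * h ∈ span {a} := by
      rw [← Ideal.Quotient.eq]
      rw [map_mul, ← hy, smul_eq_mul]
    obtain ⟨z, hz⟩ := Ideal.mem_span_singleton'.1 h1
    have hzP : z * a ∈ P := by
      rw [hz]; exact P.sub_mem hx (P.mul_mem_left _ hhP)
    have hz' : z ∈ P := (‹P.IsPrime›.mem_or_mem hzP).resolve_right hP
    have : x = y * h + a * z := by linear_combination -hz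
    rw [this]
    refine Submodule.add_mem_sup (Ideal.mem_span_singleton'.2 ⟨y, rfl⟩) ?_
    exact Submodule.smul_mem_smul ha hz'
  have hfg : P.FG := IsNoetherian.noetherian P
  have hjac : maximalIdeal B ≤ Ideal.jacobson ⊥ := by
    rw [IsLocalRing.jacobson_eq_maximalIdeal ⊥ bot_ne_top]
  have := Submodule.le_of_le_smul_of_le_jacobson_bot (N' := P) (N := span {h}) hfg hjac hle
  exact le_antisymm this ((Ideal.span_singleton_le_iff_mem _).2 hhP)

/-- [REG2]: a noetherian local domain `B` with `a ∈ 𝔪`, `a ≠ 0`, such that `B/(a)` is a principal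
ideal domain, is a UFD. -/
theorem ufd_of_quotient {B : Type*} [CommRing B] [IsDomain B] [IsNoetherianRing B] [IsLocalRing B]
    (a : B) (ha : a ∈ maximalIdeal B) (ha0 : a ≠ 0) [IsPrincipalIdealRing (B ⧸ span {a})]
    [IsDomain (B ⧸ span {a})] : UniqueFactorizationMonoid B := by
  rw [UniqueFactorizationMonoid.iff_exists_prime_mem_of_isPrime]
  intro P hP0 hPp
  have hap : Prime a := by
    rw [← Ideal.span_singleton_prime ha0]
    exact (Ideal.Quotient.isDomain_iff_prime _).1 inferInstance
  by_cases haP : a ∈ P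
  · exact ⟨a, haP, hap⟩
  · obtain ⟨⟨h, hh⟩⟩ := isPrincipal_of_not_mem a ha P haP
    have hh' : P = span {h} := hh
    have hh0 : h ≠ 0 := by
      rintro rfl
      apply hP0
      rw [hh']; simp
    refine ⟨h, ?_, ?_⟩
    · rw [hh']; exact Ideal.mem_span_singleton_self h
    · rw [← Ideal.span_singleton_prime hh0, ← hh']; exact hPp

end Fermat.Agent.S36.Abs
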