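import Fermat.Agent.S36.Abs.Geom

/-!
# S36 / abstract part : `HasNorms` and its normalisation
-/

set_option autoImplicit false

open Polynomial

namespace Fermat.Agent.S36

section GenN

/-- elements of the fraction field of a DVR -/
theorem exists_unit_mul_zpow {R K : Type*} [CommRing R] [IsDomain R] [IsDiscreteValuationRing R]
    [Field K] [Algebra R K] [IsFractionRing R K] {ϖ : R} (hϖ : Irreducible ϖ) {c : K}
    (hc : c ≠ 0) : ∃ (u : Rˣ) (γ : ℤ), c = algebraMap R K u * algebraMap R K ϖ ^ γ := by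
  obtain ⟨a, b, hb, rfl⟩ := IsFractionRing.div_surjective (A := R) c
  have hb0 : b ≠ 0 := nonZeroDivisors.ne_zero hb
  have ha0 : a ≠ 0 := by
    rintro rfl
    simp at hc
  obtain ⟨n, u, rfl⟩ := IsDiscreteValuationRing.eq_unit_mul_pow_irreducible ha0 hϖ
  obtain ⟨k, w, rfl⟩ := IsDiscreteValuationRing.eq_unit_mul_pow_irreducible hb0 hϖ
  have hϖ0 : algebraMap R K ϖ ≠ 0 := by
    rw [Ne, map_eq_zero_iff _ (IsFractionRing.injective R K)]
    exact hϖ.ne_zero
  have hw0 : algebraMap R K (w : R) ≠ 0 := by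
    rw [Ne, map_eq_zero_iff _ (IsFractionRing.injective R K)]
    exact w.ne_zero
  refine ⟨u * w⁻¹, (n : ℤ) - k, ?_⟩
  have hww : algebraMap R K ((w⁻¹ : Rˣ) : R) = (algebraMap R K (w : R))⁻¹ := by
    apply eq_inv_of_mul_eq_one_left
    rw [← map_mul, Units.inv_mul, map_one]
  rw [zpow_sub₀ hϖ0, zpow_natCast, zpow_natCast, Units.val_mul, map_mul, map_mul, map_mul, map_pow,
    map_pow, hww]
  field_simp

variable {F : Type*} [Field F]

theorem IsUnif.zpow_eq_one {O : ValuationSubring F} {ϖ : F} (h : IsUnif O ϖ) {n : ℤ}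
    (hn : O.valuation ϖ ^ n = 1) : n = 0 := by
  have h0 : O.valuation ϖ ≠ 0 := (O.valuation.ne_zero_iff).mpr h.ne_zero
  by_contra hne
  rcases lt_or_gt_of_ne hne with hlt | hgt
  · obtain ⟨k, hk⟩ : ∃ k : ℕ, n = -((k : ℤ) + 1) := ⟨(-n - 1).toNat, by omega⟩
    rw [hk, zpow_neg, inv_eq_one] at hn
    have : O.valuation ϖ ^ ((k : ℤ) + 1) = O.valuation ϖ ^ (k + 1) := by
      rw [← zpow_natCast]; push_cast; rfl
    rw [this] at hn
    exact (pow_lt_one₀ zero_le h.lt_one (Nat.succ_ne_zero k)).ne hn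
  · obtain ⟨k, hk⟩ : ∃ k : ℕ, n = (k : ℤ) + 1 := ⟨(n - 1).toNat, by omega⟩
    have : O.valuation ϖ ^ ((k : ℤ) + 1) = O.valuation ϖ ^ (k + 1) := by
      rw [← zpow_natCast]; push_cast; rfl
    rw [hk, this] at hn
    exact (pow_lt_one₀ zero_le h.lt_one (Nat.succ_ne_zero k)).ne hn

theorem val_unit_eq_one {R : Type*} [CommRing R] [Algebra R F] {O : ValuationSubring F}
    (hO : ∀ r : R, algebraMap R F r ∈ O) (u : Rˣ) : O.valuation (algebraMap R F u) = 1 := by
  have h1 : O.valuation (algebraMap R F u) ≤ 1 := (O.valuation_le_one_iff _).mpr (hO u)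
  have h2 : O.valuation (algebraMap R F ((u⁻¹ : Rˣ) : R)) ≤ 1 :=
    (O.valuation_le_one_iff _).mpr (hO _)
  have h3 : O.valuation (algebraMap R F u) * O.valuation (algebraMap R F ((u⁻¹ : Rˣ) : R)) = 1 := by
    rw [← map_mul, ← map_mul, Units.mul_inv, map_one, map_one]
  refine le_antisymm h1 ?_
  calc (1 : O.ValueGroup) = O.valuation (algebraMap R F u) *
        O.valuation (algebraMap R F ((u⁻¹ : Rˣ) : R)) := h3.symm
    _ ≤ O.valuation (algebraMap R F u) * 1 := mul_le_mul_right h2 _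
    _ = _ := mul_one _

/-- the abstract normalisation -/
theorem normalise_aux {R K : Type*} [CommRing R] [IsDomain R] [IsDiscreteValuationRing R]
    [Field K] [Algebra R K] [IsFractionRing R K] [Algebra R F] [Algebra K F] [IsScalarTower R K F]
    {ι : Type*} [Nonempty ι] (O : ι → ValuationSubring F) {ϖ : R} (hϖ : Irreducible ϖ)
    (hU : ∀ i, IsUnif (O i) (algebraMap R F ϖ)) (hO : ∀ i (r : R), algebraMap R F r ∈ O i)
    {m : ℕ} (hm : m ≠ 0) {y : F} (hy : ∀ i, (O i).valuation y = 1) {c : K} {h : F}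
    (e : y = algebraMap K F c * h ^ m) :
    ∃ (c' : R) (h' : F), IsUnit c' ∧ (∀ i, (O i).valuation h' = 1) ∧
      y = algebraMap R F c' * h' ^ m := by
  obtain ⟨i₀⟩ := ‹Nonempty ι›
  have hy0 : y ≠ 0 := by
    rintro rfl
    have := hy i₀
    rw [map_zero] at this
    exact zero_ne_one this
  have hc : c ≠ 0 := by
    rintro rfl
    rw [map_zero, zero_mul] at e
    exact hy0 e
  have hh : h ≠ 0 := by
    rintro rfl
    rw [zero_pow hm, mul_zero] at e
    exact hy0 e
  obtain ⟨u, γ, rfl⟩ := exists_unit_mul_zpow hϖ hc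
  have hϖ0 : algebraMap R F ϖ ≠ 0 := (hU i₀).ne_zero
  have e' : y = algebraMap R F u * algebraMap R F ϖ ^ γ * h ^ m := by
    rw [e, map_mul, map_zpow₀, ← IsScalarTower.algebraMap_apply, ← IsScalarTower.algebraMap_apply]
  have key : ∀ i, ∀ x : ℤ, (O i).valuation h = (O i).valuation (algebraMap R F ϖ) ^ x →
      γ + m * x = 0 := by
    intro i x hx
    apply (hU i).zpow_eq_one
    have h0 : (O i).valuation (algebraMap R F ϖ) ≠ 0 := ((O i).valuation.ne_zero_iff).mpr hϖ0
    have := hy i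
    rw [e', map_mul, map_mul, map_pow, map_zpow₀,
      val_unit_eq_one (hO i) u, one_mul, hx, ← zpow_natCast, ← zpow_mul, ← zpow_add₀ h0,
      mul_comm x] at this
    exact this
  obtain ⟨x, hx⟩ := (hU i₀).disc h hh
  have hγ := key i₀ x hx
  refine ⟨u, h * algebraMap R F ϖ ^ (-x), u.isUnit, fun i => ?_, ?_⟩
  · obtain ⟨x', hx'⟩ := (hU i).disc h hh
    have hγ' := key i x' hx'
    have hxx : x' = x := by
      have hm' : (m : ℤ) ≠ 0 := by exact_mod_cast hm
      have : (m : ℤ) * x' = m * x := by omega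
      exact mul_left_cancel₀ hm' this
    have h0 : (O i).valuation (algebraMap R F ϖ) ≠ 0 := ((O i).valuation.ne_zero_iff).mpr hϖ0
    rw [map_mul, map_zpow₀, hx', hxx, ← zpow_add₀ h0, add_neg_cancel, zpow_zero]
  · rw [e', mul_pow, ← zpow_natCast (algebraMap R F ϖ ^ (-x)), ← zpow_mul]
    have : γ = -x * m := by linarith
    rw [this]
    ring

end GenN

variable {R K F : Type*} [CommRing R] [IsDomain R] [IsDiscreteValuationRing R]
    [Field K] [Algebra R K] [IsFractionRing R K]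
    [Field F] [CharZero F] [Algebra R F] [Algebra K F] [IsScalarTower R K F]
    {D : GeomDatum R K F} {F' : Type*} [Field F'] [Algebra R F'] [Algebra K F']
    [IsScalarTower R K F']

/-- both norms of `g` are constants times `m`-th powers -/
def HasNorms (N : NormDatum D F') (m : ℕ) (g : F) : Prop :=
  (∃ (c : K) (h : F'), N.Nα g = algebraMap K F' c * h ^ m) ∧
  (∃ (c : K) (h : F'), N.Nβ g = algebraMap K F' c * h ^ m)

theorem HasNorms.mul_pow {N : NormDatum D F'} {m : ℕ} {g : F} (h : HasNorms N m g) (c : K) (n : ℕ)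
    (x : F) : HasNorms N m (algebraMap K F c * g ^ n * x ^ m) := by
  obtain ⟨⟨c₁, h₁, e₁⟩, ⟨c₂, h₂, e₂⟩⟩ := h
  refine ⟨⟨c ^ D.q * c₁ ^ n, h₁ ^ n * N.Nα x, ?_⟩, ⟨c ^ D.q * c₂ ^ n, h₂ ^ n * N.Nβ x, ?_⟩⟩
  · rw [map_mul, map_mul, map_pow, map_pow, N.Nα_const, e₁, map_mul, map_pow, map_pow]
    ring
  · rw [map_mul, map_mul, map_pow, map_pow, N.Nβ_const, e₂, map_mul, map_pow, map_pow]
    ring

/-- normalised form of `HasNorms` for an element which is a unit on the three components: the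
constant is a unit of `R` and `h` is a unit on the two components of the lower curve
(`valα` with `n = 0`, `unif'`, `c = q^γ * unit`, so `γ + m x_i = 0`; replace `h` by `h q^(-x)`). -/
theorem HasNorms.normalise {N : NormDatum D F'} {m : ℕ} (hm : m ≠ 0) {g : F}
    (h : HasNorms N m g) (hg : ∀ i, (D.O i).valuation g = 1) :
    (∃ (c : R) (h : F'), IsUnit c ∧ (∀ i, (N.O' i).valuation h = 1) ∧
      N.Nα g = algebraMap R F' c * h ^ m) ∧
    (∃ (c : R) (h : F'), IsUnit c ∧ (∀ i, (N.O' i).valuation h = 1) ∧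
      N.Nβ g = algebraMap R F' c * h ^ m) := by
  obtain ⟨⟨c₁, h₁, e₁⟩, ⟨c₂, h₂, e₂⟩⟩ := h
  have hU : ∀ i, IsUnif (N.O' i) (algebraMap R F' ((D.q : ℕ) : R)) := fun i => by
    rw [map_natCast]; exact N.unif' i
  have hg0 : ∀ i, (D.O i).valuation g = (D.O i).valuation (D.ϖ i) ^ ((fun _ => 0 : Fin 3 → ℤ) i) :=
    fun i => by rw [hg i, zpow_zero]
  have vα := N.valα g (fun _ => 0) hg0
  have vβ := N.valβ g (fun _ => 0) hg0
  simp only [add_zero, mul_zero, zpow_zero] at vα vβ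
  have hα : ∀ i, (N.O' i).valuation (N.Nα g) = 1 := by
    intro i; fin_cases i
    · exact vα.1
    · exact vα.2
  have hβ : ∀ i, (N.O' i).valuation (N.Nβ g) = 1 := by
    intro i; fin_cases i
    · exact vβ.1
    · exact vβ.2
  exact ⟨normalise_aux N.O' D.irr hU N.const' hm hα e₁, normalise_aux N.O' D.irr hU N.const' hm hβ e₂⟩

end Fermat.Agent.S36
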