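import Fermat.Agent.S36.Abs.StepDefs

/-!
# S36 / abstract part : `[STEP-V]` normalisation of the valuations
-/

set_option autoImplicit false

open Polynomial

namespace Fermat.Agent.S36

variable {R K F : Type*} [CommRing R] [IsDomain R] [IsDiscreteValuationRing R]
    [Field K] [Algebra R K] [IsFractionRing R K]
    [Field F] [CharZero F] [Algebra R F] [Algebra K F] [IsScalarTower R K F]
    {D : GeomDatum R K F} {F' : Type*} [Field F'] [Algebra R F'] [Algebra K F']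
    [IsScalarTower R K F']

theorem stepV_val_unit (N : NormDatum D F') (i : Fin 2) {u : R} (hu : IsUnit u) :
    (N.O' i).valuation (algebraMap R F' u) = 1 := by
  obtain ⟨w, hw⟩ := hu.exists_right_inv
  have h1 : (N.O' i).valuation (algebraMap R F' u) ≤ 1 :=
    (ValuationSubring.valuation_le_one_iff _ _).2 (N.const' i u)
  have h2 : (N.O' i).valuation (algebraMap R F' w) ≤ 1 :=
    (ValuationSubring.valuation_le_one_iff _ _).2 (N.const' i w)
  have h3 : (N.O' i).valuation (algebraMap R F' u) * (N.O' i).valuation (algebraMap R F' w) = 1 := by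
    rw [← map_mul, ← map_mul, hw, map_one, map_one]
  refine le_antisymm h1 ?_
  calc (1 : (N.O' i).ValueGroup) = _ := h3.symm
    _ ≤ (N.O' i).valuation (algebraMap R F' u) * 1 := by gcongr
    _ = _ := mul_one _

theorem stepV_val_R (N : NormDatum D F') {a : R} (ha : a ≠ 0) :
    ∃ n : ℕ, ∀ i, (N.O' i).valuation (algebraMap R F' a) = (N.O' i).valuation (D.q : F') ^ n := by
  obtain ⟨n, u, hu⟩ := IsDiscreteValuationRing.associated_pow_irreducible ha D.irr
  refine ⟨n, fun i => ?_⟩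
  have h1 := congrArg (fun z => (N.O' i).valuation (algebraMap R F' z)) hu
  simp only [map_mul, map_pow, map_natCast] at h1
  rwa [stepV_val_unit N i u.isUnit, mul_one] at h1

theorem stepV_val_K (N : NormDatum D F') {c : K} (hc : c ≠ 0) :
    ∃ γ : ℤ, ∀ i, (N.O' i).valuation (algebraMap K F' c) = (N.O' i).valuation (D.q : F') ^ γ := by
  obtain ⟨a, b, hb, rfl⟩ := IsFractionRing.div_surjective (A := R) c
  have hb0 : b ≠ 0 := nonZeroDivisors.ne_zero hb
  have ha0 : a ≠ 0 := by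
    rintro rfl
    simp at hc
  obtain ⟨n, hn⟩ := stepV_val_R N ha0
  obtain ⟨k, hk⟩ := stepV_val_R N hb0
  refine ⟨(n : ℤ) - k, fun i => ?_⟩
  have hq0 : (N.O' i).valuation (D.q : F') ≠ 0 :=
    (Valuation.ne_zero_iff _).2 (N.unif' i).ne_zero
  rw [map_div₀, map_div₀, ← IsScalarTower.algebraMap_apply, ← IsScalarTower.algebraMap_apply,
    hn, hk, zpow_sub₀ hq0, zpow_natCast, zpow_natCast]

theorem stepV_zpow_inj {Γ : Type*} [LinearOrderedCommGroupWithZero Γ] {v : Γ} (h0 : v ≠ 0)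
    (h1 : v < 1) {a b : ℤ} (h : v ^ a = v ^ b) : a = b :=
  zpow_right_injective₀ (pos_iff_ne_zero.2 h0) h1.ne h

/-- the congruence coming from one norm -/
theorem stepV_congr (N : NormDatum D F') {m : ℕ} (hm : m ≠ 0) {y : F'} {a b : ℤ}
    (h0 : (N.O' 0).valuation y = (N.O' 0).valuation (D.q : F') ^ a)
    (h1 : (N.O' 1).valuation y = (N.O' 1).valuation (D.q : F') ^ b)
    (hy : ∃ (c : K) (h : F'), y = algebraMap K F' c * h ^ m) : (m : ℤ) ∣ a - b := by
  obtain ⟨c, h, rfl⟩ := hy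
  have hq0 : ∀ i, (N.O' i).valuation (D.q : F') ≠ 0 :=
    fun i => (Valuation.ne_zero_iff _).2 (N.unif' i).ne_zero
  have hne : algebraMap K F' c * h ^ m ≠ 0 := by
    intro h2
    rw [h2, map_zero] at h0
    exact zpow_ne_zero _ (hq0 0) h0.symm
  have hc0 : c ≠ 0 := by
    rintro rfl
    simp at hne
  have hh0 : h ≠ 0 := by
    rintro rfl
    apply hne
    rw [zero_pow hm, mul_zero]
  obtain ⟨γ, hγ⟩ := stepV_val_K N hc0
  obtain ⟨x0, hx0⟩ := (N.unif' 0).disc h hh0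
  obtain ⟨x1, hx1⟩ := (N.unif' 1).disc h hh0
  have e0 : a = γ + x0 * m := by
    apply stepV_zpow_inj (hq0 0) (N.unif' 0).lt_one
    rw [← h0, map_mul, map_pow, hγ, hx0, zpow_add₀ (hq0 0), zpow_mul, zpow_natCast]
  have e1 : b = γ + x1 * m := by
    apply stepV_zpow_inj (hq0 1) (N.unif' 1).lt_one
    rw [← h1, map_mul, map_pow, hγ, hx1, zpow_add₀ (hq0 1), zpow_mul, zpow_natCast]
  exact ⟨x0 - x1, by rw [e0, e1]; ring⟩

/-- **[STEP-V]**  Write `v_i g = v_i (ϖ i)^(n i)`.  `valα`, `valβ` and `HasNorms` give, modulo `m`,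
`n 0 + n 1 ≡ γ ≡ q n 2` and `q n 0 ≡ γ' ≡ n 1 + n 2`.  Hence `(q+1)(n 2 - n 0) ≡ 0` and
`(q+1)(n 1 - (q-1) n 0) ≡ 0`: take `c := q^(-(q+1) n 0)` and `h := ∏ ϖ i ^ (- x i)`. -/
theorem stepV (N : NormDatum D F') {m : ℕ} (hm : m ≠ 0) {g : F} (hg : g ≠ 0)
    (h : HasNorms N m g) :
    ∃ (c : K) (x : F), c ≠ 0 ∧ x ≠ 0 ∧
      ∀ i, (D.O i).valuation (algebraMap K F c * g ^ (D.q + 1) * x ^ m) = 1 := by
  have hn : ∀ i, ∃ n : ℤ, (D.O i).valuation g = (D.O i).valuation (D.ϖ i) ^ n :=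
    fun i => (D.isUnif i).disc g hg
  choose n hn using hn
  obtain ⟨hα0, hα1⟩ := N.valα g n hn
  obtain ⟨hβ0, hβ1⟩ := N.valβ g n hn
  obtain ⟨k1, hk1⟩ := stepV_congr N hm hα0 hα1 h.1
  obtain ⟨k2, hk2⟩ := stepV_congr N hm hβ0 hβ1 h.2
  have hq1 : 1 ≤ D.q := D.hq.one_lt.le
  have hqK : (D.q : K) ≠ 0 := by
    intro h0
    have h1 : ((D.q : ℕ) : R) = 0 := by
      apply IsFractionRing.injective R K
      rw [map_natCast, h0, map_zero]
    exact D.irr.ne_zero h1
  -- the exponents of `x`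
  set z : Fin 3 → ℤ := ![0, (D.q : ℤ) * k2 - k1, k1 + k2] with hz
  have hϖ0 : ∀ i, (D.O i).valuation (D.ϖ i) ≠ 0 :=
    fun i => (Valuation.ne_zero_iff _).2 (D.isUnif i).ne_zero
  refine ⟨(D.q : K) ^ (-((D.q : ℤ) + 1) * n 0), ∏ j, D.ϖ j ^ z j, zpow_ne_zero _ hqK, ?_, ?_⟩
  · exact Finset.prod_ne_zero_iff.2 fun j _ => zpow_ne_zero _ (D.isUnif j).ne_zero
  · intro i
    rw [map_mul, map_mul, map_pow, map_pow, D.val_prod, hn, map_zpow₀, map_natCast, map_zpow₀,
      D.val_q, ← zpow_natCast, ← zpow_natCast, ← zpow_natCast, ← zpow_mul, ← zpow_mul, ← zpow_mul,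
      ← zpow_add₀ (hϖ0 i), ← zpow_add₀ (hϖ0 i)]
    have : ((eVec D.q i : ℕ) : ℤ) * (-((D.q : ℤ) + 1) * n 0) + n i * ((D.q + 1 : ℕ) : ℤ) +
        z i * (m : ℤ) = 0 := by
      fin_cases i
      · simp [eVec, hz]; ring
      · simp only [eVec, hz]
        simp only [Fin.mk_one, Fin.isValue, Matrix.cons_val_one, Matrix.cons_val_zero]
        push_cast [hq1]
        linear_combination hk1 - (D.q : ℤ) * hk2
      · simp only [eVec, hz]
        simp only [Fin.reduceFinMk, Fin.isValue, Matrix.cons_val]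
        push_cast
        linear_combination (-(1 : ℤ)) * hk1 - hk2
    rw [this, zpow_zero]

end Fermat.Agent.S36
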