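import Fermat.Agent.S36.Abs.Chart
import Fermat.Agent.S36.Abs.Glue
import Fermat.Agent.S36.Abs.Overlap
import Fermat.Agent.S36.Abs.Conn

/-!
# S36 / abstract part : `[TRIVIAL]` assembly of `comp`, `chart`, `overlap`, `conn36`

Two charts `B₁ = intCl R t`, `B₂ = intCl R t⁻¹`; three components.  `g` is a unit with reduction `1`
on the three components, the module `M = {u | u^m g ∈ B}` is invertible on both charts, and the
component-wise trivialisations with reductions `z i` (`m`-th roots of unity) agree at the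
intersection points.  Then `g = c * h^m`.
-/

set_option autoImplicit false

open Polynomial

namespace Fermat.Agent.S36

variable {R : Type*} [CommRing R] [IsDomain R] [IsDiscreteValuationRing R]
  {K : Type*} [Field K] [Algebra R K] [IsFractionRing R K]
  {F : Type*} [Field F] [CharZero F] [Algebra R F] [Algebra K F] [IsScalarTower R K F]
  {π : R} {t : F} {O : Fin 3 → ValuationSubring F} {e f : Fin 3 → ℕ}

/-- the gluing condition in the chart `t` for the roots of unity `z i` -/
def Glued (S : GaussSys K π t O e f) (m : ℕ) (g : F) (z : Fin 3 → R) : Prop :=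
  ∀ i j, i ≠ j → ∀ 𝔪 : Ideal (intCl R t), 𝔪.IsMaximal → S.p i ≤ 𝔪 → S.p j ≤ 𝔪 → ∀ u u' : F,
    u ^ m * g ∈ intCl R t → u' ^ m * g ∈ intCl R t →
    (O i).valuation (u - algebraMap R F (z i)) < 1 →
    (O j).valuation (u' - algebraMap R F (z j)) < 1 → ZeroAt (intCl R t) 𝔪 (u' / u - 1)

namespace TrivialAux

/-- the structure map `R → intCl R t` -/
def toChart (R : Type*) [CommRing R] {F : Type*} [Field F] [Algebra R F] (t : F) :
    R →+* intCl R t :=
  (algebraMap R F).codRestrict (intCl R t) (algebraMap_mem_intCl R t)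

theorem coe_toChart (R : Type*) [CommRing R] {F : Type*} [Field F] [Algebra R F] (t : F) (r : R) :
    ((toChart R t r : intCl R t) : F) = algebraMap R F r := rfl

theorem isUnit_natCast_chart (R : Type*) [CommRing R] {F : Type*} [Field F] [Algebra R F] (t : F)
    {m : ℕ} (hm : IsUnit ((m : ℕ) : R)) : IsUnit ((m : ℕ) : intCl R t) := by
  have := hm.map (toChart R t)
  rwa [map_natCast] at this

omit [CharZero F] in
/-- a valuation-theoretic congruence lemma : `a ≡ 1`, `b ≡ 1` ⟹ `a * b ≡ 1`. -/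
theorem val_mul_sub_one {V : ValuationSubring F} {a b : F} (ha : V.valuation (a - 1) < 1)
    (hb : V.valuation (b - 1) < 1) : V.valuation (a * b - 1) < 1 := by
  have hb1 : V.valuation b = 1 := comp_aux_val_f hb
  have : a * b - 1 = (a - 1) * b + (b - 1) := by ring
  rw [this]
  refine Valuation.map_add_lt _ ?_ hb
  rw [map_mul, hb1, mul_one]
  exact ha

omit [CharZero F] in
theorem val_pow_sub_one {V : ValuationSubring F} {a : F} (ha : V.valuation (a - 1) < 1) (n : ℕ) :
    V.valuation (a ^ n - 1) < 1 := by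
  induction n with
  | zero => simp
  | succ n ih =>
    rw [pow_succ]
    exact val_mul_sub_one ih ha

omit [CharZero F] in
/-- `x ∈ p B_p` ⟹ `v(x) < 1` -/
theorem val_lt_of_zeroAt_centre {B : Subring F} {V : ValuationSubring F} (h : B ≤ V.toSubring)
    {x : F} (hx : ZeroAt B (centre B V h) x) : V.valuation x < 1 := by
  obtain ⟨s, u, hs, hu, hxu⟩ := hx
  rw [mem_centre] at hs hu
  have hu1 : V.valuation (u : F) = 1 :=
    le_antisymm ((V.valuation_le_one_iff _).2 (h u.2)) (not_lt.1 hu)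
  have : V.valuation x = V.valuation (s : F) := by
    rw [← hxu, map_mul, hu1, mul_one]
  rw [this]
  exact hs

end TrivialAux

open TrivialAux

/-- one chart: a trivialisation modulo `π` with the prescribed reductions `z i`. -/
theorem trivial_chart (hπ : Irreducible π) (S : GaussSys K π t O e f)
    (hDed : ∀ i, IsDedekindDomain (intCl R t ⧸ S.p i))
    {m : ℕ} (hm : IsUnit ((m : ℕ) : R))
    {g : F} (hg1 : ∀ i, (O i).valuation (g - 1) < 1)
    (hLD : LD (intCl R t) m g)
    (z : Fin 3 → R) (hz : ∀ i, z i ^ m = 1)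
    (hglue : Glued S m g z) :
    ∃ (v : F) (b : intCl R t), v ^ m * g = 1 + algebraMap R F π * (b : F) ∧
      ∀ i, (O i).valuation (v - algebraMap R F (z i)) < 1 := by
  have hm0 : m ≠ 0 := by
    rintro rfl
    simp at hm
  have hB : RootClosed (intCl R t) m := rootClosed_intCl R t hm0
  have hBO : ∀ i, intCl R t ≤ (O i).toSubring := fun i => intCl_le (S.gauss i)
  have hvg : ∀ i, (O i).valuation g = 1 := fun i => comp_aux_val_f (hg1 i)
  have hg0 : g ≠ 0 := by
    rintro rfl
    have := hvg 0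
    simp at this
  have hvz : ∀ i j, (O i).valuation (algebraMap R F (z j)) = 1 := by
    intro i j
    have h1 : (O i).valuation (algebraMap R F (z j)) ^ m = 1 := by
      rw [← map_pow, ← map_pow, hz, map_one, map_one]
    exact (pow_eq_one_iff_of_nonneg zero_le hm0).1 h1
  -- the component-wise trivialisations
  have hcomp : ∀ i, ∃ u : F, u ^ m * g ∈ intCl R t ∧ (O i).valuation (u - 1) < 1 := by
    intro i
    have hIC : IsIntegrallyClosed (intCl R t ⧸ centre (intCl R t) (O i) (hBO i)) := by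
      have := hDed i
      exact inferInstanceAs (IsIntegrallyClosed (intCl R t ⧸ S.p i))
    exact comp (intCl R t) hm0 hB hg0 hLD (O i) (hBO i)
      (hroot_of_isIntegrallyClosed (intCl R t) (O i) (hBO i) hIC
        (fun x hx => S.unitAt_centre hπ i (hBO i) hx) hm0) (hg1 i)
  choose u hu hu1 using hcomp
  set u' : Fin 3 → F := fun i => algebraMap R F (z i) * u i with hu'
  have hu'm : ∀ i, u' i ^ m * g = u i ^ m * g := by
    intro i
    rw [hu', mul_pow, ← map_pow, hz, map_one, one_mul]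
  have hu'z : ∀ i, (O i).valuation (u' i - algebraMap R F (z i)) < 1 := by
    intro i
    have : u' i - algebraMap R F (z i) = algebraMap R F (z i) * (u i - 1) := by
      rw [hu']; ring
    rw [this, map_mul, hvz, one_mul]
    exact hu1 i
  have hvu' : ∀ i, (O i).valuation (u' i) = 1 := by
    intro i
    rw [hu', map_mul, hvz, one_mul]
    exact comp_aux_val_f (hu1 i)
  obtain ⟨v, b, hv, hvu⟩ := chart (intCl R t) (isUnit_natCast_chart R t hm) hB hg0 hLD
    (piB R t π) S.p (fun i => centre_isPrime _)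
    (by
      intro x hx
      have hmem : x ∈ (Ideal.span {piB R t π}).radical := by
        rw [Ideal.radical_eq_sInf, Ideal.mem_sInf]
        rintro 𝔮 ⟨h1, h2⟩
        obtain ⟨i, hi⟩ := S.cover hπ 𝔮 h2 (h1 (Ideal.mem_span_singleton_self _))
        exact hi (hx i)
      exact hmem)
    u' (fun i => ⟨u i ^ m * g, hu i⟩) hu'm
    (by
      intro i
      rw [S.mem_p]
      show (O i).valuation (u i ^ m * g - 1) < 1
      exact val_mul_sub_one (val_pow_sub_one (hu1 i) m) (hg1 i))
    (by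
      intro i j 𝔪 h𝔪 hi hj
      by_cases hij : i = j
      · subst hij
        have hu0 : u' i ≠ 0 := by
          intro h
          have := hvu' i
          rw [h] at this
          simp at this
        rw [div_self hu0, sub_self]
        exact ⟨0, 1, 𝔪.zero_mem, fun h => h𝔪.ne_top ((Ideal.eq_top_iff_one _).2 h), by simp⟩
      · exact hglue i j hij 𝔪 h𝔪 hi hj (u' i) (u' j) (by rw [hu'm]; exact hu i)
          (by rw [hu'm]; exact hu j) (hu'z i) (hu'z j))
  refine ⟨v, b, hv, fun i => ?_⟩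
  have h1 : (O i).valuation (v / u' i - 1) < 1 :=
    val_lt_of_zeroAt_centre (hBO i) (hvu i (S.p i) (centre_isPrime _) le_rfl)
  have hu0 : u' i ≠ 0 := by
    intro h
    have := hvu' i
    rw [h] at this
    simp at this
  have h2 : v - algebraMap R F (z i) = u' i * (v / u' i - 1) + (u' i - algebraMap R F (z i)) := by
    field_simp
    ring
  rw [h2]
  refine Valuation.map_add_lt _ ?_ (hu'z i)
  rw [map_mul, hvu', one_mul]
  exact h1

/-- `t` as an element of the chart `t` -/
theorem t_mem_intCl (R : Type*) [CommRing R] {F : Type*} [Field F] [Algebra R F] (t : F) :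
    t ∈ intCl R t := by
  rw [mem_intCl]
  exact (isIntegral_algebraMap (R := Algebra.adjoin R {t})
    (x := ⟨t, Algebra.subset_adjoin (Set.mem_singleton _)⟩))

/-- the ring of the intersection of the two charts, `B₁[1/t]` -/
def interCl (R : Type*) [CommRing R] {F : Type*} [Field F] [Algebra R F] (t : F) : Subring F where
  carrier := {x | ∃ n : ℕ, t ^ n * x ∈ intCl R t}
  mul_mem' := by
    rintro x y ⟨n, hn⟩ ⟨k, hk⟩
    refine ⟨n + k, ?_⟩
    have : t ^ (n + k) * (x * y) = (t ^ n * x) * (t ^ k * y) := by rw [pow_add]; ring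
    rw [this]
    exact (intCl R t).mul_mem hn hk
  one_mem' := ⟨0, by simp⟩
  add_mem' := by
    rintro x y ⟨n, hn⟩ ⟨k, hk⟩
    refine ⟨n + k, ?_⟩
    have : t ^ (n + k) * (x + y) = t ^ k * (t ^ n * x) + t ^ n * (t ^ k * y) := by
      rw [pow_add]; ring
    rw [this]
    exact (intCl R t).add_mem
      ((intCl R t).mul_mem ((intCl R t).pow_mem (t_mem_intCl R t) _) hn)
      ((intCl R t).mul_mem ((intCl R t).pow_mem (t_mem_intCl R t) _) hk)
  zero_mem' := ⟨0, by simp⟩
  neg_mem' := by
    rintro x ⟨n, hn⟩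
    refine ⟨n, ?_⟩
    rw [mul_neg]
    exact (intCl R t).neg_mem hn

theorem mem_interCl {R : Type*} [CommRing R] {F : Type*} [Field F] [Algebra R F] {t x : F} :
    x ∈ interCl R t ↔ ∃ n : ℕ, t ^ n * x ∈ intCl R t := Iff.rfl

theorem intCl_le_interCl (R : Type*) [CommRing R] {F : Type*} [Field F] [Algebra R F] (t : F) :
    intCl R t ≤ interCl R t := fun x hx => ⟨0, by simpa using hx⟩

theorem intCl_inv_le_interCl (R : Type*) [CommRing R] {F : Type*} [Field F] [Algebra R F] {t : F}
    (ht : t ≠ 0) : intCl R t⁻¹ ≤ interCl R t := by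
  intro x hx
  obtain ⟨d, hd⟩ := Conn.exists_isIntegral_inv_pow_mul (R := R) t⁻¹ (inv_ne_zero ht) hx
  rw [inv_inv] at hd
  exact ⟨d, hd⟩

theorem rootClosed_interCl (R : Type*) [CommRing R] {F : Type*} [Field F] [Algebra R F] (t : F)
    {m : ℕ} (hm : m ≠ 0) : RootClosed (interCl R t) m := by
  rintro y ⟨n, hn⟩
  refine ⟨n, rootClosed_intCl R t hm _ ?_⟩
  obtain ⟨k, rfl⟩ : ∃ k, m = k + 1 := ⟨m - 1, by omega⟩
  have : (t ^ n * y) ^ (k + 1) = (t ^ n) ^ k * (t ^ n * y ^ (k + 1)) := by ring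
  rw [this]
  exact (intCl R t).mul_mem ((intCl R t).pow_mem ((intCl R t).pow_mem (t_mem_intCl R t) _) _) hn

theorem inv_mem_interCl (R : Type*) [CommRing R] {F : Type*} [Field F] [Algebra R F] {t : F}
    (ht : t ≠ 0) : t⁻¹ ∈ interCl R t :=
  ⟨1, by rw [pow_one, mul_inv_cancel₀ ht]; exact (intCl R t).one_mem⟩

/-- `LD` passes from the chart to the intersection of the charts -/
theorem LD.interCl {R : Type*} [CommRing R] {F : Type*} [Field F] [Algebra R F] {t : F}
    {m : ℕ} {g : F} (h : LD (intCl R t) m g) : LD (interCl R t) m g := by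
  intro 𝔪 h𝔪
  have := h𝔪.isPrime
  set φ : intCl R t →+* S36.interCl R t := Subring.inclusion (intCl_le_interCl R t) with hφ
  obtain ⟨h', hh0, s, u, hs, hu, hsu⟩ := h.at_prime (𝔪.comap φ)
  exact ⟨h', hh0, φ s, φ u, hs, hu, hsu⟩

/-- **[TRIVIAL]**
Proof.  In each chart: `comp` gives `u i` with `red_i (u i) = 1` (`hroot` from
`hroot_of_isIntegrallyClosed` + `GaussSys.unitAt_centre`); replace `u i` by `z i * u i`;
`chart` (with `hrad` from `GaussSys.cover`, `hglue` from `Glued`, trivial for `i = j`) gives `v_c` with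
`v_c^m g = 1 + π b_c` and `red_i (v_c) = z i`.  On `B₁₂ := {x | ∃ n, t^n x ∈ B₁}` (`⊇ B₁, B₂`,
root closed, `LD` and `hcov` inherited from `B₁`) `overlap` gives `v₁ - v₂ = π μ`, `μ^m g ∈ B₁₂`.
Conclude with `conn36` (`harch`: `R` is a DVR; `hπB`: `π⁻¹ ∉ O 0`). -/
theorem trivial_of_glued (hπ : Irreducible π) (S : GaussSys K π t O e f)
    (hglob : ∀ x, x ∈ intCl R t → x ∈ intCl R t⁻¹ → x ∈ Set.range (algebraMap R F))
    (hDed₁ : ∀ i, IsDedekindDomain (intCl R t ⧸ S.p i))
    (hDed₂ : ∀ i, IsDedekindDomain (intCl R t⁻¹ ⧸ (S.inv hπ).p i))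
    {m : ℕ} (hm : IsUnit ((m : ℕ) : R)) (ζ : R) (hζ : IsPrimitiveRoot ζ m)
    {g : F} (hg1 : ∀ i, (O i).valuation (g - 1) < 1)
    (hLD₁ : LD (intCl R t) m g) (hLD₂ : LD (intCl R t⁻¹) m g)
    (z : Fin 3 → R) (hz : ∀ i, z i ^ m = 1)
    (hglue₁ : Glued S m g z) (hglue₂ : Glued (S.inv hπ) m g z) :
    ∃ (c : R) (h : F), c ≠ 0 ∧ h ≠ 0 ∧ g = algebraMap R F c * h ^ m := by
  have hm0 : m ≠ 0 := by
    rintro rfl
    simp at hm
  have hvg : ∀ i, (O i).valuation g = 1 := fun i => comp_aux_val_f (hg1 i)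
  have hg0 : g ≠ 0 := by
    rintro rfl
    have := hvg 0
    simp at this
  have hinj : Function.Injective (algebraMap R F) := by
    rw [IsScalarTower.algebraMap_eq R K F]
    exact (algebraMap K F).injective.comp (IsFractionRing.injective R K)
  have hπ0 : π ≠ 0 := hπ.ne_zero
  have hπF : algebraMap R F π ≠ 0 := by
    rw [Ne, map_eq_zero_iff _ hinj]; exact hπ0
  -- `t` is a unit on each component
  have hvt : ∀ i, (O i).valuation t = 1 := by
    intro i
    have h1 := (S.gauss i).prim X (by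
      intro hd
      have h2 := (Polynomial.C_dvd_iff_dvd_coeff _ _).1 hd 1
      rw [coeff_X_one] at h2
      exact hπ.not_isUnit (isUnit_of_dvd_one h2))
    rwa [aeval_X] at h1
  have ht0 : t ≠ 0 := by
    rintro rfl
    have := hvt 0
    simp at this
  have hvz : ∀ i j, (O i).valuation (algebraMap R F (z j)) = 1 := by
    intro i j
    have h1 : (O i).valuation (algebraMap R F (z j)) ^ m = 1 := by
      rw [← map_pow, ← map_pow, hz, map_one, map_one]
    exact (pow_eq_one_iff_of_nonneg zero_le hm0).1 h1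
  have hBO₁ : ∀ i, intCl R t ≤ (O i).toSubring := fun i => intCl_le (S.gauss i)
  -- the two charts
  obtain ⟨v₁, b₁, hv₁, hvz₁⟩ := trivial_chart hπ S hDed₁ hm hg1 hLD₁ z hz hglue₁
  obtain ⟨v₂, b₂, hv₂, hvz₂⟩ := trivial_chart hπ (S.inv hπ) hDed₂ hm hg1 hLD₂ z hz hglue₂
  -- the intersection of the charts
  have hBO : ∀ i, interCl R t ≤ (O i).toSubring := by
    rintro i x ⟨n, hn⟩
    have h1 : (O i).valuation (t ^ n * x) ≤ 1 := ((O i).valuation_le_one_iff _).2 (hBO₁ i hn)
    rw [map_mul, map_pow, hvt, one_pow, one_mul] at h1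
    exact ((O i).valuation_le_one_iff _).1 h1
  set φ : intCl R t →+* interCl R t := Subring.inclusion (intCl_le_interCl R t) with hφ
  have hmB : IsUnit ((m : ℕ) : interCl R t) := by
    have := (isUnit_natCast_chart R t hm).map φ
    rwa [map_natCast] at this
  have hcov : ∀ 𝔮 : Ideal (interCl R t), 𝔮.IsPrime → φ (piB R t π) ∈ 𝔮 →
      ∃ i, centre (interCl R t) (O i) (hBO i) ≤ 𝔮 := by
    intro 𝔮 h𝔮 hπ𝔮
    obtain ⟨i, hi⟩ := S.cover hπ (𝔮.comap φ) (Ideal.comap_isPrime _ _) hπ𝔮
    refine ⟨i, fun x hx => ?_⟩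
    rw [mem_centre] at hx
    obtain ⟨n, hn⟩ := x.2
    have h1 : (⟨_, hn⟩ : intCl R t) ∈ S.p i := by
      rw [S.mem_p]
      show (O i).valuation (t ^ n * (x : F)) < 1
      rw [map_mul, map_pow, hvt, one_pow, one_mul]
      exact hx
    have h2 : φ ⟨_, hn⟩ ∈ 𝔮 := hi h1
    have h3 : x = (⟨t⁻¹, inv_mem_interCl R ht0⟩ : interCl R t) ^ n * φ ⟨_, hn⟩ := by
      apply Subtype.ext
      show (x : F) = t⁻¹ ^ n * (t ^ n * (x : F))
      rw [← mul_assoc, ← mul_pow, inv_mul_cancel₀ ht0, one_pow, one_mul]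
    rw [h3]
    exact 𝔮.mul_mem_left _ h2
  have hv₂1 : ∀ i, (O i).valuation v₂ = 1 := by
    intro i
    have : v₂ = algebraMap R F (z i) + (v₂ - algebraMap R F (z i)) := by ring
    rw [this]
    rw [Valuation.map_add_eq_of_lt_left _ (by rw [hvz]; exact hvz₂ i), hvz]
  have hv₂0 : v₂ ≠ 0 := by
    rintro rfl
    have := hv₂1 0
    simp at this
  have hv : ∀ i, (O i).valuation (v₁ / v₂ - 1) < 1 := by
    intro i
    have : v₁ / v₂ - 1 =
        ((v₁ - algebraMap R F (z i)) - (v₂ - algebraMap R F (z i))) * v₂⁻¹ := by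
      field_simp
      ring
    rw [this, map_mul, map_inv₀, hv₂1, inv_one, mul_one]
    exact Valuation.map_sub_lt _ (hvz₁ i) (hvz₂ i)
  obtain ⟨μ, hμ₁, hμ₂⟩ := overlap (interCl R t) hmB (rootClosed_interCl R t hm0) hg0
    hLD₁.interCl (φ (piB R t π)) (fun h => hπF (congrArg Subtype.val h)) O hBO hcov
    (φ b₁) ⟨(b₂ : F), intCl_inv_le_interCl R ht0 b₂.2⟩ hv₁ hv₂ hv
  exact conn36 hinj π hπ0 hπ.not_isUnit
    (by
      intro c hc
      obtain ⟨n, hn⟩ := IsDiscreteValuationRing.associated_pow_irreducible hc hπ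
      exact ⟨n, hn.dvd⟩)
    t ht0 (intCl R t) (intCl R t⁻¹) (fun _ => Iff.rfl) (fun _ => Iff.rfl) hglob
    (by
      intro b hb h1
      have h2 : (O 0).valuation (algebraMap R F π * b) < 1 := by
        rw [map_mul]
        calc (O 0).valuation (algebraMap R F π) * (O 0).valuation b
            ≤ (O 0).valuation (algebraMap R F π) * 1 := by
              gcongr
              exact ((O 0).valuation_le_one_iff _).2 (hBO₁ 0 hb)
          _ < 1 := by simpa using (S.gauss 0).lt_one
      rw [h1, map_one] at h2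
      exact lt_irrefl _ h2)
    m hm ζ hζ g v₁ v₂ μ hg0 ⟨b₁, b₁.2, hv₁⟩ ⟨b₂, b₂.2, hv₂⟩ hμ₁ hμ₂

end Fermat.Agent.S36
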