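import Mathlib

namespace Fermat.Agent.S36.Abs

/-- Bezout in `ℕ`: if `m` is prime to the prime `q` then `a * m = 1 + b * q ^ N` for some `a b`. -/
theorem exists_mul_eq_one_add {m q : ℕ} (hq : q.Prime) (hm : m.Coprime q) (N : ℕ) :
    ∃ a b : ℕ, a * m = 1 + b * q ^ N := by
  have h : m.Coprime (q ^ N) := Nat.Coprime.pow_right N hm
  rcases Nat.lt_or_ge 1 (q ^ N) with h1 | h1
  · obtain ⟨a, -, ha⟩ := Nat.exists_mul_mod_eq_one_of_coprime h h1
    refine ⟨a, m * a / q ^ N, ?_⟩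
    have := Nat.div_add_mod (m * a) (q ^ N)
    rw [ha] at this
    linarith [mul_comm (q ^ N) (m * a / q ^ N), mul_comm a m]
  · have h0 : 0 < q ^ N := pow_pos hq.pos N
    have h2 : q ^ N = 1 := le_antisymm h1 h0
    have hm0 : 0 < m := by
      rcases Nat.eq_zero_or_pos m with rfl | hm0
      · have : q = 1 := by simpa using hm
        exact absurd this hq.one_lt.ne'
      · exact hm0
    exact ⟨1, m - 1, by rw [h2]; omega⟩

/-- [NILP], ring form: in a ring where the prime `q` vanishes, `1 + n` (`n` nilpotent) is the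
`m`-th power of some `1 + n'` (`n'` nilpotent), for `m` prime to `q`. -/
theorem exists_pow_eq_one_add_nilpotent {C : Type*} [CommRing C] {q : ℕ} (hq : q.Prime)
    (hqC : (q : C) = 0) {m : ℕ} (hm : m.Coprime q) {n : C} (hn : IsNilpotent n) :
    ∃ n' : C, IsNilpotent n' ∧ (1 + n') ^ m = 1 + n := by
  rcases subsingleton_or_nontrivial C with hC | hC
  · exact ⟨0, IsNilpotent.zero, Subsingleton.elim _ _⟩
  have : Fact q.Prime := ⟨hq⟩
  have : CharP C q := (CharP.charP_iff_prime_eq_zero hq).2 hqC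
  obtain ⟨k, hk⟩ := hn
  have hkN : n ^ q ^ k = 0 := pow_eq_zero_of_le (Nat.lt_pow_self hq.one_lt).le hk
  have h1 : (1 + n) ^ q ^ k = 1 := by rw [add_pow_char_pow, hkN, one_pow, add_zero]
  obtain ⟨a, b, hab⟩ := exists_mul_eq_one_add hq hm k
  refine ⟨(1 + n) ^ a - 1, ⟨q ^ k, ?_⟩, ?_⟩
  · rw [sub_pow_char_pow, ← pow_mul, mul_comm, pow_mul, h1, one_pow, one_pow, sub_self]
  · rw [add_sub_cancel, ← pow_mul, hab, pow_add, pow_one, mul_comm b, pow_mul, h1, one_pow, mul_one]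

/-- [NILP], ideal form: if `q ∈ I` and `u ^ m * f ≡ 1` modulo `√I` then `u` can be corrected
modulo `√I` so that `u' ^ m * f ≡ 1` modulo `I`. -/
theorem exists_pow_mul_sub_one_mem {B : Type*} [CommRing B] {q : ℕ} (hq : q.Prime) {m : ℕ}
    (hm : m.Coprime q) (I : Ideal B) (hqI : (q : B) ∈ I) (u f : B)
    (h : u ^ m * f - 1 ∈ I.radical) :
    ∃ u' : B, u' - u ∈ I.radical ∧ u' ^ m * f - 1 ∈ I := by
  have hqC : ((q : ℕ) : B ⧸ I) = 0 := by
    have := Ideal.Quotient.eq_zero_iff_mem.2 hqI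
    simpa using this
  set π := Ideal.Quotient.mk I with hπ
  -- `x = π (u^m f) = 1 + n`
  have hnil : IsNilpotent (π (u ^ m * f - 1)) := by
    obtain ⟨k, hk⟩ := h
    exact ⟨k, by rw [← map_pow]; exact Ideal.Quotient.eq_zero_iff_mem.2 hk⟩
  set n := π (u ^ m * f - 1) with hn
  have hx : π (u ^ m * f) = 1 + n := by rw [hn, map_sub, map_one]; ring
  -- the inverse of `1 + n` is `1 + n₂`
  have hunit : IsUnit (1 + n) := by
    rw [add_comm]; exact hnil.isUnit_add_one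
  obtain ⟨w, hw⟩ := hunit
  have hw1 : (1 + n) * (↑w⁻¹ : B ⧸ I) = 1 := by rw [← hw]; simp
  have hn2 : IsNilpotent ((↑w⁻¹ : B ⧸ I) - 1) := by
    have : (↑w⁻¹ : B ⧸ I) - 1 = n * (-(↑w⁻¹ : B ⧸ I)) := by linear_combination hw1
    rw [this]
    exact (Commute.all _ _).isNilpotent_mul_right hnil
  obtain ⟨n', hn', hpow⟩ := exists_pow_eq_one_add_nilpotent hq hqC hm hn2
  obtain ⟨t, ht⟩ := Ideal.Quotient.mk_surjective n'
  refine ⟨u * (1 + t), ?_, ?_⟩
  · obtain ⟨k, hk⟩ := hn'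
    refine ⟨k, ?_⟩
    rw [← Ideal.Quotient.eq_zero_iff_mem, map_pow]
    have : Ideal.Quotient.mk I (u * (1 + t) - u) = π u * n' := by
      rw [← ht]; simp only [hπ, map_sub, map_mul, map_add, map_one]; ring
    rw [this, mul_pow, hk, mul_zero]
  · rw [← Ideal.Quotient.eq_zero_iff_mem]
    have : Ideal.Quotient.mk I ((u * (1 + t)) ^ m * f - 1) = π (u ^ m * f) * (1 + n') ^ m - 1 := by
      rw [← ht, mul_pow]; simp only [hπ, map_sub, map_mul, map_add, map_one, map_pow]; ring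
    rw [this, hx, hpow, add_sub_cancel, hw1, sub_self]

/-- [UNI]: `S ⊆ St` a subring of a ring in which the prime `q` vanishes, `𝔠` an ideal of `St`
contained in `S` (e.g. the conductor). If `ξ = c (1 + n)` is a unit of `St` with `c⁻¹ = c' ∈ S`,
`n ^ q ^ N ∈ 𝔠`, and `ξ ^ m ∈ S` with `m` prime to `q`, then `ξ ∈ S`. -/
theorem mem_of_pow_mem {St : Type*} [CommRing St] {q : ℕ} (hq : q.Prime) (hqS : (q : St) = 0)
    (S : Subring St) (𝔠 : Ideal St) (h𝔠 : ∀ x ∈ 𝔠, x ∈ S) {m : ℕ} (hm : m.Coprime q)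
    {ξ c c' n : St} (hξ : ξ = c * (1 + n)) (hc' : c' ∈ S) (hcc : c * c' = 1)
    (N : ℕ) (hn : n ^ q ^ N ∈ 𝔠) (hξu : IsUnit ξ) (hξm : ξ ^ m ∈ S) : ξ ∈ S := by
  rcases subsingleton_or_nontrivial St with hC | hC
  · rw [Subsingleton.elim ξ 0]; exact S.zero_mem
  have : Fact q.Prime := ⟨hq⟩
  have : CharP St q := (CharP.charP_iff_prime_eq_zero hq).2 hqS
  set y := n ^ q ^ N with hy
  have h1 : ξ ^ q ^ N = c ^ q ^ N * (1 + y) := by
    rw [hξ, mul_pow, add_pow_char_pow, one_pow]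
  -- `1 + y` is a unit
  have hu : IsUnit (1 + y) := by
    have : IsUnit (c ^ q ^ N * (1 + y)) := by rw [← h1]; exact hξu.pow _
    exact isUnit_of_mul_isUnit_right this
  obtain ⟨w, hw⟩ := hu
  have hw1 : (1 + y) * (↑w⁻¹ : St) = 1 := by rw [← hw]; simp
  have hwS : (↑w⁻¹ : St) ∈ S := by
    have : (↑w⁻¹ : St) = 1 - (↑w⁻¹ : St) * y := by linear_combination hw1
    rw [this]
    exact S.sub_mem S.one_mem (h𝔠 _ (𝔠.mul_mem_left _ hn))
  -- inverse of `ξ ^ q ^ N`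
  set η' := c' ^ q ^ N * (↑w⁻¹ : St) with hη'
  have hη'S : η' ∈ S := S.mul_mem (S.pow_mem hc' _) hwS
  have hηη' : ξ ^ q ^ N * η' = 1 := by
    rw [h1, hη']
    calc c ^ q ^ N * (1 + y) * (c' ^ q ^ N * (↑w⁻¹ : St))
        = (c * c') ^ q ^ N * ((1 + y) * (↑w⁻¹ : St)) := by rw [mul_pow]; ring
      _ = 1 := by rw [hcc, hw1, one_pow, one_mul]
  obtain ⟨a, b, hab⟩ := exists_mul_eq_one_add hq hm N
  have h2 : ξ = (ξ ^ m) ^ a * η' ^ b := by
    have h3 : (ξ ^ m) ^ a = ξ * (ξ ^ q ^ N) ^ b := by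
      rw [← pow_mul, mul_comm m a, hab, pow_add, pow_one, mul_comm b, pow_mul]
    rw [h3, mul_assoc, ← mul_pow, hηη', one_pow, mul_one]
  rw [h2]
  exact S.mul_mem (S.pow_mem hξm _) (S.pow_mem hη'S _)

end Fermat.Agent.S36.Abs
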